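/-
CFT stream [C] (helper27): the Galois action on a base change `F ⊗[K] L`.

For a Galois extension `L/K` with group `G` (in the sense of Mathlib's `IsGaloisGroup G K L`)
and an arbitrary field extension `F/K` (e.g. a completion `K_v`), the `F`-algebra
`F ⊗[K] L` carries an action of `G` through the right factor, its invariants are `F`,
and it is a reduced Artinian ring (a finite product of fields).
The action is a *scoped* instance (scope `Fermat.Agent.CFT.TensorGal`).
-/
import Mathlib

namespace Fermat.Agent.CFT

open scoped TensorProduct

section TensorAction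

variable (K F L G : Type*) [Field K] [Field F] [Field L] [Algebra K F] [Algebra K L]
  [Group G] [MulSemiringAction G L] [SMulCommClass G K L]

/-- The group hom `G → Aut_F(F ⊗[K] L)`, acting through the right factor. -/
noncomputable def tensorRightHom : G →* ((F ⊗[K] L) ≃ₐ[F] (F ⊗[K] L)) where
  toFun g := Algebra.TensorProduct.congr AlgEquiv.refl (MulSemiringAction.toAlgEquiv K L g)
  map_one' := by
    ext x
    induction x using TensorProduct.induction_on with
    | zero => simp
    | tmul f l => simp
    | add x y hx hy => rw [map_add, hx, hy, map_add]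
  map_mul' g h := by
    ext x
    induction x using TensorProduct.induction_on with
    | zero => simp
    | tmul f l => simp [mul_smul]
    | add x y hx hy => rw [map_add, hx, hy, map_add]

@[simp] lemma tensorRightHom_tmul (g : G) (f : F) (l : L) :
    tensorRightHom K F L G g (f ⊗ₜ[K] l) = f ⊗ₜ[K] (g • l) := by
  simp [tensorRightHom]

/-- `G` acts on `F ⊗[K] L` through the right factor. Not a global instance (for `F = L`
Mathlib already lets `G` act through the left factor). -/
@[reducible] noncomputable def tensorRightAction : MulSemiringAction G (F ⊗[K] L) :=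
  MulSemiringAction.compHom (F ⊗[K] L) (tensorRightHom K F L G)

end TensorAction

namespace TensorGal
attribute [scoped instance] Fermat.Agent.CFT.tensorRightAction
end TensorGal

section Basic
open scoped Fermat.Agent.CFT.TensorGal

variable {K F L G : Type*} [Field K] [Field F] [Field L] [Algebra K F] [Algebra K L]
  [Group G] [MulSemiringAction G L] [SMulCommClass G K L]

lemma tensorRight_smul_def (g : G) (x : F ⊗[K] L) :
    g • x = tensorRightHom K F L G g x := rfl

@[simp] lemma tensorRight_smul_tmul (g : G) (f : F) (l : L) :
    g • (f ⊗ₜ[K] l) = f ⊗ₜ[K] (g • l) := by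
  rw [tensorRight_smul_def, tensorRightHom_tmul]

instance tensorRight_smulCommClass : SMulCommClass G F (F ⊗[K] L) where
  smul_comm g c x := by
    rw [tensorRight_smul_def, tensorRight_smul_def, map_smul]

end Basic

open scoped Fermat.Agent.CFT.TensorGal

section Invariant

variable {K F L G : Type*} [Field K] [Field F] [Field L] [Algebra K F] [Algebra K L]
  [Group G] [MulSemiringAction G L] [SMulCommClass G K L]

/-- Coordinates of `F ⊗[K] L` with respect to a `K`-basis of `F`, with values in `L`. -/
noncomputable def tensorCoord {ι : Type*} [DecidableEq ι] (b : Module.Basis ι K F) :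
    F ⊗[K] L ≃ₗ[K] (ι →₀ L) :=
  (LinearEquiv.rTensor L b.repr) ≪≫ₗ TensorProduct.finsuppScalarLeft K L ι

lemma tensorCoord_tmul {ι : Type*} [DecidableEq ι] (b : Module.Basis ι K F) (f : F) (l : L)
    (i : ι) : tensorCoord b (f ⊗ₜ[K] l) i = b.repr f i • l := by
  simp [tensorCoord, TensorProduct.finsuppScalarLeft_apply_tmul_apply]

lemma tensorCoord_smul {ι : Type*} [DecidableEq ι] (b : Module.Basis ι K F) (g : G)
    (x : F ⊗[K] L) (i : ι) :
    tensorCoord b (g • x) i = g • tensorCoord b x i := by
  induction x using TensorProduct.induction_on with
  | zero => simp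
  | tmul f l =>
    rw [tensorRight_smul_tmul, tensorCoord_tmul, tensorCoord_tmul]
    exact (smul_comm g _ l).symm
  | add x y hx hy =>
    rw [smul_add, map_add, Finsupp.add_apply, hx, hy, map_add, Finsupp.add_apply, smul_add]

lemma tensorCoord_symm_single {ι : Type*} [DecidableEq ι] (b : Module.Basis ι K F) (i : ι)
    (l : L) : (tensorCoord b).symm (Finsupp.single i l) = b i ⊗ₜ[K] l := by
  rw [LinearEquiv.symm_apply_eq]
  ext j
  rw [tensorCoord_tmul, Module.Basis.repr_self, Finsupp.single_apply, Finsupp.single_apply]
  split_ifs <;> simp

/-- The invariants of `G` on `F ⊗[K] L` are `F ⊗ L^G`: if `L^G = K` then `(F ⊗[K] L)^G = F`. -/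
instance tensorRight_isInvariant [Algebra.IsInvariant K L G] :
    Algebra.IsInvariant F (F ⊗[K] L) G where
  isInvariant x hx := by
    classical
    let b := Module.Basis.ofVectorSpace K F
    set c := tensorCoord b x with hc
    have hfix : ∀ i, ∀ g : G, g • c i = c i := fun i g => by
      rw [hc, ← tensorCoord_smul, hx g]
    choose k hk using fun i => Algebra.IsInvariant.isInvariant (A := K) (c i) (hfix i)
    refine ⟨∑ i ∈ c.support, k i • b i, ?_⟩
    have hx' : x = (tensorCoord b).symm c := by rw [hc, LinearEquiv.symm_apply_apply]
    have hsum : c = ∑ i ∈ c.support, Finsupp.single i (c i) := (Finsupp.sum_single c).symm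
    rw [hx', map_sum]
    conv_rhs => rw [hsum, map_sum]
    refine Finset.sum_congr rfl fun i _ => ?_
    rw [tensorCoord_symm_single, Algebra.TensorProduct.algebraMap_apply, Algebra.algebraMap_self,
      RingHom.id_apply, ← hk i, Algebra.algebraMap_eq_smul_one, TensorProduct.smul_tmul]

end Invariant

open scoped Fermat.Agent.CFT.TensorGal

section Galois

variable {K F L G : Type*} [Field K] [Field F] [Field L] [Algebra K F] [Algebra K L]
  [Group G] [MulSemiringAction G L] [SMulCommClass G K L]

lemma tensor_includeRight_injective :
    Function.Injective (Algebra.TensorProduct.includeRight : L →ₐ[K] F ⊗[K] L) :=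
  Algebra.TensorProduct.includeRight_injective (algebraMap K F).injective

instance tensorRight_faithfulSMul [FaithfulSMul G L] : FaithfulSMul G (F ⊗[K] L) where
  eq_of_smul_eq_smul {g h} H := by
    refine FaithfulSMul.eq_of_smul_eq_smul (α := L) fun l => ?_
    have := H ((1 : F) ⊗ₜ[K] l)
    rw [tensorRight_smul_tmul, tensorRight_smul_tmul] at this
    exact tensor_includeRight_injective (K := K) (F := F) this

instance tensorRight_isGaloisGroup [IsGaloisGroup G K L] : IsGaloisGroup G F (F ⊗[K] L) where
  faithful := by
    have := IsGaloisGroup.faithful (G := G) (A := K) (B := L)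
    infer_instance
  commutes := inferInstance
  isInvariant := by
    have := IsGaloisGroup.isInvariant (G := G) (A := K) (B := L)
    infer_instance

end Galois

section Structure

variable (K F L : Type*) [Field K] [Field F] [Field L] [Algebra K F] [Algebra K L]
  [FiniteDimensional K L] 

instance tensor_isArtinianRing : IsArtinianRing (F ⊗[K] L) :=
  IsArtinianRing.of_finite F _

instance tensor_isReduced [Algebra.IsSeparable K L] : IsReduced (F ⊗[K] L) := by
  have : Algebra.FormallyUnramified K L := Algebra.FormallyUnramified.of_isSeparable K L
  have : Algebra.FormallyUnramified F (F ⊗[K] L) := inferInstance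
  exact Algebra.FormallyUnramified.isReduced_of_field F (F ⊗[K] L)

end Structure

end Fermat.Agent.CFT
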