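import Mathlib

set_option autoImplicit false
set_option linter.unusedSectionVars false

/-!
# Stream C (Global) : prime divisors of a Dedekind domain / number field (helper11)

Divisor model of the ideal group, shared vocabulary for the first/second inequality:

* `divFun R K x v : ℤ` : exponent of the `v`-adic valuation of `x : Kˣ`, **Mathlib's sign**:
  `v.valuation K x = WithZero.exp (divFun R K x v)`, i.e. `divFun = - ord_v`
  (`valuation_eq_exp_divFun`, `divFun_eq_iff`, `divFun_mul`, `divFun_inv`);
* `divHom R K : Additive Kˣ →+ (HeightOneSpectrum R →₀ ℤ)` : the divisor map; its kernel is the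
  image of `Rˣ` (`divHom_eq_zero_iff`), its range has finite index when the class group is finite
  (`divHom_range_finiteIndex`);
* `fracIdealDiv R K : (FractionalIdeal R⁰ K)ˣ →* Multiplicative (HeightOneSpectrum R →₀ ℤ)` via
  `FractionalIdeal.count`, surjective, and `count_spanSingleton_eq`,
  `fracIdealDiv_toPrincipalIdeal` (principal ideals ↦ principal divisors);
* `heightOneSpectrumMulAction` : a group of ring automorphisms of a Dedekind domain acts on its
  height-one primes (reducible def, use as a local instance); `hos_smul_intValuation`,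
  `hos_smul_valuation` (Galois-equivariance of the adic valuations);
* `primeBelow F M w` (= `w.under (𝓞 F)`), `primeBelow_smul`, `primeBelow_surjective`,
  `exists_smul_eq_of_primeBelow_eq`, `primeBelow_eq_iff_orbitRel` (the fibres are the Galois orbits).
-/

namespace Fermat.Agent.CFT

open IsDedekindDomain IsDedekindDomain.HeightOneSpectrum NumberField
open scoped Pointwise nonZeroDivisors WithZero

section Div

variable (R : Type*) [CommRing R] [IsDedekindDomain R] (K : Type*) [Field K] [Algebra R K]
  [IsFractionRing R K]

/-- The exponent of the `v`-adic valuation of `x`, Mathlib's sign: `v(x) = exp (divFun x v)`, so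
`divFun x v = - ord_v x`. -/
noncomputable def divFun (x : Kˣ) (v : HeightOneSpectrum R) : ℤ :=
  Multiplicative.toAdd (v.valuationOfNeZero x)

theorem valuation_eq_exp_divFun (x : Kˣ) (v : HeightOneSpectrum R) :
    v.valuation K (x : K) = WithZero.exp (divFun R K x v) := by
  rw [← valuationOfNeZero_eq]
  rfl

theorem divFun_eq_iff (x : Kˣ) (v : HeightOneSpectrum R) (n : ℤ) :
    divFun R K x v = n ↔ v.valuation K (x : K) = WithZero.exp n := by
  rw [valuation_eq_exp_divFun, WithZero.exp_inj]

theorem divFun_mul (x y : Kˣ) (v : HeightOneSpectrum R) :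
    divFun R K (x * y) v = divFun R K x v + divFun R K y v := by
  simp [divFun, map_mul]

theorem divFun_one (v : HeightOneSpectrum R) : divFun R K 1 v = 0 := by
  simp [divFun]

theorem divFun_inv (x : Kˣ) (v : HeightOneSpectrum R) :
    divFun R K x⁻¹ v = - divFun R K x v := by
  simp [divFun, map_inv]

theorem finite_divFun_support (x : Kˣ) : {v : HeightOneSpectrum R | divFun R K x v ≠ 0}.Finite := by
  refine ((HeightOneSpectrum.Support.finite R (x : K)).union
    (HeightOneSpectrum.Support.finite R ((x⁻¹ : Kˣ) : K))).subset ?_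
  intro v hv
  simp only [Set.mem_ofPred_eq] at hv
  simp only [Set.mem_union, HeightOneSpectrum.Support, Set.mem_ofPred_eq]
  rcases lt_trichotomy (divFun R K x v) 0 with h | h | h
  · right
    rw [valuation_eq_exp_divFun, divFun_inv, ← WithZero.exp_zero, WithZero.exp_lt_exp]
    omega
  · exact absurd h hv
  · left
    rw [valuation_eq_exp_divFun, ← WithZero.exp_zero, WithZero.exp_lt_exp]
    exact h

/-- The divisor map `Kˣ → Div R` (additive form; Mathlib's sign, i.e. `- ord`). -/
noncomputable def divHom : Additive Kˣ →+ (HeightOneSpectrum R →₀ ℤ) where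
  toFun x := Finsupp.ofSupportFinite (divFun R K x.toMul) (finite_divFun_support R K x.toMul)
  map_zero' := by
    ext v
    simp [Finsupp.ofSupportFinite_coe, divFun_one]
  map_add' x y := by
    ext v
    rw [Finsupp.add_apply]
    change divFun R K (Additive.toMul (x + y)) v =
      divFun R K (Additive.toMul x) v + divFun R K (Additive.toMul y) v
    rw [toMul_add, divFun_mul]

@[simp] theorem divHom_apply (x : Additive Kˣ) (v : HeightOneSpectrum R) :
    divHom R K x v = divFun R K x.toMul v := rfl

/-- The kernel of the divisor map is the image of the units of `R`. -/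
theorem divHom_eq_zero_iff (x : Additive Kˣ) :
    divHom R K x = 0 ↔ ∃ u : Rˣ, Units.map (algebraMap R K : R →* K) u = x.toMul := by
  constructor
  · intro h
    have hv : ∀ (y : Kˣ), (∀ v : HeightOneSpectrum R, divFun R K y v = 0) →
        (y : K) ∈ (algebraMap R K).range := by
      intro y hy
      refine mem_integers_of_valuation_le_one (R := R) K (y : K) fun v => ?_
      rw [valuation_eq_exp_divFun, hy v, WithZero.exp_zero]
    have h0 : ∀ v : HeightOneSpectrum R, divFun R K x.toMul v = 0 := fun v => by
      have := DFunLike.congr_fun h v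
      simpa using this
    have h0' : ∀ v : HeightOneSpectrum R, divFun R K (x.toMul)⁻¹ v = 0 := fun v => by
      rw [divFun_inv, h0 v, neg_zero]
    obtain ⟨r, hr⟩ := hv _ h0
    obtain ⟨s, hs⟩ := hv _ h0'
    have hrs : r * s = 1 := by
      apply IsFractionRing.injective R K
      rw [map_mul, hr, hs, map_one, ← Units.val_mul, mul_inv_cancel, Units.val_one]
    refine ⟨⟨r, s, hrs, by rw [mul_comm]; exact hrs⟩, ?_⟩
    ext
    simpa using hr
  · rintro ⟨u, hu⟩
    ext v
    rw [divHom_apply, ← hu, Finsupp.zero_apply, divFun, valuation_of_unit_eq]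
    rfl

open FractionalIdeal in
/-- `count` of a principal fractional ideal is (minus) the exponent of the valuation. -/
theorem count_spanSingleton_eq (x : Kˣ) (v : HeightOneSpectrum R) :
    count K v (spanSingleton R⁰ (x : K)) = - divFun R K x v := by
  obtain ⟨n, d, hd, hx⟩ := IsFractionRing.div_surjective (A := R) (x : K)
  have hd0 : d ≠ 0 := nonZeroDivisors.ne_zero hd
  have hn0 : n ≠ 0 := by
    rintro rfl
    rw [map_zero, zero_div] at hx
    exact x.ne_zero hx.symm
  have hI : spanSingleton R⁰ (x : K) ≠ 0 := by
    rw [ne_eq, spanSingleton_eq_zero_iff]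
    exact x.ne_zero
  have h1 : spanSingleton R⁰ (x : K) =
      spanSingleton R⁰ ((algebraMap R K) d)⁻¹ * ((Ideal.span {n} : Ideal R) : FractionalIdeal R⁰ K) := by
    rw [coeIdeal_span_singleton, spanSingleton_mul_spanSingleton, ← hx, div_eq_inv_mul]
  rw [count_well_defined K v hI h1]
  have h2 : v.valuation K (x : K) = v.intValuation n / v.intValuation d := by
    rw [← hx, map_div₀, valuation_of_algebraMap, valuation_of_algebraMap]
  rw [intValuation_if_neg v hn0, intValuation_if_neg v hd0, ← WithZero.exp_sub] at h2
  have h3 := (divFun_eq_iff R K x v _).mpr h2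
  rw [h3]
  ring

open FractionalIdeal in
/-- The divisor of an invertible fractional ideal (multiplicative form, via `count`). -/
noncomputable def fracIdealDiv :
    (FractionalIdeal R⁰ K)ˣ →* Multiplicative (HeightOneSpectrum R →₀ ℤ) where
  toFun I := Multiplicative.ofAdd (Finsupp.ofSupportFinite
    (fun v => count K v (I : FractionalIdeal R⁰ K))
    (by
      have := finite_factors (K := K) (I : FractionalIdeal R⁰ K)
      rw [Filter.eventually_cofinite] at this
      exact this))
  map_one' := by
    rw [← ofAdd_zero]
    congr 1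
    ext v
    simp [Finsupp.ofSupportFinite_coe, count_one]
  map_mul' I J := by
    rw [← ofAdd_add]
    congr 1
    ext v
    rw [Finsupp.add_apply]
    simp only [Finsupp.ofSupportFinite_coe, Units.val_mul]
    exact count_mul K v I.ne_zero J.ne_zero

theorem fracIdealDiv_apply (I : (FractionalIdeal R⁰ K)ˣ) (v : HeightOneSpectrum R) :
    Multiplicative.toAdd (fracIdealDiv R K I) v =
      FractionalIdeal.count K v (I : FractionalIdeal R⁰ K) := rfl

open FractionalIdeal in
theorem fracIdealDiv_surjective : Function.Surjective (fracIdealDiv R K) := by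
  intro D
  let I : FractionalIdeal R⁰ K :=
    (Multiplicative.toAdd D).prod fun v n => (v.asIdeal : FractionalIdeal R⁰ K) ^ n
  have hI : I ≠ 0 := by
    unfold I Finsupp.prod
    rw [Finset.prod_ne_zero_iff]
    intro v _
    exact zpow_ne_zero _ (coeIdeal_ne_zero.mpr v.ne_bot)
  refine ⟨Units.mk0 I hI, ?_⟩
  apply Multiplicative.toAdd.injective
  ext v
  rw [fracIdealDiv_apply, Units.val_mk0]
  exact count_finsuppProd K v (Multiplicative.toAdd D)

theorem fracIdealDiv_toPrincipalIdeal (x : Kˣ) :
    fracIdealDiv R K (toPrincipalIdeal R K x) =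
      Multiplicative.ofAdd (divHom R K (Additive.ofMul x⁻¹)) := by
  apply Multiplicative.toAdd.injective
  ext v
  rw [fracIdealDiv_apply, coe_toPrincipalIdeal, count_spanSingleton_eq, toAdd_ofAdd, divHom_apply,
    toMul_ofMul, divFun_inv]

/-- The principal divisors have finite index in the divisor group (finiteness of the class
group). -/
theorem divHom_range_finiteIndex [Finite (ClassGroup R)] : (divHom R K).range.FiniteIndex := by
  have hfin : Finite ((FractionalIdeal R⁰ K)ˣ ⧸ (toPrincipalIdeal R K).range) :=
    Finite.of_equiv _ (ClassGroup.equiv (R := R) K).toEquiv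
  have hP : (toPrincipalIdeal R K).range.index ≠ 0 :=
    Subgroup.finiteIndex_iff.mp Subgroup.finiteIndex_of_finite_quotient
  have hmap : (toPrincipalIdeal R K).range.map (fracIdealDiv R K) =
      AddSubgroup.toSubgroup (divHom R K).range := by
    ext D
    constructor
    · rintro ⟨_, ⟨x, rfl⟩, rfl⟩
      rw [fracIdealDiv_toPrincipalIdeal]
      exact ⟨Additive.ofMul x⁻¹, rfl⟩
    · rintro ⟨x, hx⟩
      refine ⟨toPrincipalIdeal R K (x.toMul)⁻¹, ⟨_, rfl⟩, ?_⟩
      rw [fracIdealDiv_toPrincipalIdeal, inv_inv]
      exact congrArg Multiplicative.ofAdd hx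
  have hdvd := Subgroup.index_map_dvd (toPrincipalIdeal R K).range (fracIdealDiv_surjective R K)
  rw [hmap, AddSubgroup.index_toSubgroup] at hdvd
  rw [AddSubgroup.finiteIndex_iff]
  intro h0
  rw [h0, zero_dvd_iff] at hdvd
  exact hP hdvd

end Div

section Action

variable {B : Type*} [CommRing B] [IsDedekindDomain B] {G : Type*} [Group G]
  [MulSemiringAction G B]

/-- The action of a group of ring automorphisms on the height-one primes. -/
@[reducible] def heightOneSpectrumMulAction : MulAction G (HeightOneSpectrum B) where
  smul g w :=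
    { asIdeal := g • w.asIdeal
      isPrime := Ideal.IsPrime.smul g
      ne_bot := by
        intro h
        apply w.ne_bot
        have := congrArg (fun I => g⁻¹ • I) h
        simpa using this }
  one_smul w := by
    ext1
    exact one_smul G w.asIdeal
  mul_smul g h w := by
    ext1
    exact mul_smul g h w.asIdeal

attribute [local instance] heightOneSpectrumMulAction

omit [IsDedekindDomain B] in
theorem hos_smul_span_singleton (g : G) (r : B) :
    g • (Ideal.span {r} : Ideal B) = Ideal.span {g • r} := by
  rw [Ideal.pointwise_smul_def, Ideal.map_span, Set.image_singleton]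
  rfl

theorem hos_smul_asIdeal (g : G) (w : HeightOneSpectrum B) : (g • w).asIdeal = g • w.asIdeal := rfl

/-- Galois-equivariance of the integral adic valuations. -/
theorem hos_smul_intValuation (g : G) (w : HeightOneSpectrum B) (r : B) :
    (g • w).intValuation (g • r) = w.intValuation r := by
  rcases eq_or_ne r 0 with rfl | hr
  · simp
  have hgr : g • r ≠ 0 := by
    intro h
    apply hr
    have := congrArg (fun x => g⁻¹ • x) h
    simpa using this
  rw [intValuation_eq_exp_neg_multiplicity _ hgr, intValuation_eq_exp_neg_multiplicity _ hr,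
    hos_smul_asIdeal, ← hos_smul_span_singleton]
  congr 3
  exact multiplicity_map_eq (MulSemiringAction.toRingEquiv G (Ideal B) g)

end Action

section NumberField

attribute [local instance] heightOneSpectrumMulAction

variable (F M : Type*) [Field F] [Field M] [NumberField F] [NumberField M] [Algebra F M]

/-- Galois-equivariance of the adic valuations of a number field. -/
theorem hos_smul_valuation (g : M ≃ₐ[F] M) (w : HeightOneSpectrum (𝓞 M)) (y : M) :
    (g • w).valuation M (g y) = w.valuation M y := by
  obtain ⟨a, b, hb, rfl⟩ := IsFractionRing.div_surjective (A := 𝓞 M) y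
  rw [map_div₀, map_div₀, map_div₀]
  have h1 : ∀ c : 𝓞 M, g (algebraMap (𝓞 M) M c) = algebraMap (𝓞 M) M (g • c) := fun c => rfl
  rw [h1, h1, valuation_of_algebraMap, valuation_of_algebraMap, valuation_of_algebraMap,
    valuation_of_algebraMap, hos_smul_intValuation, hos_smul_intValuation]

/-- The prime of `F` below a prime of `M`. -/
noncomputable abbrev primeBelow (w : HeightOneSpectrum (𝓞 M)) : HeightOneSpectrum (𝓞 F) :=
  w.under (𝓞 F)

theorem primeBelow_smul (g : M ≃ₐ[F] M) (w : HeightOneSpectrum (𝓞 M)) :
    primeBelow F M (g • w) = primeBelow F M w := by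
  ext1
  simp only [primeBelow, under_asIdeal]
  ext x
  simp only [Ideal.under, Ideal.mem_comap, hos_smul_asIdeal]
  rw [Ideal.mem_pointwise_smul_iff_inv_smul_mem]
  have : g⁻¹ • algebraMap (𝓞 F) (𝓞 M) x = algebraMap (𝓞 F) (𝓞 M) x := by
    apply Subtype.ext
    exact (g⁻¹).commutes x.1
  rw [this]

theorem primeBelow_surjective : Function.Surjective (primeBelow F M) := by
  intro q
  obtain ⟨P, hP, hPq⟩ := q.asIdeal.exists_ideal_over_prime_of_isIntegral_of_isDomain
    (S := 𝓞 M) (by
      rw [(RingHom.injective_iff_ker_eq_bot _).mp (RingOfIntegers.algebraMap.injective F M)]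
      exact bot_le)
  refine ⟨⟨P, hP, ?_⟩, ?_⟩
  · rintro rfl
    apply q.ne_bot
    rw [← hPq]
    exact Ideal.comap_bot_of_injective _ (RingOfIntegers.algebraMap.injective F M)
  · ext1
    exact hPq

variable [IsGalois F M]

/-- The Galois group is transitive on the primes above a given prime. -/
theorem exists_smul_eq_of_primeBelow_eq {w w' : HeightOneSpectrum (𝓞 M)}
    (h : primeBelow F M w = primeBelow F M w') : ∃ g : M ≃ₐ[F] M, w' = g • w := by
  have h' : Ideal.under (𝓞 F) w.asIdeal = Ideal.under (𝓞 F) w'.asIdeal :=
    congrArg HeightOneSpectrum.asIdeal h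
  obtain ⟨g, hg⟩ := Algebra.IsInvariant.exists_smul_of_under_eq (𝓞 F) (𝓞 M) (M ≃ₐ[F] M)
    w.asIdeal w'.asIdeal h'
  exact ⟨g, HeightOneSpectrum.ext hg⟩

theorem primeBelow_eq_iff_orbitRel (w w' : HeightOneSpectrum (𝓞 M)) :
    primeBelow F M w = primeBelow F M w' ↔
      MulAction.orbitRel (M ≃ₐ[F] M) (HeightOneSpectrum (𝓞 M)) w w' := by
  constructor
  · intro h
    obtain ⟨g, hg⟩ := exists_smul_eq_of_primeBelow_eq F M h.symm
    exact ⟨g, hg.symm⟩
  · rintro ⟨g, rfl⟩
    exact primeBelow_smul F M g w'

end NumberField

end Fermat.Agent.CFT
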