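import Mathlib
import Fermat.Agent.CFT.Coh.HerbrandAbs

set_option autoImplicit false

/-!
# CFT stream [C]: the `p`-rank of the group of `S`-units (Dirichlet's `S`-unit theorem, index form)

For a number field `F`, a finite set `S` of finite primes and `n ≠ 0`, with
`U_S = (S : Set _).unit F ≤ Fˣ` (Mathlib's `Set.unit`):

* `nsmulQ n A = [A : nA] / |A[n]|` for an abelian group `A` is multiplicative in short exact
  sequences, trivial on finite groups, invariant under finite-index subgroups
  (instances of the Herbrand index calculus of `Coh/HerbrandIndex.lean` for `f = 0`, `g = n`);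
* `nsmulQ n ℤ^ι = n ^ |ι|`, `nsmulQ n (𝓞 F)ˣ = n ^ rank`, `nsmulQ n U_S = n ^ (rank + |S|)`;
* `index_range_powMonoidHom_sUnit`: if `F` contains a primitive `p`-th root of unity, then
  `[U_S : U_S^p] = p ^ (|S| + #(infinite places))`.
-/

open NumberField IsDedekindDomain WithZero

namespace Fermat.Agent.CFT

open AddSubgroup

section PQ

/-- `[A : nA] / |A[n]|` as a rational number (junk unless both are finite). -/
noncomputable def nsmulQ (n : ℕ) (A : Type*) [AddCommGroup A] : ℚ :=
  hIndexQ (0 : A →+ A) (nsmulAddMonoidHom n)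

/-- `nA` has finite index in `A` and `A[n]` is finite. -/
def NsmulDefined (n : ℕ) (A : Type*) [AddCommGroup A] : Prop :=
  HerbrandDefined (0 : A →+ A) (nsmulAddMonoidHom n)

section Basic

variable {A : Type*} [AddCommGroup A] (n : ℕ)

theorem hIndex_zero_nsmul :
    hIndex (0 : A →+ A) (nsmulAddMonoidHom n) = (nsmulAddMonoidHom n : A →+ A).range.index := by
  unfold hIndex
  rw [AddMonoidHom.ker_zero, relIndex_top_right]

theorem hIndex_nsmul_zero :
    hIndex (nsmulAddMonoidHom n) (0 : A →+ A) = Nat.card (nsmulAddMonoidHom n : A →+ A).ker := by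
  unfold hIndex
  rw [AddMonoidHom.range_zero, relIndex_bot_left]

theorem nsmulDefined_iff :
    NsmulDefined n A ↔ (nsmulAddMonoidHom n : A →+ A).range.index ≠ 0 ∧
      Nat.card (nsmulAddMonoidHom n : A →+ A).ker ≠ 0 := by
  unfold NsmulDefined HerbrandDefined
  rw [hIndex_zero_nsmul, hIndex_nsmul_zero]

theorem nsmulQ_eq :
    nsmulQ n A = ((nsmulAddMonoidHom n : A →+ A).range.index : ℚ) /
      (Nat.card (nsmulAddMonoidHom n : A →+ A).ker : ℚ) := by
  unfold nsmulQ hIndexQ
  rw [hIndex_zero_nsmul, hIndex_nsmul_zero]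

/-- the index of `nA` from the quotient `nsmulQ` and the order of the `n`-torsion -/
theorem index_range_nsmul_of_nsmulQ (h : NsmulDefined n A) {c : ℕ} (hc : nsmulQ n A = c) :
    (nsmulAddMonoidHom n : A →+ A).range.index =
      c * Nat.card (nsmulAddMonoidHom n : A →+ A).ker := by
  rw [nsmulQ_eq] at hc
  have h2 : (Nat.card (nsmulAddMonoidHom n : A →+ A).ker : ℚ) ≠ 0 :=
    Nat.cast_ne_zero.mpr ((nsmulDefined_iff n).mp h).2
  rw [div_eq_iff h2] at hc
  exact_mod_cast hc

end Basic

section Exact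

variable {A' A A'' : Type*} [AddCommGroup A'] [AddCommGroup A] [AddCommGroup A'']
  (i : A' →+ A) (π : A →+ A'') (hi : Function.Injective i) (hπ : Function.Surjective π)
  (hex : i.range = π.ker) (n : ℕ)

include hi hπ hex in
/-- multiplicativity of `nsmulQ` in short exact sequences -/
theorem nsmulQ_of_exact (h' : NsmulDefined n A') (h'' : NsmulDefined n A'') :
    NsmulDefined n A ∧ nsmulQ n A = nsmulQ n A' * nsmulQ n A'' := by
  refine hIndexQ_mul_of_left_right (i := i) (p := π) hi hπ hex (f' := 0)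
    (g' := nsmulAddMonoidHom n) (f := 0) (g := nsmulAddMonoidHom n) (f'' := 0)
    (g'' := nsmulAddMonoidHom n) ?_ ?_ ?_ ?_ ?_ ?_ h' h''
  · intro a; simp
  · intro a; simp
  · intro a; simp
  · intro a; simp
  · intro a; simp
  · intro a; simp

end Exact

section Finite

variable (A : Type*) [AddCommGroup A] (n : ℕ)

theorem nsmulQ_of_finite [Finite A] : NsmulDefined n A ∧ nsmulQ n A = 1 := by
  have h1 : ∀ a : A, (0 : A →+ A) (nsmulAddMonoidHom n a) = 0 := fun a => by simp
  have h2 : ∀ a : A, (nsmulAddMonoidHom n : A →+ A) ((0 : A →+ A) a) = 0 := fun a => by simp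
  exact ⟨herbrandDefined_of_finite h1 h2, hIndexQ_of_finite h1 h2⟩

end Finite

section FiniteIndex

variable {A : Type*} [AddCommGroup A] (n : ℕ) (B : AddSubgroup A) [B.FiniteIndex]

/-- invariance of `nsmulQ` under passage to a finite-index subgroup -/
theorem nsmulQ_of_finiteIndex :
    (NsmulDefined n A ↔ NsmulDefined n B) ∧ nsmulQ n A = nsmulQ n B := by
  have h1 : ∀ a : A, (0 : A →+ A) (nsmulAddMonoidHom n a) = 0 := fun a => by simp
  have h2 : ∀ a : A, (nsmulAddMonoidHom n : A →+ A) ((0 : A →+ A) a) = 0 := fun a => by simp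
  have hf : ∀ a ∈ B, (0 : A →+ A) a ∈ B := fun a _ => by simp
  have hg : ∀ a ∈ B, (nsmulAddMonoidHom n : A →+ A) a ∈ B := fun a ha => by
    simpa using B.nsmul_mem ha n
  have e1 : subHom (0 : A →+ A) B hf = 0 := by
    ext a; simp
  have e2 : subHom (nsmulAddMonoidHom n : A →+ A) B hg = nsmulAddMonoidHom n := by
    ext a; simp
  constructor
  · have := herbrandDefined_iff_of_finiteIndex h1 h2 B hf hg
    rw [e1, e2] at this
    exact this
  · have := hIndexQ_eq_of_finiteIndex' h1 h2 B hf hg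
    rw [e1, e2] at this
    exact this

end FiniteIndex

section Equiv

variable {A B : Type*} [AddCommGroup A] [AddCommGroup B] (e : A ≃+ B) (n : ℕ)

include e in
theorem nsmulQ_congr : (NsmulDefined n A ↔ NsmulDefined n B) ∧ nsmulQ n A = nsmulQ n B := by
  constructor
  · exact herbrandDefined_congr e (fun a => by simp) (fun a => by simp)
  · exact hIndexQ_congr e (fun a => by simp) (fun a => by simp)

end Equiv

section PiInt

variable (ι : Type*) [Fintype ι] (n : ℕ) [NeZero n]

theorem index_range_nsmul_pi_int :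
    (nsmulAddMonoidHom n : (ι → ℤ) →+ (ι → ℤ)).range.index = n ^ Fintype.card ι := by
  classical
  let π : (ι → ℤ) →+ (ι → ZMod n) :=
    AddMonoidHom.pi fun i => (Int.castAddHom (ZMod n)).comp (Pi.evalAddMonoidHom (fun _ => ℤ) i)
  have hπ : Function.Surjective π := by
    intro f
    refine ⟨fun i => ((f i).val : ℤ), ?_⟩
    ext i
    simp [π]
  have hker : π.ker = (nsmulAddMonoidHom n : (ι → ℤ) →+ (ι → ℤ)).range := by
    ext f
    simp only [AddMonoidHom.mem_ker, AddMonoidHom.mem_range, π]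
    constructor
    · intro h
      have h' : ∀ i, (n : ℤ) ∣ f i := fun i => by
        have := congrFun h i
        simpa [ZMod.intCast_zmod_eq_zero_iff_dvd] using this
      choose g hg using h'
      refine ⟨g, ?_⟩
      ext i
      simp [hg i]
    · rintro ⟨g, rfl⟩
      ext i
      simp
  rw [← hker, AddSubgroup.index_ker, AddMonoidHom.range_eq_top.mpr hπ]
  simp [Nat.card_eq_fintype_card, ZMod.card]

omit [Fintype ι] in
theorem ker_nsmul_pi_int : (nsmulAddMonoidHom n : (ι → ℤ) →+ (ι → ℤ)).ker = ⊥ := by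
  rw [eq_bot_iff]
  intro f hf
  rw [AddMonoidHom.mem_ker] at hf
  rw [AddSubgroup.mem_bot]
  ext i
  have := congrFun hf i
  simpa [NeZero.ne n] using this

theorem nsmulQ_pi_int :
    NsmulDefined n (ι → ℤ) ∧ nsmulQ n (ι → ℤ) = (n : ℚ) ^ Fintype.card ι := by
  have hn : n ≠ 0 := NeZero.ne n
  constructor
  · rw [nsmulDefined_iff, index_range_nsmul_pi_int, ker_nsmul_pi_int]
    refine ⟨pow_ne_zero _ hn, ?_⟩
    simp
  · rw [nsmulQ_eq, index_range_nsmul_pi_int, ker_nsmul_pi_int]
    simp

/-- `nsmulQ` of a free `ℤ`-module of finite rank -/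
theorem nsmulQ_of_basis {M : Type*} [AddCommGroup M] (b : Module.Basis ι ℤ M) :
    NsmulDefined n M ∧ nsmulQ n M = (n : ℚ) ^ Fintype.card ι := by
  obtain ⟨h1, h2⟩ := nsmulQ_congr b.equivFun.toAddEquiv n
  obtain ⟨h3, h4⟩ := nsmulQ_pi_int ι n
  exact ⟨h1.mpr h3, h2.trans h4⟩

end PiInt

end PQ

section Units

variable (F : Type*) [Field F] [NumberField F] (n : ℕ) [NeZero n]

theorem nsmulQ_units :
    NsmulDefined n (Additive (𝓞 F)ˣ) ∧ nsmulQ n (Additive (𝓞 F)ˣ) = (n : ℚ) ^ Units.rank F := by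
  let i : Additive (Units.torsion F) →+ Additive (𝓞 F)ˣ := (Units.torsion F).subtype.toAdditive
  let π : Additive (𝓞 F)ˣ →+ Additive ((𝓞 F)ˣ ⧸ Units.torsion F) :=
    (QuotientGroup.mk' (Units.torsion F)).toAdditive
  have hi : Function.Injective i := (Units.torsion F).subtype_injective
  have hπ : Function.Surjective π := QuotientGroup.mk'_surjective (Units.torsion F)
  have hex : i.range = π.ker := by
    ext x
    simp only [AddMonoidHom.mem_range, AddMonoidHom.mem_ker]
    constructor
    · rintro ⟨t, rfl⟩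
      exact (QuotientGroup.eq_one_iff _).mpr t.toMul.2
    · intro hx
      have : Additive.toMul x ∈ Units.torsion F := (QuotientGroup.eq_one_iff _).mp hx
      exact ⟨Additive.ofMul ⟨Additive.toMul x, this⟩, rfl⟩
  obtain ⟨h1, h2⟩ := nsmulQ_of_finite (Additive (Units.torsion F)) n
  obtain ⟨h3, h4⟩ := nsmulQ_of_basis (M := Additive ((𝓞 F)ˣ ⧸ Units.torsion F))
    (Fin (Units.rank F)) n (Units.basisModTorsion F)
  obtain ⟨h5, h6⟩ := nsmulQ_of_exact i π hi hπ hex n h1 h3
  refine ⟨h5, ?_⟩
  rw [h6, h2, h4, one_mul, Fintype.card_fin]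

end Units

section ValLemmas

variable {R : Type*} [CommRing R] [IsDedekindDomain R]

theorem intValuation_eq_of_span_eq_pow (v : HeightOneSpectrum R) (a : R) (h : ℕ)
    (ha : Ideal.span {a} = v.asIdeal ^ h) : v.intValuation a = exp (-(h : ℤ)) := by
  have ha0 : a ≠ 0 := by
    rintro rfl
    have : v.asIdeal ^ h = ⊥ := by simpa using ha.symm
    exact v.ne_bot (eq_zero_of_pow_eq_zero this)
  have h1 : v.intValuation a ≤ exp (-(h : ℤ)) := by
    rw [HeightOneSpectrum.intValuation_le_pow_iff_mem, ← ha]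
    exact Ideal.mem_span_singleton_self a
  have h2 : ¬ v.intValuation a ≤ exp (-((h + 1 : ℕ) : ℤ)) := by
    rw [HeightOneSpectrum.intValuation_le_pow_iff_mem]
    intro hmem
    have hle : v.asIdeal ^ h ≤ v.asIdeal ^ (h + 1) := by
      rw [← ha, Ideal.span_singleton_le_iff_mem]
      exact hmem
    have := v.isPrime
    exact absurd hle (not_le_of_gt (Ideal.pow_succ_lt_pow v.ne_bot h))
  have hne : v.intValuation a ≠ 0 := v.intValuation_ne_zero a ha0
  obtain ⟨m, hm⟩ : ∃ m : ℤ, v.intValuation a = exp m :=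
    ⟨log (v.intValuation a), (exp_log hne).symm⟩
  rw [hm] at h1 h2 ⊢
  rw [exp_le_exp] at h1 h2
  congr 1
  push_cast at h2
  omega

theorem intValuation_eq_one_of_span_eq_pow (v w : HeightOneSpectrum R) (hvw : w ≠ v) (a : R)
    (h : ℕ) (ha : Ideal.span {a} = v.asIdeal ^ h) : w.intValuation a = 1 := by
  rw [HeightOneSpectrum.intValuation_eq_one_iff]
  intro hmem
  have hle : v.asIdeal ^ h ≤ w.asIdeal := by
    rw [← ha, Ideal.span_singleton_le_iff_mem]
    exact hmem
  have hle' : v.asIdeal ≤ w.asIdeal := w.isPrime.le_of_pow_le hle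
  have : v.asIdeal = w.asIdeal := (v.isMaximal.eq_of_le w.isPrime.ne_top hle')
  exact hvw (HeightOneSpectrum.ext this.symm)

end ValLemmas

section SUnit

variable (F : Type*) [Field F] [NumberField F] (S : Finset (HeightOneSpectrum (𝓞 F)))

/-- the group of `S`-units of a number field, for a finite set `S` of finite primes -/
noncomputable abbrev sUnit : Subgroup Fˣ := (S : Set (HeightOneSpectrum (𝓞 F))).unit F

/-- the inclusion `(𝓞 F)ˣ → U_S` -/
noncomputable def unitsToSUnit : (𝓞 F)ˣ →* sUnit F S where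
  toFun x := ⟨Units.map (algebraMap (𝓞 F) F : 𝓞 F →* F) x, fun v _ => by
    have := HeightOneSpectrum.valuation_of_unit_eq (K := F) v x
    rw [← WithZero.coe_inj, HeightOneSpectrum.valuationOfNeZero_eq] at this
    exact this⟩
  map_one' := by ext; simp
  map_mul' x y := by ext; simp

theorem coe_unitsToSUnit (x : (𝓞 F)ˣ) :
    ((unitsToSUnit F S x : Fˣ) : F) = algebraMap (𝓞 F) F (x : 𝓞 F) := rfl

theorem unitsToSUnit_injective : Function.Injective (unitsToSUnit F S) := by
  intro x y h
  have h1 : ((unitsToSUnit F S x : Fˣ) : F) = ((unitsToSUnit F S y : Fˣ) : F) := by rw [h]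
  have h2 : algebraMap (𝓞 F) F (x : 𝓞 F) = algebraMap (𝓞 F) F (y : 𝓞 F) := h1
  exact Units.ext (FaithfulSMul.algebraMap_injective (𝓞 F) F h2)

theorem mem_range_unitsToSUnit_iff (u : sUnit F S) :
    u ∈ (unitsToSUnit F S).range ↔
      ∀ v : HeightOneSpectrum (𝓞 F), v.valuation F ((u : Fˣ) : F) = 1 := by
  constructor
  · rintro ⟨x, rfl⟩ v
    have := HeightOneSpectrum.valuation_of_unit_eq (K := F) v x
    rw [← WithZero.coe_inj, HeightOneSpectrum.valuationOfNeZero_eq] at this
    exact this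
  · intro h
    obtain ⟨a, ha⟩ := HeightOneSpectrum.mem_integers_of_valuation_le_one F ((u : Fˣ) : F)
      fun v => (h v).le
    obtain ⟨b, hb⟩ := HeightOneSpectrum.mem_integers_of_valuation_le_one F
      (((u : Fˣ)⁻¹ : Fˣ) : F) fun v => by
        rw [Units.val_inv_eq_inv_val, map_inv₀, h v, inv_one]
    have hab : a * b = 1 := by
      apply FaithfulSMul.algebraMap_injective (𝓞 F) F
      rw [map_mul, ha, hb, map_one, Units.mul_inv]
    refine ⟨⟨a, b, hab, by rw [mul_comm]; exact hab⟩, ?_⟩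
    apply Subtype.ext
    apply Units.ext
    exact ha

/-- the valuation vector of an `S`-unit (additively) -/
noncomputable def sUnitVal : Additive (sUnit F S) →+ (S → ℤ) :=
  AddMonoidHom.mk' (fun x v => Multiplicative.toAdd
    ((v : HeightOneSpectrum (𝓞 F)).valuationOfNeZero ((Additive.toMul x : sUnit F S) : Fˣ)))
    (by intro x y; ext v; simp)

theorem sUnitVal_apply (x : Additive (sUnit F S)) (v : S) :
    sUnitVal F S x v = Multiplicative.toAdd
      ((v : HeightOneSpectrum (𝓞 F)).valuationOfNeZero ((Additive.toMul x : sUnit F S) : Fˣ)) :=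
  rfl

theorem exp_sUnitVal_apply (x : Additive (sUnit F S)) (v : S) :
    exp (sUnitVal F S x v) = (v : HeightOneSpectrum (𝓞 F)).valuation F
      (((Additive.toMul x : sUnit F S) : Fˣ) : F) := by
  rw [← HeightOneSpectrum.valuationOfNeZero_eq]
  rfl

theorem range_unitsToSUnit_eq_ker :
    (unitsToSUnit F S).toAdditive.range = (sUnitVal F S).ker := by
  ext x
  rw [AddMonoidHom.mem_ker]
  have key : x ∈ (unitsToSUnit F S).toAdditive.range ↔
      (Additive.toMul x) ∈ (unitsToSUnit F S).range := by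
    constructor
    · rintro ⟨y, rfl⟩
      exact ⟨Additive.toMul y, rfl⟩
    · rintro ⟨y, hy⟩
      exact ⟨Additive.ofMul y, congrArg Additive.ofMul hy⟩
  rw [key, mem_range_unitsToSUnit_iff]
  constructor
  · intro h
    ext v
    have h1 := exp_sUnitVal_apply F S x v
    rw [h (v : HeightOneSpectrum (𝓞 F))] at h1
    have : exp (sUnitVal F S x v) = exp 0 := by rw [h1]; rfl
    simpa using exp_injective this
  · intro h v
    by_cases hv : v ∈ S
    · have h1 := exp_sUnitVal_apply F S x ⟨v, hv⟩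
      rw [h] at h1
      rw [← h1]
      rfl
    · exact (Additive.toMul x).2 v (by simpa using hv)

/-- for `v ∈ S` there is an `S`-unit with valuation vector `-h • e_v`, `h` the class number -/
theorem exists_sUnitVal_eq_single (v : S) :
    ∃ x : Additive (sUnit F S), sUnitVal F S x v = -(classNumber F : ℤ) ∧
      ∀ w : S, w ≠ v → sUnitVal F S x w = 0 := by
  set h := classNumber F with hh
  have hv0 : (v : HeightOneSpectrum (𝓞 F)).asIdeal ∈ nonZeroDivisors (Ideal (𝓞 F)) :=
    mem_nonZeroDivisors_of_ne_zero (v : HeightOneSpectrum (𝓞 F)).ne_bot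
  have h1 : (ClassGroup.mk0 ⟨(v : HeightOneSpectrum (𝓞 F)).asIdeal, hv0⟩) ^ h = 1 := by
    rw [hh]
    unfold classNumber
    exact pow_card_eq_one
  rw [← map_pow, ClassGroup.mk0_eq_one_iff] at h1
  obtain ⟨a, ha⟩ := h1.principal
  have ha' : Ideal.span {a} = (v : HeightOneSpectrum (𝓞 F)).asIdeal ^ h := by
    simpa using ha.symm
  have ha0 : a ≠ 0 := by
    rintro rfl
    have : (v : HeightOneSpectrum (𝓞 F)).asIdeal ^ h = ⊥ := by simpa using ha'.symm
    exact (v : HeightOneSpectrum (𝓞 F)).ne_bot (eq_zero_of_pow_eq_zero this)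
  have haF : algebraMap (𝓞 F) F a ≠ 0 := by
    rwa [ne_eq, FaithfulSMul.algebraMap_eq_zero_iff]
  have hmem : Units.mk0 (algebraMap (𝓞 F) F a) haF ∈ sUnit F S := by
    intro w hw
    rw [Units.val_mk0, HeightOneSpectrum.valuation_of_algebraMap]
    refine intValuation_eq_one_of_span_eq_pow (v : HeightOneSpectrum (𝓞 F)) w ?_ a h ha'
    rintro rfl
    exact hw (by simp)
  have key : ∀ w : S, exp (sUnitVal F S
      (Additive.ofMul ⟨Units.mk0 (algebraMap (𝓞 F) F a) haF, hmem⟩) w) =
      (w : HeightOneSpectrum (𝓞 F)).intValuation a := by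
    intro w
    rw [exp_sUnitVal_apply, ← HeightOneSpectrum.valuation_of_algebraMap (K := F)]
    rfl
  refine ⟨Additive.ofMul ⟨Units.mk0 (algebraMap (𝓞 F) F a) haF, hmem⟩, ?_, ?_⟩
  · apply exp_injective
    rw [key, intValuation_eq_of_span_eq_pow _ a h ha']
  · intro w hwv
    have hwv' : (w : HeightOneSpectrum (𝓞 F)) ≠ (v : HeightOneSpectrum (𝓞 F)) :=
      fun h => hwv (Subtype.ext h)
    apply exp_injective
    rw [key, intValuation_eq_one_of_span_eq_pow _ _ hwv' a h ha']
    rfl

theorem range_nsmul_le_range_sUnitVal :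
    (nsmulAddMonoidHom (classNumber F) : (S → ℤ) →+ (S → ℤ)).range ≤ (sUnitVal F S).range := by
  classical
  rintro _ ⟨f, rfl⟩
  choose x hx1 hx2 using exists_sUnitVal_eq_single F S
  have : nsmulAddMonoidHom (classNumber F) f = ∑ v : S, (- f v) • sUnitVal F S (x v) := by
    ext w
    rw [Finset.sum_apply, Finset.sum_eq_single w]
    · simp only [nsmulAddMonoidHom_apply, Pi.smul_apply, hx1 w, smul_eq_mul]
      rw [nsmul_eq_mul]
      ring
    · intro v _ hvw
      simp only [Pi.smul_apply, hx2 v w (Ne.symm hvw), smul_zero]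
    · intro hw
      exact absurd (Finset.mem_univ w) hw
  rw [this]
  refine AddSubgroup.sum_mem _ fun v _ => AddSubgroup.zsmul_mem _ ?_ _
  exact ⟨x v, rfl⟩

instance finiteIndex_range_sUnitVal : (sUnitVal F S).range.FiniteIndex := by
  have : NeZero (classNumber F) := ⟨classNumber_ne_zero F⟩
  have h1 : (nsmulAddMonoidHom (classNumber F) : (S → ℤ) →+ (S → ℤ)).range.FiniteIndex := by
    refine ⟨?_⟩
    rw [index_range_nsmul_pi_int]
    exact pow_ne_zero _ (classNumber_ne_zero F)
  exact AddSubgroup.finiteIndex_of_le (range_nsmul_le_range_sUnitVal F S)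

variable (n : ℕ) [NeZero n]

/-- `[U_S : U_S^n] / |U_S[n]| = n ^ (rank + |S|)` -/
theorem nsmulQ_sUnit :
    NsmulDefined n (Additive (sUnit F S)) ∧
      nsmulQ n (Additive (sUnit F S)) = (n : ℚ) ^ (Units.rank F + S.card) := by
  obtain ⟨h1, h2⟩ := nsmulQ_units F n
  obtain ⟨h3, h4⟩ := nsmulQ_pi_int S n
  obtain ⟨h5, h6⟩ := nsmulQ_of_finiteIndex n (sUnitVal F S).range
  have h7 : NsmulDefined n (sUnitVal F S).range := h5.mp h3
  have hi : Function.Injective (unitsToSUnit F S).toAdditive := unitsToSUnit_injective F S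
  have hπ : Function.Surjective (sUnitVal F S).rangeRestrict :=
    (sUnitVal F S).rangeRestrict_surjective
  have hex : (unitsToSUnit F S).toAdditive.range = (sUnitVal F S).rangeRestrict.ker := by
    rw [AddMonoidHom.ker_rangeRestrict, range_unitsToSUnit_eq_ker]
  obtain ⟨h8, h9⟩ := nsmulQ_of_exact _ _ hi hπ hex n h1 h7
  refine ⟨h8, ?_⟩
  rw [h9, h2, ← h6, h4, Fintype.card_coe, pow_add]

end SUnit

section Extra

variable (F : Type*) [Field F] [NumberField F] (S : Finset (HeightOneSpectrum (𝓞 F)))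

theorem mem_sUnit_iff (x : Fˣ) :
    x ∈ sUnit F S ↔ ∀ v : HeightOneSpectrum (𝓞 F), v ∉ S → v.valuation F (x : F) = 1 := by
  constructor
  · intro h v hv
    exact h v (by simpa using hv)
  · intro h v hv
    exact h v (by simpa using hv)

theorem sUnit_mono {S T : Finset (HeightOneSpectrum (𝓞 F))} (h : S ⊆ T) :
    sUnit F S ≤ sUnit F T := by
  intro x hx
  rw [mem_sUnit_iff] at hx ⊢
  exact fun v hv => hx v fun hvS => hv (h hvS)

theorem pow_mem_sUnit_iff {n : ℕ} (hn : n ≠ 0) (y : Fˣ) :
    y ^ n ∈ sUnit F S ↔ y ∈ sUnit F S := by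
  constructor
  · intro h
    rw [mem_sUnit_iff] at h ⊢
    intro v hv
    have h1 := h v hv
    rw [Units.val_pow_eq_pow_val, map_pow] at h1
    exact (pow_eq_one_iff_of_nonneg zero_le hn).mp h1
  · intro h
    exact Subgroup.pow_mem _ h n

/-- `U_S ∩ Fˣ^n = U_S^n` -/
theorem map_powMonoidHom_sUnit_eq {n : ℕ} (hn : n ≠ 0) :
    (sUnit F S).map (powMonoidHom n) = sUnit F S ⊓ (powMonoidHom n : Fˣ →* Fˣ).range := by
  ext x
  constructor
  · rintro ⟨y, hy, rfl⟩
    exact ⟨Subgroup.pow_mem _ hy n, ⟨y, rfl⟩⟩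
  · rintro ⟨hx, ⟨y, rfl⟩⟩
    exact ⟨y, (pow_mem_sUnit_iff F S hn y).mp hx, rfl⟩

theorem subgroupOf_map_powMonoidHom_sUnit (n : ℕ) :
    ((sUnit F S).map (powMonoidHom n)).subgroupOf (sUnit F S) =
      (powMonoidHom n : sUnit F S →* sUnit F S).range := by
  ext x
  rw [Subgroup.mem_subgroupOf]
  constructor
  · rintro ⟨y, hy, hyx⟩
    exact ⟨⟨y, hy⟩, Subtype.ext hyx⟩
  · rintro ⟨y, rfl⟩
    exact ⟨y.1, y.2, rfl⟩

end Extra

section Main

variable (F : Type*) [Field F] [NumberField F] (S : Finset (HeightOneSpectrum (𝓞 F)))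

theorem mem_sUnit_of_pow_eq_one {n : ℕ} (hn : n ≠ 0) (y : Fˣ) (hy : y ^ n = 1) :
    y ∈ sUnit F S := by
  intro v _
  have h1 : (v.valuation F (y : F)) ^ n = 1 := by
    rw [← map_pow, ← Units.val_pow_eq_pow_val, hy, Units.val_one, map_one]
  exact (pow_eq_one_iff_of_nonneg zero_le hn).mp h1

/-- the `n`-torsion of `U_S` is the group of `n`-th roots of unity of `F` -/
noncomputable def kerNsmulSUnitEquiv (n : ℕ) [NeZero n] :
    (nsmulAddMonoidHom n : Additive (sUnit F S) →+ Additive (sUnit F S)).ker ≃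
      rootsOfUnity n F where
  toFun x := ⟨((Additive.toMul x.1 : sUnit F S) : Fˣ), by
    have h := x.2
    rw [AddMonoidHom.mem_ker] at h
    rw [mem_rootsOfUnity]
    have h2 : (Additive.toMul x.1 : sUnit F S) ^ n = 1 := h
    exact_mod_cast congrArg (fun u : sUnit F S => (u : Fˣ)) h2⟩
  invFun y := ⟨Additive.ofMul ⟨y.1, mem_sUnit_of_pow_eq_one F S (NeZero.ne n) y.1
      ((mem_rootsOfUnity _ _).mp y.2)⟩, by
    rw [AddMonoidHom.mem_ker]
    have : (⟨y.1, mem_sUnit_of_pow_eq_one F S (NeZero.ne n) y.1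
      ((mem_rootsOfUnity _ _).mp y.2)⟩ : sUnit F S) ^ n = 1 := by
      apply Subtype.ext
      exact (mem_rootsOfUnity _ _).mp y.2
    exact congrArg Additive.ofMul this⟩
  left_inv x := rfl
  right_inv y := rfl

variable {p : ℕ} [hp : Fact p.Prime] {ζ : F} (hζ : IsPrimitiveRoot ζ p)

include hζ in
theorem card_ker_nsmul_sUnit :
    Nat.card (nsmulAddMonoidHom p : Additive (sUnit F S) →+ Additive (sUnit F S)).ker = p := by
  have : NeZero p := ⟨hp.out.ne_zero⟩
  rw [Nat.card_congr (kerNsmulSUnitEquiv F S p), hζ.card_rootsOfUnity]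

include hζ in
/-- **Dirichlet's `S`-unit theorem, index form (additive version).** -/
theorem index_range_nsmul_sUnit :
    (nsmulAddMonoidHom p : Additive (sUnit F S) →+ Additive (sUnit F S)).range.index =
      p ^ (S.card + Fintype.card (InfinitePlace F)) := by
  have : NeZero p := ⟨hp.out.ne_zero⟩
  obtain ⟨h1, h2⟩ := nsmulQ_sUnit F S p
  have h3 : nsmulQ p (Additive (sUnit F S)) = ((p ^ (Units.rank F + S.card) : ℕ) : ℚ) := by
    rw [h2]; push_cast; rfl
  rw [index_range_nsmul_of_nsmulQ p h1 h3, card_ker_nsmul_sUnit F S hζ, ← pow_succ]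
  congr 1
  have : 0 < Fintype.card (InfinitePlace F) := Fintype.card_pos
  unfold Units.rank
  omega

include hζ in
/-- **Dirichlet's `S`-unit theorem, index form**: if `F` contains a primitive `p`-th root of unity
then `[U_S : U_S^p] = p ^ (|S| + #(infinite places of F))`. -/
theorem index_range_powMonoidHom_sUnit :
    (powMonoidHom p : sUnit F S →* sUnit F S).range.index =
      p ^ (S.card + Fintype.card (InfinitePlace F)) := by
  rw [← index_range_nsmul_sUnit F S hζ, ← Subgroup.index_toAddSubgroup]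
  congr 1

include hζ in
/-- the same index inside `Fˣ`: `[U_S : U_S^p] = p ^ (|S| + #(infinite places of F))` -/
theorem relIndex_map_powMonoidHom_sUnit :
    ((sUnit F S).map (powMonoidHom p)).relIndex (sUnit F S) =
      p ^ (S.card + Fintype.card (InfinitePlace F)) := by
  rw [Subgroup.relIndex, subgroupOf_map_powMonoidHom_sUnit,
    index_range_powMonoidHom_sUnit F S hζ]

include hζ in
theorem card_quotient_range_powMonoidHom_sUnit :
    Nat.card (sUnit F S ⧸ (powMonoidHom p : sUnit F S →* sUnit F S).range) =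
      p ^ (S.card + Fintype.card (InfinitePlace F)) := by
  rw [← Subgroup.index_eq_card, index_range_powMonoidHom_sUnit F S hζ]

end Main

end Fermat.Agent.CFT
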