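import Mathlib
import Fermat.Agent.CFT.Coh.HerbrandAbs

set_option autoImplicit false

/-!
# Stream C (Global) : Herbrand quotient of permutation lattices (helper11)

`G = ⟨σ⟩` finite cyclic acting on a finite set `X`; the permutation lattice `ℤ^X = (X → ℤ)` with
`(τ f) x = f (τ⁻¹ x)`; `permSubOne σ = σ - 1`, `permNorm G = ∑ τ`, `permAug X = ∑ x` (augmentation).

Main results (vocabulary of `Coh/HerbrandIndex.lean`, `Coh/Interface.lean`):
* `ker_permNorm_le_range_permSubOne`, `hIndex_permNorm_permSubOne` : `Ĥ⁻¹(G, ℤ^X) = 0`;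
* `mem_range_permNorm_iff`, `hIndex_permSubOne_permNorm` : `|Ĥ⁰(G, ℤ^X)| = ∏_{orbits} |Stab|`;
* `herbrandDefined_permLattice`, `hIndexQ_permLattice` : `h(ℤ^X) = ∏_{orbits} |Stab|`;
* `hIndexQ_traceZero` : `h(ker (ℤ^X → ℤ)) = (∏_{orbits} |Stab|) / |G|`;
* `herbrand_of_equiv_permLattice`, `herbrand_of_traceZero` : the same for any `G`-module
  (`DistribMulAction G A`) equivariantly identified with `ℤ^X`, resp. its trace-zero sublattice;
* `prod_card_stabilizer_eq_prod` : re-indexing `∏_{orbits} |Stab|` as `∏_{v ∈ Y} n_v`.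

Together with lattice independence (C-F IV.8) this is `h(S-units) = (1/n) ∏_{v ∈ S} n_v`.
-/

namespace Fermat.Agent.CFT

open scoped BigOperators
open Finset Function

section PeriodicSums

theorem periodic_mul_add (a : ℕ → ℤ) (d : ℕ) (ha : ∀ i, a (i + d) = a i) (m i : ℕ) :
    a (m * d + i) = a i := by
  induction m with
  | zero => simp
  | succ k ih =>
    have : (k + 1) * d + i = (k * d + i) + d := by ring
    rw [this, ha, ih]

/-- Sum of a `d`-periodic integer sequence over `m` periods. -/
theorem sum_range_mul_of_periodic (a : ℕ → ℤ) (d : ℕ) (ha : ∀ i, a (i + d) = a i) (m : ℕ) :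
    ∑ i ∈ range (m * d), a i = m * ∑ i ∈ range d, a i := by
  induction m with
  | zero => simp
  | succ m ih =>
    rw [Nat.succ_mul, Finset.sum_range_add, ih]
    simp only [periodic_mul_add a d ha]
    push_cast
    ring

end PeriodicSums

section PermLattice

variable {G : Type*} [Group G] [Fintype G] {X : Type*} [MulAction G X]

/-- `σ - 1` on the permutation lattice `ℤ^X` (`(σ f) x = f (σ⁻¹ x)`). -/
def permSubOne (σ : G) : (X → ℤ) →+ (X → ℤ) where
  toFun f x := f (σ⁻¹ • x) - f x
  map_zero' := by funext x; simp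
  map_add' f g := by funext x; simp; ring

/-- The norm `∑ τ` on the permutation lattice `ℤ^X`. -/
def permNorm (G : Type*) [Group G] [Fintype G] {X : Type*} [MulAction G X] :
    (X → ℤ) →+ (X → ℤ) where
  toFun f x := ∑ τ : G, f (τ⁻¹ • x)
  map_zero' := by funext x; simp
  map_add' f g := by funext x; simp [Finset.sum_add_distrib]

omit [Fintype G] in
@[simp] theorem permSubOne_apply (σ : G) (f : X → ℤ) (x : X) :
    permSubOne σ f x = f (σ⁻¹ • x) - f x := rfl

@[simp] theorem permNorm_apply (f : X → ℤ) (x : X) :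
    permNorm G f x = ∑ τ : G, f (τ⁻¹ • x) := rfl

/-- The norm is `G`-invariant. -/
theorem permNorm_smul (f : X → ℤ) (ρ : G) (x : X) : permNorm G f (ρ • x) = permNorm G f x := by
  simp only [permNorm_apply]
  refine Fintype.sum_equiv (Equiv.mulLeft ρ⁻¹) _ _ fun τ => ?_
  simp [mul_smul]

theorem permSubOne_permNorm (σ : G) (f : X → ℤ) : permSubOne σ (permNorm G f) = 0 := by
  funext x
  rw [permSubOne_apply, permNorm_smul, sub_self]
  rfl

theorem permNorm_permSubOne (σ : G) (f : X → ℤ) : permNorm G (permSubOne σ f) = 0 := by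
  funext x
  simp only [permNorm_apply, permSubOne_apply, Finset.sum_sub_distrib, Pi.zero_apply]
  rw [sub_eq_zero]
  refine Fintype.sum_equiv (Equiv.mulRight σ) _ _ fun τ => ?_
  simp [mul_smul]

/-! ### `Ĥ⁻¹(G, ℤ^X) = 0` for cyclic `G` -/

section HMinusOne

variable {σ : G} (hσ : ∀ τ, τ ∈ Subgroup.zpowers σ)

include hσ in
/-- The norm as a sum over the powers of the generator. -/
theorem permNorm_eq_sum_range (f : X → ℤ) (x : X) :
    permNorm G f x = ∑ i ∈ range (orderOf σ), f ((σ ^ i)⁻¹ • x) := by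
  classical
  rw [permNorm_apply, ← IsCyclic.image_range_orderOf hσ, Finset.sum_image]
  intro i hi j hj h
  exact pow_injOn_Iio_orderOf (by simpa using hi) (by simpa using hj) h

include hσ in
/-- If `σ^d` fixes `x` and `N f x = 0` then the partial orbit sum of length `d` vanishes. -/
theorem sum_range_eq_zero_of_permNorm_eq_zero (f : X → ℤ) (x : X) (hN : permNorm G f x = 0)
    (d : ℕ) (hd : (σ ^ d)⁻¹ • x = x) : ∑ i ∈ range d, f ((σ ^ i)⁻¹ • x) = 0 := by
  set a : ℕ → ℤ := fun i => f ((σ ^ i)⁻¹ • x) with ha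
  have hper_d : ∀ i, a (i + d) = a i := by
    intro i
    simp only [ha]
    rw [pow_add, mul_inv_rev, mul_smul]
    congr 1
    rw [← mul_smul, ← mul_inv_rev, ← pow_add, add_comm, pow_add, mul_inv_rev, mul_smul, hd]
  have hper_n : ∀ i, a (i + orderOf σ) = a i := by
    intro i
    simp only [ha]
    rw [pow_add, pow_orderOf_eq_one, mul_one]
  have h1 := sum_range_mul_of_periodic a d hper_d (orderOf σ)
  have h2 := sum_range_mul_of_periodic a (orderOf σ) hper_n d
  rw [← permNorm_eq_sum_range hσ f x, hN, mul_zero, mul_comm d] at h2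
  rw [h2] at h1
  have hn : (orderOf σ : ℤ) ≠ 0 := by
    exact_mod_cast (orderOf_pos σ).ne'
  exact (mul_eq_zero.mp h1.symm).resolve_left hn

include hσ in
/-- Well-definedness of partial orbit sums. -/
theorem sum_range_eq_of_smul_eq (f : X → ℤ) (hN : permNorm G f = 0) (b : X) (j₁ j₂ : ℕ)
    (h : (σ ^ j₁)⁻¹ • b = (σ ^ j₂)⁻¹ • b) :
    ∑ i ∈ range j₁, f ((σ ^ i)⁻¹ • b) = ∑ i ∈ range j₂, f ((σ ^ i)⁻¹ • b) := by
  wlog hle : j₁ ≤ j₂ generalizing j₁ j₂
  · exact (this j₂ j₁ h.symm (le_of_not_ge hle)).symm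
  obtain ⟨d, rfl⟩ := Nat.exists_eq_add_of_le hle
  rw [Finset.sum_range_add]
  have hd : (σ ^ d)⁻¹ • ((σ ^ j₁)⁻¹ • b) = (σ ^ j₁)⁻¹ • b := by
    rw [← mul_smul, ← mul_inv_rev, ← pow_add, ← h]
  have := sum_range_eq_zero_of_permNorm_eq_zero hσ f ((σ ^ j₁)⁻¹ • b)
    (by rw [hN]; rfl) d hd
  have h3 : ∑ i ∈ range d, f ((σ ^ (j₁ + i))⁻¹ • b) = 0 := by
    rw [← this]
    refine Finset.sum_congr rfl fun i _ => ?_
    rw [← mul_smul, ← mul_inv_rev, ← pow_add]
  rw [h3, add_zero]

include hσ in
/-- `Ĥ⁻¹(G, ℤ^X) = 0`: the kernel of the norm is the image of `σ - 1`. -/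
theorem ker_permNorm_le_range_permSubOne :
    (permNorm G (X := X)).ker ≤ (permSubOne (X := X) σ).range := by
  intro f hf
  have hN : permNorm G f = 0 := hf
  -- base points
  let b : X → X := fun x => (Quotient.mk (MulAction.orbitRel G X) x).out
  have hb_smul : ∀ (τ : G) (x : X), b (τ • x) = b x := by
    intro τ x
    have : (Quotient.mk (MulAction.orbitRel G X) (τ • x)) = Quotient.mk (MulAction.orbitRel G X) x :=
      Quotient.sound (MulAction.mem_orbit x τ)
    simp only [b, this]
  have hex : ∀ x : X, ∃ j : ℕ, (σ ^ j)⁻¹ • b x = x := by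
    intro x
    have h1 : MulAction.orbitRel G X (b x) x := Quotient.exact (Quotient.out_eq _)
    obtain ⟨τ, hτ⟩ := h1
    -- τ • x = b x
    have hτ' : τ ∈ Submonoid.powers σ :=
      (isOfFinOrder_of_finite σ).mem_powers_iff_mem_zpowers.mpr (hσ τ)
    obtain ⟨j, rfl⟩ := hτ'
    refine ⟨j, ?_⟩
    change σ ^ j • x = b x at hτ
    rw [← hτ, inv_smul_smul]
  choose j hj using hex
  refine ⟨fun x => ∑ i ∈ range (j x), f ((σ ^ i)⁻¹ • b x), ?_⟩
  funext x
  rw [permSubOne_apply]
  rw [hb_smul]
  have hkey : (σ ^ (j (σ⁻¹ • x)))⁻¹ • b x = (σ ^ (j x + 1))⁻¹ • b x := by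
    have := hj (σ⁻¹ • x)
    rw [hb_smul] at this
    rw [this, pow_succ, mul_inv_rev, mul_smul, hj x]
  rw [sum_range_eq_of_smul_eq hσ f hN (b x) _ _ hkey, Finset.sum_range_succ, hj x]
  ring

include hσ in
theorem hIndex_permNorm_permSubOne : hIndex (permNorm G (X := X)) (permSubOne σ) = 1 :=
  hIndex_eq_one_iff.mpr (ker_permNorm_le_range_permSubOne hσ)

end HMinusOne

/-! ### `Ĥ⁰(G, ℤ^X) = ∏_orbits ℤ/|Stab|` -/

section HZero

open MulAction

open scoped Classical in
/-- The number of `τ` with `τ⁻¹ • x = y` is `|Stab y|` if `y` is in the orbit of `x`, else `0`. -/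
theorem card_filter_inv_smul_eq (x y : X) :
    (univ.filter fun τ : G => τ⁻¹ • x = y).card =
      if y ∈ orbit G x then Nat.card (stabilizer G y) else 0 := by
  classical
  split_ifs with h
  · obtain ⟨τ₀, hτ₀⟩ := h
    -- τ₀ • x = y
    have hτ₀' : τ₀ • x = y := hτ₀
    have h1 : Nat.card (stabilizer G y) = (univ.filter fun g : G => g ∈ stabilizer G y).card := by
      rw [← Nat.card_eq_finsetCard]
      exact Nat.card_congr (Equiv.subtypeEquivRight (by simp))
    rw [h1]
    refine Finset.card_equiv (Equiv.mulLeft τ₀) fun τ => ?_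
    simp only [mem_filter, mem_univ, true_and, Equiv.coe_mulLeft, mem_stabilizer_iff]
    rw [← hτ₀', mul_smul]
    constructor
    · intro h
      rw [← h, ← mul_smul, ← mul_smul]
      simp [h.symm]
    · intro h
      have := congrArg (fun z => τ⁻¹ • τ₀⁻¹ • z) h
      simp only [smul_smul] at this
      have h2 : τ₀ • x = τ⁻¹ • x := by simpa [mul_assoc] using this
      exact h2.symm
  · rw [Finset.card_eq_zero, Finset.filter_eq_empty_iff]
    intro τ _ hτ
    exact h ⟨τ⁻¹, hτ⟩

open scoped Classical in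
/-- The norm in terms of orbits and stabilisers. -/
theorem permNorm_eq_sum_orbit [Fintype X] (h : X → ℤ) (x : X) :
    permNorm G h x =
      ∑ y : X, if y ∈ orbit G x then (Nat.card (stabilizer G y) : ℤ) * h y else 0 := by
  classical
  rw [permNorm_apply]
  have h1 : ∀ τ : G, h (τ⁻¹ • x) = ∑ y : X, if τ⁻¹ • x = y then h y else 0 := by
    intro τ
    rw [Finset.sum_ite_eq]
    simp
  simp_rw [h1]
  rw [Finset.sum_comm]
  refine Finset.sum_congr rfl fun y _ => ?_
  rw [← Finset.sum_filter, Finset.sum_const, card_filter_inv_smul_eq]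
  split_ifs <;> simp

omit [Fintype G] in
theorem card_stabilizer_eq_of_orbitRel {x y : X} (h : orbitRel G X x y) :
    Nat.card (stabilizer G x) = Nat.card (stabilizer G y) :=
  Nat.card_congr (stabilizerEquivStabilizerOfOrbitRel h).toEquiv

section Index

variable {σ : G} (hσ : ∀ τ, τ ∈ Subgroup.zpowers σ)

include hσ in
omit [Fintype G] in
/-- Elements of `ker (σ - 1)` are `G`-invariant functions. -/
theorem apply_smul_of_mem_ker_permSubOne {ψ : X → ℤ} (hψ : ψ ∈ (permSubOne (X := X) σ).ker)
    (τ : G) (x : X) : ψ (τ • x) = ψ x := by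
  have h0 : ∀ x, ψ (σ⁻¹ • x) = ψ x := by
    intro x
    have := congrFun (show permSubOne σ ψ = 0 from hψ) x
    rw [permSubOne_apply] at this
    exact sub_eq_zero.mp this
  let H : Subgroup G :=
    { carrier := {τ | ∀ x, ψ (τ • x) = ψ x}
      mul_mem' := by
        intro a b ha hb x
        rw [mul_smul, ha, hb]
      one_mem' := by intro x; rw [one_smul]
      inv_mem' := by
        intro a ha x
        have := ha (a⁻¹ • x)
        rw [smul_inv_smul] at this
        exact this.symm }
  have hσH : σ ∈ H := by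
    intro x
    have := h0 (σ • x)
    rw [inv_smul_smul] at this
    exact this.symm
  exact (Subgroup.zpowers_le.mpr hσH) (hσ τ) x

include hσ in
omit [Fintype G] in
theorem apply_eq_of_orbitRel {ψ : X → ℤ} (hψ : ψ ∈ (permSubOne (X := X) σ).ker) {x y : X}
    (h : orbitRel G X y x) : ψ y = ψ x := by
  obtain ⟨τ, rfl⟩ := h
  exact apply_smul_of_mem_ker_permSubOne hσ hψ τ x

omit [Fintype G] in
theorem mem_ker_permSubOne_of_forall {ψ : X → ℤ} (h : ∀ (τ : G) (x : X), ψ (τ • x) = ψ x) :
    ψ ∈ (permSubOne (X := X) σ).ker := by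
  rw [AddMonoidHom.mem_ker]
  funext x
  rw [permSubOne_apply, h, sub_self]
  rfl

/-- Reduction of the values at the chosen orbit representatives modulo the stabiliser orders. -/
noncomputable def permResidue (G : Type*) [Group G] (X : Type*) [MulAction G X] :
    (X → ℤ) →+ (∀ o : orbitRel.Quotient G X, ZMod (Nat.card (stabilizer G o.out))) where
  toFun ψ o := (ψ o.out : ZMod _)
  map_zero' := by funext o; simp
  map_add' ψ₁ ψ₂ := by funext o; simp

omit [Fintype G] in
theorem permResidue_apply (ψ : X → ℤ) (o : orbitRel.Quotient G X) :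
    permResidue G X ψ o = (ψ o.out : ZMod (Nat.card (stabilizer G o.out))) := rfl

omit [Fintype G] in
theorem out_mk_orbitRel (x : X) : orbitRel G X (Quotient.mk (orbitRel G X) x).out x :=
  Quotient.exact (Quotient.out_eq _)

include hσ in
/-- `Ĥ⁰(G, ℤ^X)`: inside the invariants, the norms are exactly the kernel of `permResidue`. -/
theorem mem_range_permNorm_iff [Fintype X] {ψ : X → ℤ} (hψ : ψ ∈ (permSubOne (X := X) σ).ker) :
    ψ ∈ (permNorm G (X := X)).range ↔ permResidue G X ψ = 0 := by
  classical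
  constructor
  · rintro ⟨h, rfl⟩
    funext o
    rw [permResidue_apply, Pi.zero_apply, ZMod.intCast_zmod_eq_zero_iff_dvd, permNorm_eq_sum_orbit]
    refine Finset.dvd_sum fun y _ => ?_
    split_ifs with hy
    · have : Nat.card (stabilizer G y) = Nat.card (stabilizer G o.out) :=
        card_stabilizer_eq_of_orbitRel hy
      rw [this]
      exact dvd_mul_right _ _
    · exact dvd_zero _
  · intro hres
    have hdvd : ∀ o : orbitRel.Quotient G X,
        (Nat.card (stabilizer G o.out) : ℤ) ∣ ψ o.out := by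
      intro o
      have := congrFun hres o
      rwa [permResidue_apply, Pi.zero_apply, ZMod.intCast_zmod_eq_zero_iff_dvd] at this
    let rep : X → X := fun y => (Quotient.mk (orbitRel G X) y).out
    refine ⟨fun y => if y = rep y then ψ y / (Nat.card (stabilizer G y) : ℤ) else 0, ?_⟩
    funext x
    rw [permNorm_eq_sum_orbit, Finset.sum_eq_single (rep x)]
    · have h1 : rep x ∈ orbit G x := out_mk_orbitRel x
      have h2 : rep (rep x) = rep x := by
        simp only [rep, Quotient.out_eq]
      rw [if_pos h1, if_pos h2.symm]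
      have h3 := hdvd (Quotient.mk (orbitRel G X) x)
      rw [Int.mul_ediv_cancel' h3]
      exact apply_eq_of_orbitRel hσ hψ (out_mk_orbitRel x)
    · intro y _ hy
      split_ifs with h1 h2
      · exfalso
        apply hy
        rw [h2]
        have : Quotient.mk (orbitRel G X) y = Quotient.mk (orbitRel G X) x := Quotient.sound h1
        simp only [rep, this]
      · simp
      · rfl
    · intro h; exact absurd (mem_univ _) h

include hσ in
/-- `|Ĥ⁰(G, ℤ^X)| = ∏_{orbits} |Stab|`. -/
theorem hIndex_permSubOne_permNorm [Fintype X] [Fintype (orbitRel.Quotient G X)] :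
    hIndex (permSubOne (X := X) σ) (permNorm G) =
      ∏ o : orbitRel.Quotient G X, Nat.card (stabilizer G o.out) := by
  classical
  unfold hIndex AddSubgroup.relIndex
  let φ := (permResidue G X).comp (permSubOne (X := X) σ).ker.subtype
  have hker : φ.ker = (permNorm G (X := X)).range.addSubgroupOf (permSubOne (X := X) σ).ker := by
    ext ⟨ψ, hψ⟩
    rw [AddMonoidHom.mem_ker, AddSubgroup.mem_addSubgroupOf]
    exact (mem_range_permNorm_iff hσ hψ).symm
  have hsurj : Function.Surjective φ := by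
    intro c
    let d : orbitRel.Quotient G X → ℤ := fun o => (c o).cast
    have hd : ∀ o, ((d o : ℤ) : ZMod (Nat.card (stabilizer G o.out))) = c o := fun o =>
      ZMod.intCast_zmod_cast (c o)
    refine ⟨⟨fun x => d (Quotient.mk (orbitRel G X) x), ?_⟩, ?_⟩
    · apply mem_ker_permSubOne_of_forall
      intro τ x
      have : Quotient.mk (orbitRel G X) (τ • x) = Quotient.mk (orbitRel G X) x :=
        Quotient.sound (mem_orbit x τ)
      simp only [this]
    · funext o
      change ((d (Quotient.mk (orbitRel G X) o.out) : ℤ) : ZMod _) = c o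
      rw [Quotient.out_eq, hd]
  rw [← hker, AddSubgroup.index_ker, AddMonoidHom.range_eq_top.mpr hsurj, AddSubgroup.card_top,
    Nat.card_pi]
  refine Finset.prod_congr rfl fun o _ => ?_
  rw [Nat.card_zmod]

omit [Fintype G] in
theorem card_stabilizer_pos [Finite G] (x : X) : 0 < Nat.card (stabilizer G x) := Nat.card_pos

include hσ in
/-- The Herbrand quotient of the permutation lattice `ℤ^X` is defined. -/
theorem herbrandDefined_permLattice [Fintype X] [Fintype (orbitRel.Quotient G X)] :
    HerbrandDefined (permSubOne (X := X) σ) (permNorm G) := by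
  refine ⟨?_, ?_⟩
  · rw [hIndex_permSubOne_permNorm hσ]
    exact Finset.prod_ne_zero_iff.mpr fun o _ => (card_stabilizer_pos _).ne'
  · rw [hIndex_permNorm_permSubOne hσ]
    exact one_ne_zero

include hσ in
/-- `h(ℤ^X) = ∏_{orbits} |Stab|`. -/
theorem hIndexQ_permLattice [Fintype X] [Fintype (orbitRel.Quotient G X)] :
    hIndexQ (permSubOne (X := X) σ) (permNorm G) =
      ∏ o : orbitRel.Quotient G X, (Nat.card (stabilizer G o.out) : ℚ) := by
  unfold hIndexQ
  rw [hIndex_permSubOne_permNorm hσ, hIndex_permNorm_permSubOne hσ]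
  push_cast
  rw [div_one]

end Index

end HZero

/-! ### The trace-zero sublattice -/

section TraceZero

open MulAction

variable [Fintype X]

/-- The augmentation `ℤ^X → ℤ`. -/
def permAug (X : Type*) [Fintype X] : (X → ℤ) →+ ℤ where
  toFun ψ := ∑ x, ψ x
  map_zero' := by simp
  map_add' ψ₁ ψ₂ := by simp [Finset.sum_add_distrib]

omit [Group G] [Fintype G] [MulAction G X] in
@[simp] theorem permAug_apply (ψ : X → ℤ) : permAug X ψ = ∑ x, ψ x := rfl

omit [Fintype G] in
theorem permAug_permSubOne (σ : G) (ψ : X → ℤ) : permAug X (permSubOne σ ψ) = 0 := by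
  simp only [permAug_apply, permSubOne_apply, Finset.sum_sub_distrib]
  rw [sub_eq_zero]
  exact Fintype.sum_equiv (MulAction.toPerm σ⁻¹) _ _ fun x => rfl

theorem permAug_permNorm (ψ : X → ℤ) :
    permAug X (permNorm G ψ) = (Fintype.card G : ℤ) * permAug X ψ := by
  simp only [permAug_apply, permNorm_apply]
  rw [Finset.sum_comm]
  have : ∀ τ : G, ∑ x : X, ψ (τ⁻¹ • x) = ∑ x : X, ψ x := fun τ =>
    Fintype.sum_equiv (MulAction.toPerm τ⁻¹) _ _ fun x => rfl
  simp_rw [this]
  rw [Finset.sum_const, Finset.card_univ, nsmul_eq_mul]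

omit [Group G] [Fintype G] [MulAction G X] in
theorem permAug_surjective [Nonempty X] : Function.Surjective (permAug X) := by
  classical
  intro n
  obtain ⟨x₀⟩ := ‹Nonempty X›
  refine ⟨Pi.single x₀ n, ?_⟩
  simp [permAug_apply]

/-- `Ĥ⁰` of `ℤ` with trivial action: `[ℤ : nℤ] = n`. -/
theorem hIndex_zero_mulLeft (n : ℕ) :
    hIndex (0 : ℤ →+ ℤ) (AddMonoidHom.mulLeft (n : ℤ)) = n := by
  unfold hIndex
  have h1 : (0 : ℤ →+ ℤ).ker = ⊤ := by
    ext x; simp
  have h2 : (AddMonoidHom.mulLeft (n : ℤ)).range = AddSubgroup.zmultiples (n : ℤ) := by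
    ext x
    simp only [AddMonoidHom.mem_range, AddMonoidHom.coe_mulLeft, Int.mem_zmultiples_iff]
    constructor
    · rintro ⟨y, rfl⟩; exact dvd_mul_right _ _
    · rintro ⟨y, rfl⟩; exact ⟨y, rfl⟩
  rw [h1, AddSubgroup.relIndex_top_right, h2, Int.index_zmultiples, Int.natAbs_natCast]

/-- `Ĥ⁻¹` of `ℤ` with trivial action vanishes. -/
theorem hIndex_mulLeft_zero (n : ℕ) (hn : n ≠ 0) :
    hIndex (AddMonoidHom.mulLeft (n : ℤ)) (0 : ℤ →+ ℤ) = 1 := by
  rw [hIndex_eq_one_iff]
  intro x hx
  rw [AddMonoidHom.mem_ker, AddMonoidHom.coe_mulLeft] at hx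
  have : x = 0 := by
    rcases mul_eq_zero.mp hx with h | h
    · exact absurd (by exact_mod_cast h) hn
    · exact h
  rw [this]
  exact zero_mem _

theorem herbrandDefined_int (n : ℕ) (hn : n ≠ 0) :
    HerbrandDefined (0 : ℤ →+ ℤ) (AddMonoidHom.mulLeft (n : ℤ)) := by
  refine ⟨?_, ?_⟩
  · rw [hIndex_zero_mulLeft]; exact hn
  · rw [hIndex_mulLeft_zero n hn]; exact one_ne_zero

theorem hIndexQ_int (n : ℕ) (hn : n ≠ 0) :
    hIndexQ (0 : ℤ →+ ℤ) (AddMonoidHom.mulLeft (n : ℤ)) = n := by
  unfold hIndexQ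
  rw [hIndex_zero_mulLeft, hIndex_mulLeft_zero n hn]
  simp

variable {σ : G} (hσ : ∀ τ, τ ∈ Subgroup.zpowers σ)

include hσ in
/-- **Herbrand quotient of a trace-zero permutation lattice** (abstract form): if
`i : A' → ℤ^X` is injective with image the augmentation kernel and intertwines `(f', g')` with
`(σ - 1, N)`, then `h(A') = (∏_{orbits} |Stab|) / |G|`. -/
theorem hIndexQ_traceZero [Nonempty X] [Fintype (orbitRel.Quotient G X)]
    {A' : Type*} [AddCommGroup A'] (i : A' →+ (X → ℤ)) (hi : Function.Injective i)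
    (hrange : i.range = (permAug X).ker) {f' g' : A' →+ A'}
    (hfi : ∀ a, i (f' a) = permSubOne σ (i a)) (hgi : ∀ a, i (g' a) = permNorm G (i a)) :
    HerbrandDefined f' g' ∧
      hIndexQ f' g' =
        (∏ o : orbitRel.Quotient G X, (Nat.card (stabilizer G o.out) : ℚ)) / Fintype.card G := by
  have hn : Fintype.card G ≠ 0 := Fintype.card_ne_zero
  have key := hIndexQ_mul_of_mid_right (i := i) (p := permAug X) (f' := f') (g' := g')
    (f := permSubOne σ) (g := permNorm G) (f'' := 0)
    (g'' := AddMonoidHom.mulLeft (Fintype.card G : ℤ)) hi permAug_surjective hrange hfi hgi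
    (fun a => by rw [permAug_permSubOne]; rfl)
    (fun a => by rw [permAug_permNorm]; rfl)
    (fun a => permSubOne_permNorm σ a) (fun a => permNorm_permSubOne σ a)
    (herbrandDefined_permLattice hσ) (herbrandDefined_int _ hn)
  refine ⟨key.1, ?_⟩
  have h2 := key.2
  rw [hIndexQ_permLattice hσ, hIndexQ_int _ hn] at h2
  have hn' : (Fintype.card G : ℚ) ≠ 0 := by exact_mod_cast hn
  rw [h2, mul_div_assoc, div_self hn', mul_one]

/-! ### Consumer forms: `G`-modules identified with (sub)lattices of `ℤ^X` -/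

section Module

variable {A : Type*} [AddCommGroup A] [DistribMulAction G A]

omit [Fintype G] [Fintype X] in
theorem permSubOne_of_equivariant (i : A →+ (X → ℤ))
    (hiG : ∀ (τ : G) (a : A) (x : X), i (τ • a) x = i a (τ⁻¹ • x)) (σ : G) (a : A) :
    i (subOneHom A σ a) = permSubOne σ (i a) := by
  funext x
  rw [subOneHom_apply, map_sub, Pi.sub_apply, hiG, permSubOne_apply]

omit [Fintype X] in
theorem permNorm_of_equivariant (i : A →+ (X → ℤ))
    (hiG : ∀ (τ : G) (a : A) (x : X), i (τ • a) x = i a (τ⁻¹ • x)) (a : A) :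
    i (normHom G A a) = permNorm G (i a) := by
  funext x
  rw [normHom_apply, map_sum, Finset.sum_apply, permNorm_apply]
  exact Finset.sum_congr rfl fun τ _ => hiG τ a x

include hσ in
/-- A `G`-module equivariantly isomorphic to the permutation lattice `ℤ^X` has Herbrand quotient
`∏_{orbits} |Stab|`. -/
theorem herbrand_of_equiv_permLattice [Fintype (orbitRel.Quotient G X)] (e : A ≃+ (X → ℤ))
    (heG : ∀ (τ : G) (a : A) (x : X), e (τ • a) x = e a (τ⁻¹ • x)) :
    HerbrandDefinedCyclic G A σ ∧
      herbrand G A σ = ∏ o : orbitRel.Quotient G X, (Nat.card (stabilizer G o.out) : ℚ) := by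
  have hf := permSubOne_of_equivariant (e : A →+ (X → ℤ)) heG σ
  have hg := permNorm_of_equivariant (e : A →+ (X → ℤ)) heG
  refine ⟨(herbrandDefined_congr e hf hg).mpr (herbrandDefined_permLattice hσ), ?_⟩
  unfold herbrand
  rw [hIndexQ_congr e hf hg, hIndexQ_permLattice hσ]

include hσ in
/-- A `G`-module equivariantly isomorphic to the trace-zero sublattice of `ℤ^X` has Herbrand
quotient `(∏_{orbits} |Stab|) / |G|`. -/
theorem herbrand_of_traceZero [Nonempty X] [Fintype (orbitRel.Quotient G X)]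
    (i : A →+ (X → ℤ)) (hi : Function.Injective i) (hrange : i.range = (permAug X).ker)
    (hiG : ∀ (τ : G) (a : A) (x : X), i (τ • a) x = i a (τ⁻¹ • x)) :
    HerbrandDefinedCyclic G A σ ∧
      herbrand G A σ =
        (∏ o : orbitRel.Quotient G X, (Nat.card (stabilizer G o.out) : ℚ)) / Fintype.card G :=
  hIndexQ_traceZero hσ i hi hrange (permSubOne_of_equivariant i hiG σ)
    (permNorm_of_equivariant i hiG)

end Module

/-! ### Re-indexing the product over orbits -/

section Reindex

omit [Fintype G] [Fintype X] in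
/-- If `q : X → Y` is onto with the `G`-orbits as fibres and `n (q x) = |Stab x|`, the product over
orbits is `∏ y, n y`. -/
theorem prod_card_stabilizer_eq_prod [Fintype (orbitRel.Quotient G X)] {Y : Type*} [Fintype Y]
    (q : X → Y) (hq : ∀ x x', q x = q x' ↔ orbitRel G X x x') (hsurj : Function.Surjective q)
    (n : Y → ℕ) (hn : ∀ x, Nat.card (stabilizer G x) = n (q x)) :
    ∏ o : orbitRel.Quotient G X, (Nat.card (stabilizer G o.out) : ℚ) = ∏ y, (n y : ℚ) := by
  let φ : orbitRel.Quotient G X → Y := Quotient.lift q fun a b h => (hq a b).mpr h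
  have hφ : Function.Bijective φ := by
    constructor
    · intro o o' h
      induction o using Quotient.inductionOn with
      | _ a =>
        induction o' using Quotient.inductionOn with
        | _ b => exact Quotient.sound ((hq a b).mp h)
    · intro y
      obtain ⟨x, rfl⟩ := hsurj y
      exact ⟨Quotient.mk _ x, rfl⟩
  refine Fintype.prod_bijective φ hφ _ _ fun o => ?_
  rw [hn]
  congr 2
  conv_rhs => rw [← Quotient.out_eq o]
  rfl

end Reindex

end TraceZero

end PermLattice
end Fermat.Agent.CFT
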