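/-
CFT stream [C], chunk (G2) (helper27): the Herbrand quotient of the unit group.

`N/F` a cyclic extension of number fields with group `G = ⟨σ⟩`.  Then
`h(G, 𝓞_Nˣ) = (∏_{v | ∞} n_v) / [N : F]` (`herbrand_units`), the product over the infinite places
of `F` (= orbits of `G` on the infinite places of `N`) of the orders of the decomposition groups;
in particular `h = 1 / [N : F]` if `N/F` is unramified at infinity (`herbrand_units_of_unramified`),
e.g. if `F` is totally complex or `[N : F]` is odd, and the same holds for every Galois-stable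
subgroup of finite index (`herbrand_of_finiteIndex_units`).

Proof: the full logarithmic embedding `logFull : 𝓞_Nˣ → {x ∈ ℝ^{Pl_∞(N)} | ∑ x = 0}` is
`G`-equivariant for the permutation action, has finite kernel, and its image is a full lattice
(Mathlib's Dirichlet unit theorem); lattice independence (`Coh/LatticeIndep.lean`, helper2) compares
it with the integral trace-zero lattice, whose Herbrand quotient is computed in
`Global/PermLattice.lean` (helper11).

The `G`-module structure on `Additive (𝓞 N)ˣ` is `additiveDistribMulAction` of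
`Local/UnitsCoh.lean` (helper8) on top of Mathlib's `Units.mulDistribMulActionRight`; consumers write
`attribute [local instance] additiveDistribMulAction Units.mulDistribMulActionRight`.
-/
import Mathlib
import Fermat.Agent.CFT.Coh.LatticeIndep
import Fermat.Agent.CFT.Global.PermLattice
import Fermat.Agent.CFT.Local.UnitsCoh

set_option autoImplicit false

namespace Fermat.Agent.CFT

open scoped BigOperators
open NumberField NumberField.InfinitePlace NumberField.Units

attribute [local instance] additiveDistribMulAction Units.mulDistribMulActionRight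

section StableSubgroup

variable {G : Type*} [Group G] {A : Type*} [AddCommGroup A] [DistribMulAction G A]

/-- The restriction of a `DistribMulAction` to a stable additive subgroup. -/
@[reducible] def stableSubgroupAction (H : AddSubgroup A) (hH : ∀ (g : G), ∀ a ∈ H, g • a ∈ H) :
    DistribMulAction G H where
  smul g a := ⟨g • (a : A), hH g a a.2⟩
  one_smul a := Subtype.ext (one_smul G (a : A))
  mul_smul g h a := Subtype.ext (mul_smul g h (a : A))
  smul_zero g := Subtype.ext (smul_zero g)
  smul_add g a b := Subtype.ext (smul_add g (a : A) b)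

end StableSubgroup

section FiniteKer

variable {G : Type*} [Group G] [Fintype G]
variable {A A'' : Type*} [AddCommGroup A] [AddCommGroup A'']
  [DistribMulAction G A] [DistribMulAction G A'']

/-- A surjective equivariant map with finite kernel does not change the Herbrand quotient. -/
theorem herbrand_eq_of_surjective_of_finite_ker (p : A →+ A'') (hp : Function.Surjective p)
    (hpG : ∀ (τ : G) (a : A), p (τ • a) = τ • p a) [Finite p.ker] (σ : G)
    (h'' : HerbrandDefinedCyclic G A'' σ) :
    HerbrandDefinedCyclic G A σ ∧ herbrand G A σ = herbrand G A'' σ := by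
  have hst : ∀ (g : G), ∀ a ∈ p.ker, g • a ∈ p.ker := by
    intro g a ha
    rw [AddMonoidHom.mem_ker] at ha ⊢
    rw [hpG, ha, smul_zero]
  let : DistribMulAction G p.ker := stableSubgroupAction p.ker hst
  have key := herbrand_mul_of_left_right (G := G) p.ker.subtype p Subtype.val_injective hp
    (by rw [AddSubgroup.range_subtype]) (fun _ _ => rfl) hpG σ
    (herbrandDefinedCyclic_of_finite σ) h''
  refine ⟨key.1, ?_⟩
  rw [key.2, herbrand_of_finite, one_mul]

end FiniteKer

section Hyperplane

variable (X : Type*) [Fintype X]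

/-- The trace-zero hyperplane of `ℝ^X`. -/
def hyperplaneR : Submodule ℝ (X → ℝ) where
  carrier := {f | ∑ x, f x = 0}
  zero_mem' := by simp
  add_mem' := by
    intro f g hf hg
    simp only [Set.mem_ofPred_eq] at hf hg ⊢
    simp [Finset.sum_add_distrib, hf, hg]
  smul_mem' := by
    intro c f hf
    simp only [Set.mem_ofPred_eq] at hf ⊢
    simp [← Finset.mul_sum, hf]

variable {X}

theorem mem_hyperplaneR {f : X → ℝ} : f ∈ hyperplaneR X ↔ ∑ x, f x = 0 := Iff.rfl

variable {G : Type*} [Group G] [MulAction G X]

/-- The permutation action on the trace-zero hyperplane: `(g • v) x = v (g⁻¹ • x)`. -/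
@[reducible] def hyperplaneAction : DistribMulAction G (hyperplaneR X) where
  smul g v := ⟨fun x => (v : X → ℝ) (g⁻¹ • x), by
    rw [mem_hyperplaneR]
    have := v.2
    rw [mem_hyperplaneR] at this
    rw [← this]
    exact Fintype.sum_equiv (MulAction.toPerm g⁻¹) _ _ fun x => rfl⟩
  one_smul v := by
    apply Subtype.ext
    funext x
    change (v : X → ℝ) ((1 : G)⁻¹ • x) = (v : X → ℝ) x
    rw [inv_one, one_smul]
  mul_smul g h v := by
    apply Subtype.ext
    funext x
    change (v : X → ℝ) ((g * h)⁻¹ • x) = (v : X → ℝ) (h⁻¹ • g⁻¹ • x)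
    rw [mul_inv_rev, mul_smul]
  smul_zero g := by
    apply Subtype.ext
    funext x
    rfl
  smul_add g v w := by
    apply Subtype.ext
    funext x
    rfl

attribute [local instance] hyperplaneAction

theorem hyperplane_smul_apply (g : G) (v : hyperplaneR X) (x : X) :
    ((g • v : hyperplaneR X) : X → ℝ) x = (v : X → ℝ) (g⁻¹ • x) := rfl

instance hyperplane_smulCommClass : SMulCommClass G ℝ (hyperplaneR X) where
  smul_comm g c v := by
    apply Subtype.ext
    funext x
    rfl

end Hyperplane

section Restrict

variable {X : Type*} [Fintype X] [DecidableEq X] (x₀ : X)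

/-- Restriction of a trace-zero function to the complement of a point. -/
def hypRestrict : hyperplaneR X →ₗ[ℝ] ({x : X // x ≠ x₀} → ℝ) where
  toFun v x' := (v : X → ℝ) x'.1
  map_add' _ _ := rfl
  map_smul' _ _ := rfl

@[simp] theorem hypRestrict_apply (v : hyperplaneR X) (x' : {x : X // x ≠ x₀}) :
    hypRestrict x₀ v x' = (v : X → ℝ) x'.1 := rfl

/-- Extension of a function on the complement of a point to a trace-zero function. -/
def hypExtend : ({x : X // x ≠ x₀} → ℝ) →ₗ[ℝ] hyperplaneR X where
  toFun g := ⟨fun x => if h : x = x₀ then -∑ x', g x' else g ⟨x, h⟩, by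
    rw [mem_hyperplaneR, Fintype.sum_eq_add_sum_subtype_ne _ x₀]
    simp only [dif_pos]
    rw [neg_add_eq_zero]
    refine Finset.sum_congr rfl fun x' _ => ?_
    rw [dif_neg x'.2]⟩
  map_add' g₁ g₂ := by
    apply Subtype.ext
    funext x
    by_cases h : x = x₀
    · simp [h, Finset.sum_add_distrib]; ring
    · simp [h]
  map_smul' c g := by
    apply Subtype.ext
    funext x
    by_cases h : x = x₀
    · simp [h, Finset.mul_sum]
    · simp [h]

theorem hypExtend_apply_of_ne (g : {x : X // x ≠ x₀} → ℝ) {x : X} (h : x ≠ x₀) :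
    (hypExtend x₀ g : X → ℝ) x = g ⟨x, h⟩ := by
  change (if h : x = x₀ then -∑ x', g x' else g ⟨x, h⟩) = _
  rw [dif_neg h]

theorem hypExtend_apply_self (g : {x : X // x ≠ x₀} → ℝ) :
    (hypExtend x₀ g : X → ℝ) x₀ = -∑ x', g x' := by
  change (if h : x₀ = x₀ then -∑ x', g x' else g ⟨x₀, h⟩) = _
  rw [dif_pos rfl]

/-- The hyperplane is isomorphic to the functions on the complement of a point. -/
def hypEquiv : hyperplaneR X ≃ₗ[ℝ] ({x : X // x ≠ x₀} → ℝ) :=
  LinearEquiv.ofLinearMap (hypRestrict x₀) (hypExtend x₀)
    (by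
      ext g x'
      simp only [LinearMap.coe_comp, Function.comp_apply, hypRestrict_apply, LinearMap.id_coe,
        id_eq]
      rw [hypExtend_apply_of_ne x₀ _ x'.2])
    (by
      ext v x
      simp only [LinearMap.coe_comp, Function.comp_apply, LinearMap.id_coe, id_eq]
      by_cases h : x = x₀
      · subst h
        rw [hypExtend_apply_self]
        have := v.2
        rw [mem_hyperplaneR, Fintype.sum_eq_add_sum_subtype_ne _ x] at this
        simp only [hypRestrict_apply]
        linarith
      · rw [hypExtend_apply_of_ne x₀ _ h]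
        rfl)

@[simp] theorem hypEquiv_apply (v : hyperplaneR X) (x' : {x : X // x ≠ x₀}) :
    hypEquiv x₀ v x' = (v : X → ℝ) x'.1 := rfl

end Restrict

section LogFull

variable (N : Type*) [Field N] [NumberField N]

/-- The full logarithmic embedding of the units, with values in the trace-zero hyperplane of
`ℝ^{InfinitePlace N}` (Mathlib's `logEmbedding` drops one coordinate). -/
noncomputable def logFull : Additive (𝓞 N)ˣ →+ hyperplaneR (InfinitePlace N) where
  toFun u := ⟨fun w => (mult w : ℝ) * Real.log (w ((Additive.toMul u : (𝓞 N)ˣ) : N)), by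
    rw [mem_hyperplaneR]
    exact sum_mult_mul_log (Additive.toMul u)⟩
  map_zero' := by
    apply Subtype.ext
    funext w
    simp
  map_add' u v := by
    apply Subtype.ext
    funext w
    simp only [toMul_add, Units.val_mul, map_mul, Submodule.coe_add, Pi.add_apply]
    rw [Real.log_mul, mul_add]
    · exact (pos_at_place _ w).ne'
    · exact (pos_at_place _ w).ne'

theorem logFull_apply (u : Additive (𝓞 N)ˣ) (w : InfinitePlace N) :
    (logFull N u : InfinitePlace N → ℝ) w =
      (mult w : ℝ) * Real.log (w ((Additive.toMul u : (𝓞 N)ˣ) : N)) := rfl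

open scoped Classical in
theorem hypEquiv_logFull (u : Additive (𝓞 N)ˣ) :
    hypEquiv (dirichletUnitTheorem.w₀ (K := N)) (logFull N u) = logEmbedding N u := rfl

end LogFull

section Equivariant

variable (F N : Type*) [Field F] [Field N] [NumberField F] [NumberField N] [Algebra F N]

attribute [local instance] hyperplaneAction

omit [NumberField F] [NumberField N] in
theorem mult_smul_eq (g : N ≃ₐ[F] N) (w : InfinitePlace N) : mult (g • w) = mult w := by
  rw [mult, mult, isReal_smul_iff]

theorem logFull_smul (g : N ≃ₐ[F] N) (u : Additive (𝓞 N)ˣ) :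
    logFull N (g • u) = g • logFull N u := by
  apply Subtype.ext
  funext w
  rw [hyperplane_smul_apply, logFull_apply, logFull_apply, mult_smul_eq, additive_smul_def,
    toMul_ofMul]
  have h1 : (algebraMap (𝓞 N) N) ((g • Additive.toMul u : (𝓞 N)ˣ) : 𝓞 N) =
      g (algebraMap (𝓞 N) N ((Additive.toMul u : (𝓞 N)ˣ) : 𝓞 N)) := rfl
  have h2 : (g⁻¹ • w) (algebraMap (𝓞 N) N ((Additive.toMul u : (𝓞 N)ˣ) : 𝓞 N)) =
      w (g (algebraMap (𝓞 N) N ((Additive.toMul u : (𝓞 N)ˣ) : 𝓞 N))) := rfl
  rw [h1, h2]

end Equivariant

section IntLattice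

variable {X : Type*} [Fintype X] {G : Type*} [Group G] [MulAction G X]

/-- The permutation action on the trace-zero sublattice of `ℤ^X`. -/
@[reducible] def augKerAction : DistribMulAction G (permAug X).ker where
  smul g a := ⟨fun x => (a : X → ℤ) (g⁻¹ • x), by
    rw [AddMonoidHom.mem_ker]
    have := a.2
    rw [AddMonoidHom.mem_ker] at this
    rw [← this]
    exact Fintype.sum_equiv (MulAction.toPerm g⁻¹) _ _ fun x => rfl⟩
  one_smul a := by
    apply Subtype.ext
    funext x
    change (a : X → ℤ) ((1 : G)⁻¹ • x) = (a : X → ℤ) x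
    rw [inv_one, one_smul]
  mul_smul g h a := by
    apply Subtype.ext
    funext x
    change (a : X → ℤ) ((g * h)⁻¹ • x) = (a : X → ℤ) (h⁻¹ • g⁻¹ • x)
    rw [mul_inv_rev, mul_smul]
  smul_zero g := by
    apply Subtype.ext
    funext x
    rfl
  smul_add g v w := by
    apply Subtype.ext
    funext x
    rfl

attribute [local instance] augKerAction hyperplaneAction

theorem augKer_smul_apply (g : G) (a : (permAug X).ker) (x : X) :
    ((g • a : (permAug X).ker) : X → ℤ) x = (a : X → ℤ) (g⁻¹ • x) := rfl

/-- The inclusion of the integral trace-zero lattice into the real hyperplane. -/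
def augKerToHyperplane : (permAug X).ker →+ hyperplaneR X where
  toFun a := ⟨fun x => ((a : X → ℤ) x : ℝ), by
    rw [mem_hyperplaneR]
    have := a.2
    rw [AddMonoidHom.mem_ker] at this
    have h2 : (permAug X) (a : X → ℤ) = ∑ x, (a : X → ℤ) x := rfl
    rw [h2] at this
    exact_mod_cast this⟩
  map_zero' := by
    apply Subtype.ext
    funext x
    simp
  map_add' a b := by
    apply Subtype.ext
    funext x
    simp

theorem augKerToHyperplane_apply (a : (permAug X).ker) (x : X) :
    (augKerToHyperplane a : X → ℝ) x = ((a : X → ℤ) x : ℝ) := rfl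

theorem augKerToHyperplane_injective :
    Function.Injective (augKerToHyperplane : (permAug X).ker →+ hyperplaneR X) := by
  intro a b h
  apply Subtype.ext
  funext x
  have := congrArg (fun v : hyperplaneR X => (v : X → ℝ) x) h
  simpa [augKerToHyperplane_apply] using this

theorem augKerToHyperplane_smul (g : G) (a : (permAug X).ker) :
    augKerToHyperplane (g • a) = g • augKerToHyperplane a := rfl

theorem mem_range_augKerToHyperplane (v : hyperplaneR X) :
    v ∈ (augKerToHyperplane : (permAug X).ker →+ hyperplaneR X).range ↔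
      ∀ x, ∃ z : ℤ, (z : ℝ) = (v : X → ℝ) x := by
  constructor
  · rintro ⟨a, rfl⟩ x
    exact ⟨(a : X → ℤ) x, rfl⟩
  · intro h
    choose z hz using h
    have hz0 : z ∈ (permAug X).ker := by
      rw [AddMonoidHom.mem_ker]
      have h2 : (permAug X) z = ∑ x, z x := rfl
      rw [h2]
      have := v.2
      rw [mem_hyperplaneR] at this
      have h3 : ((∑ x, z x : ℤ) : ℝ) = 0 := by
        rw [← this]
        push_cast
        exact Finset.sum_congr rfl fun x _ => hz x
      exact_mod_cast h3
    refine ⟨⟨z, hz0⟩, ?_⟩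
    apply Subtype.ext
    funext x
    exact hz x

end IntLattice

section Bases

variable (N : Type*) [Field N] [NumberField N]

open scoped Classical in
/-- An `ℝ`-basis of the trace-zero hyperplane whose `ℤ`-span is the image of the units. -/
noncomputable def unitBasis : Module.Basis (Fin (Units.rank N)) ℝ (hyperplaneR (InfinitePlace N)) :=
  ((basisUnitLattice N).ofZLatticeBasis ℝ (unitLattice N)).map
    (hypEquiv (dirichletUnitTheorem.w₀ (K := N))).symm

open scoped Classical in
theorem range_logFull : (logFull N).range = zLatticeOf (unitBasis N) := by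
  ext v
  rw [mem_zLatticeOf_iff]
  have hrepr : ∀ k, (unitBasis N).repr v k =
      ((basisUnitLattice N).ofZLatticeBasis ℝ (unitLattice N)).repr
        (hypEquiv (dirichletUnitTheorem.w₀ (K := N)) v) k := by
    intro k
    simp [unitBasis, Module.Basis.map_repr]
  simp_rw [hrepr]
  rw [← mem_zLatticeOf_iff]
  change _ ↔ hypEquiv (dirichletUnitTheorem.w₀ (K := N)) v ∈
    Submodule.span ℤ (Set.range ((basisUnitLattice N).ofZLatticeBasis ℝ (unitLattice N)))
  rw [Module.Basis.ofZLatticeBasis_span ℝ (unitLattice N)]
  constructor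
  · rintro ⟨u, rfl⟩
    exact ⟨u, trivial, hypEquiv_logFull N u⟩
  · rintro ⟨u, -, hu⟩
    refine ⟨u, ?_⟩
    apply (hypEquiv (dirichletUnitTheorem.w₀ (K := N))).injective
    rw [hypEquiv_logFull]
    exact hu

open scoped Classical in
theorem card_ne_w₀ :
    Fintype.card {w : InfinitePlace N // w ≠ dirichletUnitTheorem.w₀} = Units.rank N := by
  rw [Fintype.card_subtype_compl, Fintype.card_subtype_eq, Units.rank]

open scoped Classical in
/-- An `ℝ`-basis of the trace-zero hyperplane whose `ℤ`-span is the integral trace-zero lattice. -/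
noncomputable def stdBasis : Module.Basis (Fin (Units.rank N)) ℝ (hyperplaneR (InfinitePlace N)) :=
  ((Pi.basisFun ℝ {w : InfinitePlace N // w ≠ dirichletUnitTheorem.w₀}).reindex
    (Fintype.equivFinOfCardEq (card_ne_w₀ N))).map
    (hypEquiv (dirichletUnitTheorem.w₀ (K := N))).symm

open scoped Classical in
theorem range_augKerToHyperplane :
    (augKerToHyperplane : (permAug (InfinitePlace N)).ker →+ _).range = zLatticeOf (stdBasis N) := by
  ext v
  rw [mem_zLatticeOf_iff, mem_range_augKerToHyperplane]
  have hrepr : ∀ k, (stdBasis N).repr v k =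
      (v : InfinitePlace N → ℝ) ((Fintype.equivFinOfCardEq (card_ne_w₀ N)).symm k).1 := by
    intro k
    simp [stdBasis, Module.Basis.map_repr]
  simp_rw [hrepr]
  constructor
  · intro h k
    exact h _
  · intro h x
    by_cases hx : x = dirichletUnitTheorem.w₀
    · subst hx
      have hsum := v.2
      rw [mem_hyperplaneR, Fintype.sum_eq_add_sum_subtype_ne _ dirichletUnitTheorem.w₀] at hsum
      choose z hz using h
      refine ⟨-∑ x' : {w : InfinitePlace N // w ≠ dirichletUnitTheorem.w₀},
        z (Fintype.equivFinOfCardEq (card_ne_w₀ N) x'), ?_⟩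
      push_cast
      have : ∀ x' : {w : InfinitePlace N // w ≠ dirichletUnitTheorem.w₀},
          ((z (Fintype.equivFinOfCardEq (card_ne_w₀ N) x') : ℤ) : ℝ) =
            (v : InfinitePlace N → ℝ) x'.1 := by
        intro x'
        rw [hz, Equiv.symm_apply_apply]
      simp_rw [this]
      linarith
    · obtain ⟨z, hz⟩ := h (Fintype.equivFinOfCardEq (card_ne_w₀ N) ⟨x, hx⟩)
      refine ⟨z, ?_⟩
      rw [hz, Equiv.symm_apply_apply]

end Bases

section Main

variable (F N : Type*) [Field F] [Field N] [NumberField F] [NumberField N] [Algebra F N]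

attribute [local instance] augKerAction hyperplaneAction

open scoped Classical in
theorem finite_ker_logFull : Finite (logFull N).ker := by
  have hker : ∀ u : (logFull N).ker, Additive.toMul (u : Additive (𝓞 N)ˣ) ∈ torsion N := by
    intro u
    have h0 : logFull N u = 0 := u.2
    have h1 : logEmbedding N (u : Additive (𝓞 N)ˣ) = 0 := by
      rw [← hypEquiv_logFull, h0, map_zero]
    have := (dirichletUnitTheorem.logEmbedding_eq_zero_iff
      (x := Additive.toMul (u : Additive (𝓞 N)ˣ))).mp h1
    exact this
  exact Finite.of_injective (fun u : (logFull N).ker =>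
    (⟨Additive.toMul (u : Additive (𝓞 N)ˣ), hker u⟩ : torsion N)) (by
      intro u v h
      apply Subtype.ext
      have := congrArg (fun t : torsion N => (t : (𝓞 N)ˣ)) h
      exact this)

/-- **Herbrand quotient of the unit group** of a cyclic extension `N/F` of number fields:
`h(𝓞_Nˣ) = (∏_{v | ∞} n_v) / [N : F]`, the product over the infinite places of `F` (as orbits of
places of `N`) of the orders of the decomposition groups. -/
theorem herbrand_units [IsGalois F N] [Fintype (N ≃ₐ[F] N)]
    [Fintype (MulAction.orbitRel.Quotient (N ≃ₐ[F] N) (InfinitePlace N))]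
    {σ : N ≃ₐ[F] N} (hσ : ∀ τ, τ ∈ Subgroup.zpowers σ) :
    HerbrandDefinedCyclic (N ≃ₐ[F] N) (Additive (𝓞 N)ˣ) σ ∧
      herbrand (N ≃ₐ[F] N) (Additive (𝓞 N)ˣ) σ =
        (∏ o : MulAction.orbitRel.Quotient (N ≃ₐ[F] N) (InfinitePlace N),
          (Nat.card (MulAction.stabilizer (N ≃ₐ[F] N) o.out) : ℚ)) /
          Fintype.card (N ≃ₐ[F] N) := by
  classical
  -- the comparison lattice
  obtain ⟨h2def, h2val⟩ := herbrand_of_traceZero (G := N ≃ₐ[F] N) (X := InfinitePlace N) hσ
    (A := (permAug (InfinitePlace N)).ker) (permAug (InfinitePlace N)).ker.subtype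
    Subtype.val_injective (AddSubgroup.range_subtype _) (fun τ a x => rfl)
  -- the image lattice of the units
  have hst : ∀ (g : N ≃ₐ[F] N), ∀ v ∈ (logFull N).range, g • v ∈ (logFull N).range := by
    rintro g _ ⟨u, rfl⟩
    exact ⟨g • u, logFull_smul F N g u⟩
  let : DistribMulAction (N ≃ₐ[F] N) (logFull N).range :=
    stableSubgroupAction (logFull N).range hst
  obtain ⟨h1val, h1def⟩ := herbrand_eq_of_lattice_embeddings (G := N ≃ₐ[F] N)
    (logFull N).range.subtype
    (augKerToHyperplane : (permAug (InfinitePlace N)).ker →+ _)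
    Subtype.val_injective augKerToHyperplane_injective (fun _ _ => rfl)
    (fun g a => augKerToHyperplane_smul g a) (unitBasis N) (stdBasis N)
    (by rw [AddSubgroup.range_subtype, range_logFull]) (range_augKerToHyperplane N) σ
  -- the units map onto the image lattice with finite kernel
  have : Finite ((logFull N).rangeRestrict).ker := by
    rw [AddMonoidHom.ker_rangeRestrict]
    exact finite_ker_logFull N
  obtain ⟨h0def, h0val⟩ := herbrand_eq_of_surjective_of_finite_ker (G := N ≃ₐ[F] N)
    (logFull N).rangeRestrict (logFull N).rangeRestrict_surjective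
    (fun τ a => Subtype.ext (logFull_smul F N τ a)) σ (h1def.mpr h2def)
  exact ⟨h0def, by rw [h0val, h1val, h2val]⟩

end Main

section Corollaries

variable (F N : Type*) [Field F] [Field N] [NumberField F] [NumberField N] [Algebra F N]

/-- `h(𝓞_Nˣ) = 1 / [N : F]` for a cyclic extension unramified at the infinite places. -/
theorem herbrand_units_of_unramified [IsGalois F N] [Fintype (N ≃ₐ[F] N)]
    [IsUnramifiedAtInfinitePlaces F N]
    {σ : N ≃ₐ[F] N} (hσ : ∀ τ, τ ∈ Subgroup.zpowers σ) :
    HerbrandDefinedCyclic (N ≃ₐ[F] N) (Additive (𝓞 N)ˣ) σ ∧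
      herbrand (N ≃ₐ[F] N) (Additive (𝓞 N)ˣ) σ = 1 / (Fintype.card (N ≃ₐ[F] N) : ℚ) := by
  classical
  obtain ⟨hdef, hval⟩ := herbrand_units F N hσ
  refine ⟨hdef, ?_⟩
  rw [hval]
  congr 1
  refine Finset.prod_eq_one fun o _ => ?_
  rw [(NumberField.InfinitePlace.isUnramified F o.out).stabilizer_eq_bot, Subgroup.card_bot,
    Nat.cast_one]

/-- A totally complex base field is unramified at the infinite places in every extension. -/
theorem isUnramifiedAtInfinitePlaces_of_isTotallyComplex [IsTotallyComplex F] :
    IsUnramifiedAtInfinitePlaces F N where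
  isUnramified w := isUnramified_iff.mpr (Or.inr (IsTotallyComplex.isComplex _))

/-- `h(𝓞_Nˣ) = 1 / [N : F]` for a cyclic extension of a totally complex field. -/
theorem herbrand_units_of_isTotallyComplex [IsGalois F N] [Fintype (N ≃ₐ[F] N)]
    [IsTotallyComplex F] {σ : N ≃ₐ[F] N} (hσ : ∀ τ, τ ∈ Subgroup.zpowers σ) :
    HerbrandDefinedCyclic (N ≃ₐ[F] N) (Additive (𝓞 N)ˣ) σ ∧
      herbrand (N ≃ₐ[F] N) (Additive (𝓞 N)ˣ) σ = 1 / (Fintype.card (N ≃ₐ[F] N) : ℚ) := by
  have := isUnramifiedAtInfinitePlaces_of_isTotallyComplex F N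
  exact herbrand_units_of_unramified F N hσ

/-- `h(𝓞_Nˣ) = 1 / [N : F]` for a cyclic extension of odd degree. -/
theorem herbrand_units_of_odd [IsGalois F N] [Fintype (N ≃ₐ[F] N)]
    (hodd : Odd (Module.finrank F N)) {σ : N ≃ₐ[F] N} (hσ : ∀ τ, τ ∈ Subgroup.zpowers σ) :
    HerbrandDefinedCyclic (N ≃ₐ[F] N) (Additive (𝓞 N)ˣ) σ ∧
      herbrand (N ≃ₐ[F] N) (Additive (𝓞 N)ˣ) σ = 1 / (Fintype.card (N ≃ₐ[F] N) : ℚ) := by
  have := IsUnramifiedAtInfinitePlaces_of_odd_finrank hodd
  exact herbrand_units_of_unramified F N hσ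

/-- The same Herbrand quotient for every Galois-stable subgroup of finite index of the units,
given as an injective equivariant map `j : B → 𝓞_Nˣ` with image of finite index. -/
theorem herbrand_of_finiteIndex_units [IsGalois F N] [Fintype (N ≃ₐ[F] N)]
    [IsUnramifiedAtInfinitePlaces F N] {σ : N ≃ₐ[F] N} (hσ : ∀ τ, τ ∈ Subgroup.zpowers σ)
    {B : Type*} [AddCommGroup B] [DistribMulAction (N ≃ₐ[F] N) B]
    (j : B →+ Additive (𝓞 N)ˣ) (hj : Function.Injective j)
    (hjG : ∀ (τ : N ≃ₐ[F] N) (b : B), j (τ • b) = τ • j b) [j.range.FiniteIndex] :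
    HerbrandDefinedCyclic (N ≃ₐ[F] N) B σ ∧
      herbrand (N ≃ₐ[F] N) B σ = 1 / (Fintype.card (N ≃ₐ[F] N) : ℚ) := by
  obtain ⟨hdef, hval⟩ := herbrand_units_of_unramified F N hσ
  obtain ⟨h1, h2⟩ := herbrand_eq_of_injective_of_finiteIndex j hj hjG σ
  exact ⟨h2.mp hdef, by rw [← h1, hval]⟩

end Corollaries

end Fermat.Agent.CFT
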