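/-
CFT, S55 pool, GLOBAL layer (GL1) (helper27): the Herbrand quotient of the `S`-units.

`N/F` a cyclic extension of number fields with group `G = ⟨σ⟩`, `T` a finite `G`-stable set of
primes of `N`.  Then `h(G, U_T) = (∏_{orbits o of G on T} |G_w(o)|) * (∏_{v | ∞} n_v) / [N : F]`
(`herbrand_sUnit`), the products running over the `G`-orbits of `T` resp. of the infinite places
of `N` of the orders of the decomposition groups.

Proof: the exact sequence `0 → 𝓞_Nˣ → U_T → ℤ^T` (helper13's `SUnitRank.lean`), whose last map has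
image of finite index, `herbrand_units` (`UnitsHerbrand.lean`) and the Herbrand quotient of the
permutation lattice `ℤ^T` (helper11's `PermLattice.lean`).

The `G`-module structure on `Additive (sUnit N T)` is `additiveDistribMulAction` on top of
`sUnitMulDistribMulAction F N T hT`.
-/
import Mathlib
import Fermat.Agent.CFT.Global.UnitsHerbrand
import Fermat.Agent.CFT.Global.SUnitRank
import Fermat.Agent.CFT.Global.PrimeDivisor

set_option autoImplicit false
set_option linter.unusedSectionVars false
set_option linter.style.haveILetI false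

namespace Fermat.Agent.CFT

open scoped BigOperators
open NumberField IsDedekindDomain IsDedekindDomain.HeightOneSpectrum

attribute [local instance] additiveDistribMulAction Units.mulDistribMulActionRight
  heightOneSpectrumMulAction

section PermAction

variable {G : Type*} [Group G] {X : Type*} [MulAction G X]

/-- The permutation action on the lattice `ℤ^X`: `(g • f) x = f (g⁻¹ • x)`. -/
@[reducible] def permLatticeAction : DistribMulAction G (X → ℤ) where
  smul g f := fun x => f (g⁻¹ • x)
  one_smul f := by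
    funext x
    change f ((1 : G)⁻¹ • x) = f x
    rw [inv_one, one_smul]
  mul_smul g h f := by
    funext x
    change f ((g * h)⁻¹ • x) = f (h⁻¹ • g⁻¹ • x)
    rw [mul_inv_rev, mul_smul]
  smul_zero g := rfl
  smul_add g v w := rfl

end PermAction

attribute [local instance] permLatticeAction

section Action

variable (F N : Type*) [Field F] [Field N] [NumberField F] [NumberField N] [Algebra F N]

/-- Galois-equivariance of the adic valuations, for the action on units. -/
theorem valuation_smul_units (g : N ≃ₐ[F] N) (w : HeightOneSpectrum (𝓞 N)) (u : Nˣ) :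
    w.valuation N ((g • u : Nˣ) : N) = (g⁻¹ • w).valuation N (u : N) := by
  have h := hos_smul_valuation F N g (g⁻¹ • w) (u : N)
  rw [smul_inv_smul] at h
  exact h

variable (T : Finset (HeightOneSpectrum (𝓞 N)))
  (hT : ∀ (g : N ≃ₐ[F] N), ∀ w ∈ T, g • w ∈ T)

include hT in
theorem inv_smul_notMem_of_notMem (g : N ≃ₐ[F] N) {w : HeightOneSpectrum (𝓞 N)} (hw : w ∉ T) :
    g⁻¹ • w ∉ T := by
  intro h
  apply hw
  have := hT g _ h
  rwa [smul_inv_smul] at this

include hT in
theorem smul_mem_sUnit (g : N ≃ₐ[F] N) {u : Nˣ} (hu : u ∈ sUnit N T) : g • u ∈ sUnit N T := by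
  rw [mem_sUnit_iff] at hu ⊢
  intro w hw
  rw [valuation_smul_units]
  exact hu _ (inv_smul_notMem_of_notMem F N T hT g hw)

/-- The Galois action on the `T`-units, `T` a Galois-stable finite set of primes. -/
@[reducible] def sUnitMulDistribMulAction : MulDistribMulAction (N ≃ₐ[F] N) (sUnit N T) where
  smul g u := ⟨g • (u : Nˣ), smul_mem_sUnit F N T hT g u.2⟩
  one_smul u := Subtype.ext (one_smul _ (u : Nˣ))
  mul_smul g h u := Subtype.ext (mul_smul g h (u : Nˣ))
  smul_mul g u v := Subtype.ext (smul_mul' g (u : Nˣ) (v : Nˣ))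
  smul_one g := Subtype.ext (smul_one g)

/-- The Galois action on a Galois-stable finite set of primes. -/
@[reducible] def finsetPrimesMulAction : MulAction (N ≃ₐ[F] N) T where
  smul g w := ⟨g • (w : HeightOneSpectrum (𝓞 N)), hT g w w.2⟩
  one_smul w := Subtype.ext (one_smul _ (w : HeightOneSpectrum (𝓞 N)))
  mul_smul g h w := Subtype.ext (mul_smul g h (w : HeightOneSpectrum (𝓞 N)))

end Action

section Main

variable (F N : Type*) [Field F] [Field N] [NumberField F] [NumberField N] [Algebra F N]
variable (T : Finset (HeightOneSpectrum (𝓞 N)))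
  (hT : ∀ (g : N ≃ₐ[F] N), ∀ w ∈ T, g • w ∈ T)

/-- `sUnitVal` is Galois-equivariant for the permutation action on `ℤ^T`. -/
theorem sUnitVal_smul (g : N ≃ₐ[F] N) :
    letI := sUnitMulDistribMulAction F N T hT
    letI := finsetPrimesMulAction F N T hT
    ∀ (u : Additive (sUnit N T)) (w : T), sUnitVal N T (g • u) w = sUnitVal N T u (g⁻¹ • w) := by
  letI := sUnitMulDistribMulAction F N T hT
  letI := finsetPrimesMulAction F N T hT
  intro u w
  apply WithZero.exp_injective
  rw [exp_sUnitVal_apply, exp_sUnitVal_apply]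
  exact valuation_smul_units F N g (w : HeightOneSpectrum (𝓞 N))
    ((Additive.toMul u : sUnit N T) : Nˣ)

/-- the inclusion of the units into the `T`-units is Galois-equivariant -/
theorem unitsToSUnit_smul (g : N ≃ₐ[F] N) :
    letI := sUnitMulDistribMulAction F N T hT
    ∀ u : Additive (𝓞 N)ˣ, (unitsToSUnit N T).toAdditive (g • u) =
      g • (unitsToSUnit N T).toAdditive u := by
  letI := sUnitMulDistribMulAction F N T hT
  intro u
  rfl

/-- **Herbrand quotient of the `T`-units** of a cyclic extension `N/F` of number fields, `T` a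
Galois-stable finite set of primes of `N`:
`h(U_T) = (∏_{orbits on T} |G_w|) * (∏_{v | ∞} n_v) / [N : F]`. -/
theorem herbrand_sUnit [IsGalois F N] [Fintype (N ≃ₐ[F] N)]
    [Fintype (MulAction.orbitRel.Quotient (N ≃ₐ[F] N) (InfinitePlace N))]
    {σ : N ≃ₐ[F] N} (hσ : ∀ τ, τ ∈ Subgroup.zpowers σ) :
    letI := sUnitMulDistribMulAction F N T hT
    letI := finsetPrimesMulAction F N T hT
    ∀ [Fintype (MulAction.orbitRel.Quotient (N ≃ₐ[F] N) T)],
    HerbrandDefinedCyclic (N ≃ₐ[F] N) (Additive (sUnit N T)) σ ∧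
      herbrand (N ≃ₐ[F] N) (Additive (sUnit N T)) σ =
        (∏ o : MulAction.orbitRel.Quotient (N ≃ₐ[F] N) T,
          (Nat.card (MulAction.stabilizer (N ≃ₐ[F] N) o.out) : ℚ)) *
        ((∏ o : MulAction.orbitRel.Quotient (N ≃ₐ[F] N) (InfinitePlace N),
          (Nat.card (MulAction.stabilizer (N ≃ₐ[F] N) o.out) : ℚ)) /
          Fintype.card (N ≃ₐ[F] N)) := by
  classical
  letI := sUnitMulDistribMulAction F N T hT
  letI := finsetPrimesMulAction F N T hT
  intro _
  -- the units
  obtain ⟨hUdef, hUval⟩ := herbrand_units F N hσ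
  -- the permutation lattice
  obtain ⟨hPdef, hPval⟩ := herbrand_of_equiv_permLattice (G := N ≃ₐ[F] N) (X := T) hσ
    (A := T → ℤ) (AddEquiv.refl _) (fun τ a x => rfl)
  -- the image of the valuation map
  have hst : ∀ (g : N ≃ₐ[F] N), ∀ a ∈ (sUnitVal N T).range, g • a ∈ (sUnitVal N T).range := by
    rintro g _ ⟨u, rfl⟩
    refine ⟨g • u, ?_⟩
    funext w
    exact sUnitVal_smul F N T hT g u w
  letI : DistribMulAction (N ≃ₐ[F] N) (sUnitVal N T).range :=
    stableSubgroupAction (sUnitVal N T).range hst
  have hrange : ((sUnitVal N T).range.subtype).range.FiniteIndex := by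
    rw [AddSubgroup.range_subtype]
    infer_instance
  obtain ⟨hRval, hRdef⟩ := herbrand_eq_of_injective_of_finiteIndex (G := N ≃ₐ[F] N)
    (sUnitVal N T).range.subtype Subtype.val_injective (fun _ _ => rfl) σ
  -- the exact sequence
  have hi : Function.Injective (unitsToSUnit N T).toAdditive := unitsToSUnit_injective N T
  have hp : Function.Surjective (sUnitVal N T).rangeRestrict :=
    (sUnitVal N T).rangeRestrict_surjective
  have hex : (unitsToSUnit N T).toAdditive.range = (sUnitVal N T).rangeRestrict.ker := by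
    rw [AddMonoidHom.ker_rangeRestrict, range_unitsToSUnit_eq_ker]
  obtain ⟨hdef, hval⟩ := herbrand_mul_of_left_right (G := N ≃ₐ[F] N)
    (unitsToSUnit N T).toAdditive (sUnitVal N T).rangeRestrict hi hp hex
    (fun τ a => unitsToSUnit_smul F N T hT τ a)
    (fun τ a => Subtype.ext (funext fun w => sUnitVal_smul F N T hT τ a w)) σ hUdef
    (hRdef.mp hPdef)
  refine ⟨hdef, ?_⟩
  rw [hval, hUval, ← hRval, hPval, mul_comm]

end Main

section PrimesOver

open MulAction

variable (F N : Type*) [Field F] [Field N] [NumberField F] [NumberField N] [Algebra F N]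
  [IsGalois F N]

/-- the fibres of `primeBelow` are finite -/
theorem finite_setOf_primeBelow_eq (q : HeightOneSpectrum (𝓞 F)) :
    {w : HeightOneSpectrum (𝓞 N) | primeBelow F N w = q}.Finite := by
  obtain ⟨w0, hw0⟩ := primeBelow_surjective F N q
  refine (Set.finite_range fun g : N ≃ₐ[F] N => g • w0).subset fun w hw => ?_
  obtain ⟨g, hg⟩ := exists_smul_eq_of_primeBelow_eq F N (hw0.trans (Eq.symm hw))
  exact ⟨g, hg.symm⟩

/-- the primes of `N` above a finite set `S` of primes of `F` -/
noncomputable def primesAbove (S : Finset (HeightOneSpectrum (𝓞 F))) :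
    Finset (HeightOneSpectrum (𝓞 N)) :=
  (S.finite_toSet.biUnion fun q _ => finite_setOf_primeBelow_eq F N q).toFinset

variable {F N} in
@[simp] theorem mem_primesAbove {S : Finset (HeightOneSpectrum (𝓞 F))}
    {w : HeightOneSpectrum (𝓞 N)} : w ∈ primesAbove F N S ↔ primeBelow F N w ∈ S := by
  simp [primesAbove]

theorem smul_mem_primesAbove (S : Finset (HeightOneSpectrum (𝓞 F))) (g : N ≃ₐ[F] N)
    (w : HeightOneSpectrum (𝓞 N)) (hw : w ∈ primesAbove F N S) : g • w ∈ primesAbove F N S := by
  rw [mem_primesAbove] at hw ⊢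
  rwa [primeBelow_smul]

/-- **Herbrand quotient of the `S`-units**, `S` a finite set of primes of the base field:
`h(U_S(N)) = (∏_{v ∈ S} n_v) * (∏_{v | ∞} n_v) / [N : F]`, where `n_v` is the order of the
decomposition group of any prime of `N` above `v`. -/
theorem herbrand_sUnit_primesAbove [Fintype (N ≃ₐ[F] N)]
    [Fintype (MulAction.orbitRel.Quotient (N ≃ₐ[F] N) (InfinitePlace N))]
    (S : Finset (HeightOneSpectrum (𝓞 F))) {σ : N ≃ₐ[F] N} (hσ : ∀ τ, τ ∈ Subgroup.zpowers σ)
    (n : HeightOneSpectrum (𝓞 F) → ℕ)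
    (hn : ∀ w : HeightOneSpectrum (𝓞 N), primeBelow F N w ∈ S →
      Nat.card (stabilizer (N ≃ₐ[F] N) w) = n (primeBelow F N w)) :
    letI := sUnitMulDistribMulAction F N (primesAbove F N S) (smul_mem_primesAbove F N S)
    HerbrandDefinedCyclic (N ≃ₐ[F] N) (Additive (sUnit N (primesAbove F N S))) σ ∧
      herbrand (N ≃ₐ[F] N) (Additive (sUnit N (primesAbove F N S))) σ =
        (∏ v ∈ S, (n v : ℚ)) *
        ((∏ o : MulAction.orbitRel.Quotient (N ≃ₐ[F] N) (InfinitePlace N),
          (Nat.card (MulAction.stabilizer (N ≃ₐ[F] N) o.out) : ℚ)) /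
          Fintype.card (N ≃ₐ[F] N)) := by
  classical
  letI := sUnitMulDistribMulAction F N (primesAbove F N S) (smul_mem_primesAbove F N S)
  letI := finsetPrimesMulAction F N (primesAbove F N S) (smul_mem_primesAbove F N S)
  letI : Fintype (MulAction.orbitRel.Quotient (N ≃ₐ[F] N) (primesAbove F N S)) :=
    Fintype.ofFinite _
  obtain ⟨hdef, hval⟩ := herbrand_sUnit F N (primesAbove F N S) (smul_mem_primesAbove F N S) hσ
  refine ⟨hdef, ?_⟩
  rw [hval]
  congr 1
  -- re-index the product over the orbits by `S`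
  let q : (primesAbove F N S) → S := fun w => ⟨primeBelow F N w.1, mem_primesAbove.mp w.2⟩
  have hq : ∀ x x' : (primesAbove F N S), q x = q x' ↔
      orbitRel (N ≃ₐ[F] N) (primesAbove F N S) x x' := by
    intro x x'
    have h1 : q x = q x' ↔ primeBelow F N x.1 = primeBelow F N x'.1 := by
      constructor
      · intro h
        exact congrArg Subtype.val h
      · intro h
        exact Subtype.ext h
    rw [h1, primeBelow_eq_iff_orbitRel]
    constructor
    · rintro ⟨g, hg⟩
      exact ⟨g, Subtype.ext hg⟩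
    · rintro ⟨g, hg⟩
      exact ⟨g, congrArg Subtype.val hg⟩
  have hsurj : Function.Surjective q := by
    rintro ⟨v, hv⟩
    obtain ⟨w, hw⟩ := primeBelow_surjective F N v
    exact ⟨⟨w, mem_primesAbove.mpr (hw ▸ hv)⟩, Subtype.ext hw⟩
  have hst : ∀ x : (primesAbove F N S),
      Nat.card (stabilizer (N ≃ₐ[F] N) x) = n (q x : HeightOneSpectrum (𝓞 F)) := by
    intro x
    rw [← hn x.1 (mem_primesAbove.mp x.2)]
    refine Nat.card_congr (Equiv.subtypeEquivRight fun g => ?_)
    rw [mem_stabilizer_iff, mem_stabilizer_iff]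
    constructor
    · intro h
      exact congrArg Subtype.val h
    · intro h
      exact Subtype.ext h
  rw [prod_card_stabilizer_eq_prod q hq hsurj (fun v => n (v : HeightOneSpectrum (𝓞 F))) hst]
  exact Finset.prod_coe_sort S fun v => (n v : ℚ)

end PrimesOver

end Fermat.Agent.CFT
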