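import Mathlib

set_option autoImplicit false

/-!
# CFT, stream [C]: the ideal-theoretic Artin symbol of a finite abelian extension of number fields

`frobOf K L 𝔮` is a Frobenius element of a maximal ideal `𝔮` of `𝓞 K` in `Gal(L/K)` (an arithmetic
Frobenius at a chosen prime of `𝓞 L` above `𝔮`); when `Gal(L/K)` is commutative it is a Frobenius
at every prime above `𝔮`.  `artinIdeal K L` extends it multiplicatively to all ideals of `𝓞 K`.
-/

open NumberField UniqueFactorizationMonoid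
open scoped Pointwise IsMulCommutative

namespace Fermat.Agent.CFT

section Frob

variable (K L : Type*) [Field K] [NumberField K] [Field L] [NumberField L] [Algebra K L]
  [IsGalois K L]

/-- a chosen prime of `𝓞 L` above `𝔮` -/
noncomputable def primeOver (𝔮 : Ideal (𝓞 K)) [𝔮.IsMaximal] : Ideal (𝓞 L) :=
  (Classical.arbitrary (𝔮.primesOver (𝓞 L))).1

instance primeOver_isMaximal (𝔮 : Ideal (𝓞 K)) [𝔮.IsMaximal] : (primeOver K L 𝔮).IsMaximal :=
  Ideal.primesOver.isMaximal _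

instance primeOver_liesOver (𝔮 : Ideal (𝓞 K)) [𝔮.IsMaximal] : (primeOver K L 𝔮).LiesOver 𝔮 :=
  (Classical.arbitrary (𝔮.primesOver (𝓞 L))).2.2

/-- the Frobenius element at `𝔮` (at the chosen prime above `𝔮`). -/
noncomputable def frobOf (𝔮 : Ideal (𝓞 K)) [𝔮.IsMaximal] : Gal(L/K) :=
  arithFrobAt (𝓞 K) Gal(L/K) (primeOver K L 𝔮)

theorem isArithFrobAt_frobOf (𝔮 : Ideal (𝓞 K)) [𝔮.IsMaximal] :
    IsArithFrobAt (𝓞 K) (frobOf K L 𝔮) (primeOver K L 𝔮) :=
  IsArithFrobAt.arithFrobAt (𝓞 K) Gal(L/K) (primeOver K L 𝔮)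

/-- In an abelian extension, `frobOf K L 𝔮` is a Frobenius at every prime above `𝔮`. -/
theorem isArithFrobAt_frobOf_of_liesOver [IsMulCommutative Gal(L/K)]
    (𝔮 : Ideal (𝓞 K)) [𝔮.IsMaximal] (Q : Ideal (𝓞 L)) [Q.IsPrime] [hQ : Q.LiesOver 𝔮] :
    IsArithFrobAt (𝓞 K) (frobOf K L 𝔮) Q := by
  obtain ⟨τ, hτ⟩ := Algebra.IsInvariant.exists_smul_of_under_eq (𝓞 K) (𝓞 L) Gal(L/K)
    (primeOver K L 𝔮) Q
    (((primeOver_liesOver K L 𝔮).over).symm.trans hQ.over)
  have h := (isArithFrobAt_frobOf K L 𝔮).conj τ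
  rw [← hτ] at h
  have hc : τ * frobOf K L 𝔮 * τ⁻¹ = frobOf K L 𝔮 := by
    rw [mul_comm' τ, mul_assoc, mul_inv_cancel, mul_one]
  rwa [hc] at h

/-- Frobenius of an arbitrary ideal: `1` unless the ideal is maximal. -/
noncomputable def frobIdeal (𝔮 : Ideal (𝓞 K)) : Gal(L/K) :=
  open Classical in if h : 𝔮.IsMaximal then @frobOf K L _ _ _ _ _ _ 𝔮 h else 1

theorem frobIdeal_of_isMaximal (𝔮 : Ideal (𝓞 K)) [h : 𝔮.IsMaximal] :
    frobIdeal K L 𝔮 = frobOf K L 𝔮 := by
  rw [frobIdeal, dif_pos h]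

variable [IsMulCommutative Gal(L/K)]

/-- The Artin symbol of an ideal of `𝓞 K`: the product of the Frobenius elements of its prime
factors (with multiplicity). -/
noncomputable def artinIdeal (I : Ideal (𝓞 K)) : Gal(L/K) :=
  ((normalizedFactors I).map (frobIdeal K L)).prod

theorem artinIdeal_mul {I J : Ideal (𝓞 K)} (hI : I ≠ ⊥) (hJ : J ≠ ⊥) :
    artinIdeal K L (I * J) = artinIdeal K L I * artinIdeal K L J := by
  rw [artinIdeal, artinIdeal, artinIdeal, normalizedFactors_mul hI hJ, Multiset.map_add,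
    Multiset.prod_add]

theorem artinIdeal_top : artinIdeal K L ⊤ = 1 := by
  rw [artinIdeal, ← Ideal.one_eq_top, normalizedFactors_one, Multiset.map_zero, Multiset.prod_zero]

theorem artinIdeal_of_isPrime {𝔮 : Ideal (𝓞 K)} (h𝔮 : 𝔮.IsPrime) (h0 : 𝔮 ≠ ⊥) :
    artinIdeal K L 𝔮 = frobIdeal K L 𝔮 := by
  have hirr : Irreducible 𝔮 := (Ideal.prime_of_isPrime h0 h𝔮).irreducible
  rw [artinIdeal, normalizedFactors_irreducible hirr, normalize_eq, Multiset.map_singleton,
    Multiset.prod_singleton]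

theorem artinIdeal_of_isMaximal (𝔮 : Ideal (𝓞 K)) [h𝔮 : 𝔮.IsMaximal] :
    artinIdeal K L 𝔮 = frobOf K L 𝔮 := by
  have h0 : 𝔮 ≠ ⊥ := Ring.ne_bot_of_isMaximal_of_not_isField h𝔮 (RingOfIntegers.not_isField K)
  rw [artinIdeal_of_isPrime K L h𝔮.isPrime h0, frobIdeal_of_isMaximal]

theorem artinIdeal_pow {I : Ideal (𝓞 K)} (hI : I ≠ ⊥) (n : ℕ) :
    artinIdeal K L (I ^ n) = artinIdeal K L I ^ n := by
  induction n with
  | zero => rw [pow_zero, pow_zero, Ideal.one_eq_top, artinIdeal_top]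
  | succ n ih =>
    rw [pow_succ, pow_succ, artinIdeal_mul K L (pow_ne_zero n hI) hI, ih]

theorem artinIdeal_prod {ι : Type*} (s : Finset ι) (f : ι → Ideal (𝓞 K)) (hf : ∀ i ∈ s, f i ≠ ⊥) :
    artinIdeal K L (∏ i ∈ s, f i) = ∏ i ∈ s, artinIdeal K L (f i) := by
  classical
  induction s using Finset.induction_on with
  | empty => rw [Finset.prod_empty, Finset.prod_empty, Ideal.one_eq_top, artinIdeal_top]
  | insert a s ha ih =>
    rw [Finset.prod_insert ha, Finset.prod_insert ha, artinIdeal_mul K L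
      (hf a (Finset.mem_insert_self a s)) ?_, ih fun i hi => hf i (Finset.mem_insert_of_mem hi)]
    rw [← Ideal.zero_eq_bot, Finset.prod_ne_zero_iff]
    exact fun i hi => hf i (Finset.mem_insert_of_mem hi)

end Frob

end Fermat.Agent.CFT
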