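import Mathlib
import Fermat.Agent.CFT.Global.ArtinSymbol

set_option autoImplicit false

/-!
# CFT, stream [C]: Frobenius elements on roots of unity and the (trivial) cyclotomic reciprocity
law in ideal-theoretic form

* `frobOf_smul_of_pow_eq_one`, `artinIdeal_smul_of_pow_eq_one`: the Artin symbol of an ideal `I`
  prime to `n` acts on `n`-th roots of unity by `ζ ↦ ζ ^ N(I)`.
* `absNorm_modEq_one_of_isPrimitiveRoot`: in a field containing `μ_n`, ideals prime to `n` have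
  norm `≡ 1 mod n`.
* `norm_int_modEq_of_sub_mem`: the norm to `ℤ` is compatible with congruences modulo `n`.
* `norm_rat_pos_of_isTotallyComplex`, `norm_int_pos_of_isTotallyComplex`.
* `artinIdeal_span_singleton_eq_one_of_norm`: **cyclotomic reciprocity**: for `E = K(ζ_n)`, `K`
  totally complex, `b ∈ 𝓞 K` prime to `n` with `b ≡ N_{E/K}(y) mod n`, the Artin symbol of `(b)`
  in `E/K` is trivial.
-/

open NumberField UniqueFactorizationMonoid InfinitePlace
open scoped Pointwise IsMulCommutative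

namespace Fermat.Agent.CFT

section CycloFrob

variable (K L : Type*) [Field K] [NumberField K] [Field L] [NumberField L] [Algebra K L]
  [IsGalois K L]

/-- the Frobenius at `𝔮` raises roots of unity of order prime to `𝔮` to the power `N 𝔮`. -/
theorem frobOf_smul_of_pow_eq_one (𝔮 : Ideal (𝓞 K)) [𝔮.IsMaximal] {n : ℕ}
    (hn : (n : 𝓞 K) ∉ 𝔮) {ζ : 𝓞 L} (hζ : ζ ^ n = 1) :
    frobOf K L 𝔮 • ζ = ζ ^ Ideal.absNorm 𝔮 := by
  have h := isArithFrobAt_frobOf K L 𝔮
  have hover : (primeOver K L 𝔮).under (𝓞 K) = 𝔮 :=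
    ((primeOver_liesOver K L 𝔮).over).symm
  have hn' : ((n : ℕ) : 𝓞 L) ∉ primeOver K L 𝔮 := by
    intro hmem
    apply hn
    rw [← hover, Ideal.under_def, Ideal.mem_comap, map_natCast]
    exact hmem
  have h2 := AlgHom.IsArithFrobAt.apply_of_pow_eq_one h hζ hn'
  rw [hover] at h2
  rw [Ideal.absNorm_apply, Submodule.cardQuot_apply]
  exact h2

variable [IsMulCommutative Gal(L/K)]

/-- the Artin symbol of an ideal `I` prime to `n` raises `n`-th roots of unity to the power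
`N I`. -/
theorem artinIdeal_smul_of_pow_eq_one {n : ℕ} {ζ : 𝓞 L} (hζ : ζ ^ n = 1) (I : Ideal (𝓞 K))
    (hI0 : I ≠ ⊥) (hI : ∀ 𝔮 : Ideal (𝓞 K), 𝔮.IsMaximal → I ≤ 𝔮 → (n : 𝓞 K) ∉ 𝔮) :
    artinIdeal K L I • ζ = ζ ^ Ideal.absNorm I := by
  induction I using UniqueFactorizationMonoid.induction_on_prime with
  | h₁ => exact absurd rfl hI0
  | h₂ I hu =>
    rw [Ideal.isUnit_iff] at hu
    rw [hu, artinIdeal_top, one_smul, Ideal.absNorm_top, pow_one]
  | h₃ I 𝔮 hI0' h𝔮 ih =>
    have h𝔮0 : 𝔮 ≠ ⊥ := h𝔮.ne_zero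
    have h𝔮max : 𝔮.IsMaximal := (Ideal.isPrime_of_prime h𝔮).isMaximal h𝔮0
    have hn𝔮 : (n : 𝓞 K) ∉ 𝔮 := hI 𝔮 h𝔮max Ideal.mul_le_left
    have ihI := ih hI0' fun 𝔮' h𝔮' hle => hI 𝔮' h𝔮' (le_trans Ideal.mul_le_right hle)
    rw [artinIdeal_mul K L h𝔮0 hI0', mul_smul, ihI, smul_pow', artinIdeal_of_isMaximal,
      frobOf_smul_of_pow_eq_one K L 𝔮 hn𝔮 hζ, ← pow_mul, map_mul]

end CycloFrob

section Norms

/-- if `N(I)` is prime to `n` then no maximal ideal containing `I` contains `n`. -/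
theorem natCast_not_mem_of_coprime_absNorm {K : Type*} [Field K] [NumberField K] {n : ℕ}
    {I : Ideal (𝓞 K)} (hI : (Ideal.absNorm I).Coprime n) (𝔮 : Ideal (𝓞 K)) (h𝔮 : 𝔮.IsMaximal)
    (hle : I ≤ 𝔮) : (n : 𝓞 K) ∉ 𝔮 := by
  intro hn
  have h1 : Ideal.absNorm 𝔮 ∣ Ideal.absNorm I := Ideal.absNorm_dvd_absNorm_of_le hle
  have h2 : Ideal.absNorm 𝔮 ∣ n ^ Module.finrank ℚ K := by
    have hle' : Ideal.span {(n : 𝓞 K)} ≤ 𝔮 := (Ideal.span_singleton_le_iff_mem _).mpr hn
    have := Ideal.absNorm_dvd_absNorm_of_le hle'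
    rwa [Ideal.absNorm_span_singleton, show ((n : 𝓞 K)) = algebraMap ℤ (𝓞 K) (n : ℤ) by simp,
      Algebra.norm_algebraMap, RingOfIntegers.rank, Int.natAbs_pow, Int.natAbs_natCast] at this
  have h3 : Ideal.absNorm 𝔮 = 1 :=
    Nat.eq_one_of_dvd_coprimes (Nat.Coprime.pow_right _ hI) h1 h2
  exact h𝔮.ne_top (Ideal.absNorm_eq_one_iff.mp h3)

/-- In a number field containing a primitive `n`-th root of unity, the norm of a prime ideal
prime to `n` is `≡ 1 mod n`. -/
theorem absNorm_prime_modEq_one {F : Type*} [Field F] [NumberField F] {n : ℕ} [NeZero n]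
    {ζ : 𝓞 F} (hζ : IsPrimitiveRoot ζ n) (𝔮 : Ideal (𝓞 F)) [h𝔮 : 𝔮.IsMaximal]
    (hc : (Ideal.absNorm 𝔮).Coprime n) : Ideal.absNorm 𝔮 ≡ 1 [MOD n] := by
  have h1 : Ideal.absNorm 𝔮 ≠ 1 := Ideal.absNorm_eq_one_iff.not.mpr h𝔮.ne_top
  have hprim := hζ.idealQuotient_mk h1 hc
  let _ := Ideal.Quotient.field 𝔮
  have hfin : Finite (𝓞 F ⧸ 𝔮) := inferInstance
  cases nonempty_fintype (𝓞 F ⧸ 𝔮)
  have hne : (Ideal.Quotient.mk 𝔮 ζ) ≠ 0 := hprim.ne_zero (NeZero.ne n)
  have hpow := FiniteField.pow_card_sub_one_eq_one (Ideal.Quotient.mk 𝔮 ζ) hne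
  have hdvd := hprim.dvd_of_pow_eq_one _ hpow
  have hcard : Fintype.card (𝓞 F ⧸ 𝔮) = Ideal.absNorm 𝔮 := by
    rw [Ideal.absNorm_apply, Submodule.cardQuot_apply, Nat.card_eq_fintype_card]
  rw [hcard] at hdvd
  have hpos : 1 ≤ Ideal.absNorm 𝔮 := by
    have : Ideal.absNorm 𝔮 ≠ 0 := by
      rw [Ne, Ideal.absNorm_eq_zero_iff]
      exact Ring.ne_bot_of_isMaximal_of_not_isField h𝔮 (RingOfIntegers.not_isField F)
    omega
  exact ((Nat.modEq_iff_dvd' hpos).mpr hdvd).symm

/-- In a number field containing a primitive `n`-th root of unity, the norm of an ideal prime to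
`n` is `≡ 1 mod n`. -/
theorem absNorm_modEq_one_of_isPrimitiveRoot {F : Type*} [Field F] [NumberField F] {n : ℕ}
    [NeZero n] {ζ : 𝓞 F} (hζ : IsPrimitiveRoot ζ n) (I : Ideal (𝓞 F))
    (hI : (Ideal.absNorm I).Coprime n) : Ideal.absNorm I ≡ 1 [MOD n] := by
  induction I using UniqueFactorizationMonoid.induction_on_prime with
  | h₁ =>
    have h0 : Ideal.absNorm (0 : Ideal (𝓞 F)) = 0 := by
      rw [Ideal.zero_eq_bot, Ideal.absNorm_bot]
    rw [h0, Nat.coprime_zero_left] at hI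
    rw [hI]
    exact Nat.modEq_one
  | h₂ I hu =>
    rw [Ideal.isUnit_iff] at hu
    rw [hu, Ideal.absNorm_top]
  | h₃ I 𝔮 hI0' h𝔮 ih =>
    have h𝔮0 : 𝔮 ≠ ⊥ := h𝔮.ne_zero
    have h𝔮max : 𝔮.IsMaximal := (Ideal.isPrime_of_prime h𝔮).isMaximal h𝔮0
    rw [map_mul] at hI ⊢
    have h1 := absNorm_prime_modEq_one hζ 𝔮 (Nat.Coprime.coprime_mul_right hI)
    have h2 := ih (Nat.Coprime.coprime_mul_left hI)
    simpa using h1.mul h2

/-- the norm to `ℤ` of an algebraic integer only depends, modulo `n`, on its class modulo `n`. -/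
theorem norm_int_modEq_of_sub_mem {K : Type*} [Field K] [NumberField K] {n : ℕ} {b b' : 𝓞 K}
    (h : b - b' ∈ Ideal.span {(n : 𝓞 K)}) :
    Algebra.norm ℤ b ≡ Algebra.norm ℤ b' [ZMOD n] := by
  classical
  obtain ⟨c, hc⟩ := Ideal.mem_span_singleton'.mp h
  have hb : b = b' + n • c := by rw [nsmul_eq_mul, mul_comm, hc]; ring
  rw [← ZMod.intCast_eq_intCast_iff]
  rw [Algebra.norm_eq_matrix_det (RingOfIntegers.basis K) b,
    Algebra.norm_eq_matrix_det (RingOfIntegers.basis K) b']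
  have key : ∀ M : Matrix (Module.Free.ChooseBasisIndex ℤ (𝓞 K))
      (Module.Free.ChooseBasisIndex ℤ (𝓞 K)) ℤ,
      ((M.det : ℤ) : ZMod n) = (M.map (Int.castRingHom (ZMod n))).det := fun M =>
    RingHom.map_det (Int.castRingHom (ZMod n)) M
  rw [key, key]
  congr 1
  rw [hb, map_add, map_nsmul]
  ext i j
  simp only [Matrix.map_apply, Matrix.add_apply, Matrix.smul_apply, Int.coe_castRingHom]
  rw [nsmul_eq_mul]
  push_cast
  rw [ZMod.natCast_self, zero_mul, add_zero]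

/-- In a totally complex number field every nonzero element has positive norm. -/
theorem norm_rat_pos_of_isTotallyComplex {K : Type*} [Field K] [NumberField K]
    [IsTotallyComplex K] {x : K} (hx : x ≠ 0) : 0 < Algebra.norm ℚ x := by
  classical
  have h1 : ((Algebra.norm ℚ x : ℚ) : ℂ) = ∏ φ : K →+* ℂ, φ x := by
    have := Algebra.norm_eq_prod_embeddings ℚ ℂ x
    rw [eq_ratCast] at this
    rw [this, ← Fintype.prod_equiv (RingHom.equivRatAlgHom K ℂ) (fun f => f x)
      (fun φ => φ x) fun _ => by simp [RingHom.equivRatAlgHom_apply]]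
  rw [← Finset.prod_fiberwise Finset.univ InfinitePlace.mk (fun φ => φ x)] at h1
  have h2 : ∀ w : InfinitePlace K,
      ∏ φ ∈ ({φ | InfinitePlace.mk φ = w} : Finset (K →+* ℂ)), φ x = ((w x ^ 2 : ℝ) : ℂ) := by
    intro w
    have hcard : ({φ | InfinitePlace.mk φ = w} : Finset (K →+* ℂ)).card = 2 := by
      rw [card_filter_mk_eq, IsTotallyComplex.mult_eq]
    obtain ⟨a, b, hab, hS⟩ := Finset.card_eq_two.mp hcard
    have ha : InfinitePlace.mk a = w := by
      have : a ∈ ({φ | InfinitePlace.mk φ = w} : Finset (K →+* ℂ)) := by rw [hS]; simp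
      simpa using this
    have hb : InfinitePlace.mk b = w := by
      have : b ∈ ({φ | InfinitePlace.mk φ = w} : Finset (K →+* ℂ)) := by rw [hS]; simp
      simpa using this
    have hconj : ComplexEmbedding.conjugate a = b := by
      rcases mk_eq_iff.mp (ha.trans hb.symm) with h | h
      · exact absurd h hab
      · exact h
    rw [hS, Finset.prod_pair hab, ← hconj, ComplexEmbedding.conjugate_coe_eq, Complex.mul_conj,
      Complex.normSq_eq_norm_sq, ← ha, InfinitePlace.apply]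
  have h3 : ((Algebra.norm ℚ x : ℚ) : ℝ) = ∏ w : InfinitePlace K, w x ^ 2 := by
    apply Complex.ofReal_injective
    rw [Complex.ofReal_ratCast, h1, Complex.ofReal_prod]
    exact Finset.prod_congr rfl fun w _ => h2 w
  have h4 : (0 : ℝ) < ∏ w : InfinitePlace K, w x ^ 2 :=
    Finset.prod_pos fun w _ => pow_pos (InfinitePlace.pos_iff.mpr hx) 2
  rw [← h3] at h4
  exact_mod_cast h4

theorem norm_int_pos_of_isTotallyComplex {K : Type*} [Field K] [NumberField K]
    [IsTotallyComplex K] {x : 𝓞 K} (hx : x ≠ 0) : 0 < Algebra.norm ℤ x := by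
  have h := norm_rat_pos_of_isTotallyComplex (K := K) (x := (x : K))
    (by rwa [Ne, RingOfIntegers.coe_eq_zero_iff])
  rw [← Algebra.coe_norm_int] at h
  exact_mod_cast h

/-- for a totally complex field, `N((x)) = N_{K/ℚ}(x)`. -/
theorem absNorm_span_singleton_of_isTotallyComplex {K : Type*} [Field K] [NumberField K]
    [IsTotallyComplex K] {x : 𝓞 K} (hx : x ≠ 0) :
    (Ideal.absNorm (Ideal.span {x}) : ℤ) = Algebra.norm ℤ x := by
  rw [Ideal.absNorm_span_singleton, Int.natAbs_of_nonneg (norm_int_pos_of_isTotallyComplex hx).le]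

end Norms

theorem eq_one_of_smul_eq_of_isCyclotomicExtension (K E : Type*) [Field K] [NumberField K]
    [Field E] [NumberField E] [Algebra K E] {n : ℕ} [NeZero n] [IsCyclotomicExtension {n} K E]
    {ζ : 𝓞 E} (hζ : IsPrimitiveRoot ζ n) (σ : Gal(E/K)) (h : σ • ζ = ζ) : σ = 1 := by
  have hζ' : IsPrimitiveRoot (ζ : E) n := hζ.map_of_injective RingOfIntegers.coe_injective
  have htop := IsCyclotomicExtension.adjoin_primitive_root_eq_top hζ' (A := K)
  have h' : σ (ζ : E) = (ζ : E) := congrArg (fun x : 𝓞 E => (x : E)) h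
  have : (σ : E →ₐ[K] E) = AlgHom.id K E := by
    apply AlgHom.ext_of_adjoin_eq_top htop
    intro x hx
    rw [Set.mem_singleton_iff] at hx
    rw [hx]
    exact h'
  ext x
  exact DFunLike.congr_fun this x

section Main


variable (K E : Type*) [Field K] [NumberField K] [Field E] [NumberField E] [Algebra K E]

theorem norm_int_ringOfIntegers_norm (y : 𝓞 E) :
    Algebra.norm ℤ (RingOfIntegers.norm K y) = Algebra.norm ℤ y := by
  have h : ((Algebra.norm ℤ (RingOfIntegers.norm K y) : ℤ) : ℚ) = ((Algebra.norm ℤ y : ℤ) : ℚ) := by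
    rw [Algebra.coe_norm_int, Algebra.coe_norm_int, RingOfIntegers.coe_norm, Algebra.norm_norm]
  exact_mod_cast h

variable [IsGalois K E] [IsMulCommutative Gal(E/K)]

/-- **Cyclotomic reciprocity** (ideal-theoretic, trivial form). -/
theorem artinIdeal_span_singleton_eq_one_of_norm [IsTotallyComplex K] {n : ℕ} [NeZero n]
    {ζ : 𝓞 E} (hζ : IsPrimitiveRoot ζ n) (hgen : ∀ σ : Gal(E/K), σ • ζ = ζ → σ = 1)
    {b : 𝓞 K} (hb : (Ideal.absNorm (Ideal.span {b})).Coprime n) (y : 𝓞 E)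
    (hy : b - RingOfIntegers.norm K y ∈ Ideal.span {(n : 𝓞 K)}) :
    artinIdeal K E (Ideal.span {b}) = 1 := by
  apply hgen
  by_cases hn1 : n = 1
  · have : ζ = 1 := by
      have := hζ.pow_eq_one
      rwa [hn1, pow_one] at this
    rw [this, smul_one]
  have hE : IsTotallyComplex E := isTotallyComplex_of_algebra K E
  have hb0 : b ≠ 0 := by
    rintro rfl
    rw [Ideal.span_singleton_zero, Ideal.absNorm_bot, Nat.coprime_zero_left] at hb
    exact hn1 hb
  have hbI : Ideal.span {b} ≠ (⊥ : Ideal (𝓞 K)) := by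
    rwa [Ne, Ideal.span_singleton_eq_bot]
  have hNb := absNorm_span_singleton_of_isTotallyComplex hb0
  have hcong : Algebra.norm ℤ b ≡ Algebra.norm ℤ y [ZMOD n] := by
    have := norm_int_modEq_of_sub_mem hy
    rwa [norm_int_ringOfIntegers_norm] at this
  have hy0 : y ≠ 0 := by
    rintro rfl
    rw [Algebra.norm_zero, ← hNb] at hcong
    have hdvd : (n : ℤ) ∣ (Ideal.absNorm (Ideal.span {b}) : ℤ) := Int.modEq_zero_iff_dvd.mp hcong
    rw [Int.natCast_dvd_natCast] at hdvd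
    have := Nat.Coprime.eq_one_of_dvd hb.symm hdvd
    exact hn1 this
  have hNy := absNorm_span_singleton_of_isTotallyComplex hy0
  rw [← hNb, ← hNy] at hcong
  have hcong' : Ideal.absNorm (Ideal.span {b}) ≡ Ideal.absNorm (Ideal.span {y}) [MOD n] :=
    Int.natCast_modEq_iff.mp hcong
  have hyc : (Ideal.absNorm (Ideal.span {y})).Coprime n := by
    have := hcong'.gcd_eq
    rw [Nat.Coprime, ← this]
    exact hb
  have h1 := absNorm_modEq_one_of_isPrimitiveRoot hζ _ hyc
  have h2 : Ideal.absNorm (Ideal.span {b}) ≡ 1 [MOD n] := hcong'.trans h1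
  rw [artinIdeal_smul_of_pow_eq_one K E hζ.pow_eq_one _ hbI
    (natCast_not_mem_of_coprime_absNorm hb)]
  conv_rhs => rw [← pow_one ζ]
  rw [← pow_mod_orderOf ζ (Ideal.absNorm (Ideal.span {b})), ← pow_mod_orderOf ζ 1,
    ← hζ.eq_orderOf]
  exact congrArg (ζ ^ ·) h2

/-- **Cyclotomic reciprocity** for `E = K(ζ_n)`, `K` totally complex: a principal ideal `(b)`,
`b` prime to `n`, `b ≡ N_{E/K}(y) mod n`, has trivial Artin symbol. -/
theorem artinIdeal_span_singleton_eq_one_of_isCyclotomicExtension [IsTotallyComplex K] {n : ℕ}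
    [NeZero n] [IsCyclotomicExtension {n} K E]
    {b : 𝓞 K} (hb : (Ideal.absNorm (Ideal.span {b})).Coprime n) (y : 𝓞 E)
    (hy : b - RingOfIntegers.norm K y ∈ Ideal.span {(n : 𝓞 K)}) :
    artinIdeal K E (Ideal.span {b}) = 1 := by
  have hζ := IsCyclotomicExtension.zeta_spec n K E
  have hζ' : IsPrimitiveRoot hζ.toInteger n := hζ.toInteger_isPrimitiveRoot
  exact artinIdeal_span_singleton_eq_one_of_norm K E hζ'
    (eq_one_of_smul_eq_of_isCyclotomicExtension K E hζ') hb y hy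

/-- the special case `b ≡ 1 mod n`. -/
theorem artinIdeal_span_singleton_eq_one_of_sub_one_mem [IsTotallyComplex K] {n : ℕ}
    [NeZero n] [IsCyclotomicExtension {n} K E]
    {b : 𝓞 K} (hb : b - 1 ∈ Ideal.span {(n : 𝓞 K)}) :
    artinIdeal K E (Ideal.span {b}) = 1 := by
  refine artinIdeal_span_singleton_eq_one_of_isCyclotomicExtension K E ?_ 1 (by rwa [map_one])
  -- `(b)` is prime to `n`
  have hcong := norm_int_modEq_of_sub_mem hb
  rw [map_one] at hcong
  rw [Ideal.absNorm_span_singleton]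
  have h1 : IsCoprime (Algebra.norm ℤ b) (n : ℤ) := by
    obtain ⟨c, hc⟩ := (Int.modEq_iff_dvd.mp hcong.symm)
    exact ⟨1, -c, by rw [one_mul]; linarith⟩
  have h2 := Int.isCoprime_iff_gcd_eq_one.mp h1
  rwa [Int.gcd, Int.natAbs_natCast] at h2

end Main

end Fermat.Agent.CFT
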