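import Mathlib
import Fermat.Agent.CFT.Global.ArtinSymbol

set_option autoImplicit false
set_option linter.unusedSectionVars false

/-!
# CFT, stream [C]: uniqueness of Frobenius elements at unramified primes and the functorial
properties of the ideal-theoretic Artin symbol
-/

open NumberField UniqueFactorizationMonoid
open scoped Pointwise IsMulCommutative

namespace Fermat.Agent.CFT

section Generic

variable {G S : Type*} [Group G] [CommRing S] [MulSemiringAction G S]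

/-- `σ` acts as `x ↦ x ^ q` modulo `Q`. -/
def IsFrobPowAt (σ : G) (Q : Ideal S) (q : ℕ) : Prop := ∀ x : S, σ • x - x ^ q ∈ Q

theorem IsFrobPowAt.mul_inv_mem_inertia {σ σ' : G} {Q : Ideal S} {q : ℕ}
    (h : IsFrobPowAt σ Q q) (h' : IsFrobPowAt σ' Q q) : σ * σ'⁻¹ ∈ Q.inertia G := by
  intro x
  simpa [mul_smul] using sub_mem (h (σ'⁻¹ • x)) (h' (σ'⁻¹ • x))

theorem IsFrobPowAt.eq_of_inertia_eq_bot {σ σ' : G} {Q : Ideal S} {q : ℕ}
    (h : IsFrobPowAt σ Q q) (h' : IsFrobPowAt σ' Q q) (hQ : Q.inertia G = ⊥) : σ = σ' := by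
  have := h.mul_inv_mem_inertia h'
  rw [hQ, Subgroup.mem_bot] at this
  exact mul_inv_eq_one.mp this

theorem IsFrobPowAt.pow {σ : G} {Q : Ideal S} {q : ℕ} (h : IsFrobPowAt σ Q q) (n : ℕ) :
    IsFrobPowAt (σ ^ n) Q (q ^ n) := by
  induction n with
  | zero => intro x; simp
  | succ n ih =>
    intro x
    have h1 : σ ^ (n + 1) • x - x ^ q ^ (n + 1) =
        (σ • (σ ^ n • x) - (σ ^ n • x) ^ q) + ((σ ^ n • x) ^ q - (x ^ q ^ n) ^ q) := by
      rw [pow_succ' σ n, mul_smul, pow_succ, pow_mul]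
      ring
    rw [h1]
    refine add_mem (h _) ?_
    exact Ideal.mem_of_dvd _ (sub_dvd_pow_sub_pow _ _ q) (ih x)

theorem isFrobPowAt_one (Q : Ideal S) [Q.IsPrime] [Finite (S ⧸ Q)] :
    IsFrobPowAt (1 : G) Q (Nat.card (S ⧸ Q)) := by
  intro x
  have : Q.IsMaximal := Ideal.Quotient.maximal_of_isField _ (Finite.isField_of_domain (S ⧸ Q))
  let : Field (S ⧸ Q) := Ideal.Quotient.field Q
  cases nonempty_fintype (S ⧸ Q)
  rw [one_smul, ← Ideal.Quotient.eq, map_pow, Nat.card_eq_fintype_card, FiniteField.pow_card]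

theorem isFrobPowAt_of_isArithFrobAt {R : Type*} [CommRing R] [Algebra R S] [SMulCommClass G R S]
    {σ : G} {Q : Ideal S} (h : IsArithFrobAt R σ Q) :
    IsFrobPowAt σ Q (Nat.card (R ⧸ Q.under R)) := fun x => h x

instance isMaximal_smul {G R : Type*} [Group G] [CommRing R] [MulSemiringAction G R] (σ : G)
    (I : Ideal R) [I.IsMaximal] : (σ • I).IsMaximal :=
  Ideal.map_isMaximal_of_equiv (MulSemiringAction.toRingEquiv G R σ)

theorem card_quotient_smul {G R : Type*} [Group G] [CommRing R] [MulSemiringAction G R] (σ : G)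
    (I : Ideal R) : Nat.card (R ⧸ σ • I) = Nat.card (R ⧸ I) :=
  (Nat.card_congr (Ideal.quotientEquiv I (σ • I) (MulSemiringAction.toRingEquiv G R σ)
    rfl).toEquiv).symm

end Generic

section NumberField

variable (K L : Type*) [Field K] [NumberField K] [Field L] [NumberField L] [Algebra K L]
  [IsGalois K L]

/-- `L/K` is unramified at the prime `𝔮` of `K`: every prime of `L` above `𝔮` has trivial inertia
group. -/
def IsUnramifiedAtPrime (𝔮 : Ideal (𝓞 K)) : Prop :=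
  ∀ Q : Ideal (𝓞 L), Q.IsPrime → Q.LiesOver 𝔮 → Q.inertia Gal(L/K) = ⊥

/-- `L/K` is unramified at all finite primes. -/
def IsUnramifiedEverywhere : Prop :=
  ∀ Q : Ideal (𝓞 L), Q.IsPrime → Q ≠ ⊥ → Q.inertia Gal(L/K) = ⊥

theorem isUnramifiedEverywhere_iff :
    IsUnramifiedEverywhere K L ↔ ∀ Q : Ideal (𝓞 L), Q.IsPrime → Q ≠ ⊥ →
      ∀ g : Gal(L/K), (∀ x : 𝓞 L, g • x - x ∈ Q) → g = 1 := by
  refine forall_congr' fun Q => forall_congr' fun _ => forall_congr' fun _ => ?_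
  rw [Subgroup.eq_bot_iff_forall]
  rfl

variable {K L} in
theorem IsUnramifiedEverywhere.isUnramifiedAtPrime (h : IsUnramifiedEverywhere K L)
    (𝔮 : Ideal (𝓞 K)) [h𝔮 : 𝔮.IsMaximal] : IsUnramifiedAtPrime K L 𝔮 := by
  intro Q hQ hQ𝔮
  refine h Q hQ ?_
  rintro rfl
  have h0 : 𝔮 ≠ ⊥ := Ring.ne_bot_of_isMaximal_of_not_isField h𝔮 (RingOfIntegers.not_isField K)
  apply h0
  rw [hQ𝔮.over]
  exact Ideal.under_bot _ _

theorem isFrobPowAt_frobOf [IsMulCommutative Gal(L/K)] (𝔮 : Ideal (𝓞 K)) [𝔮.IsMaximal]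
    (Q : Ideal (𝓞 L)) [Q.IsPrime] [hQ : Q.LiesOver 𝔮] :
    IsFrobPowAt (frobOf K L 𝔮) Q (Nat.card (𝓞 K ⧸ 𝔮)) := by
  have h := isFrobPowAt_of_isArithFrobAt (isArithFrobAt_frobOf_of_liesOver K L 𝔮 Q)
  rwa [← hQ.over] at h

/-- Uniqueness of the Frobenius element at an unramified prime. -/
theorem frobOf_eq_of_isFrobPowAt [IsMulCommutative Gal(L/K)] (𝔮 : Ideal (𝓞 K)) [𝔮.IsMaximal]
    (Q : Ideal (𝓞 L)) [Q.IsPrime] [Q.LiesOver 𝔮] (hQ : Q.inertia Gal(L/K) = ⊥)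
    (σ : Gal(L/K)) (hσ : IsFrobPowAt σ Q (Nat.card (𝓞 K ⧸ 𝔮))) : frobOf K L 𝔮 = σ :=
  (isFrobPowAt_frobOf K L 𝔮 Q).eq_of_inertia_eq_bot hσ hQ

/-- At an unramified prime the Frobenius element has order dividing the inertia degree. -/
theorem frobOf_pow_inertiaDeg [IsMulCommutative Gal(L/K)] (𝔮 : Ideal (𝓞 K)) [𝔮.IsMaximal]
    (Q : Ideal (𝓞 L)) [Q.IsPrime] [Q.LiesOver 𝔮] (hQ : Q.inertia Gal(L/K) = ⊥) :
    frobOf K L 𝔮 ^ Q.inertiaDeg (𝓞 K) = 1 := by
  have hmax : Q.IsMaximal := Ideal.IsMaximal.of_liesOver_isMaximal Q 𝔮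
  have h1 := (isFrobPowAt_frobOf K L 𝔮 Q).pow (Q.inertiaDeg (𝓞 K))
  have hc : Nat.card (𝓞 K ⧸ 𝔮) ^ Q.inertiaDeg (𝓞 K) = Nat.card (𝓞 L ⧸ Q) := by
    have := Ideal.cardQuot_pow_inertiaDeg 𝔮 Q
    rwa [Submodule.cardQuot_apply, Submodule.cardQuot_apply] at this
  rw [hc] at h1
  exact h1.eq_of_inertia_eq_bot (isFrobPowAt_one Q) hQ

/-- Norms from `L` lie in the kernel of the Artin symbol of `L/K` (unramified case). -/
theorem artinIdeal_relNorm [IsMulCommutative Gal(L/K)] (hur : IsUnramifiedEverywhere K L)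
    (J : Ideal (𝓞 L)) (hJ : J ≠ ⊥) : artinIdeal K L (Ideal.relNorm (𝓞 K) J) = 1 := by
  suffices h : J ≠ ⊥ ∧ artinIdeal K L (Ideal.relNorm (𝓞 K) J) = 1 from h.2
  rw [← Ideal.prod_normalizedFactors_eq_self hJ]
  refine Multiset.prod_induction
    (fun I : Ideal (𝓞 L) => I ≠ ⊥ ∧ artinIdeal K L (Ideal.relNorm (𝓞 K) I) = 1) _ ?_ ?_ ?_
  · rintro I I' ⟨hI, hI1⟩ ⟨hI', hI'1⟩
    refine ⟨mul_ne_zero hI hI', ?_⟩
    rw [map_mul, artinIdeal_mul K L (by rwa [Ne, Ideal.relNorm_eq_bot_iff])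
      (by rwa [Ne, Ideal.relNorm_eq_bot_iff]), hI1, hI'1, one_mul]
  · refine ⟨one_ne_zero, ?_⟩
    rw [map_one, Ideal.one_eq_top, artinIdeal_top]
  · intro Q hQ
    have hQ0 : Q ≠ ⊥ := ne_zero_of_mem_normalizedFactors hQ
    have hQp : Q.IsPrime := ((Ideal.mem_normalizedFactors_iff hJ).mp hQ).1
    have hQm : Q.IsMaximal := Ring.DimensionLEOne.maximalOfPrime hQ0 hQp
    refine ⟨hQ0, ?_⟩
    set 𝔮 : Ideal (𝓞 K) := Q.under (𝓞 K) with h𝔮
    have h𝔮m : 𝔮.IsMaximal := Ideal.IsMaximal.under (𝓞 K) Q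
    have hlo : Q.LiesOver 𝔮 := Ideal.over_under Q
    have h0 : 𝔮 ≠ ⊥ := Ring.ne_bot_of_isMaximal_of_not_isField h𝔮m (RingOfIntegers.not_isField K)
    rw [Ideal.relNorm_eq_pow_of_isMaximal Q 𝔮, artinIdeal_pow K L h0, artinIdeal_of_isMaximal]
    exact frobOf_pow_inertiaDeg K L 𝔮 Q (hur Q hQp hQ0)

end NumberField

section Restrict

variable (K L M : Type*) [Field K] [NumberField K] [Field L] [NumberField L] [Field M]
  [NumberField M] [Algebra K L] [Algebra L M] [Algebra K M] [IsScalarTower K L M] [IsGalois K L]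
  [IsGalois K M]

theorem coe_restrictNormalHom_smul (σ : Gal(M/K)) (x : 𝓞 L) :
    algebraMap (𝓞 L) (𝓞 M) (AlgEquiv.restrictNormalHom L σ • x) = σ • algebraMap (𝓞 L) (𝓞 M) x := by
  apply RingOfIntegers.ext
  exact AlgEquiv.restrictNormal_commutes σ L (x : L)

/-- The restriction of an `x ↦ x ^ q` Frobenius to a subextension. -/
theorem IsFrobPowAt.restrictNormalHom {σ : Gal(M/K)} {Q : Ideal (𝓞 M)} {q : ℕ}
    (h : IsFrobPowAt σ Q q) : IsFrobPowAt (AlgEquiv.restrictNormalHom L σ) (Q.under (𝓞 L)) q := by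
  intro x
  rw [Ideal.under_def, Ideal.mem_comap, map_sub, map_pow, coe_restrictNormalHom_smul]
  exact h _

/-- Restriction of Frobenius elements to a subextension unramified at `𝔮`. -/
theorem restrictNormalHom_frobOf [IsMulCommutative Gal(M/K)] [IsMulCommutative Gal(L/K)]
    (𝔮 : Ideal (𝓞 K)) [𝔮.IsMaximal] (hur : IsUnramifiedAtPrime K L 𝔮) :
    AlgEquiv.restrictNormalHom L (frobOf K M 𝔮) = frobOf K L 𝔮 := by
  set QM := primeOver K M 𝔮 with hQM
  have hlo : (QM.under (𝓞 L)).LiesOver 𝔮 := by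
    constructor
    rw [Ideal.under_under]
    exact (primeOver_liesOver K M 𝔮).over
  have hp : (QM.under (𝓞 L)).IsPrime := inferInstance
  exact (frobOf_eq_of_isFrobPowAt K L 𝔮 (QM.under (𝓞 L)) (hur _ hp hlo) _
    ((isFrobPowAt_frobOf K M 𝔮 QM).restrictNormalHom K L M)).symm

/-- Restriction of the Artin symbol to a subextension (unramified case). -/
theorem restrictNormalHom_artinIdeal [IsMulCommutative Gal(M/K)] [IsMulCommutative Gal(L/K)]
    (hur : IsUnramifiedEverywhere K L) (I : Ideal (𝓞 K)) :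
    AlgEquiv.restrictNormalHom L (artinIdeal K M I) = artinIdeal K L I := by
  rw [artinIdeal, artinIdeal, map_multiset_prod, Multiset.map_map]
  congr 1
  refine Multiset.map_congr rfl fun 𝔮 _ => ?_
  by_cases h𝔮 : 𝔮.IsMaximal
  · rw [Function.comp_apply, frobIdeal_of_isMaximal, frobIdeal_of_isMaximal]
    exact restrictNormalHom_frobOf K L M 𝔮 (hur.isUnramifiedAtPrime 𝔮)
  · rw [Function.comp_apply, frobIdeal, frobIdeal, dif_neg h𝔮, dif_neg h𝔮, map_one]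

end Restrict

section Equivariance

variable (k K L : Type*) [Field k] [Field K] [NumberField K] [Field L] [NumberField L]
  [Algebra k K] [Algebra K L] [Algebra k L] [IsScalarTower k K L] [Normal k K]

theorem symm_algebraMap_eq (τ : L ≃ₐ[k] L) (a : K) :
    τ.symm (algebraMap K L a) = algebraMap K L ((AlgEquiv.restrictNormalHom K τ).symm a) := by
  rw [AlgEquiv.symm_apply_eq]
  have := AlgEquiv.restrictNormal_commutes τ K ((AlgEquiv.restrictNormalHom K τ).symm a)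
  rw [← this]
  congr 1
  exact ((AlgEquiv.restrictNormalHom K τ).apply_symm_apply a).symm

/-- conjugation of `g ∈ Gal(L/K)` by a `k`-automorphism `τ` of `L` (where `K/k` is normal). -/
noncomputable def conjGal (τ : L ≃ₐ[k] L) (g : Gal(L/K)) : Gal(L/K) :=
  AlgEquiv.ofRingEquiv (f := (τ.symm.toRingEquiv.trans g.toRingEquiv).trans τ.toRingEquiv) (by
    intro a
    change τ (g (τ.symm (algebraMap K L a))) = algebraMap K L a
    rw [symm_algebraMap_eq, g.commutes, ← symm_algebraMap_eq, AlgEquiv.apply_symm_apply])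

theorem conjGal_apply (τ : L ≃ₐ[k] L) (g : Gal(L/K)) (x : L) :
    conjGal k K L τ g x = τ (g (τ.symm x)) := rfl

theorem coe_conjGal_smul (τ : L ≃ₐ[k] L) (g : Gal(L/K)) (x : 𝓞 L) :
    conjGal k K L τ g • x = τ • (g • (τ⁻¹ • x)) := by
  apply RingOfIntegers.ext
  rfl

theorem IsFrobPowAt.conjGal {g : Gal(L/K)} {Q : Ideal (𝓞 L)} {q : ℕ} (h : IsFrobPowAt g Q q)
    (τ : L ≃ₐ[k] L) : IsFrobPowAt (conjGal k K L τ g) (τ • Q) q := by
  intro x
  rw [Ideal.mem_pointwise_smul_iff_inv_smul_mem, coe_conjGal_smul, smul_sub, inv_smul_smul,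
    smul_pow']
  exact h _

theorem algebraMap_restrictNormalHom_smul (τ : L ≃ₐ[k] L) (x : 𝓞 K) :
    algebraMap (𝓞 K) (𝓞 L) (AlgEquiv.restrictNormalHom K τ • x) =
      τ • algebraMap (𝓞 K) (𝓞 L) x := by
  apply RingOfIntegers.ext
  exact AlgEquiv.restrictNormal_commutes τ K (x : K)

theorem liesOver_smul (τ : L ≃ₐ[k] L) (𝔮 : Ideal (𝓞 K)) (Q : Ideal (𝓞 L)) [hQ : Q.LiesOver 𝔮] :
    (τ • Q).LiesOver (AlgEquiv.restrictNormalHom K τ • 𝔮) := by
  constructor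
  ext x
  rw [Ideal.under_def, Ideal.mem_comap, Ideal.mem_pointwise_smul_iff_inv_smul_mem,
    Ideal.mem_pointwise_smul_iff_inv_smul_mem, ← map_inv, hQ.over, Ideal.under_def, Ideal.mem_comap,
    algebraMap_restrictNormalHom_smul]

variable [IsGalois K L]

/-- **Equivariance of the Frobenius element**: for a `k`-automorphism `τ` of `L` inducing `σ` on
`K`, `Frob(σ 𝔮) = τ Frob(𝔮) τ⁻¹`. -/
theorem frobOf_smul [IsMulCommutative Gal(L/K)] (τ : L ≃ₐ[k] L) (𝔮 : Ideal (𝓞 K)) [𝔮.IsMaximal]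
    (hur : IsUnramifiedAtPrime K L (AlgEquiv.restrictNormalHom K τ • 𝔮)) :
    frobOf K L (AlgEquiv.restrictNormalHom K τ • 𝔮) = conjGal k K L τ (frobOf K L 𝔮) := by
  set Q := primeOver K L 𝔮 with hQ
  have hlo : (τ • Q).LiesOver (AlgEquiv.restrictNormalHom K τ • 𝔮) := liesOver_smul k K L τ 𝔮 Q
  have hp : (τ • Q).IsPrime := inferInstance
  refine frobOf_eq_of_isFrobPowAt K L _ (τ • Q) (hur _ hp hlo) _ ?_
  rw [card_quotient_smul]
  exact (isFrobPowAt_frobOf K L 𝔮 Q).conjGal k K L τ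

theorem frobOf_smul_apply [IsMulCommutative Gal(L/K)] (τ : L ≃ₐ[k] L) (𝔮 : Ideal (𝓞 K))
    [𝔮.IsMaximal]
    (hur : IsUnramifiedAtPrime K L (AlgEquiv.restrictNormalHom K τ • 𝔮)) (x : L) :
    frobOf K L (AlgEquiv.restrictNormalHom K τ • 𝔮) x = τ (frobOf K L 𝔮 (τ.symm x)) := by
  rw [frobOf_smul k K L τ 𝔮 hur, conjGal_apply]

theorem conjGal_one (τ : L ≃ₐ[k] L) : conjGal k K L τ 1 = 1 := by
  ext x
  rw [conjGal_apply, AlgEquiv.one_apply, AlgEquiv.apply_symm_apply, AlgEquiv.one_apply]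

theorem conjGal_mul (τ : L ≃ₐ[k] L) (g h : Gal(L/K)) :
    conjGal k K L τ (g * h) = conjGal k K L τ g * conjGal k K L τ h := by
  ext x
  rw [AlgEquiv.mul_apply, conjGal_apply, conjGal_apply, conjGal_apply, AlgEquiv.mul_apply,
    AlgEquiv.symm_apply_apply]

theorem conjGal_pow (τ : L ≃ₐ[k] L) (g : Gal(L/K)) (n : ℕ) :
    conjGal k K L τ (g ^ n) = conjGal k K L τ g ^ n := by
  induction n with
  | zero => rw [pow_zero, pow_zero, conjGal_one]
  | succ n ih => rw [pow_succ, pow_succ, conjGal_mul, ih]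

/-- Equivariance of the Artin symbol on nonzero primes, in the shape of the `hequiv` hypothesis of
`S14/HerbrandOmegaInv`. -/
theorem artinIdeal_smul_of_isPrime [IsMulCommutative Gal(L/K)] (hur : IsUnramifiedEverywhere K L)
    (τ : L ≃ₐ[k] L) (𝔮 : Ideal (𝓞 K)) (h𝔮 : 𝔮.IsPrime) (h0 : 𝔮 ≠ ⊥) :
    artinIdeal K L (AlgEquiv.restrictNormalHom K τ • 𝔮) =
      conjGal k K L τ (artinIdeal K L 𝔮) := by
  have hm : 𝔮.IsMaximal := Ring.DimensionLEOne.maximalOfPrime h0 h𝔮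
  rw [artinIdeal_of_isMaximal, artinIdeal_of_isMaximal]
  exact frobOf_smul k K L τ 𝔮 (hur.isUnramifiedAtPrime _)

end Equivariance

section BaseChange

variable (K F L M : Type*) [Field K] [NumberField K] [Field F] [NumberField F] [Field L]
  [NumberField L] [Field M] [NumberField M] [Algebra K F] [Algebra K L] [Algebra F M] [Algebra L M]
  [Algebra K M] [IsScalarTower K F M] [IsScalarTower K L M] [IsGalois K L]

/-- The restriction map `Gal(M/F) → Gal(L/K)` for `K ⊆ F ⊆ M`, `K ⊆ L ⊆ M`, `L/K` Galois. -/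
noncomputable def resGal : Gal(M/F) →* Gal(L/K) :=
  (AlgEquiv.restrictNormalHom L).comp (AlgEquiv.restrictScalarsHom K)

theorem algebraMap_resGal (g : Gal(M/F)) (x : L) :
    algebraMap L M (resGal K F L M g x) = g (algebraMap L M x) :=
  AlgEquiv.restrictNormal_commutes (g.restrictScalars K) L x

theorem coe_resGal_smul (g : Gal(M/F)) (x : 𝓞 L) :
    algebraMap (𝓞 L) (𝓞 M) (resGal K F L M g • x) = g • algebraMap (𝓞 L) (𝓞 M) x := by
  apply RingOfIntegers.ext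
  exact algebraMap_resGal K F L M g (x : L)

theorem IsFrobPowAt.resGal {g : Gal(M/F)} {Q : Ideal (𝓞 M)} {q : ℕ}
    (h : IsFrobPowAt g Q q) : IsFrobPowAt (resGal K F L M g) (Q.under (𝓞 L)) q := by
  intro x
  rw [Ideal.under_def, Ideal.mem_comap, map_sub, map_pow, coe_resGal_smul]
  exact h _

variable [IsGalois F M]

/-- **Base change of Frobenius elements**: `Frob_{M/F}(𝔓)|_L = Frob_{L/K}(𝔭) ^ f(𝔓/𝔭)`. -/
theorem resGal_frobOf [IsMulCommutative Gal(M/F)] [IsMulCommutative Gal(L/K)]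
    (𝔓 : Ideal (𝓞 F)) [𝔓.IsMaximal] (𝔭 : Ideal (𝓞 K)) [𝔭.IsMaximal] [h𝔓 : 𝔓.LiesOver 𝔭]
    (hur : IsUnramifiedAtPrime K L 𝔭) :
    resGal K F L M (frobOf F M 𝔓) = frobOf K L 𝔭 ^ 𝔓.inertiaDeg (𝓞 K) := by
  set QM := primeOver F M 𝔓 with hQM
  have hlo : (QM.under (𝓞 L)).LiesOver 𝔭 := by
    constructor
    rw [Ideal.under_under, h𝔓.over, (primeOver_liesOver F M 𝔓).over, Ideal.under_under]
  have hp : (QM.under (𝓞 L)).IsPrime := inferInstance
  have h1 := (isFrobPowAt_frobOf F M 𝔓 QM).resGal K F L M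
  have h2 := (isFrobPowAt_frobOf K L 𝔭 (QM.under (𝓞 L))).pow (𝔓.inertiaDeg (𝓞 K))
  have hc : Nat.card (𝓞 K ⧸ 𝔭) ^ 𝔓.inertiaDeg (𝓞 K) = Nat.card (𝓞 F ⧸ 𝔓) := by
    have := Ideal.cardQuot_pow_inertiaDeg 𝔭 𝔓
    rwa [Submodule.cardQuot_apply, Submodule.cardQuot_apply] at this
  rw [hc] at h2
  exact h1.eq_of_inertia_eq_bot h2 (hur _ hp hlo)

/-- **Base change of the Artin symbol**: `A_{M/F}(𝔅)|_L = A_{L/K}(N_{F/K} 𝔅)` (for `L/K`
unramified). -/
theorem resGal_artinIdeal [IsMulCommutative Gal(M/F)] [IsMulCommutative Gal(L/K)]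
    (hur : IsUnramifiedEverywhere K L) (J : Ideal (𝓞 F)) (hJ : J ≠ ⊥) :
    resGal K F L M (artinIdeal F M J) = artinIdeal K L (Ideal.relNorm (𝓞 K) J) := by
  suffices h : J ≠ ⊥ ∧
      resGal K F L M (artinIdeal F M J) = artinIdeal K L (Ideal.relNorm (𝓞 K) J) from h.2
  rw [← Ideal.prod_normalizedFactors_eq_self hJ]
  refine Multiset.prod_induction (fun I : Ideal (𝓞 F) => I ≠ ⊥ ∧
      resGal K F L M (artinIdeal F M I) = artinIdeal K L (Ideal.relNorm (𝓞 K) I)) _ ?_ ?_ ?_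
  · rintro I I' ⟨hI, hI1⟩ ⟨hI', hI'1⟩
    refine ⟨mul_ne_zero hI hI', ?_⟩
    rw [map_mul, artinIdeal_mul K L (by rwa [Ne, Ideal.relNorm_eq_bot_iff])
      (by rwa [Ne, Ideal.relNorm_eq_bot_iff]), artinIdeal_mul F M hI hI', map_mul, hI1, hI'1]
  · refine ⟨one_ne_zero, ?_⟩
    rw [map_one, Ideal.one_eq_top, Ideal.one_eq_top, artinIdeal_top, artinIdeal_top, map_one]
  · intro Q hQ
    have hQ0 : Q ≠ ⊥ := ne_zero_of_mem_normalizedFactors hQ
    have hQp : Q.IsPrime := ((Ideal.mem_normalizedFactors_iff hJ).mp hQ).1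
    have hQm : Q.IsMaximal := Ring.DimensionLEOne.maximalOfPrime hQ0 hQp
    refine ⟨hQ0, ?_⟩
    set 𝔮 : Ideal (𝓞 K) := Q.under (𝓞 K) with h𝔮
    have h𝔮m : 𝔮.IsMaximal := Ideal.IsMaximal.under (𝓞 K) Q
    have hlo : Q.LiesOver 𝔮 := Ideal.over_under Q
    have h0 : 𝔮 ≠ ⊥ := Ring.ne_bot_of_isMaximal_of_not_isField h𝔮m (RingOfIntegers.not_isField K)
    rw [Ideal.relNorm_eq_pow_of_isMaximal Q 𝔮, artinIdeal_pow K L h0, artinIdeal_of_isMaximal,
      artinIdeal_of_isMaximal]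
    exact resGal_frobOf K F L M Q 𝔮 (hur.isUnramifiedAtPrime 𝔮)

end BaseChange

section Split

/-- A finite field all of whose elements satisfy `y ^ q = y` has at most `q` elements. -/
theorem card_le_of_forall_pow_eq {k : Type*} [Field k] [Finite k] {q : ℕ} (hq : 1 < q)
    (h : ∀ y : k, y ^ q = y) : Nat.card k ≤ q := by
  classical
  cases nonempty_fintype k
  have hne : (Polynomial.X ^ q - Polynomial.X : Polynomial k) ≠ 0 :=
    FiniteField.X_pow_card_sub_X_ne_zero k hq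
  have hsub : (Finset.univ : Finset k) ⊆ (Polynomial.X ^ q - Polynomial.X : Polynomial k).roots.toFinset := by
    intro y _
    rw [Multiset.mem_toFinset, Polynomial.mem_roots hne, Polynomial.IsRoot.def, Polynomial.eval_sub,
      Polynomial.eval_pow, Polynomial.eval_X, h y, sub_self]
  calc Nat.card k = (Finset.univ : Finset k).card := by rw [Nat.card_eq_fintype_card]; rfl
    _ ≤ (Polynomial.X ^ q - Polynomial.X : Polynomial k).roots.toFinset.card := Finset.card_le_card hsub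
    _ ≤ Multiset.card (Polynomial.X ^ q - Polynomial.X : Polynomial k).roots := Multiset.toFinset_card_le _
    _ ≤ (Polynomial.X ^ q - Polynomial.X : Polynomial k).natDegree := Polynomial.card_roots' _
    _ = q := FiniteField.X_pow_card_sub_X_natDegree_eq k hq

variable (K L : Type*) [Field K] [NumberField K] [Field L] [NumberField L] [Algebra K L]
  [IsGalois K L]

/-- If the Frobenius element at `𝔮` is trivial, then every prime above `𝔮` has inertia degree one. -/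
theorem inertiaDeg_eq_one_of_frobOf_eq_one [IsMulCommutative Gal(L/K)] (𝔮 : Ideal (𝓞 K))
    [𝔮.IsMaximal] (h1 : frobOf K L 𝔮 = 1) (Q : Ideal (𝓞 L)) [Q.IsPrime] [Q.LiesOver 𝔮] :
    Q.inertiaDeg (𝓞 K) = 1 := by
  have hmax : Q.IsMaximal := Ideal.IsMaximal.of_liesOver_isMaximal Q 𝔮
  have hF := isFrobPowAt_frobOf K L 𝔮 Q
  rw [h1] at hF
  let _ : Field (𝓞 L ⧸ Q) := Ideal.Quotient.field Q
  have hq : 1 < Nat.card (𝓞 K ⧸ 𝔮) := Finite.one_lt_card
  have hle : Nat.card (𝓞 L ⧸ Q) ≤ Nat.card (𝓞 K ⧸ 𝔮) := by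
    refine card_le_of_forall_pow_eq hq fun y => ?_
    obtain ⟨x, rfl⟩ := Ideal.Quotient.mk_surjective y
    have := hF x
    rw [one_smul, ← Ideal.Quotient.eq, map_pow] at this
    exact this.symm
  have hc : Nat.card (𝓞 K ⧸ 𝔮) ^ Q.inertiaDeg (𝓞 K) = Nat.card (𝓞 L ⧸ Q) := by
    have := Ideal.cardQuot_pow_inertiaDeg 𝔮 Q
    rwa [Submodule.cardQuot_apply, Submodule.cardQuot_apply] at this
  have hpos : 0 < Q.inertiaDeg (𝓞 K) := Ideal.inertiaDeg_pos Q (𝓞 K)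
  rw [← hc] at hle
  have := (Nat.pow_le_pow_iff_right hq).mp (by simpa using hle : _ ^ _ ≤ _ ^ 1)
  omega

/-- If the Frobenius element at `𝔮` is trivial, then `𝔮` is the norm of every prime above it. -/
theorem relNorm_eq_of_frobOf_eq_one [IsMulCommutative Gal(L/K)] (𝔮 : Ideal (𝓞 K))
    [𝔮.IsMaximal] (h1 : frobOf K L 𝔮 = 1) (Q : Ideal (𝓞 L)) [Q.IsPrime] [Q.LiesOver 𝔮] :
    Ideal.relNorm (𝓞 K) Q = 𝔮 := by
  have hmax : Q.IsMaximal := Ideal.IsMaximal.of_liesOver_isMaximal Q 𝔮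
  rw [Ideal.relNorm_eq_pow_of_isMaximal Q 𝔮, inertiaDeg_eq_one_of_frobOf_eq_one K L 𝔮 h1 Q, pow_one]

/-- If every Frobenius element is trivial, then every nonzero ideal of `𝓞 K` is a norm from `L`. -/
theorem exists_relNorm_eq_of_forall_frobOf_eq_one [IsMulCommutative Gal(L/K)]
    (h1 : ∀ (𝔮 : Ideal (𝓞 K)) [𝔮.IsMaximal], frobOf K L 𝔮 = 1) (I : Ideal (𝓞 K)) (hI : I ≠ ⊥) :
    ∃ J : Ideal (𝓞 L), J ≠ ⊥ ∧ Ideal.relNorm (𝓞 K) J = I := by
  rw [← Ideal.prod_normalizedFactors_eq_self hI]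
  refine Multiset.prod_induction
    (fun I : Ideal (𝓞 K) => ∃ J : Ideal (𝓞 L), J ≠ ⊥ ∧ Ideal.relNorm (𝓞 K) J = I) _ ?_ ?_ ?_
  · rintro _ _ ⟨J, hJ, rfl⟩ ⟨J', hJ', rfl⟩
    exact ⟨J * J', mul_ne_zero hJ hJ', map_mul _ _ _⟩
  · exact ⟨1, one_ne_zero, map_one _⟩
  · intro 𝔮 h𝔮
    have h0 : 𝔮 ≠ ⊥ := ne_zero_of_mem_normalizedFactors h𝔮
    have hp : 𝔮.IsPrime := ((Ideal.mem_normalizedFactors_iff hI).mp h𝔮).1
    have hm : 𝔮.IsMaximal := Ring.DimensionLEOne.maximalOfPrime h0 hp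
    refine ⟨primeOver K L 𝔮, ?_, relNorm_eq_of_frobOf_eq_one K L 𝔮 (h1 𝔮) _⟩
    intro hbot
    apply h0
    rw [(primeOver_liesOver K L 𝔮).over, hbot]
    exact Ideal.under_bot _ _

/-- (R1) for `L/K`: the Artin symbol is trivial on principal ideals. -/
def ArtinTrivialOnPrincipal [IsMulCommutative Gal(L/K)] : Prop :=
  ∀ x : 𝓞 K, x ≠ 0 → artinIdeal K L (Ideal.span {x}) = 1

/-- (R3) for `L/K`: some prime of `K` has a nontrivial Frobenius element. -/
def ExistsNontrivialFrob : Prop :=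
  ∃ (𝔮 : Ideal (𝓞 K)) (_ : 𝔮.IsMaximal), frobOf K L 𝔮 ≠ 1

theorem ExistsNontrivialFrob.exists_artinIdeal_ne_one [IsMulCommutative Gal(L/K)]
    (h : ExistsNontrivialFrob K L) : ∃ I : Ideal (𝓞 K), I ≠ ⊥ ∧ artinIdeal K L I ≠ 1 := by
  obtain ⟨𝔮, h𝔮, hne⟩ := h
  refine ⟨𝔮, Ring.ne_bot_of_isMaximal_of_not_isField h𝔮 (RingOfIntegers.not_isField K), ?_⟩
  rwa [artinIdeal_of_isMaximal]

end Split

end Fermat.Agent.CFT
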