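import Mathlib
import Fermat.Agent.CFT.Global.ArtinFunctorial

set_option autoImplicit false
set_option linter.unusedSectionVars false

/-!
# CFT, stream [C]: the contracts between the chunks of the proof of (HCF*)

Every chunk of stream [C] proves `theorem X_holds ... : X ...` for one of the `Prop`-valued
definitions `X` below; the assembly files consume the contracts as hypotheses.

Setting: `p` an odd prime, `F` a number field containing a primitive `p`-th root of unity,
`M / F` Galois of degree `p` (hence cyclic), usually unramified at all finite primes.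
-/

open NumberField
open scoped Pointwise

namespace Fermat.Agent.CFT

section Contracts

variable (p : ℕ) (F M : Type*) [Field F] [NumberField F] [Field M] [NumberField M] [Algebra F M]
  [IsGalois F M]

/-- The subgroup of the ideal class group of `F` generated by the classes of the relative norms
of the nonzero ideals of `𝓞 M`; its index is `[I_F : P_F N(I_M)]`. -/
noncomputable def normClasses : Subgroup (ClassGroup (𝓞 F)) :=
  Subgroup.closure {c | ∃ (J : Ideal (𝓞 M)) (hJ : J ≠ ⊥),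
    c = ClassGroup.mk0 ⟨Ideal.relNorm (𝓞 F) J,
      mem_nonZeroDivisors_iff_ne_zero.mpr (fun h => hJ (Ideal.relNorm_eq_bot_iff.mp h))⟩}

/-- The standing hypotheses of the two inequalities: `p` odd prime, `ζ_p ∈ F`, `[M : F] = p`,
`M / F` unramified at every finite prime. -/
structure UnramCyclicSetting : Prop where
  prime : p.Prime
  odd : p ≠ 2
  root : ∃ ζ : F, IsPrimitiveRoot ζ p
  card : Nat.card Gal(M/F) = p
  unram : IsUnramifiedEverywhere F M

/-- (F1) first inequality, weak form: `p ∣ [I_F : P_F N(I_M)]`. -/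
def FirstIneqWeak : Prop :=
  UnramCyclicSetting p F M → p ∣ (normClasses F M).index

/-- (F2) first inequality, exact form, in the shape the Hasse norm theorem needs:
`[I_F : P_F N(I_M)] = p [Nloc : N(Mˣ)]`, so if the index is at most `p` then every `β ∈ 𝓞 F`
whose principal ideal is a norm of an ideal is the norm of an element. -/
def FirstIneqExact : Prop :=
  UnramCyclicSetting p F M → (normClasses F M).index ≤ p →
    ∀ β : 𝓞 F, β ≠ 0 → (∃ J : Ideal (𝓞 M), Ideal.relNorm (𝓞 F) J = Ideal.span {β}) →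
      ∃ δ : M, Algebra.norm F δ = (β : F)

/-- (P2) second inequality: `[I_F : P_F N(I_M)] ≤ p`. -/
def SecondIneq : Prop :=
  UnramCyclicSetting p F M → (normClasses F M).index ≤ p

/-- (H) Hasse norm theorem for unramified cyclic extensions of degree `p`. -/
def HasseNorm : Prop :=
  UnramCyclicSetting p F M →
    ∀ β : 𝓞 F, β ≠ 0 → (∃ J : Ideal (𝓞 M), Ideal.relNorm (𝓞 F) J = Ideal.span {β}) →
      ∃ δ : M, Algebra.norm F δ = (β : F)

variable {p F M} in
theorem hasseNorm_of_ineq (h1 : FirstIneqExact p F M) (h2 : SecondIneq p F M) :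
    HasseNorm p F M :=
  fun hs => h1 hs (h2 hs)

/-- (F3) first inequality for a cyclic extension `M / F` of degree `p` which is unramified outside
a finite set `T` of primes not dividing `p` (tame ramification allowed at `T`), weak form:
NOT every ideal `𝔞` of `𝓞 F` prime to `T` is of the shape `𝔞 = (z / y) N(J) / N(J')` with `z / y`
a `T`-unit which is a `p`-th power residue at every prime of `T` and `J`, `J'` ideals of `𝓞 M`
prime to `T`. -/
def TameFirstIneq : Prop :=
  p.Prime → p ≠ 2 → (∃ ζ : F, IsPrimitiveRoot ζ p) → Nat.card Gal(M/F) = p →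
  ∀ T : Finset (IsDedekindDomain.HeightOneSpectrum (𝓞 F)),
    (∀ q ∈ T, (p : 𝓞 F) ∉ q.asIdeal) →
    (∀ Q : Ideal (𝓞 M), Q.IsPrime → Q ≠ ⊥ →
      (∀ q ∈ T, Q.under (𝓞 F) ≠ q.asIdeal) → Q.inertia Gal(M/F) = ⊥) →
    ¬ ∀ 𝔞 : Ideal (𝓞 F), 𝔞 ≠ ⊥ → (∀ q ∈ T, ¬ 𝔞 ≤ q.asIdeal) →
      ∃ (y z : 𝓞 F) (J J' : Ideal (𝓞 M)), y ≠ 0 ∧ z ≠ 0 ∧
        (∀ q ∈ T, y ∉ q.asIdeal ∧ z ∉ q.asIdeal ∧ ∃ w : 𝓞 F, z - y * w ^ p ∈ q.asIdeal) ∧
        J ≠ ⊥ ∧ J' ≠ ⊥ ∧
        (∀ q ∈ T, ∀ Q : Ideal (𝓞 M), Q.IsPrime → Q.under (𝓞 F) = q.asIdeal →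
          ¬ J ≤ Q ∧ ¬ J' ≤ Q) ∧
        Ideal.span {y} * 𝔞 * Ideal.relNorm (𝓞 F) J' = Ideal.span {z} * Ideal.relNorm (𝓞 F) J

/-- (G1) analytic input: in a nontrivial Galois extension `M / F` of number fields there is a
prime `Q` of `F` of absolute degree one, prime to a given nonzero ideal `𝔟`, which does not split
completely (the decomposition group of some prime above it is nontrivial). -/
def DegreeOneNonsplit : Prop :=
  1 < Module.finrank F M → ∀ 𝔟 : Ideal (𝓞 F), 𝔟 ≠ ⊥ →
    ∃ Q : Ideal (𝓞 F), Q.IsMaximal ∧ (Ideal.absNorm Q).Prime ∧ ¬ 𝔟 ≤ Q ∧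
      ∃ P : Ideal (𝓞 M), P.IsPrime ∧ P.LiesOver Q ∧ MulAction.stabilizer Gal(M/F) P ≠ ⊥

end Contracts

section SUnit

variable (p : ℕ) (F : Type*) [Field F] [NumberField F]

/-- (B1) Dirichlet's `S`-unit theorem, counted modulo `p`-th powers: if `ζ_p ∈ F` (`p` odd, so
`F` is totally complex) then `[U_S : U_S^p] = p ^ (|S| + r₂)`. -/
def SUnitCount : Prop :=
  p.Prime → p ≠ 2 → (∃ ζ : F, IsPrimitiveRoot ζ p) →
  ∀ S : Finset (IsDedekindDomain.HeightOneSpectrum (𝓞 F)),
    (powMonoidHom p : ((S : Set (IsDedekindDomain.HeightOneSpectrum (𝓞 F))).unit F) →*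
      ((S : Set (IsDedekindDomain.HeightOneSpectrum (𝓞 F))).unit F)).range.index =
      p ^ (S.card + InfinitePlace.nrComplexPlaces F)

end SUnit

end Fermat.Agent.CFT
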