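import Mathlib

set_option autoImplicit false

/-!
# CFT stream [C] Global: weak approximation in valuation form (Dedekind domains)

`R` a Dedekind domain, `F = Frac R`, `S` a finite set of height-one primes.

* `exists_forall_intValuation_sub_le` : CRT in `R` in valuation form;
* `exists_forall_valuation_sub_le` : for `a v : F`, `n v : ℤ` (`v ∈ S`) there is `x : F` with
  `v (x - a v) ≤ exp (-(n v))` for `v ∈ S` and `x` integral at every `v ∉ S`;
* `exists_forall_valuation_eq` : prescribed valuations on `S` (integral outside `S` when the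
  prescribed exponents are allowed to be anything);
* `exists_units_forall_valuation_div_sub_one_le` : multiplicative form:
  `z / y v ≡ 1 mod v ^ k` for `v ∈ S`.
-/

namespace Fermat.Agent.CFT

open IsDedekindDomain HeightOneSpectrum WithZero

variable {R : Type*} [CommRing R] [IsDedekindDomain R]

/-- **CRT in valuation form**: prescribed residues modulo `v ^ n v` for `v` in a finite set. -/
theorem exists_forall_intValuation_sub_le (S : Finset (HeightOneSpectrum R))
    (a : HeightOneSpectrum R → R) (n : HeightOneSpectrum R → ℕ) :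
    ∃ y : R, ∀ v ∈ S, v.intValuation (y - a v) ≤ exp (-(n v : ℤ)) := by
  obtain ⟨y, hy⟩ := IsDedekindDomain.exists_forall_sub_mem_ideal (s := S)
    (fun v : HeightOneSpectrum R => v.asIdeal) n (fun v _ => v.prime)
    (fun v _ w _ hvw h => hvw (HeightOneSpectrum.ext h)) (fun v => a v.1)
  exact ⟨y, fun v hv => (v.intValuation_le_pow_iff_mem _ _).mpr (hy v hv)⟩

variable (F : Type*) [Field F] [Algebra R F] [IsFractionRing R F]

/-- the set of primes at which a nonzero element of `R` is not a unit is finite -/
theorem finite_setOf_intValuation_lt_one {d : R} (hd : d ≠ 0) :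
    {v : HeightOneSpectrum R | v.intValuation d < 1}.Finite := by
  have h0 : Ideal.span {d} ≠ (0 : Ideal R) := by
    rwa [Ne, Ideal.zero_eq_bot, Ideal.span_singleton_eq_bot]
  refine (Ideal.finite_factors h0).subset fun v hv => ?_
  exact (v.intValuation_lt_one_iff_dvd d).mp hv

/-- the set of primes at which a nonzero element of `F` is not a unit is finite -/
theorem finite_setOf_valuation_ne_one {x : F} (hx : x ≠ 0) :
    {v : HeightOneSpectrum R | v.valuation F x ≠ 1}.Finite := by
  obtain ⟨a, b, hb, rfl⟩ := IsFractionRing.div_surjective (A := R) x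
  have hb0 : b ≠ 0 := nonZeroDivisors.ne_zero hb
  have ha0 : a ≠ 0 := by
    rintro rfl
    simp at hx
  refine ((finite_setOf_intValuation_lt_one ha0).union
    (finite_setOf_intValuation_lt_one hb0)).subset fun v hv => ?_
  by_contra hcon
  simp only [Set.mem_union, Set.mem_ofPred_eq, not_or, not_lt] at hcon
  have h1 : v.intValuation a = 1 := le_antisymm (v.intValuation_le_one a) hcon.1
  have h2 : v.intValuation b = 1 := le_antisymm (v.intValuation_le_one b) hcon.2
  apply hv
  rw [map_div₀, valuation_of_algebraMap, valuation_of_algebraMap, h1, h2, div_one]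

/-- **Weak approximation** (with integrality outside `S`): for `a v : F`, `n v : ℤ` there is
`x : F` with `v (x - a v) ≤ exp (-(n v))` for all `v ∈ S` and `v x ≤ 1` for all `v ∉ S`. -/
theorem exists_forall_valuation_sub_le (S : Finset (HeightOneSpectrum R))
    (a : HeightOneSpectrum R → F) (n : HeightOneSpectrum R → ℤ) :
    ∃ x : F, (∀ v ∈ S, v.valuation F (x - a v) ≤ exp (-(n v))) ∧
      ∀ v ∉ S, v.valuation F x ≤ 1 := by
  classical
  -- common denominator
  obtain ⟨d, hd⟩ := IsLocalization.exist_integer_multiples_of_finset (nonZeroDivisors R)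
    (S.image a)
  have hd0 : (d : R) ≠ 0 := nonZeroDivisors.ne_zero d.2
  have hdF : algebraMap R F (d : R) ≠ 0 := by
    simp [hd0]
  have hnum : ∀ v ∈ S, ∃ b : R, algebraMap R F b = algebraMap R F (d : R) * a v := by
    intro v hv
    obtain ⟨b, hb⟩ := hd (a v) (Finset.mem_image_of_mem a hv)
    exact ⟨b, by rw [hb, Algebra.smul_def]⟩
  choose! b hb using hnum
  -- the auxiliary finite set
  let T : Finset (HeightOneSpectrum R) := S ∪ (finite_setOf_intValuation_lt_one hd0).toFinset
  -- the exponent needed at `v`
  let m : HeightOneSpectrum R → ℤ := fun v => -log (v.intValuation (d : R))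
  have hm : ∀ v : HeightOneSpectrum R, v.intValuation (d : R) = exp (-(m v)) := by
    intro v
    simp only [m, neg_neg]
    exact (exp_log (v.intValuation_ne_zero _ hd0)).symm
  have hm0 : ∀ v : HeightOneSpectrum R, 0 ≤ m v := by
    intro v
    have := v.intValuation_le_one (d : R)
    rw [hm v, ← exp_zero, exp_le_exp] at this
    linarith
  obtain ⟨y, hy⟩ := exists_forall_intValuation_sub_le T
    (fun v => if v ∈ S then b v else 0) (fun v => if v ∈ S then (n v + m v).toNat else (m v).toNat)
  refine ⟨algebraMap R F y / algebraMap R F (d : R), fun v hv => ?_, fun v hv => ?_⟩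
  · have h1 := hy v (Finset.mem_union_left _ hv)
    simp only [if_pos hv] at h1
    have h2 : algebraMap R F y / algebraMap R F (d : R) - a v =
        algebraMap R F (y - b v) / algebraMap R F (d : R) := by
      rw [map_sub, hb v hv]
      field_simp
    rw [h2, map_div₀, valuation_of_algebraMap, valuation_of_algebraMap, hm v,
      div_le_iff₀ (by simp), ← exp_add]
    refine h1.trans ?_
    rw [exp_le_exp]
    have := Int.self_le_toNat (n v + m v)
    omega
  · rw [map_div₀, valuation_of_algebraMap, valuation_of_algebraMap,
      div_le_iff₀ (by simpa using (v.intValuation_ne_zero _ hd0).bot_lt), one_mul]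
    by_cases hvT : v ∈ T
    · have h1 := hy v hvT
      simp only [if_neg hv, sub_zero] at h1
      refine h1.trans ?_
      rw [hm v, exp_le_exp, Int.toNat_of_nonneg (hm0 v)]
    · have hvd : v.intValuation (d : R) = 1 := by
        by_contra hne
        apply hvT
        refine Finset.mem_union_right _ ?_
        rw [Set.Finite.mem_toFinset]
        exact lt_of_le_of_ne (v.intValuation_le_one _) hne
      rw [hvd]
      exact v.intValuation_le_one y

/-- **Prescribed valuations**: for `b v : ℤ` (`v ∈ S`) there is `c : Fˣ` with
`v c = exp (-(b v))` for all `v ∈ S`. -/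
theorem exists_units_forall_valuation_eq (S : Finset (HeightOneSpectrum R))
    (b : HeightOneSpectrum R → ℤ) :
    ∃ c : Fˣ, ∀ v ∈ S, v.valuation F (c : F) = exp (-(b v)) := by
  classical
  -- uniformizers
  have hunif : ∀ v : HeightOneSpectrum R, ∃ π : F, v.valuation F π = exp (-(1 : ℤ)) :=
    fun v => v.valuation_exists_uniformizer F
  choose π hπ using hunif
  obtain ⟨x, hx, -⟩ := exists_forall_valuation_sub_le F S (fun v => π v ^ (b v))
    (fun v => b v + 1)
  by_cases hS : S.Nonempty
  · have hval : ∀ v ∈ S, v.valuation F x = exp (-(b v)) := by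
      intro v hv
      have h1 : v.valuation F (π v ^ b v) = exp (-(b v)) := by
        rw [map_zpow₀, hπ v, ← exp_zsmul]
        simp
      have h2 := hx v hv
      have h3 : v.valuation F (x - π v ^ b v) < v.valuation F (π v ^ b v) := by
        rw [h1]
        refine h2.trans_lt ?_
        rw [exp_lt_exp]
        omega
      have h4 : x = (x - π v ^ b v) + π v ^ b v := by ring
      rw [h4, Valuation.map_add_eq_of_lt_right _ h3, h1]
    obtain ⟨v0, hv0⟩ := hS
    have hx0 : x ≠ 0 := by
      intro h0
      have := hval v0 hv0
      rw [h0, map_zero] at this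
      exact exp_ne_zero this.symm
    exact ⟨Units.mk0 x hx0, hval⟩
  · rw [Finset.not_nonempty_iff_eq_empty] at hS
    subst hS
    exact ⟨1, fun v hv => by simp at hv⟩

/-- **Multiplicative weak approximation**: for `y v : Fˣ` (`v ∈ S`) and `k : ℕ` there is
`z : Fˣ` with `v (z / y v - 1) ≤ exp (-k)` for all `v ∈ S`. -/
theorem exists_units_forall_valuation_div_sub_one_le (S : Finset (HeightOneSpectrum R))
    (y : HeightOneSpectrum R → Fˣ) (k : ℕ) :
    ∃ z : Fˣ, ∀ v ∈ S, v.valuation F ((z : F) / (y v : F) - 1) ≤ exp (-(k : ℤ)) := by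
  classical
  by_cases hS : S.Nonempty
  · let m : HeightOneSpectrum R → ℤ := fun v => -log (v.valuation F (y v : F))
    have hm : ∀ v : HeightOneSpectrum R, v.valuation F (y v : F) = exp (-(m v)) := by
      intro v
      simp only [m, neg_neg]
      exact (exp_log ((Valuation.ne_zero_iff _).mpr (y v).ne_zero)).symm
    obtain ⟨x, hx, -⟩ := exists_forall_valuation_sub_le F S (fun v => (y v : F))
      (fun v => (k : ℤ) + m v + 1)
    have hx0 : x ≠ 0 := by
      obtain ⟨v0, hv0⟩ := hS
      intro h0
      have h1 := hx v0 hv0
      rw [h0, zero_sub, Valuation.map_neg, hm v0, exp_le_exp] at h1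
      omega
    refine ⟨Units.mk0 x hx0, fun v hv => ?_⟩
    have h1 : (x : F) / (y v : F) - 1 = (x - (y v : F)) / (y v : F) := by
      have := (y v).ne_zero
      field_simp
    rw [Units.val_mk0, h1, map_div₀, hm v, div_le_iff₀ (by simp), ← exp_add]
    refine (hx v hv).trans ?_
    rw [exp_le_exp]
    omega
  · rw [Finset.not_nonempty_iff_eq_empty] at hS
    subst hS
    exact ⟨1, fun v hv => by simp at hv⟩

end Fermat.Agent.CFT
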