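import Mathlib
import Fermat.Agent.S20.DedekindCount
import Fermat.Agent.CFT.Global.WeakApprox

set_option autoImplicit false

/-!
# CFT stream [C] Global: divisors and their ideal classes

`R` a Dedekind domain, `F = Frac R`.  A divisor is `D : HeightOneSpectrum R →₀ ℤ`.

* `primeClass v`, `divClass D : ClassGroup R` (the class of `∏ v ^ D v`), additivity;
* `divClass_eq_one_of_valuation` : the divisor of `c : Fˣ` has trivial class;
* `divClass_eq_mk0_of_count` : the divisor of a nonzero integral ideal has the class of the ideal;
* `exists_finset_forall_exists_divClass_eq` : if the class group is finite, there is a finite set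
  `S0` of primes such that every class is the class of a divisor supported in `S0`.
-/

namespace Fermat.Agent.CFT

open IsDedekindDomain HeightOneSpectrum WithZero FractionalIdeal nonZeroDivisors

variable {R : Type*} [CommRing R] [IsDedekindDomain R]

/-- the ideal class of a prime -/
noncomputable def primeClass (v : HeightOneSpectrum R) : ClassGroup R :=
  ClassGroup.mk0 ⟨v.asIdeal, mem_nonZeroDivisors_iff_ne_zero.mpr v.ne_bot⟩

/-- the ideal class of a divisor -/
noncomputable def divClass (D : HeightOneSpectrum R →₀ ℤ) : ClassGroup R :=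
  D.prod fun v n => primeClass v ^ n

theorem divClass_zero : divClass (0 : HeightOneSpectrum R →₀ ℤ) = 1 := Finsupp.prod_zero_index

theorem divClass_add (D E : HeightOneSpectrum R →₀ ℤ) :
    divClass (D + E) = divClass D * divClass E :=
  Finsupp.prod_add_index' (fun _ => zpow_zero _) (fun _ _ _ => zpow_add _ _ _)

theorem divClass_neg (D : HeightOneSpectrum R →₀ ℤ) : divClass (-D) = (divClass D)⁻¹ := by
  rw [eq_inv_iff_mul_eq_one, ← divClass_add, neg_add_cancel, divClass_zero]

theorem divClass_sub (D E : HeightOneSpectrum R →₀ ℤ) :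
    divClass (D - E) = divClass D / divClass E := by
  rw [sub_eq_add_neg, divClass_add, divClass_neg, div_eq_mul_inv]

theorem divClass_single (v : HeightOneSpectrum R) (n : ℤ) :
    divClass (Finsupp.single v n) = primeClass v ^ n :=
  Finsupp.prod_single_index (zpow_zero _)

theorem divClass_smul (n : ℤ) (D : HeightOneSpectrum R →₀ ℤ) :
    divClass (n • D) = divClass D ^ n := by
  induction D using Finsupp.induction_linear with
  | zero => simp [divClass_zero]
  | add D E hD hE => rw [smul_add, divClass_add, divClass_add, hD, hE, mul_zpow]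
  | single v m =>
    rw [Finsupp.smul_single, divClass_single, divClass_single, smul_eq_mul, mul_comm, zpow_mul]

/-- the class of a divisor as a finite product over any finite set containing the support -/
theorem divClass_eq_prod (D : HeightOneSpectrum R →₀ ℤ) (S : Finset (HeightOneSpectrum R))
    (hS : D.support ⊆ S) : divClass D = ∏ v ∈ S, primeClass v ^ D v :=
  Finsupp.prod_of_support_subset D hS _ fun _ _ => zpow_zero _

variable (F : Type*) [Field F] [Algebra R F] [IsFractionRing R F]

/-- a prime as a unit fractional ideal -/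
noncomputable def primeUnit (v : HeightOneSpectrum R) : (FractionalIdeal R⁰ F)ˣ :=
  FractionalIdeal.mk0 F ⟨v.asIdeal, mem_nonZeroDivisors_iff_ne_zero.mpr v.ne_bot⟩

/-- the unit fractional ideal of a divisor -/
noncomputable def divUnit (D : HeightOneSpectrum R →₀ ℤ) : (FractionalIdeal R⁰ F)ˣ :=
  D.prod fun v n => primeUnit F v ^ n

theorem mk_divUnit (D : HeightOneSpectrum R →₀ ℤ) :
    ClassGroup.mk F (divUnit F D) = divClass D := by
  rw [divUnit, divClass, map_finsuppProd]
  refine Finsupp.prod_congr fun v _ => ?_
  rw [map_zpow, primeUnit, ClassGroup.mk_mk0, primeClass]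

theorem count_divUnit (D : HeightOneSpectrum R →₀ ℤ) (v : HeightOneSpectrum R) :
    count F v (divUnit F D : FractionalIdeal R⁰ F) = D v := by
  have h : (divUnit F D : FractionalIdeal R⁰ F) =
      D.prod fun v n => (v.asIdeal : FractionalIdeal R⁰ F) ^ n := by
    rw [divUnit, ← Units.coeHom_apply, map_finsuppProd]
    refine Finsupp.prod_congr fun w _ => ?_
    rw [Units.coeHom_apply, Units.val_zpow_eq_zpow_val, primeUnit, FractionalIdeal.coe_mk0]
  rw [h]
  exact count_finsuppProd F v D

/-- two nonzero fractional ideals with the same counts are equal -/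
theorem fractionalIdeal_eq_of_count_eq {I J : FractionalIdeal R⁰ F} (hI : I ≠ 0) (hJ : J ≠ 0)
    (h : ∀ v : HeightOneSpectrum R, count F v I = count F v J) : I = J :=
  le_antisymm ((Fermat.Agent.S20.le_iff_count hI hJ).mpr fun v => (h v).ge)
    ((Fermat.Agent.S20.le_iff_count hJ hI).mpr fun v => (h v).le)

/-- the class of a divisor only depends on the fractional ideal it defines -/
theorem divClass_eq_mk_of_count (D : HeightOneSpectrum R →₀ ℤ) (I : (FractionalIdeal R⁰ F)ˣ)
    (h : ∀ v : HeightOneSpectrum R, count F v (I : FractionalIdeal R⁰ F) = D v) :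
    divClass D = ClassGroup.mk F I := by
  rw [← mk_divUnit F]
  congr 1
  apply Units.ext
  exact fractionalIdeal_eq_of_count_eq F (Units.ne_zero _) (Units.ne_zero _) fun v => by
    rw [count_divUnit, h]

/-- **The divisor of a function has trivial class.** -/
theorem divClass_eq_one_of_valuation (D : HeightOneSpectrum R →₀ ℤ) (c : Fˣ)
    (h : ∀ v : HeightOneSpectrum R, v.valuation F (c : F) = exp (-(D v))) : divClass D = 1 := by
  have hc : spanSingleton R⁰ (c : F) ≠ 0 := by
    rw [Ne, spanSingleton_eq_zero_iff]
    exact c.ne_zero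
  rw [divClass_eq_mk_of_count F D (Units.mk0 _ hc), ClassGroup.mk_eq_one_iff]
  · exact ⟨⟨(c : F), by rw [Units.val_mk0, coe_spanSingleton]⟩⟩
  · intro v
    rw [Units.val_mk0, Fermat.Agent.S20.count_spanSingleton v c.ne_zero, h v, log_exp, neg_neg]

/-- **The divisor of a nonzero integral ideal has the class of the ideal.** -/
theorem divClass_eq_mk0_of_count (D : HeightOneSpectrum R →₀ ℤ) (I : (Ideal R)⁰)
    (h : ∀ v : HeightOneSpectrum R, count F v ((I : Ideal R) : FractionalIdeal R⁰ F) = D v) :
    divClass D = ClassGroup.mk0 I := by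
  rw [← ClassGroup.mk_mk0 F, divClass_eq_mk_of_count F D (FractionalIdeal.mk0 F I)]
  intro v
  rw [FractionalIdeal.coe_mk0, h]

/-- the divisor of a nonzero fractional ideal -/
noncomputable def divOfIdeal (I : FractionalIdeal R⁰ F) : HeightOneSpectrum R →₀ ℤ :=
  Finsupp.ofSupportFinite (fun v => count F v I) (by
    have := FractionalIdeal.finite_factors (K := F) I
    rw [Filter.eventually_cofinite] at this
    exact this)

@[simp] theorem divOfIdeal_apply (I : FractionalIdeal R⁰ F) (v : HeightOneSpectrum R) :
    divOfIdeal F I v = count F v I := rfl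

/-- **A finite set of primes generating the class group.** -/
theorem exists_finset_forall_exists_divClass_eq [Finite (ClassGroup R)] :
    ∃ S0 : Finset (HeightOneSpectrum R), ∀ C : ClassGroup R,
      ∃ D : HeightOneSpectrum R →₀ ℤ, D.support ⊆ S0 ∧ divClass D = C := by
  classical
  have := Fintype.ofFinite (ClassGroup R)
  choose rep hrep using (ClassGroup.mk0_surjective (R := R))
  have hrep0 : ∀ C : ClassGroup R, ((rep C : (Ideal R)⁰) : Ideal R) ≠ 0 := fun C =>
    nonZeroDivisors.ne_zero (rep C).2
  let S0 : Finset (HeightOneSpectrum R) :=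
    Finset.univ.biUnion fun C : ClassGroup R => (Ideal.finite_factors (hrep0 C)).toFinset
  refine ⟨S0, fun C => ?_⟩
  let F' := FractionRing R
  refine ⟨divOfIdeal F' ((rep C : Ideal R) : FractionalIdeal R⁰ F'), ?_, ?_⟩
  · intro v hv
    rw [Finsupp.mem_support_iff, divOfIdeal_apply, count_coe F' v (hrep0 C), Ne,
      Int.natCast_eq_zero] at hv
    rw [Finset.mem_biUnion]
    refine ⟨C, Finset.mem_univ _, ?_⟩
    rw [Set.Finite.mem_toFinset]
    exact (Associates.count_ne_zero_iff_dvd (hrep0 C) v.irreducible).mp hv
  · rw [divClass_eq_mk0_of_count F' _ (rep C) fun v => rfl, hrep]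

end Fermat.Agent.CFT
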