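import Mathlib
import Fermat.Agent.CFT.Global.Contracts
import Fermat.Agent.CFT.Global.DivClass
import Fermat.Agent.CFT.Global.PrimeDivisor

set_option autoImplicit false
set_option linter.unusedSectionVars false

/-!
# CFT stream [C] Global: `normClasses` in the divisor model (helper27)

Bridge between the divisor model of the ideal group (`PrimeDivisor.lean`, `DivClass.lean`) and the
contract vocabulary `normClasses F M` of `Contracts.lean`, for the first inequality.

* `divClassHom R : (HeightOneSpectrum R →₀ ℤ) →+ Additive (ClassGroup R)` : the class of a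
  divisor, bundled; it is surjective (`divClassHom_surjective`) and its kernel is the group of
  principal divisors (`divClassHom_ker : (divClassHom R).ker = (divHom R K).range`);
* `idealDiv R I` : the divisor of an integral ideal (`idealDiv_apply`, `idealDiv_mul`,
  `idealDiv_pow`, `idealDiv_asIdeal`, `idealDiv_span_singleton`, `divClass_idealDiv`);
* `normDivisors F M` : the subgroup of `Div F` generated by the divisors of the relative norms of
  the nonzero ideals of `𝓞 M`; it is generated by the `f(w|q) • q`
  (`normDivisors_eq_closure_range`);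
* `map_divClassHom_normDivisors` : its image in the class group is `normClasses F M`, and
  `index_range_divHom_sup_normDivisors` :
  `((divHom (𝓞 F) F).range ⊔ normDivisors F M).index = (normClasses F M).index`;
* `divHom_mem_normDivisors` : if `(β) = N(J)` then the divisor of `β` is in `normDivisors F M`.
-/

namespace Fermat.Agent.CFT

open IsDedekindDomain IsDedekindDomain.HeightOneSpectrum NumberField FractionalIdeal
open scoped nonZeroDivisors

section General

variable (R : Type*) [CommRing R] [IsDedekindDomain R]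

/-- The class of a divisor, as an additive homomorphism. -/
noncomputable def divClassHom : (HeightOneSpectrum R →₀ ℤ) →+ Additive (ClassGroup R) where
  toFun D := Additive.ofMul (divClass D)
  map_zero' := by rw [divClass_zero]; rfl
  map_add' D E := by rw [divClass_add]; rfl

@[simp] theorem divClassHom_apply (D : HeightOneSpectrum R →₀ ℤ) :
    divClassHom R D = Additive.ofMul (divClass D) := rfl

/-- The divisor of an integral ideal (`0` for the zero ideal). -/
noncomputable def idealDiv (I : Ideal R) : HeightOneSpectrum R →₀ ℤ :=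
  divOfIdeal (FractionRing R) (I : FractionalIdeal R⁰ (FractionRing R))

variable (K : Type*) [Field K] [Algebra R K] [IsFractionRing R K]

theorem idealDiv_apply (I : Ideal R) (v : HeightOneSpectrum R) :
    idealDiv R I v = count K v (I : FractionalIdeal R⁰ K) := by
  rw [idealDiv, divOfIdeal_apply]
  rcases eq_or_ne I ⊥ with rfl | hI
  · rw [show ((⊥ : Ideal R) : FractionalIdeal R⁰ K) = 0 from coeIdeal_bot,
      show ((⊥ : Ideal R) : FractionalIdeal R⁰ (FractionRing R)) = 0 from coeIdeal_bot,
      count_zero, count_zero]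
  · rw [count_coe K v hI, count_coe (FractionRing R) v hI]

theorem idealDiv_bot : idealDiv R (⊥ : Ideal R) = 0 := by
  ext v
  rw [idealDiv_apply R (FractionRing R),
    show ((⊥ : Ideal R) : FractionalIdeal R⁰ (FractionRing R)) = 0 from coeIdeal_bot, count_zero,
    Finsupp.zero_apply]

theorem idealDiv_top : idealDiv R (⊤ : Ideal R) = 0 := by
  ext v
  rw [idealDiv_apply R (FractionRing R), coeIdeal_top, count_one, Finsupp.zero_apply]

theorem idealDiv_mul {I J : Ideal R} (hI : I ≠ ⊥) (hJ : J ≠ ⊥) :
    idealDiv R (I * J) = idealDiv R I + idealDiv R J := by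
  ext v
  rw [Finsupp.add_apply, idealDiv_apply R (FractionRing R), idealDiv_apply R (FractionRing R),
    idealDiv_apply R (FractionRing R), coeIdeal_mul,
    count_mul _ v (coeIdeal_ne_zero.mpr hI) (coeIdeal_ne_zero.mpr hJ)]

theorem idealDiv_pow (I : Ideal R) (n : ℕ) : idealDiv R (I ^ n) = n • idealDiv R I := by
  ext v
  rw [Finsupp.smul_apply, idealDiv_apply R (FractionRing R), idealDiv_apply R (FractionRing R),
    coeIdeal_pow, count_pow, nsmul_eq_mul]

theorem idealDiv_asIdeal (v : HeightOneSpectrum R) :
    idealDiv R v.asIdeal = Finsupp.single v 1 := by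
  classical
  ext w
  rw [idealDiv_apply R (FractionRing R), count_maximal, Finsupp.single_apply]

/-- The divisor of a nonzero ideal has the class of the ideal. -/
theorem divClass_idealDiv (I : Ideal R) (hI : I ∈ (Ideal R)⁰) :
    divClass (idealDiv R I) = ClassGroup.mk0 ⟨I, hI⟩ :=
  divClass_eq_mk0_of_count (FractionRing R) _ ⟨I, hI⟩ fun _ => rfl

/-- The divisor of a principal ideal is minus the divisor of its generator (`divHom` has
Mathlib's sign). -/
theorem idealDiv_span_singleton (x : Kˣ) (r : R) (hr : algebraMap R K r = (x : K)) :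
    idealDiv R (Ideal.span {r}) = - divHom R K (Additive.ofMul x) := by
  ext v
  rw [idealDiv_apply R K, coeIdeal_span_singleton, hr, count_spanSingleton_eq, Finsupp.neg_apply,
    divHom_apply, toMul_ofMul]

/-- every ideal class is the class of a divisor -/
theorem divClassHom_surjective : Function.Surjective (divClassHom R) := by
  intro c
  obtain ⟨I, hI⟩ := ClassGroup.mk0_surjective (Additive.toMul c)
  refine ⟨idealDiv R (I : Ideal R), ?_⟩
  rw [divClassHom_apply, divClass_idealDiv R (I : Ideal R) I.2]
  exact congrArg Additive.ofMul hI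

/-- a divisor has trivial class iff it is principal -/
theorem divClass_eq_one_iff (D : HeightOneSpectrum R →₀ ℤ) :
    divClass D = 1 ↔ D ∈ (divHom R K).range := by
  constructor
  · intro h
    rw [← mk_divUnit K, ClassGroup.mk_eq_one_iff] at h
    obtain ⟨c, hc⟩ := h.principal
    have hc' : (divUnit K D : FractionalIdeal R⁰ K) = spanSingleton R⁰ c := by
      rw [← coeToSubmodule_inj, hc, coe_spanSingleton]
    have hc0 : c ≠ 0 := by
      rintro rfl
      rw [spanSingleton_zero] at hc'
      exact Units.ne_zero _ hc'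
    refine ⟨Additive.ofMul (Units.mk0 c hc0)⁻¹, ?_⟩
    ext v
    rw [divHom_apply, toMul_ofMul, divFun_inv, ← count_spanSingleton_eq, Units.val_mk0, ← hc',
      count_divUnit]
  · rintro ⟨x, rfl⟩
    refine divClass_eq_one_of_valuation K _ (Additive.toMul x)⁻¹ fun v => ?_
    rw [Units.val_inv_eq_inv_val, map_inv₀, valuation_eq_exp_divFun, divHom_apply,
      WithZero.exp_neg]

/-- the kernel of `divClassHom` is the group of principal divisors -/
theorem divClassHom_ker : (divClassHom R).ker = (divHom R K).range := by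
  ext D
  rw [AddMonoidHom.mem_ker, divClassHom_apply, ← divClass_eq_one_iff R K]
  exact Iff.rfl

/-- `[Div : P + H] = [Cl : image of H]` -/
theorem index_range_divHom_sup (H : AddSubgroup (HeightOneSpectrum R →₀ ℤ)) :
    ((divHom R K).range ⊔ H).index = (H.map (divClassHom R)).index := by
  rw [AddSubgroup.index_map, divClassHom_ker R K,
    AddMonoidHom.range_eq_top.mpr (divClassHom_surjective R), AddSubgroup.index_top, mul_one,
    sup_comm]

end General

section NumberField

variable (F M : Type*) [Field F] [NumberField F] [Field M] [NumberField M] [Algebra F M]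

/-- The subgroup of the divisor group of `F` generated by the divisors of the relative norms of
the nonzero ideals of `𝓞 M`. -/
noncomputable def normDivisors : AddSubgroup (HeightOneSpectrum (𝓞 F) →₀ ℤ) :=
  AddSubgroup.closure {D | ∃ J : Ideal (𝓞 M), J ≠ ⊥ ∧
    D = idealDiv (𝓞 F) (Ideal.relNorm (𝓞 F) J)}

theorem idealDiv_relNorm_mem_normDivisors (J : Ideal (𝓞 M)) :
    idealDiv (𝓞 F) (Ideal.relNorm (𝓞 F) J) ∈ normDivisors F M := by
  rcases eq_or_ne J ⊥ with rfl | hJ
  · rw [Ideal.relNorm_bot, idealDiv_bot]
    exact zero_mem _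
  · exact AddSubgroup.subset_closure ⟨J, hJ, rfl⟩

/-- the relative norm of a prime `w` of `M` is `q ^ f(w|q)`, `q` the prime below -/
theorem idealDiv_relNorm_asIdeal (w : HeightOneSpectrum (𝓞 M)) :
    idealDiv (𝓞 F) (Ideal.relNorm (𝓞 F) w.asIdeal) =
      (w.asIdeal.inertiaDeg (𝓞 F)) • Finsupp.single (primeBelow F M w) 1 := by
  have : w.asIdeal.LiesOver (primeBelow F M w).asIdeal := ⟨rfl⟩
  have : w.asIdeal.IsMaximal := w.isMaximal
  have : (primeBelow F M w).asIdeal.IsMaximal := (primeBelow F M w).isMaximal
  rw [Ideal.relNorm_eq_pow_of_isMaximal w.asIdeal (primeBelow F M w).asIdeal, idealDiv_pow,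
    idealDiv_asIdeal]

/-- `normDivisors F M` is generated by the `f(w|q) • q`. -/
theorem normDivisors_eq_closure_range :
    normDivisors F M = AddSubgroup.closure (Set.range fun w : HeightOneSpectrum (𝓞 M) =>
      (w.asIdeal.inertiaDeg (𝓞 F)) • Finsupp.single (primeBelow F M w) (1 : ℤ)) := by
  apply le_antisymm
  · rw [normDivisors, AddSubgroup.closure_le]
    rintro _ ⟨J, hJ, rfl⟩
    induction J using UniqueFactorizationMonoid.induction_on_prime with
    | h₁ => exact absurd rfl hJ
    | h₂ J hJu =>
      rw [Ideal.isUnit_iff.mp hJu, ← Ideal.one_eq_top, map_one, Ideal.one_eq_top, idealDiv_top]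
      exact zero_mem _
    | h₃ J P hJ0 hP ih =>
      have hP0 : P ≠ ⊥ := hP.ne_zero
      have hPp : P.IsPrime := (Ideal.prime_iff_isPrime hP0).mp hP
      rw [map_mul, idealDiv_mul (𝓞 F) (fun h => hP0 (Ideal.relNorm_eq_bot_iff.mp h))
        (fun h => hJ0 (Ideal.relNorm_eq_bot_iff.mp h))]
      refine add_mem ?_ (ih hJ0)
      have := idealDiv_relNorm_asIdeal F M ⟨P, hPp, hP0⟩
      rw [this]
      exact AddSubgroup.subset_closure ⟨⟨P, hPp, hP0⟩, rfl⟩
  · rw [AddSubgroup.closure_le]
    rintro _ ⟨w, rfl⟩
    change w.asIdeal.inertiaDeg (𝓞 F) • Finsupp.single (primeBelow F M w) (1 : ℤ) ∈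
      normDivisors F M
    rw [← idealDiv_relNorm_asIdeal]
    exact idealDiv_relNorm_mem_normDivisors F M _

/-- the divisor group is generated by the prime divisors -/
theorem closure_range_single_eq_top (X : Type*) :
    AddSubgroup.closure (Set.range fun x : X => Finsupp.single x (1 : ℤ)) = ⊤ := by
  classical
  rw [eq_top_iff]
  rintro D -
  induction D using Finsupp.induction_linear with
  | zero => exact zero_mem _
  | add D E hD hE => exact add_mem hD hE
  | single x n =>
    have : Finsupp.single x n = n • Finsupp.single x (1 : ℤ) := by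
      rw [Finsupp.smul_single, smul_eq_mul, mul_one]
    rw [this]
    exact zsmul_mem (AddSubgroup.subset_closure (Set.mem_range_self x)) n

/-- Any additive "norm" map `Div M → Div F` with `N(w) = f(w|q) q` has range
`normDivisors F M`. -/
theorem range_eq_normDivisors
    (N : (HeightOneSpectrum (𝓞 M) →₀ ℤ) →+ (HeightOneSpectrum (𝓞 F) →₀ ℤ))
    (hN : ∀ w : HeightOneSpectrum (𝓞 M), N (Finsupp.single w 1) =
      Finsupp.single (primeBelow F M w) (w.asIdeal.inertiaDeg (𝓞 F) : ℤ)) :
    N.range = normDivisors F M := by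
  rw [AddMonoidHom.range_eq_map, ← closure_range_single_eq_top, AddMonoidHom.map_closure,
    normDivisors_eq_closure_range]
  congr 1
  ext D
  simp only [Set.mem_image, Set.mem_range, exists_exists_eq_and]
  refine exists_congr fun w => ?_
  rw [hN w, ← natCast_zsmul, Finsupp.smul_single, smul_eq_mul, mul_one]

/-- the value of the "norm" map on the divisor of an ideal -/
theorem map_idealDiv_eq_idealDiv_relNorm
    (N : (HeightOneSpectrum (𝓞 M) →₀ ℤ) →+ (HeightOneSpectrum (𝓞 F) →₀ ℤ))
    (hN : ∀ w : HeightOneSpectrum (𝓞 M), N (Finsupp.single w 1) =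
      Finsupp.single (primeBelow F M w) (w.asIdeal.inertiaDeg (𝓞 F) : ℤ))
    (J : Ideal (𝓞 M)) (hJ : J ≠ ⊥) :
    N (idealDiv (𝓞 M) J) = idealDiv (𝓞 F) (Ideal.relNorm (𝓞 F) J) := by
  induction J using UniqueFactorizationMonoid.induction_on_prime with
  | h₁ => exact absurd rfl hJ
  | h₂ J hJu =>
    rw [Ideal.isUnit_iff.mp hJu, idealDiv_top, ← Ideal.one_eq_top, map_one, Ideal.one_eq_top,
      idealDiv_top, map_zero]
  | h₃ J P hJ0 hP ih =>
    have hP0 : P ≠ ⊥ := hP.ne_zero
    have hPp : P.IsPrime := (Ideal.prime_iff_isPrime hP0).mp hP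
    rw [map_mul, idealDiv_mul (𝓞 F) (fun h => hP0 (Ideal.relNorm_eq_bot_iff.mp h))
      (fun h => hJ0 (Ideal.relNorm_eq_bot_iff.mp h)), idealDiv_mul (𝓞 M) hP0 hJ0, map_add, ih hJ0]
    congr 1
    have h1 := idealDiv_relNorm_asIdeal F M ⟨P, hPp, hP0⟩
    have h2 := idealDiv_asIdeal (𝓞 M) ⟨P, hPp, hP0⟩
    change idealDiv (𝓞 M) P = _ at h2
    change idealDiv (𝓞 F) (Ideal.relNorm (𝓞 F) P) = _ at h1
    rw [h1, h2, hN, ← natCast_zsmul, Finsupp.smul_single, smul_eq_mul, mul_one]

/-- The image of `normDivisors F M` in the class group is `normClasses F M`. -/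
theorem map_divClassHom_normDivisors :
    (normDivisors F M).map (divClassHom (𝓞 F)) = Subgroup.toAddSubgroup (normClasses F M) := by
  rw [normDivisors, AddMonoidHom.map_closure, normClasses, Subgroup.toAddSubgroup_closure]
  congr 1
  ext c
  simp only [Set.mem_image, Set.mem_ofPred_eq, Set.mem_preimage]
  constructor
  · rintro ⟨_, ⟨J, hJ, rfl⟩, rfl⟩
    refine ⟨J, hJ, ?_⟩
    rw [divClassHom_apply, toMul_ofMul]
    exact divClass_idealDiv (𝓞 F) _ _
  · rintro ⟨J, hJ, hc⟩
    refine ⟨_, ⟨J, hJ, rfl⟩, ?_⟩
    rw [divClassHom_apply, divClass_idealDiv (𝓞 F) _ (mem_nonZeroDivisors_iff_ne_zero.mpr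
      (fun h => hJ (Ideal.relNorm_eq_bot_iff.mp h))), ← hc]
    rfl

/-- **Index formula**: `[Div F : P_F + N(Div M)] = [Cl_F : normClasses]`. -/
theorem index_range_divHom_sup_normDivisors :
    ((divHom (𝓞 F) F).range ⊔ normDivisors F M).index = (normClasses F M).index := by
  rw [index_range_divHom_sup, map_divClassHom_normDivisors, Subgroup.index_toAddSubgroup]

/-- a divisor is in `P_F + N(Div M)` iff its class is in `normClasses F M` -/
theorem mem_range_divHom_sup_normDivisors_iff (D : HeightOneSpectrum (𝓞 F) →₀ ℤ) :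
    D ∈ (divHom (𝓞 F) F).range ⊔ normDivisors F M ↔ divClass D ∈ normClasses F M := by
  have h1 : divClass D ∈ normClasses F M ↔
      divClassHom (𝓞 F) D ∈ (normDivisors F M).map (divClassHom (𝓞 F)) := by
    rw [map_divClassHom_normDivisors]
    exact Iff.rfl
  rw [h1, ← divClassHom_ker (𝓞 F) F, sup_comm]
  constructor
  · intro h
    obtain ⟨a, ha, b, hb, rfl⟩ := AddSubgroup.mem_sup.mp h
    refine ⟨a, ha, ?_⟩
    rw [map_add, (AddMonoidHom.mem_ker).mp hb, add_zero]
  · rintro ⟨a, ha, hab⟩
    have : D - a ∈ (divClassHom (𝓞 F)).ker := by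
      rw [AddMonoidHom.mem_ker, map_sub, hab, sub_self]
    have h2 : D = a + (D - a) := by abel
    rw [h2]
    exact AddSubgroup.add_mem_sup ha this

/-- if `(β) = N(J)` then the divisor of `β` lies in `normDivisors F M` -/
theorem divHom_mem_normDivisors (β : 𝓞 F) (x : Fˣ) (hx : (x : F) = (β : F))
    (h : ∃ J : Ideal (𝓞 M), Ideal.relNorm (𝓞 F) J = Ideal.span {β}) :
    divHom (𝓞 F) F (Additive.ofMul x) ∈ normDivisors F M := by
  obtain ⟨J, hJ⟩ := h
  have h1 := idealDiv_span_singleton (𝓞 F) F x β hx.symm
  rw [← hJ] at h1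
  rw [← neg_neg (divHom (𝓞 F) F (Additive.ofMul x)), ← h1]
  exact neg_mem (idealDiv_relNorm_mem_normDivisors F M J)

end NumberField

end Fermat.Agent.CFT
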