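import Mathlib
import Fermat.Agent.CFT.Global.DivClass

set_option autoImplicit false
set_option linter.unusedSectionVars false

/-!
# CFT, stream [C], (G6) Lemma B, part (ii): ideals supported on a finite set of primes

`R` a Dedekind domain, `F = Frac R`, `S` a finite set of primes.

* `sProd S n = ∏ v ∈ S, v ^ n v` and its counts;
* `ideal_eq_of_count_eq` : nonzero ideals with the same counts are equal;
* `mul_sProd_eq_mul_sProd` : two nonzero ideals with the same counts outside `S` differ by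
  `S`-products;
* `exists_mem_sub_one_mem` : an element of an ideal prime to `T` which is `≡ 1` modulo `T`.
-/

namespace Fermat.Agent.CFT

open IsDedekindDomain HeightOneSpectrum WithZero FractionalIdeal nonZeroDivisors

variable {R : Type*} [CommRing R] [IsDedekindDomain R]
variable (F : Type*) [Field F] [Algebra R F] [IsFractionRing R F]

/-- nonzero ideals with the same counts are equal -/
theorem ideal_eq_of_count_eq {I J : Ideal R} (hI : I ≠ ⊥) (hJ : J ≠ ⊥)
    (h : ∀ v : HeightOneSpectrum R, count F v (I : FractionalIdeal R⁰ F) =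
      count F v (J : FractionalIdeal R⁰ F)) : I = J := by
  apply coeIdeal_injective (K := F)
  exact fractionalIdeal_eq_of_count_eq F (coeIdeal_ne_zero.mpr hI) (coeIdeal_ne_zero.mpr hJ) h

/-- the count of an integral ideal at `v` vanishes iff the ideal is not contained in `v` -/
theorem count_coe_eq_zero_iff {I : Ideal R} (hI : I ≠ ⊥) (v : HeightOneSpectrum R) :
    count F v (I : FractionalIdeal R⁰ F) = 0 ↔ ¬ I ≤ v.asIdeal := by
  rw [count_coe F v hI, Int.natCast_eq_zero, not_iff_not.symm, not_not, ← Ne,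
    Associates.count_ne_zero_iff_dvd hI v.irreducible, Ideal.dvd_iff_le]

variable {F} in
/-- the `S`-product `∏ v ∈ S, v ^ n v` -/
noncomputable def sProd (S : Finset (HeightOneSpectrum R)) (n : HeightOneSpectrum R → ℕ) :
    Ideal R :=
  ∏ v ∈ S, v.asIdeal ^ n v

theorem sProd_ne_bot (S : Finset (HeightOneSpectrum R)) (n : HeightOneSpectrum R → ℕ) :
    sProd S n ≠ ⊥ := by
  rw [sProd, ← Ideal.zero_eq_bot, Finset.prod_ne_zero_iff]
  exact fun v _ => pow_ne_zero _ v.ne_bot

open Classical in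
theorem count_sProd (S : Finset (HeightOneSpectrum R)) (n : HeightOneSpectrum R → ℕ)
    (w : HeightOneSpectrum R) :
    count F w ((sProd S n : Ideal R) : FractionalIdeal R⁰ F) = if w ∈ S then (n w : ℤ) else 0 := by
  have h1 : ((sProd S n : Ideal R) : FractionalIdeal R⁰ F) =
      ∏ v ∈ S, (v.asIdeal : FractionalIdeal R⁰ F) ^ n v := by
    rw [sProd, ← coeIdealHom_apply, map_prod]
    refine Finset.prod_congr rfl fun v _ => ?_
    rw [coeIdealHom_apply, coeIdeal_pow]
  rw [h1, count_prod F w S _ (fun v _ => pow_ne_zero _ (coeIdeal_ne_zero.mpr v.ne_bot))]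
  simp only [count_pow, count_maximal, mul_ite, mul_one, mul_zero]
  rw [Finset.sum_ite_eq']

theorem sProd_le_pow (S : Finset (HeightOneSpectrum R)) (n : HeightOneSpectrum R → ℕ)
    {v : HeightOneSpectrum R} (hv : v ∈ S) : sProd S n ≤ v.asIdeal ^ n v := by
  rw [sProd]
  exact Ideal.le_of_dvd (Finset.dvd_prod_of_mem _ hv)

/-- an `S`-product is prime to every prime outside `S` -/
theorem not_sProd_le (S : Finset (HeightOneSpectrum R)) (n : HeightOneSpectrum R → ℕ)
    {q : HeightOneSpectrum R} (hq : q ∉ S) : ¬ sProd S n ≤ q.asIdeal := by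
  classical
  rw [← count_coe_eq_zero_iff (FractionRing R) (sProd_ne_bot S n), count_sProd, if_neg hq]

/-- **two ideals with the same counts outside `S` differ by `S`-products** -/
theorem mul_sProd_eq_mul_sProd (S : Finset (HeightOneSpectrum R)) {I I' : Ideal R} (hI : I ≠ ⊥)
    (hI' : I' ≠ ⊥)
    (h : ∀ v : HeightOneSpectrum R, v ∉ S → count F v (I : FractionalIdeal R⁰ F) =
      count F v (I' : FractionalIdeal R⁰ F)) :
    I * sProd S (fun v => (count F v (I' : FractionalIdeal R⁰ F)).toNat) =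
      I' * sProd S (fun v => (count F v (I : FractionalIdeal R⁰ F)).toNat) := by
  classical
  apply ideal_eq_of_count_eq F (mul_ne_zero hI (sProd_ne_bot S _))
    (mul_ne_zero hI' (sProd_ne_bot S _))
  intro v
  rw [coeIdeal_mul, coeIdeal_mul,
    count_mul F v (coeIdeal_ne_zero.mpr hI) (coeIdeal_ne_zero.mpr (sProd_ne_bot S _)),
    count_mul F v (coeIdeal_ne_zero.mpr hI') (coeIdeal_ne_zero.mpr (sProd_ne_bot S _)),
    count_sProd, count_sProd]
  by_cases hv : v ∈ S
  · rw [if_pos hv, if_pos hv, Int.toNat_of_nonneg (count_coe_nonneg F v I'),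
      Int.toNat_of_nonneg (count_coe_nonneg F v I)]
    ring
  · rw [if_neg hv, if_neg hv, h v hv]

variable {F} in
/-- **an element of an ideal prime to `T`, congruent to `1` modulo every prime of `T`** -/
theorem exists_mem_sub_one_mem (T : Finset (HeightOneSpectrum R)) {𝔠 : Ideal R} (h𝔠 : 𝔠 ≠ ⊥)
    (hT : ∀ q ∈ T, ¬ 𝔠 ≤ q.asIdeal) :
    ∃ d ∈ 𝔠, d ≠ 0 ∧ ∀ q ∈ T, d - 1 ∈ q.asIdeal := by
  have hcop : IsCoprime 𝔠 (∏ q ∈ T, q.asIdeal) := by
    apply IsCoprime.prod_right
    intro q hq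
    rw [Ideal.isCoprime_iff_sup_eq]
    have hmax : q.asIdeal.IsMaximal := q.isMaximal
    by_contra hne
    have h1 : q.asIdeal ≤ 𝔠 ⊔ q.asIdeal := le_sup_right
    rcases hmax.eq_of_le hne h1 with h2
    exact hT q hq (by rw [h2]; exact le_sup_left)
  obtain ⟨a, ha, b, hb, hab⟩ := Ideal.isCoprime_iff_exists.mp hcop
  have hbq : ∀ q ∈ T, b ∈ q.asIdeal := fun q hq =>
    Ideal.le_of_dvd (Finset.dvd_prod_of_mem _ hq) hb
  by_cases ha0 : a = 0
  · -- then `1 ∈ q` for every `q ∈ T`, so `T` is empty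
    have hb1 : b = 1 := by rw [← hab, ha0, zero_add]
    have hTe : ∀ q ∈ T, False := fun q hq =>
      q.isPrime.ne_top ((Ideal.eq_top_iff_one _).mpr (hb1 ▸ hbq q hq))
    obtain ⟨c, hc, hc0⟩ := Submodule.exists_mem_ne_zero_of_ne_bot h𝔠
    exact ⟨c, hc, hc0, fun q hq => (hTe q hq).elim⟩
  · refine ⟨a, ha, ha0, fun q hq => ?_⟩
    have : a - 1 = -b := by rw [← hab]; ring
    rw [this]
    exact q.asIdeal.neg_mem (hbq q hq)

/-- **an element with the valuations of `𝔞` outside `S`**, when `S` generates the class group -/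
theorem exists_valuation_eq_of_divClass (S : Finset (HeightOneSpectrum R))
    (hS : ∀ C : ClassGroup R, ∃ D : HeightOneSpectrum R →₀ ℤ, D.support ⊆ S ∧ divClass D = C)
    {𝔞 : Ideal R} (h𝔞 : 𝔞 ≠ ⊥) :
    ∃ c : Fˣ, ∀ v : HeightOneSpectrum R, v ∉ S →
      v.valuation F (c : F) = exp (-(count F v (𝔞 : FractionalIdeal R⁰ F))) := by
  have h𝔞' : 𝔞 ∈ (Ideal R)⁰ := mem_nonZeroDivisors_iff_ne_zero.mpr h𝔞
  obtain ⟨D, hDS, hD⟩ := hS (ClassGroup.mk0 ⟨𝔞, h𝔞'⟩)
  set X : (FractionalIdeal R⁰ F)ˣ := FractionalIdeal.mk0 F ⟨𝔞, h𝔞'⟩ * (divUnit F D)⁻¹ with hX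
  have h1 : ClassGroup.mk F X = 1 := by
    rw [hX, map_mul, map_inv, ClassGroup.mk_mk0, mk_divUnit, hD, mul_inv_cancel]
  rw [ClassGroup.mk_eq_one_iff] at h1
  obtain ⟨x, hx⟩ := h1.principal
  have hx' : (X : FractionalIdeal R⁰ F) = spanSingleton R⁰ x := by
    apply Subtype.coe_injective
    simp only [val_eq_coe, hx, coe_spanSingleton]
  have hx0 : x ≠ 0 := by
    intro h0
    apply Units.ne_zero X
    rw [hx', h0, spanSingleton_zero]
  refine ⟨Units.mk0 x hx0, fun v hv => ?_⟩
  have h2 : count F v (X : FractionalIdeal R⁰ F) =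
      count F v (𝔞 : FractionalIdeal R⁰ F) - D v := by
    rw [hX, Units.val_mul, count_mul F v (Units.ne_zero _) (Units.ne_zero _),
      Units.val_inv_eq_inv_val, count_inv, count_divUnit, FractionalIdeal.coe_mk0]
    ring
  have hDv : D v = 0 := Finsupp.notMem_support_iff.mp (fun h => hv (hDS h))
  rw [hx', Fermat.Agent.S20.count_spanSingleton v hx0, hDv, sub_zero] at h2
  rw [Units.val_mk0, ← h2, neg_neg, exp_log ((Valuation.ne_zero_iff _).mpr hx0)]

end Fermat.Agent.CFT
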