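import Mathlib

set_option autoImplicit false
set_option linter.unusedSectionVars false
set_option linter.style.haveILetI false

/-!
# CFT, stream [C], (G4): primes in a Kummer extension `M = F(α)`, `α ^ p = a`

`F ⊆ M` number fields, `M / F` Galois, `ζ ∈ 𝓞 F` a primitive `p`-th root of unity, `α ∈ 𝓞 M` with
`α ^ p = a ∈ 𝓞 F` generating `M` (in the sense that only the identity of `Gal(M/F)` fixes `α`).
For a prime `Q` of `𝓞 M` not containing `p` and `α`:

* the inertia group of `Q` is trivial;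
* if `a` is a `p`-th power modulo `q = Q ∩ 𝓞 F` then the decomposition group of `Q` is trivial;
* if `Q` has residue degree one over `q` then `a` is a `p`-th power modulo `q`.
-/

namespace Fermat.Agent.CFT

open NumberField Ideal Pointwise

variable {F M : Type*} [Field F] [NumberField F] [Field M] [NumberField M] [Algebra F M]
  [IsGalois F M]

/-- `α` is an integral Kummer generator of `M / F` with `α ^ p = a`. -/
structure IsKummerGen (p : ℕ) (ζ a : 𝓞 F) (α : 𝓞 M) : Prop where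
  prim : IsPrimitiveRoot ζ p
  pow : α ^ p = algebraMap (𝓞 F) (𝓞 M) a
  gen : ∀ τ : Gal(M/F), τ • α = α → τ = 1

variable {p : ℕ} {ζ a : 𝓞 F} {α : 𝓞 M}

namespace IsKummerGen

omit [NumberField F] [NumberField M] [IsGalois F M] in
theorem smul_algebraMap (τ : Gal(M/F)) (x : 𝓞 F) :
    τ • algebraMap (𝓞 F) (𝓞 M) x = algebraMap (𝓞 F) (𝓞 M) x := by
  apply RingOfIntegers.ext
  show τ ((algebraMap (𝓞 F) (𝓞 M) x : 𝓞 M) : M) = _
  have : ((algebraMap (𝓞 F) (𝓞 M) x : 𝓞 M) : M) = algebraMap F M (x : F) := rfl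
  rw [this, τ.commutes]

omit [NumberField F] [NumberField M] [IsGalois F M] in
/-- every automorphism multiplies `α` by a power of `ζ`. -/
theorem exists_smul_eq (h : IsKummerGen p ζ a α) (hp : 0 < p) (ha : a ≠ 0) (τ : Gal(M/F)) :
    ∃ k, k < p ∧ τ • α = algebraMap (𝓞 F) (𝓞 M) (ζ ^ k) * α := by
  have hα0 : α ≠ 0 := by
    intro h0
    have := h.pow
    rw [h0, zero_pow hp.ne'] at this
    exact ha ((FaithfulSMul.algebraMap_injective (𝓞 F) (𝓞 M)) (by rw [← this, map_zero]))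
  have hinj : Function.Injective (algebraMap (𝓞 F) (𝓞 M)) :=
    FaithfulSMul.algebraMap_injective (𝓞 F) (𝓞 M)
  have hζM : IsPrimitiveRoot (algebraMap (𝓞 M) M (algebraMap (𝓞 F) (𝓞 M) ζ)) p :=
    (h.prim.map_of_injective hinj).map_of_injective (FaithfulSMul.algebraMap_injective (𝓞 M) M)
  have hαM : (algebraMap (𝓞 M) M α) ≠ 0 := by
    intro h0
    exact hα0 ((FaithfulSMul.algebraMap_injective (𝓞 M) M) (by rw [h0, map_zero]))
  have hpow : (τ • α) ^ p = α ^ p := by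
    rw [← smul_pow', h.pow, smul_algebraMap]
  have h1 : (algebraMap (𝓞 M) M (τ • α) / algebraMap (𝓞 M) M α) ^ p = 1 := by
    rw [div_pow, ← map_pow, ← map_pow, hpow, div_self]
    rw [map_pow]
    exact pow_ne_zero _ hαM
  have : NeZero p := ⟨hp.ne'⟩
  obtain ⟨k, hk, hk'⟩ := hζM.eq_pow_of_pow_eq_one h1
  refine ⟨k, hk, ?_⟩
  apply FaithfulSMul.algebraMap_injective (𝓞 M) M
  rw [map_mul, map_pow, map_pow, hk', div_mul_cancel₀ _ hαM]

/-- the key computation: an automorphism moving `α` inside its class modulo a prime `Q` not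
containing `p` and `α` is trivial. -/
theorem eq_one_of_smul_sub_mem (h : IsKummerGen p ζ a α) (hp : p.Prime) {Q : Ideal (𝓞 M)}
    [Q.IsPrime] (hpQ : (p : 𝓞 M) ∉ Q) (hαQ : α ∉ Q) (τ : Gal(M/F)) (hτ : τ • α - α ∈ Q) :
    τ = 1 := by
  have ha : a ≠ 0 := by
    intro h0
    apply hαQ
    have := h.pow
    rw [h0, map_zero] at this
    rw [(pow_eq_zero_iff hp.ne_zero).mp this]
    exact Q.zero_mem
  obtain ⟨k, hk, hkτ⟩ := h.exists_smul_eq hp.pos ha τ
  by_cases hk0 : k = 0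
  · apply h.gen
    rw [hkτ, hk0, pow_zero, map_one, one_mul]
  exfalso
  set η : 𝓞 M := algebraMap (𝓞 F) (𝓞 M) (ζ ^ k) with hη
  have hηprim : IsPrimitiveRoot η p := by
    have h1 : IsPrimitiveRoot (ζ ^ k) p :=
      h.prim.pow_of_coprime k (Nat.coprime_of_lt_prime hk0 hk hp).symm
    exact h1.map_of_injective (FaithfulSMul.algebraMap_injective (𝓞 F) (𝓞 M))
  have h1 : (η - 1) * α ∈ Q := by
    have : (η - 1) * α = τ • α - α := by rw [hkτ]; ring
    rw [this]; exact hτ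
  have h2 : η - 1 ∈ Q := (Ideal.IsPrime.mem_or_mem inferInstance h1).resolve_right hαQ
  have h3 : Ideal.Quotient.mk Q η = 1 := by
    have := Ideal.Quotient.eq_zero_iff_mem.mpr h2
    rw [map_sub, map_one, sub_eq_zero] at this
    exact this
  have h4 := hηprim.geom_sum_eq_zero hp.one_lt
  have h5 := congrArg (Ideal.Quotient.mk Q) h4
  rw [map_sum, map_zero] at h5
  simp only [map_pow, h3, one_pow, Finset.sum_const, Finset.card_range, nsmul_eq_mul,
    mul_one] at h5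
  apply hpQ
  rw [← Ideal.Quotient.eq_zero_iff_mem, map_natCast]
  exact h5


section primes

variable (h : IsKummerGen p ζ a α) (hp : p.Prime) (q : Ideal (𝓞 F)) (Q : Ideal (𝓞 M))
  [Q.IsPrime] [Q.LiesOver q]

include h hp

omit [NumberField F] [NumberField M] [IsGalois F M] in
theorem natCast_not_mem (hpq : (p : 𝓞 F) ∉ q) : (p : 𝓞 M) ∉ Q := by
  intro hmem
  apply hpq
  rw [Ideal.mem_of_liesOver Q q, map_natCast]
  exact hmem

omit [NumberField F] [NumberField M] [IsGalois F M] in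
theorem gen_not_mem (haq : a ∉ q) : α ∉ Q := by
  intro hmem
  apply haq
  rw [Ideal.mem_of_liesOver Q q, ← h.pow]
  exact Ideal.pow_mem_of_mem Q hmem p hp.pos

/-- (A1) the inertia group of `Q` is trivial when `q ∤ p a`. -/
theorem inertia_eq_bot (hpq : (p : 𝓞 F) ∉ q) (haq : a ∉ q) : Q.inertia Gal(M/F) = ⊥ := by
  rw [eq_bot_iff]
  intro τ hτ
  rw [Subgroup.mem_bot]
  exact h.eq_one_of_smul_sub_mem hp (natCast_not_mem h hp q Q hpq) (gen_not_mem h hp q Q haq) τ
    (hτ α)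

/-- (A2) if moreover `a` is a `p`-th power modulo `q` then the decomposition group of `Q` is
trivial. -/
theorem stabilizer_eq_bot (hpq : (p : 𝓞 F) ∉ q) (haq : a ∉ q) {c : 𝓞 F} (hc : a - c ^ p ∈ q) :
    MulAction.stabilizer Gal(M/F) Q = ⊥ := by
  rw [eq_bot_iff]
  intro τ hτ
  rw [Subgroup.mem_bot]
  rw [MulAction.mem_stabilizer_iff] at hτ
  -- `α - ζ^j c ∈ Q` for some `j`
  have h1 : α ^ p - (algebraMap (𝓞 F) (𝓞 M) c) ^ p ∈ Q := by
    rw [h.pow, ← map_pow, ← map_sub, ← Ideal.mem_of_liesOver Q q]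
    exact hc
  have hζM : IsPrimitiveRoot (algebraMap (𝓞 F) (𝓞 M) ζ) p :=
    h.prim.map_of_injective (FaithfulSMul.algebraMap_injective (𝓞 F) (𝓞 M))
  rw [hζM.pow_sub_pow_eq_prod_sub_mul _ _ hp.pos] at h1
  obtain ⟨η, hη, hηQ⟩ := (Ideal.IsPrime.prod_mem_iff).mp h1
  have hη' : η ^ p = 1 := ((Polynomial.mem_nthRootsFinset hp.pos 1).mp hη)
  haveI : NeZero p := ⟨hp.ne_zero⟩
  obtain ⟨j, -, rfl⟩ := hζM.eq_pow_of_pow_eq_one hη'
  -- apply `τ`
  have h2 : τ • (α - algebraMap (𝓞 F) (𝓞 M) ζ ^ j * algebraMap (𝓞 F) (𝓞 M) c) ∈ Q := by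
    rw [← hτ]
    exact Ideal.smul_mem_pointwise_smul τ _ Q hηQ
  rw [smul_sub, ← map_pow, ← map_mul, smul_algebraMap] at h2
  rw [← map_pow, ← map_mul] at hηQ
  have h3 : τ • α - α ∈ Q := by
    have := Q.sub_mem h2 hηQ
    have e : τ • α - algebraMap (𝓞 F) (𝓞 M) (ζ ^ j * c) -
        (α - algebraMap (𝓞 F) (𝓞 M) (ζ ^ j * c)) = τ • α - α := by ring
    rwa [e] at this
  exact h.eq_one_of_smul_sub_mem hp (natCast_not_mem h hp q Q hpq) (gen_not_mem h hp q Q haq) τ h3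

omit [NumberField F] [NumberField M] [IsGalois F M] hp in
/-- (A3) if `α` is congruent modulo `Q` to an element of `𝓞 F` (e.g. if `Q` has residue degree
one) then `a` is a `p`-th power modulo `q`. -/
theorem exists_sub_pow_mem {c : 𝓞 F} (hc : α - algebraMap (𝓞 F) (𝓞 M) c ∈ Q) :
    a - c ^ p ∈ q := by
  rw [Ideal.mem_of_liesOver Q q, map_sub, map_pow, ← h.pow]
  exact Q.mem_of_dvd (sub_dvd_pow_sub_pow α (algebraMap (𝓞 F) (𝓞 M) c) p) hc

end primes

section numerical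

variable (h : IsKummerGen p ζ a α) (hp : p.Prime) (q : Ideal (𝓞 F)) [q.IsPrime]

include h hp

/-- (N1) `q ∤ p a` is unramified in `M`. -/
theorem ramificationIdxIn_eq_one (hpq : (p : 𝓞 F) ∉ q) (haq : a ∉ q) :
    q.ramificationIdxIn (𝓞 M) = 1 := by
  obtain ⟨Q, hQ1, hQ2⟩ := Ideal.exists_ideal_over_prime_of_isIntegral_of_isDomain
    (S := 𝓞 M) q (by
      rw [(RingHom.injective_iff_ker_eq_bot _).mp
        (FaithfulSMul.algebraMap_injective (𝓞 F) (𝓞 M))]
      exact bot_le)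
  haveI : Q.IsPrime := hQ1
  haveI : Q.LiesOver q := ⟨hQ2.symm⟩
  rw [← Ideal.card_inertia_eq_ramificationIdxIn (G := Gal(M/F)) q Q,
    h.inertia_eq_bot hp q Q hpq haq]
  exact Nat.card_unique

/-- (N2) if `a` is a `p`-th power modulo `q ∤ p a` then the decomposition groups over `q` are
trivial, so `e f = 1`. -/
theorem ramificationIdxIn_mul_inertiaDegIn_eq_one (hpq : (p : 𝓞 F) ∉ q) (haq : a ∉ q) {c : 𝓞 F}
    (hc : a - c ^ p ∈ q) : q.ramificationIdxIn (𝓞 M) * q.inertiaDegIn (𝓞 M) = 1 := by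
  obtain ⟨Q, hQ1, hQ2⟩ := Ideal.exists_ideal_over_prime_of_isIntegral_of_isDomain
    (S := 𝓞 M) q (by
      rw [(RingHom.injective_iff_ker_eq_bot _).mp
        (FaithfulSMul.algebraMap_injective (𝓞 F) (𝓞 M))]
      exact bot_le)
  haveI : Q.IsPrime := hQ1
  haveI : Q.LiesOver q := ⟨hQ2.symm⟩
  rw [← Ideal.card_stabilizer_eq (G := Gal(M/F)) q Q, h.stabilizer_eq_bot hp q Q hpq haq hc]
  exact Nat.card_unique

/-- (N2') in that case `q` splits completely: there are `[M : F]` primes above `q`. -/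
theorem ncard_primesOver_eq (hpq : (p : 𝓞 F) ∉ q) (haq : a ∉ q) {c : 𝓞 F}
    (hc : a - c ^ p ∈ q) : (q.primesOver (𝓞 M)).ncard = Module.finrank F M := by
  have h1 := Ideal.ncard_primesOver_mul_ramificationIdxIn_mul_inertiaDegIn q (𝓞 M) Gal(M/F)
  rw [h.ramificationIdxIn_mul_inertiaDegIn_eq_one hp q hpq haq hc, mul_one,
    IsGalois.card_aut_eq_finrank] at h1
  exact h1

omit hp in
/-- (N3) a prime of residue degree one above `q` forces `a` to be a `p`-th power modulo `q`. -/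
theorem exists_sub_pow_mem_of_inertiaDeg_eq_one (hq0 : q ≠ ⊥) (Q : Ideal (𝓞 M)) [Q.IsPrime]
    [Q.LiesOver q] (hf : Q.inertiaDeg (𝓞 F) = 1) : ∃ c : 𝓞 F, a - c ^ p ∈ q := by
  haveI : q.IsMaximal := Ideal.IsPrime.isMaximal inferInstance hq0
  haveI : Q.IsMaximal :=
    Ideal.IsPrime.isMaximal inferInstance (Ideal.ne_bot_of_liesOver_of_ne_bot hq0 Q)
  rw [Ideal.inertiaDeg_eq_of_isMaximal q Q] at hf
  letI : Field (𝓞 F ⧸ q) := Ideal.Quotient.field q
  letI : Field (𝓞 M ⧸ Q) := Ideal.Quotient.field Q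
  have h1 : Function.Surjective (algebraMap (𝓞 F ⧸ q) (𝓞 M ⧸ Q)) := by
    rw [Algebra.surjective_algebraMap_iff, eq_comm]
    exact Subalgebra.bot_eq_top_iff_finrank_eq_one.mpr hf
  obtain ⟨cbar, hcbar⟩ := h1 (Ideal.Quotient.mk Q α)
  obtain ⟨c, rfl⟩ := Ideal.Quotient.mk_surjective cbar
  refine ⟨c, h.exists_sub_pow_mem q Q ?_⟩
  rw [← Ideal.Quotient.eq_zero_iff_mem, map_sub, ← hcbar]
  exact sub_eq_zero.mpr rfl

end numerical

end IsKummerGen

end Fermat.Agent.CFT
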