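import Mathlib
import Fermat.Agent.CFT.Global.KummerRes

set_option autoImplicit false
set_option linter.unusedSectionVars false
set_option linter.style.haveILetI false

/-!
# CFT, stream [C], (G4): Kummer extensions of number fields, field-level statements

`F ⊆ M` number fields, `M / F` Galois of prime degree `p`, `ζ ∈ F` a primitive `p`-th root of
unity, `θ ∈ M ∖ F` with `θ ^ p = u ∈ F`.  For a prime `v` of `F` with `v(p) = v(u) = 1`:

* `v` is unramified in `M`;
* if `u` is a `p`-th power modulo `v` then `v` splits completely in `M`;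
* if some prime above `v` has residue degree one then `u` is a `p`-th power modulo `v`.
-/

namespace Fermat.Agent.CFT

open NumberField Ideal Pointwise IsDedekindDomain

variable {F M : Type*} [Field F] [NumberField F] [Field M] [NumberField M] [Algebra F M]
  [IsGalois F M] {p : ℕ}

/-- an element of `M` not in `F` is moved by every nontrivial automorphism, when `[M : F]` is
prime. -/
theorem eq_one_of_fixes_of_prime_degree (hp : p.Prime) (hdeg : Module.finrank F M = p) {θ : M}
    (hθF : θ ∉ Set.range (algebraMap F M)) (τ : Gal(M/F)) (hτ : τ θ = θ) : τ = 1 := by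
  by_contra hne
  have hcard : Nat.card Gal(M/F) = p := by rw [IsGalois.card_aut_eq_finrank, hdeg]
  haveI : Fact (Nat.card Gal(M/F)).Prime := ⟨by rw [hcard]; exact hp⟩
  let H : Subgroup Gal(M/F) := MulAction.stabilizer Gal(M/F) θ
  have hτH : τ ∈ H := MulAction.mem_stabilizer_iff.mpr hτ
  have hH : H = ⊤ := by
    rcases Subgroup.eq_bot_or_eq_top_of_prime_card H with h | h
    · exfalso
      rw [h, Subgroup.mem_bot] at hτH
      exact hne hτH
    · exact h
  apply hθF
  have : θ ∈ (⊥ : IntermediateField F M) := by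
    rw [IsGalois.mem_bot_iff_fixed]
    intro f
    have : f ∈ H := by rw [hH]; exact Subgroup.mem_top f
    exact MulAction.mem_stabilizer_iff.mp this
  rw [IntermediateField.mem_bot] at this
  exact this

/-- integral Kummer data adapted to a prime `v` at which `u` is integral. -/
theorem exists_isKummerGen (hp : p.Prime) {ζ : F} (hζ : IsPrimitiveRoot ζ p)
    (hdeg : Module.finrank F M = p) {θ : M} {u : F} (hθ : θ ^ p = algebraMap F M u)
    (hθF : θ ∉ Set.range (algebraMap F M)) (v : HeightOneSpectrum (𝓞 F))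
    (hvu : v.valuation F u ≤ 1) :
    ∃ (ζ' a d : 𝓞 F) (α : 𝓞 M), IsKummerGen p ζ' a α ∧ d ∉ v.asIdeal ∧
      algebraMap (𝓞 F) F a = algebraMap (𝓞 F) F d ^ p * u ∧ algebraMap (𝓞 F) F ζ' = ζ ∧
      algebraMap (𝓞 M) M α = algebraMap F M (algebraMap (𝓞 F) F d) * θ := by
  obtain ⟨n, ⟨d, hd⟩, hnd⟩ := v.exists_primeCompl_mul_eq_of_integer u hvu
  have hp1 : 1 ≤ p := hp.pos
  -- `a = u d^p = n d^(p-1)`
  have ha : ((n * d ^ (p - 1) : 𝓞 F) : F) = (d : F) ^ p * u := by
    have h1 : algebraMap (𝓞 F) F d ^ p = algebraMap (𝓞 F) F d ^ (p - 1) * algebraMap (𝓞 F) F d := by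
      rw [← pow_succ, Nat.sub_add_cancel hp1]
    have hnd' : u * algebraMap (𝓞 F) F d = algebraMap (𝓞 F) F n := hnd
    show algebraMap (𝓞 F) F (n * d ^ (p - 1)) = algebraMap (𝓞 F) F d ^ p * u
    rw [map_mul, map_pow, h1, ← hnd']
    ring
  have hαint : IsIntegral ℤ (algebraMap F M (d : F) * θ) := by
    apply IsIntegral.of_pow hp.pos
    rw [mul_pow, hθ, ← map_pow, ← map_mul, ← ha]
    exact (RingOfIntegers.isIntegral_coe (n * d ^ (p - 1))).map
      ((Algebra.ofId F M).restrictScalars ℤ)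
  refine ⟨⟨ζ, hζ.isIntegral hp.pos⟩, n * d ^ (p - 1), d, ⟨_, hαint⟩, ⟨?_, ?_, ?_⟩, hd, ha, rfl,
    rfl⟩
  · refine IsPrimitiveRoot.of_map_of_injective (f := algebraMap (𝓞 F) F) ?_
      (FaithfulSMul.algebraMap_injective (𝓞 F) F)
    exact hζ
  · apply RingOfIntegers.ext
    show (algebraMap F M (d : F) * θ) ^ p = algebraMap F M ((n * d ^ (p - 1) : 𝓞 F) : F)
    rw [mul_pow, hθ, ← map_pow, ← map_mul, ← ha]
  · intro τ hτ
    apply eq_one_of_fixes_of_prime_degree hp hdeg hθF τ
    have h1 := congrArg (fun x : 𝓞 M => (x : M)) hτ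
    have h2 : τ (algebraMap F M (d : F) * θ) = algebraMap F M (d : F) * θ := h1
    rw [map_mul, τ.commutes] at h2
    have hd0 : algebraMap F M (d : F) ≠ 0 := by
      rw [Ne, map_eq_zero]
      intro h0
      apply hd
      have : d = 0 := (FaithfulSMul.algebraMap_injective (𝓞 F) F) (by rw [map_zero]; exact h0)
      rw [this]
      exact v.asIdeal.zero_mem
    exact mul_left_cancel₀ hd0 h2

section fieldLevel

variable (hp : p.Prime) {ζ : F} (hζ : IsPrimitiveRoot ζ p) (hdeg : Module.finrank F M = p)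
  {θ : M} {u : F} (hθ : θ ^ p = algebraMap F M u) (hθF : θ ∉ Set.range (algebraMap F M))
  (v : HeightOneSpectrum (𝓞 F)) (hvp : v.valuation F (p : F) = 1) (hvu : v.valuation F u = 1)

theorem mem_asIdeal_iff_valuation_lt_one (r : 𝓞 F) :
    r ∈ v.asIdeal ↔ v.valuation F (algebraMap (𝓞 F) F r) < 1 :=
  (v.valuation_lt_one_iff_mem r).symm

theorem valuation_algebraMap_le_one (r : 𝓞 F) : v.valuation F (algebraMap (𝓞 F) F r) ≤ 1 :=
  v.valuation_le_one r

theorem valuation_eq_one_of_not_mem {d : 𝓞 F} (hd : d ∉ v.asIdeal) :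
    v.valuation F (algebraMap (𝓞 F) F d) = 1 := by
  apply le_antisymm (valuation_algebraMap_le_one v d)
  rw [← not_lt, ← mem_asIdeal_iff_valuation_lt_one]
  exact hd

theorem natCast_not_mem_of_valuation (hvp : v.valuation F (p : F) = 1) :
    (p : 𝓞 F) ∉ v.asIdeal := by
  rw [mem_asIdeal_iff_valuation_lt_one, not_lt]
  have : algebraMap (𝓞 F) F (p : 𝓞 F) = (p : F) := map_natCast (algebraMap (𝓞 F) F) p
  rw [this, hvp]

include hp hζ hdeg hθ hθF hvp hvu

/-- (i) a prime `v ∤ p u` is unramified in `M = F(θ)`. -/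
theorem kummer_ramificationIdxIn_eq_one : v.asIdeal.ramificationIdxIn (𝓞 M) = 1 := by
  obtain ⟨ζ', a, d, α, hK, hd, ha, -, -⟩ := exists_isKummerGen hp hζ hdeg hθ hθF v hvu.le
  have haq : a ∉ v.asIdeal := by
    rw [mem_asIdeal_iff_valuation_lt_one, not_lt, ha, map_mul, map_pow,
      valuation_eq_one_of_not_mem v hd, hvu, one_pow, one_mul]
  exact hK.ramificationIdxIn_eq_one hp v.asIdeal (natCast_not_mem_of_valuation v hvp) haq

omit hθ hθF hdeg hζ hp hvp hvu in
/-- congruent integral elements have congruent `p`-th powers. -/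
theorem valuation_pow_sub_pow_lt_one {x y : F} (hx : v.valuation F x ≤ 1)
    (hy : v.valuation F y ≤ 1) (hxy : v.valuation F (x - y) < 1) :
    v.valuation F (x ^ p - y ^ p) < 1 := by
  rw [← (Commute.all x y).geom_sum₂_mul p, map_mul]
  have h1 : v.valuation F (∑ i ∈ Finset.range p, x ^ i * y ^ (p - 1 - i)) ≤ 1 := by
    apply Valuation.map_sum_le
    intro i _
    rw [map_mul, map_pow, map_pow]
    exact mul_le_one' (pow_le_one' hx _) (pow_le_one' hy _)
  calc _ ≤ 1 * v.valuation F (x - y) := mul_le_mul_left h1 _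
    _ = v.valuation F (x - y) := one_mul _
    _ < 1 := hxy

/-- (ii) if `u` is a `p`-th power modulo `v` then `v` splits completely in `M`. -/
theorem kummer_splits_of_isPow_mod (hy : ∃ y : F, v.valuation F (u - y ^ p) < 1) :
    v.asIdeal.ramificationIdxIn (𝓞 M) * v.asIdeal.inertiaDegIn (𝓞 M) = 1 ∧
      (v.asIdeal.primesOver (𝓞 M)).ncard = p := by
  obtain ⟨ζ', a, d, α, hK, hd, ha, -, -⟩ := exists_isKummerGen hp hζ hdeg hθ hθF v hvu.le
  have hvd := valuation_eq_one_of_not_mem v hd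
  have haq : a ∉ v.asIdeal := by
    rw [mem_asIdeal_iff_valuation_lt_one, not_lt, ha, map_mul, map_pow, hvd, hvu, one_pow,
      one_mul]
  obtain ⟨y, hy⟩ := hy
  -- `v(y) ≤ 1`
  have hyp : v.valuation F (y ^ p) ≤ 1 := by
    have : y ^ p = u - (u - y ^ p) := by ring
    rw [this]
    exact (v.valuation F).map_sub_le hvu.le hy.le
  have hy1 : v.valuation F y ≤ 1 := by
    rw [map_pow] at hyp
    exact (pow_le_one_iff hp.ne_zero).mp hyp
  have hdy : v.valuation F (algebraMap (𝓞 F) F d * y) ≤ 1 := by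
    rw [map_mul, hvd, one_mul]; exact hy1
  obtain ⟨c, hc⟩ := v.exists_valuation_sub_lt_of_integer hdy 1
  rw [Units.val_one] at hc
  have hc1 : v.valuation F (algebraMap (𝓞 F) F c) ≤ 1 := valuation_algebraMap_le_one v c
  have h2 := valuation_pow_sub_pow_lt_one (p := p) v hc1 hdy hc
  have hkey : a - c ^ p ∈ v.asIdeal := by
    rw [mem_asIdeal_iff_valuation_lt_one]
    have : algebraMap (𝓞 F) F (a - c ^ p) =
        algebraMap (𝓞 F) F d ^ p * (u - y ^ p) -
          (algebraMap (𝓞 F) F c ^ p - (algebraMap (𝓞 F) F d * y) ^ p) := by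
      rw [map_sub, map_pow, ha]; ring
    rw [this]
    apply Valuation.map_sub_lt
    · rw [map_mul, map_pow, hvd, one_pow, one_mul]; exact hy
    · exact h2
  have hpq := natCast_not_mem_of_valuation v hvp
  refine ⟨hK.ramificationIdxIn_mul_inertiaDegIn_eq_one hp v.asIdeal hpq haq hkey, ?_⟩
  rw [hK.ncard_primesOver_eq hp v.asIdeal hpq haq hkey, hdeg]

omit hvp in
/-- (iii) if some prime above `v` has residue degree one then `u` is a `p`-th power modulo
`v`. -/
theorem kummer_isPow_mod_of_inertiaDeg_eq_one (Q : Ideal (𝓞 M)) [Q.IsPrime]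
    [Q.LiesOver v.asIdeal] (hf : Q.inertiaDeg (𝓞 F) = 1) :
    ∃ y : F, v.valuation F (u - y ^ p) < 1 := by
  obtain ⟨ζ', a, d, α, hK, hd, ha, -, -⟩ := exists_isKummerGen hp hζ hdeg hθ hθF v hvu.le
  have hvd := valuation_eq_one_of_not_mem v hd
  obtain ⟨c, hc⟩ := hK.exists_sub_pow_mem_of_inertiaDeg_eq_one v.asIdeal v.ne_bot Q hf
  rw [mem_asIdeal_iff_valuation_lt_one] at hc
  have hd0 : algebraMap (𝓞 F) F d ≠ 0 := by
    intro h0
    rw [h0, map_zero] at hvd
    exact zero_ne_one hvd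
  refine ⟨algebraMap (𝓞 F) F c / algebraMap (𝓞 F) F d, ?_⟩
  have : u - (algebraMap (𝓞 F) F c / algebraMap (𝓞 F) F d) ^ p =
      algebraMap (𝓞 F) F (a - c ^ p) / algebraMap (𝓞 F) F d ^ p := by
    rw [map_sub, map_pow, ha, div_pow, sub_div, mul_div_cancel_left₀ _ (pow_ne_zero p hd0)]
  rw [this, map_div₀, map_pow, hvd, one_pow, div_one]
  exact hc

end fieldLevel

end Fermat.Agent.CFT
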