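import Mathlib

set_option autoImplicit false
set_option linter.unusedSectionVars false
set_option linter.style.haveILetI false

/-!
# CFT, stream [C], (G6) Lemma B, part (i): the Kummer extension `F(x^(1/p))` as a number field

`F` a number field containing a primitive `p`-th root of unity, `x ∈ F` not a `p`-th power.  Then
there is a number field `N` (in the same universe), Galois over `F` of degree `p`, with an element
`θ ∈ N ∖ F`, `θ ^ p = x`.
-/

namespace Fermat.Agent.CFT

open NumberField Polynomial

universe u

/-- **Existence of the Kummer extension.** -/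
theorem exists_kummerExt (F : Type u) [Field F] [NumberField F] {p : ℕ} (hp : p.Prime) {ζ : F}
    (hζ : IsPrimitiveRoot ζ p) {x : F} (hx : ∀ c : F, c ^ p ≠ x) :
    ∃ (N : Type u) (_ : Field N) (_ : NumberField N) (_ : Algebra F N),
      IsGalois F N ∧ Module.finrank F N = p ∧ Nat.card Gal(N/F) = p ∧
        ∃ θ : N, θ ^ p = algebraMap F N x ∧ θ ∉ Set.range (algebraMap F N) := by
  have hirr : Irreducible (X ^ p - C x) := X_pow_sub_C_irreducible_of_prime hp hx
  haveI : Fact (Irreducible (X ^ p - C x)) := ⟨hirr⟩
  have hprim : (primitiveRoots p F).Nonempty := ⟨ζ, (mem_primitiveRoots hp.pos).mpr hζ⟩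
  let N := AdjoinRoot (X ^ p - C x)
  haveI hsplit : IsSplittingField F N (X ^ p - C x) :=
    isSplittingField_AdjoinRoot_X_pow_sub_C hprim hirr
  haveI hgal : IsGalois F N := isGalois_of_isSplittingField_X_pow_sub_C hprim hirr N
  have hdeg : Module.finrank F N = p := finrank_of_isSplittingField_X_pow_sub_C hprim hirr N
  haveI : FiniteDimensional F N := IsSplittingField.finiteDimensional N (X ^ p - C x)
  haveI : CharZero N := charZero_of_injective_algebraMap (algebraMap F N).injective
  haveI : NumberField N :=
    { to_charZero := inferInstance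
      to_finiteDimensional := FiniteDimensional.trans ℚ F N }
  refine ⟨N, inferInstance, inferInstance, inferInstance, hgal, hdeg, ?_, AdjoinRoot.root _, ?_, ?_⟩
  · rw [IsGalois.card_aut_eq_finrank, hdeg]
  · exact root_X_pow_sub_C_pow p x
  · rintro ⟨c, hc⟩
    apply hx c
    apply (algebraMap F N).injective
    rw [map_pow, hc]
    exact root_X_pow_sub_C_pow p x

end Fermat.Agent.CFT
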