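import Fermat.Agent.CFT.Global.PowCongr
import Fermat.Agent.CFT.Global.KummerField

set_option autoImplicit false

/-!
# CFT, stream [C], chunk (G5), part 3: wild splitting criterion

`F ⊆ M` number fields, `M / F` Galois of prime degree `p`, `ζ ∈ F` a primitive `p`-th root of unity,
`θ ∈ M ∖ F`, `θ ^ p = u ∈ F`.  For ANY prime `v` of `F` (also `v ∣ p`), with `e = v(p)`: if `u` is
a `p`-th power modulo `v ^ k` (multiplicatively: `v (u / y ^ p - 1) ≤ exp (-k)`) for some
`k > p e / (p - 1)`, then every prime of `M` above `v` has trivial decomposition group, i.e. `v`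
splits completely in `M`.
-/

namespace Fermat.Agent.CFT

open NumberField Ideal Pointwise IsDedekindDomain WithZero

section Invariance

variable {F M : Type*} [Field F] [NumberField F] [Field M] [NumberField M] [Algebra F M]

omit [NumberField F] [NumberField M] in
/-- a Galois automorphism stabilising `Q` stabilises all powers of `Q`. -/
theorem smul_mem_pow_of_smul_eq {Q : Ideal (𝓞 M)} {τ : Gal(M/F)} (hτ : τ • Q = Q) {n : ℕ}
    {a : 𝓞 M} (ha : a ∈ Q ^ n) : τ • a ∈ Q ^ n := by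
  have h1 : τ • (Q ^ n) = Q ^ n := by
    rw [Ideal.pointwise_smul_def, Ideal.map_pow, ← Ideal.pointwise_smul_def, hτ]
  rw [← h1]
  exact Ideal.smul_mem_pointwise_smul τ a _ ha

omit [NumberField F] in
theorem intValuation_smul_le_of_smul_eq (w : HeightOneSpectrum (𝓞 M)) {τ : Gal(M/F)}
    (hτ : τ • w.asIdeal = w.asIdeal) (a : 𝓞 M) : w.intValuation (τ • a) ≤ w.intValuation a := by
  by_cases ha : a = 0
  · rw [ha, smul_zero]
  rw [w.intValuation_eq_exp_neg_multiplicity ha, w.intValuation_le_pow_iff_mem]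
  apply smul_mem_pow_of_smul_eq hτ
  rw [← w.intValuation_le_pow_iff_mem, w.intValuation_eq_exp_neg_multiplicity ha]

omit [NumberField F] in
theorem intValuation_smul_eq_of_smul_eq (w : HeightOneSpectrum (𝓞 M)) {τ : Gal(M/F)}
    (hτ : τ • w.asIdeal = w.asIdeal) (a : 𝓞 M) : w.intValuation (τ • a) = w.intValuation a := by
  refine le_antisymm (intValuation_smul_le_of_smul_eq w hτ a) ?_
  have hτ' : τ⁻¹ • w.asIdeal = w.asIdeal := by
    conv_lhs => rw [← hτ]
    rw [inv_smul_smul]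
  have := intValuation_smul_le_of_smul_eq w hτ' (τ • a)
  rwa [inv_smul_smul] at this

omit [NumberField F] in
/-- the `Q`-adic valuation is invariant under the decomposition group of `Q`. -/
theorem adicValuation_apply_eq_of_smul_eq (w : HeightOneSpectrum (𝓞 M)) {τ : Gal(M/F)}
    (hτ : τ • w.asIdeal = w.asIdeal) (x : M) : w.valuation M (τ x) = w.valuation M x := by
  obtain ⟨a, b, hb, rfl⟩ := IsFractionRing.div_surjective (A := 𝓞 M) x
  have h1 : ∀ c : 𝓞 M, τ (algebraMap (𝓞 M) M c) = algebraMap (𝓞 M) M (τ • c) := fun c => rfl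
  rw [map_div₀, h1, h1, map_div₀, map_div₀, HeightOneSpectrum.valuation_of_algebraMap,
    HeightOneSpectrum.valuation_of_algebraMap, HeightOneSpectrum.valuation_of_algebraMap,
    HeightOneSpectrum.valuation_of_algebraMap, intValuation_smul_eq_of_smul_eq w hτ,
    intValuation_smul_eq_of_smul_eq w hτ]

end Invariance

section Split

variable {F M : Type*} [Field F] [NumberField F] [Field M] [NumberField M] [Algebra F M]
  [IsGalois F M] {p : ℕ}

/-- **(LP2)** If `u` is a `p`-th power modulo `v ^ k`, `k > p e / (p - 1)`, `e = v(p)`, then every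
prime of `M = F(u^(1/p))` above `v` has trivial decomposition group. -/
theorem stabilizer_eq_bot_of_isPow_mod_pow (hp : p.Prime) {ζ : F} (hζ : IsPrimitiveRoot ζ p)
    (hdeg : Module.finrank F M = p) {θ : M} {u : F} (hθ : θ ^ p = algebraMap F M u)
    (hθF : θ ∉ Set.range (algebraMap F M)) (v : HeightOneSpectrum (𝓞 F)) {e k : ℕ}
    (he : v.valuation F (p : F) = exp (-(e : ℤ))) (hk : p * e < (p - 1) * k)
    (hu : ∃ y : F, y ≠ 0 ∧ v.valuation F (u / y ^ p - 1) ≤ exp (-(k : ℤ)))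
    (Q : Ideal (𝓞 M)) [Q.IsPrime] [hQv : Q.LiesOver v.asIdeal] :
    MulAction.stabilizer Gal(M/F) Q = ⊥ := by
  rw [eq_bot_iff]
  intro τ hτ
  rw [Subgroup.mem_bot]
  rw [MulAction.mem_stabilizer_iff] at hτ
  by_contra hne
  have : NeZero p := ⟨hp.ne_zero⟩
  have hQ0 : Q ≠ ⊥ := Ideal.ne_bot_of_liesOver_of_ne_bot v.ne_bot Q
  let w : HeightOneSpectrum (𝓞 M) := ⟨Q, inferInstance, hQ0⟩
  have : w.asIdeal.LiesOver v.asIdeal := hQv
  have hθ0 : θ ≠ 0 := fun h => hθF ⟨0, by rw [map_zero, h]⟩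
  have hτθ : τ θ ≠ θ := fun h => hne (eq_one_of_fixes_of_prime_degree hp hdeg hθF τ h)
  have hζM : IsPrimitiveRoot (algebraMap F M ζ) p :=
    hζ.map_of_injective (algebraMap F M).injective
  have h1 : (τ θ / θ) ^ p = 1 := by
    rw [div_pow, ← map_pow, hθ, τ.commutes, div_self]
    rw [← hθ]; exact pow_ne_zero _ hθ0
  obtain ⟨i, hip, hi⟩ := hζM.eq_pow_of_pow_eq_one h1
  have hi0 : i ≠ 0 := by
    rintro rfl
    rw [pow_zero] at hi
    exact hτθ ((div_eq_one_iff_eq hθ0).mp hi.symm)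
  have hζ' : IsPrimitiveRoot (ζ ^ i) p :=
    hζ.pow_of_coprime i (Nat.coprime_of_lt_prime hi0 hip hp).symm
  have hζ'M : IsPrimitiveRoot (algebraMap F M (ζ ^ i)) p :=
    hζ'.map_of_injective (algebraMap F M).injective
  have hτθ' : τ θ = algebraMap F M (ζ ^ i) * θ := by
    rw [map_pow, hi, div_mul_cancel₀ _ hθ0]
  obtain ⟨y, hy0, hy⟩ := hu
  have hyM : algebraMap F M y ≠ 0 := (_root_.map_ne_zero _).mpr hy0
  set θ' : M := θ / algebraMap F M y with hθ'
  have hτθ'' : τ θ' = algebraMap F M (ζ ^ i) * θ' := by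
    rw [hθ', map_div₀, τ.commutes, hτθ', mul_div_assoc]
  have hpow : θ' ^ p - 1 = algebraMap F M (u / y ^ p - 1) := by
    rw [hθ', div_pow, hθ, map_sub, map_div₀, map_pow, map_one]
  have he' : v.asIdeal.ramificationIdx' w.asIdeal ≠ 0 :=
    Ideal.IsDedekindDomain.ramificationIdx'_ne_zero_of_liesOver w.asIdeal v.ne_bot
  have hlt : w.valuation M (θ' ^ p - 1) < w.valuation M (1 - algebraMap F M (ζ ^ i)) ^ p := by
    have h2 : (1 : M) - algebraMap F M (ζ ^ i) = algebraMap F M (1 - ζ ^ i) := by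
      rw [map_sub, map_one]
    rw [hpow, h2, ← HeightOneSpectrum.valuation_liesOver M v w,
      ← HeightOneSpectrum.valuation_liesOver M v w, ← pow_mul, mul_comm, pow_mul]
    refine pow_lt_pow_left₀ ?_ zero_le he'
    exact lt_of_le_of_lt hy (exp_neg_lt_valuation_one_sub_pow v hp hζ' he hk)
  refine not_valuation_invariant_of_valuation_lt (w.valuation M) hp hζ'M hlt
    (τ : M ≃ₐ[F] M).toRingEquiv (τ.commutes _) hτθ'' ?_
  intro x
  exact adicValuation_apply_eq_of_smul_eq w hτ x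

/-- **(LP2')** numerical form: `v` splits completely in `M`. -/
theorem splits_of_isPow_mod_pow (hp : p.Prime) {ζ : F} (hζ : IsPrimitiveRoot ζ p)
    (hdeg : Module.finrank F M = p) {θ : M} {u : F} (hθ : θ ^ p = algebraMap F M u)
    (hθF : θ ∉ Set.range (algebraMap F M)) (v : HeightOneSpectrum (𝓞 F)) {e k : ℕ}
    (he : v.valuation F (p : F) = exp (-(e : ℤ))) (hk : p * e < (p - 1) * k)
    (hu : ∃ y : F, y ≠ 0 ∧ v.valuation F (u / y ^ p - 1) ≤ exp (-(k : ℤ))) :
    v.asIdeal.ramificationIdxIn (𝓞 M) * v.asIdeal.inertiaDegIn (𝓞 M) = 1 ∧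
      (v.asIdeal.primesOver (𝓞 M)).ncard = p := by
  obtain ⟨Q, hQ1, hQ2⟩ := Ideal.exists_ideal_over_prime_of_isIntegral_of_isDomain
    (S := 𝓞 M) v.asIdeal (by
      rw [(RingHom.injective_iff_ker_eq_bot _).mp
        (FaithfulSMul.algebraMap_injective (𝓞 F) (𝓞 M))]
      exact bot_le)
  have : Q.IsPrime := hQ1
  have : Q.LiesOver v.asIdeal := ⟨hQ2.symm⟩
  have hstab := stabilizer_eq_bot_of_isPow_mod_pow hp hζ hdeg hθ hθF v he hk hu Q
  have h1 : v.asIdeal.ramificationIdxIn (𝓞 M) * v.asIdeal.inertiaDegIn (𝓞 M) = 1 := by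
    rw [← Ideal.card_stabilizer_eq (G := Gal(M/F)) v.asIdeal Q, hstab]
    exact Nat.card_unique
  refine ⟨h1, ?_⟩
  have h2 := Ideal.ncard_primesOver_mul_ramificationIdxIn_mul_inertiaDegIn v.asIdeal (𝓞 M) Gal(M/F)
  rw [h1, mul_one, IsGalois.card_aut_eq_finrank, hdeg] at h2
  exact h2

end Split

end Fermat.Agent.CFT
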