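import Fermat.Agent.CFT.Global.PowCongr

set_option autoImplicit false

/-!
# CFT, stream [C], chunk (G5)/(LP1), global part: `[Fˣ : ⋂_{v ∈ S} W_v] ≤ p ^ (2 |S| + [F : ℚ])`

`F` a number field containing a primitive `p`-th root of unity, `S` a finite set of primes of `F`
containing all primes above `p`.
-/

namespace Fermat.Agent.CFT

open NumberField IsDedekindDomain WithZero

section Global

variable {F : Type*} [Field F] [NumberField F]

/-- `ord_v (p)` -/
noncomputable def natOrdAt (v : HeightOneSpectrum (𝓞 F)) (p : ℕ) : ℕ :=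
  (Associates.mk v.asIdeal).count (Associates.mk (Ideal.span {(p : 𝓞 F)})).factors

theorem valuation_natCast_eq_exp (v : HeightOneSpectrum (𝓞 F)) {p : ℕ} (hp : p ≠ 0) :
    v.valuation F (p : F) = exp (-(natOrdAt v p : ℤ)) := by
  have h0 : (p : 𝓞 F) ≠ 0 := Nat.cast_ne_zero.mpr hp
  have h1 : (p : F) = algebraMap (𝓞 F) F (p : 𝓞 F) := (map_natCast (algebraMap (𝓞 F) F) p).symm
  rw [h1, HeightOneSpectrum.valuation_of_algebraMap, v.intValuation_if_neg h0, natOrdAt]

theorem natOrdAt_eq_zero_iff (v : HeightOneSpectrum (𝓞 F)) {p : ℕ} (hp : p ≠ 0) :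
    natOrdAt v p = 0 ↔ v.valuation F (p : F) = 1 := by
  rw [valuation_natCast_eq_exp v hp, ← exp_zero, exp_inj]
  omega

theorem natOrdAt_unique (v : HeightOneSpectrum (𝓞 F)) {p e : ℕ} (hp : p ≠ 0)
    (he : v.valuation F (p : F) = exp (-(e : ℤ))) : natOrdAt v p = e := by
  rw [valuation_natCast_eq_exp v hp, exp_inj] at he
  omega

/-- `∏_{v ∣ p} N(v) ^ ord_v(p) = p ^ [F : ℚ]` -/
theorem prod_natCard_quotient_pow_natOrdAt {p : ℕ} (hp : p ≠ 0)
    (S : Finset (HeightOneSpectrum (𝓞 F))) (hS : ∀ v, v.valuation F (p : F) ≠ 1 → v ∈ S) :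
    ∏ v ∈ S, Nat.card (𝓞 F ⧸ v.asIdeal) ^ natOrdAt v p = p ^ Module.finrank ℚ F := by
  have h0 : (p : 𝓞 F) ≠ 0 := Nat.cast_ne_zero.mpr hp
  have hI : Ideal.span {(p : 𝓞 F)} ≠ 0 := by
    rw [Ne, Ideal.zero_eq_bot, Ideal.span_singleton_eq_bot]; exact h0
  have hfact := Ideal.finprod_heightOneSpectrum_factorization hI
  have hsupp : Function.mulSupport (fun v : HeightOneSpectrum (𝓞 F) =>
      v.maxPowDividing (Ideal.span {(p : 𝓞 F)})) ⊆ (S : Set (HeightOneSpectrum (𝓞 F))) := by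
    intro v hv
    rw [Function.mem_mulSupport] at hv
    by_contra hvS
    apply hv
    have : natOrdAt v p = 0 := by
      rw [natOrdAt_eq_zero_iff v hp]
      by_contra h1
      exact hvS (hS v h1)
    rw [HeightOneSpectrum.maxPowDividing]
    rw [natOrdAt] at this
    rw [this, pow_zero]
  rw [finprod_eq_prod_of_mulSupport_subset _ hsupp] at hfact
  have h1 := congrArg Ideal.absNorm hfact
  rw [map_prod, Ideal.absNorm_span_natCast, RingOfIntegers.rank] at h1
  rw [← h1]
  refine Finset.prod_congr rfl fun v _ => ?_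
  rw [HeightOneSpectrum.maxPowDividing, map_pow, Ideal.absNorm_apply, Submodule.cardQuot_apply,
    natOrdAt]

/-- **(LP1), global form.** -/
theorem index_iInf_powCongr_le {p : ℕ} (hp : p.Prime) {ζ : F} (hζ : IsPrimitiveRoot ζ p)
    (S : Finset (HeightOneSpectrum (𝓞 F))) (hS : ∀ v, v.valuation F (p : F) ≠ 1 → v ∈ S)
    (k : HeightOneSpectrum (𝓞 F) → ℕ) (hk : ∀ v ∈ S, p * natOrdAt v p < (p - 1) * k v) :
    (⨅ v ∈ S, powCongr (F := F) v p (k v)).index ≠ 0 ∧
      (⨅ v ∈ S, powCongr (F := F) v p (k v)).index ≤ p ^ (2 * S.card + Module.finrank ℚ F) := by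
  classical
  have hloc : ∀ v ∈ S, (powCongr (F := F) v p (k v)).index ≠ 0 ∧
      (powCongr (F := F) v p (k v)).index ≤
        p ^ 2 * Nat.card (𝓞 F ⧸ v.asIdeal) ^ natOrdAt v p := by
    intro v hv
    have : Finite (𝓞 F ⧸ v.asIdeal) := Ideal.finiteQuotientOfFreeOfNeBot v.asIdeal v.ne_bot
    exact index_powCongr v hp hζ (valuation_natCast_eq_exp v hp.ne_zero) (hk v hv)
  -- general bound for a finite intersection
  have hgen : ∀ T : Finset (HeightOneSpectrum (𝓞 F)), T ⊆ S →
      (⨅ v ∈ T, powCongr (F := F) v p (k v)).index ≠ 0 ∧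
        (⨅ v ∈ T, powCongr (F := F) v p (k v)).index ≤
          ∏ v ∈ T, (p ^ 2 * Nat.card (𝓞 F ⧸ v.asIdeal) ^ natOrdAt v p) := by
    intro T
    induction T using Finset.induction_on with
    | empty =>
      intro _
      simp
    | insert a T ha ih =>
      intro hT
      have ihT := ih (fun x hx => hT (Finset.mem_insert_of_mem hx))
      have haS := hloc a (hT (Finset.mem_insert_self a T))
      rw [Finset.iInf_insert, Finset.prod_insert ha]
      refine ⟨Subgroup.index_inf_ne_zero haS.1 ihT.1, ?_⟩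
      exact Subgroup.index_inf_le.trans (Nat.mul_le_mul haS.2 ihT.2)
  obtain ⟨h1, h2⟩ := hgen S (Finset.Subset.refl S)
  refine ⟨h1, h2.trans (le_of_eq ?_)⟩
  rw [Finset.prod_mul_distrib, Finset.prod_const, prod_natCard_quotient_pow_natOrdAt hp.ne_zero S hS,
    ← pow_mul, ← pow_add]

end Global

end Fermat.Agent.CFT
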