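import Mathlib

set_option autoImplicit false
set_option linter.unusedSectionVars false
set_option linter.style.haveILetI false

/-!
# CFT, stream [C], (G4e): the `p`-th power residue functional at a prime `v ∤ p`

`F` a number field, `v` a prime of `𝓞 F`, `O_v` the valuation ring of `v` in `F`.

* `redHom v : O_v →+* 𝓞 F ⧸ v` the reduction map, `redUnits v : O_vˣ-as-subgroup-of-Fˣ →* (𝓞 F ⧸ v)ˣ`;
* `powModSubgroup v p` : the `v`-units which are `p`-th powers modulo `v`;
* if `ζ_p ∈ F` and `v ∤ p` then `powModSubgroup v p` has index exactly `p` in the `v`-units.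
-/

noncomputable section

namespace Fermat.Agent.CFT

open NumberField IsDedekindDomain

variable {F : Type*} [Field F] [NumberField F] (v : HeightOneSpectrum (𝓞 F))

/-- the valuation ring of `v` inside `F`. -/
abbrev valRing : ValuationSubring F := (v.valuation F).valuationSubring

theorem mem_valRing_iff (x : F) : x ∈ valRing v ↔ v.valuation F x ≤ 1 :=
  Valuation.mem_valuationSubring_iff _ _

theorem mem_asIdeal_iff_lt_one (r : 𝓞 F) :
    r ∈ v.asIdeal ↔ v.valuation F (algebraMap (𝓞 F) F r) < 1 :=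
  (v.valuation_lt_one_iff_mem r).symm

theorem valuation_int_le_one (r : 𝓞 F) : v.valuation F (algebraMap (𝓞 F) F r) ≤ 1 :=
  v.valuation_le_one r

theorem exists_sub_lt_one (x : valRing v) :
    ∃ r : 𝓞 F, v.valuation F ((x : F) - algebraMap (𝓞 F) F r) < 1 := by
  obtain ⟨r, hr⟩ := v.exists_valuation_sub_lt_of_integer ((mem_valRing_iff v _).mp x.2) 1
  refine ⟨r, ?_⟩
  rw [Units.val_one] at hr
  rw [Valuation.map_sub_swap]
  exact hr

/-- the chosen integral representative of the class of `x`. -/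
def redRep (x : valRing v) : 𝓞 F := (exists_sub_lt_one v x).choose

theorem redRep_spec (x : valRing v) :
    v.valuation F ((x : F) - algebraMap (𝓞 F) F (redRep v x)) < 1 :=
  (exists_sub_lt_one v x).choose_spec

theorem mk_eq_mk_of_lt_one {x : F} {r s : 𝓞 F}
    (hr : v.valuation F (x - algebraMap (𝓞 F) F r) < 1)
    (hs : v.valuation F (x - algebraMap (𝓞 F) F s) < 1) :
    Ideal.Quotient.mk v.asIdeal r = Ideal.Quotient.mk v.asIdeal s := by
  rw [Ideal.Quotient.eq, mem_asIdeal_iff_lt_one, map_sub]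
  have : algebraMap (𝓞 F) F r - algebraMap (𝓞 F) F s =
      (x - algebraMap (𝓞 F) F s) - (x - algebraMap (𝓞 F) F r) := by ring
  rw [this]
  exact Valuation.map_sub_lt _ hs hr

theorem mk_redRep_eq {x : valRing v} {r : 𝓞 F}
    (hr : v.valuation F ((x : F) - algebraMap (𝓞 F) F r) < 1) :
    Ideal.Quotient.mk v.asIdeal (redRep v x) = Ideal.Quotient.mk v.asIdeal r :=
  mk_eq_mk_of_lt_one v (redRep_spec v x) hr

/-- the reduction map `O_v →+* 𝓞 F ⧸ v`. -/
def redHom : valRing v →+* 𝓞 F ⧸ v.asIdeal where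
  toFun x := Ideal.Quotient.mk v.asIdeal (redRep v x)
  map_one' := by
    rw [mk_redRep_eq v (r := 1)]
    · rfl
    · simp
  map_zero' := by
    rw [mk_redRep_eq v (r := 0)]
    · rfl
    · simp
  map_add' x y := by
    rw [← map_add]
    apply mk_redRep_eq
    have : ((x + y : valRing v) : F) - algebraMap (𝓞 F) F (redRep v x + redRep v y) =
        ((x : F) - algebraMap (𝓞 F) F (redRep v x)) +
          ((y : F) - algebraMap (𝓞 F) F (redRep v y)) := by
      rw [map_add]
      show (x : F) + (y : F) - _ = _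
      ring
    rw [this]
    exact Valuation.map_add_lt _ (redRep_spec v x) (redRep_spec v y)
  map_mul' x y := by
    rw [← map_mul]
    apply mk_redRep_eq
    have : ((x * y : valRing v) : F) - algebraMap (𝓞 F) F (redRep v x * redRep v y) =
        (x : F) * ((y : F) - algebraMap (𝓞 F) F (redRep v y)) +
          algebraMap (𝓞 F) F (redRep v y) * ((x : F) - algebraMap (𝓞 F) F (redRep v x)) := by
      rw [map_mul]
      show (x : F) * (y : F) - _ = _
      ring
    rw [this]
    apply Valuation.map_add_lt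
    · rw [map_mul]
      calc _ ≤ 1 * v.valuation F ((y : F) - algebraMap (𝓞 F) F (redRep v y)) :=
            mul_le_mul_left ((mem_valRing_iff v _).mp x.2) _
        _ = _ := one_mul _
        _ < 1 := redRep_spec v y
    · rw [map_mul]
      calc _ ≤ 1 * v.valuation F ((x : F) - algebraMap (𝓞 F) F (redRep v x)) :=
            mul_le_mul_left (valuation_int_le_one v _) _
        _ = _ := one_mul _
        _ < 1 := redRep_spec v x

theorem redHom_eq {x : valRing v} {r : 𝓞 F}
    (hr : v.valuation F ((x : F) - algebraMap (𝓞 F) F r) < 1) :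
    redHom v x = Ideal.Quotient.mk v.asIdeal r :=
  mk_redRep_eq v hr

theorem redHom_eq_zero_iff (x : valRing v) : redHom v x = 0 ↔ v.valuation F (x : F) < 1 := by
  show Ideal.Quotient.mk v.asIdeal (redRep v x) = 0 ↔ _
  rw [Ideal.Quotient.eq_zero_iff_mem, mem_asIdeal_iff_lt_one]
  have h := redRep_spec v x
  constructor
  · intro h1
    have : (x : F) = ((x : F) - algebraMap (𝓞 F) F (redRep v x)) +
        algebraMap (𝓞 F) F (redRep v x) := by ring
    rw [this]
    exact Valuation.map_add_lt _ h h1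
  · intro h1
    have : algebraMap (𝓞 F) F (redRep v x) =
        (x : F) - ((x : F) - algebraMap (𝓞 F) F (redRep v x)) := by ring
    rw [this]
    exact Valuation.map_sub_lt _ h1 h

/-- integers reduce to their classes. -/
theorem redHom_int (r : 𝓞 F) :
    redHom v ⟨algebraMap (𝓞 F) F r, (mem_valRing_iff v _).mpr (valuation_int_le_one v r)⟩ =
      Ideal.Quotient.mk v.asIdeal r := by
  apply redHom_eq
  simp

theorem redHom_surjective : Function.Surjective (redHom v) := by
  intro x
  obtain ⟨r, rfl⟩ := Ideal.Quotient.mk_surjective x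
  exact ⟨_, redHom_int v r⟩

/-- the `v`-units of `F`. -/
abbrev vUnits : Subgroup Fˣ := (valRing v).unitGroup

theorem mem_vUnits_iff (u : Fˣ) : u ∈ vUnits v ↔ v.valuation F (u : F) = 1 :=
  Valuation.mem_unitGroup_iff _ _ _

/-- reduction of `v`-units. -/
def redUnits : vUnits v →* (𝓞 F ⧸ v.asIdeal)ˣ :=
  (Units.map (redHom v).toMonoidHom).comp (valRing v).unitGroupMulEquiv.toMonoidHom

theorem coe_redUnits (u : vUnits v) :
    ((redUnits v u : (𝓞 F ⧸ v.asIdeal)ˣ) : 𝓞 F ⧸ v.asIdeal) =
      redHom v ⟨((u : Fˣ) : F), (mem_valRing_iff v _).mpr ((mem_vUnits_iff v _).mp u.2).le⟩ :=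
  rfl

theorem redUnits_surjective : Function.Surjective (redUnits v) := by
  intro x
  obtain ⟨r, hr⟩ := Ideal.Quotient.mk_surjective (x : 𝓞 F ⧸ v.asIdeal)
  have hrq : r ∉ v.asIdeal := by
    intro hmem
    have : (x : 𝓞 F ⧸ v.asIdeal) = 0 := by
      rw [← hr]; exact Ideal.Quotient.eq_zero_iff_mem.mpr hmem
    exact x.ne_zero this
  have hv1 : v.valuation F (algebraMap (𝓞 F) F r) = 1 := by
    apply le_antisymm (valuation_int_le_one v r)
    rw [← not_lt, ← mem_asIdeal_iff_lt_one]
    exact hrq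
  have hr0 : algebraMap (𝓞 F) F r ≠ 0 := by
    intro h0
    rw [h0, map_zero] at hv1
    exact zero_ne_one hv1
  refine ⟨⟨Units.mk0 _ hr0, (mem_vUnits_iff v _).mpr hv1⟩, ?_⟩
  apply Units.ext
  rw [coe_redUnits, ← hr]
  exact redHom_int v r

variable (p : ℕ)

/-- the `v`-units which are `p`-th powers modulo `v`. -/
def powModSubgroup : Subgroup (vUnits v) :=
  (powMonoidHom p : (𝓞 F ⧸ v.asIdeal)ˣ →* (𝓞 F ⧸ v.asIdeal)ˣ).range.comap (redUnits v)

theorem mem_powModSubgroup_iff (u : vUnits v) :
    u ∈ powModSubgroup v p ↔ ∃ y : F, v.valuation F (((u : Fˣ) : F) - y ^ p) < 1 := by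
  have hu1 : v.valuation F ((u : Fˣ) : F) = 1 := (mem_vUnits_iff v _).mp u.2
  rw [powModSubgroup, Subgroup.mem_comap, MonoidHom.mem_range]
  constructor
  · rintro ⟨z, hz⟩
    obtain ⟨w, rfl⟩ := redUnits_surjective v z
    refine ⟨((w : Fˣ) : F), ?_⟩
    have h1 : redUnits v (w ^ p) = redUnits v u := by rw [map_pow]; exact hz
    have h2 := congrArg (fun t : (𝓞 F ⧸ v.asIdeal)ˣ => (t : 𝓞 F ⧸ v.asIdeal)) h1
    simp only [coe_redUnits] at h2
    have h3 := sub_eq_zero.mpr h2.symm
    rw [← map_sub, redHom_eq_zero_iff] at h3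
    simpa using h3
  · rintro ⟨y, hy⟩
    -- `v(y) = 1`
    have hyp : v.valuation F (y ^ p) = 1 := by
      have h1 : y ^ p = ((u : Fˣ) : F) - (((u : Fˣ) : F) - y ^ p) := by ring
      rw [h1]
      rw [Valuation.map_sub_eq_of_lt_left _ (by rw [hu1]; exact hy), hu1]
    by_cases hp0 : p = 0
    · refine ⟨1, ?_⟩
      subst hp0
      apply Units.ext
      rw [coe_redUnits]
      simp only [powMonoidHom_apply, pow_zero, Units.val_one]
      symm
      rw [← sub_eq_zero, ← map_one (redHom v), ← map_sub, redHom_eq_zero_iff]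
      simpa using hy
    have hy1 : v.valuation F y = 1 := by
      rw [map_pow] at hyp
      exact le_antisymm ((pow_le_one_iff hp0).mp hyp.le) ((one_le_pow_iff hp0).mp hyp.ge)
    have hy0 : y ≠ 0 := by
      intro h0
      rw [h0, map_zero] at hy1
      exact zero_ne_one hy1
    let w : vUnits v := ⟨Units.mk0 y hy0, (mem_vUnits_iff v _).mpr hy1⟩
    refine ⟨redUnits v w, ?_⟩
    rw [powMonoidHom_apply, ← map_pow]
    apply Units.ext
    rw [coe_redUnits, coe_redUnits, ← sub_eq_zero, ← map_sub, redHom_eq_zero_iff]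
    show v.valuation F ((((w ^ p : vUnits v) : Fˣ) : F) - ((u : Fˣ) : F)) < 1
    rw [Valuation.map_sub_swap]
    simpa [w] using hy

/-- **index of the `p`-th power residues**: if `ζ_p ∈ F` and `v ∤ p`, the `v`-units which are
`p`-th powers modulo `v` have index exactly `p`. -/
theorem index_powModSubgroup {ζ : F} (hp : p.Prime) (hζ : IsPrimitiveRoot ζ p)
    (hvp : v.valuation F (p : F) = 1) : (powModSubgroup v p).index = p := by
  haveI : Finite (𝓞 F ⧸ v.asIdeal) := inferInstance
  haveI : v.asIdeal.IsMaximal := inferInstance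
  letI : Field (𝓞 F ⧸ v.asIdeal) := Ideal.Quotient.field v.asIdeal
  rw [powModSubgroup, Subgroup.index_comap_of_surjective _ (redUnits_surjective v),
    IsCyclic.index_powMonoidHom_range]
  -- `p ∣ #kˣ` because `ζ` has order `p` in the residue field
  have hζ1 : v.valuation F ζ = 1 := by
    have := congrArg (v.valuation F) hζ.pow_eq_one
    rw [map_pow, map_one] at this
    exact le_antisymm ((pow_le_one_iff hp.ne_zero).mp this.le)
      ((one_le_pow_iff hp.ne_zero).mp this.ge)
  have hζ0 : ζ ≠ 0 := hζ.ne_zero hp.ne_zero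
  let z : vUnits v := ⟨Units.mk0 ζ hζ0, (mem_vUnits_iff v _).mpr hζ1⟩
  have hzp : z ^ p = 1 := by
    apply Subtype.ext
    apply Units.ext
    simp [z, hζ.pow_eq_one]
  have hne : redUnits v z ≠ 1 := by
    intro h1
    have h2 := congrArg (fun t : (𝓞 F ⧸ v.asIdeal)ˣ => (t : 𝓞 F ⧸ v.asIdeal)) h1
    simp only [coe_redUnits, Units.val_one] at h2
    -- then `p = 0` in the residue field
    set ζO : valRing v := ⟨ζ, (mem_valRing_iff v _).mpr hζ1.le⟩ with hζO
    have hprim : IsPrimitiveRoot ζO p :=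
      IsPrimitiveRoot.of_map_of_injective (f := (valRing v).subtype) hζ Subtype.val_injective
    have h3 := congrArg (redHom v) (hprim.geom_sum_eq_zero hp.one_lt)
    rw [map_sum, map_zero] at h3
    have h4 : redHom v ζO = 1 := h2
    simp only [map_pow, h4, one_pow, Finset.sum_const, Finset.card_range, nsmul_eq_mul,
      mul_one] at h3
    have h6 : (p : 𝓞 F) ∈ v.asIdeal := Ideal.Quotient.eq_zero_iff_mem.mp (by
      rw [map_natCast]; exact h3)
    rw [mem_asIdeal_iff_lt_one, map_natCast, hvp] at h6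
    exact lt_irrefl _ h6
  have hord : orderOf (redUnits v z) = p := by
    have h1 : (redUnits v z) ^ p = 1 := by rw [← map_pow, hzp, map_one]
    have h2 := orderOf_dvd_of_pow_eq_one h1
    rcases (Nat.dvd_prime hp).mp h2 with h3 | h3
    · exact absurd (orderOf_eq_one_iff.mp h3) hne
    · exact h3
  have hdvd : p ∣ Nat.card (𝓞 F ⧸ v.asIdeal)ˣ := by
    rw [← hord]
    exact orderOf_dvd_natCard _
  exact Nat.gcd_eq_right hdvd

end Fermat.Agent.CFT
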