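import Mathlib
import Fermat.Agent.CFT.Global.KummerExt
import Fermat.Agent.CFT.Global.LemmaBIdeals
import Fermat.Agent.CFT.Global.LocalPowerSplit
import Fermat.Agent.CFT.Global.PowCongrGlobal
import Fermat.Agent.CFT.Global.Contracts
import Fermat.Agent.CFT.Global.ResiduePower

set_option autoImplicit false
set_option linter.unusedSectionVars false
set_option linter.style.haveILetI false

/-!
# CFT, stream [C], (G6) Lemma B of the second inequality (C-F VII.9, Claim 2)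

`F` a number field containing a primitive `p`-th root of unity (`p` odd), `S`, `T` disjoint finite
sets of primes, `S` containing the primes above `p` and generating the class group, `U_S` the
`S`-units, and assume `U_S` surjects onto the `p`-th power residue classes at `T`.  If `x` is an
`S ∪ T`-unit which is a `p`-th power modulo `v ^ k v` (`k v (p - 1) > p ord_v p`) for all `v ∈ S`,
then `x` is a `p`-th power.

Proof: otherwise `N = F(x^(1/p))` (`KummerExt.exists_kummerExt`) is cyclic of degree `p`,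
unramified outside `T`, and all primes of `S` split completely (`LocalPowerSplit`).  Every ideal
`𝔞` prime to `T` is then `(z / y)` times a quotient of norms of products of primes above `S`, with
`z / y` a `p`-th power residue at `T`; this contradicts the tame first inequality
(`Contracts.TameFirstIneq`, a hypothesis here).

* `lemmaB_general` : arbitrary `U`, `e`;
* `lemmaB`, `lemmaB_subtype` : `U = U_S`, `e = natOrdAt`, `W = ⨅ v ∈ S, powCongr v p (k v)`.
-/

namespace Fermat.Agent.CFT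

open NumberField IsDedekindDomain HeightOneSpectrum WithZero FractionalIdeal nonZeroDivisors
open scoped Pointwise

section Ext

variable {F N : Type*} [Field F] [NumberField F] [Field N] [NumberField N] [Algebra F N]
  [IsGalois F N]

/-- a prime of `F` all of whose primes in `N` have trivial decomposition group is the relative
norm of a prime of `N` -/
theorem exists_prime_relNorm_eq (v : HeightOneSpectrum (𝓞 F))
    (hv : ∀ Q : Ideal (𝓞 N), Q.IsPrime → Q.LiesOver v.asIdeal →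
      MulAction.stabilizer Gal(N/F) Q = ⊥) :
    ∃ Q : Ideal (𝓞 N), Q.IsMaximal ∧ Q.LiesOver v.asIdeal ∧
      Ideal.relNorm (𝓞 F) Q = v.asIdeal := by
  obtain ⟨Q, hQ1, hQ2⟩ := Ideal.exists_ideal_over_prime_of_isIntegral_of_isDomain
    (S := 𝓞 N) v.asIdeal (by
      rw [(RingHom.injective_iff_ker_eq_bot _).mp
        (FaithfulSMul.algebraMap_injective (𝓞 F) (𝓞 N))]
      exact bot_le)
  haveI : Q.IsPrime := hQ1
  haveI : Q.LiesOver v.asIdeal := ⟨hQ2.symm⟩
  have hQ0 : Q ≠ ⊥ := Ideal.ne_bot_of_liesOver_of_ne_bot v.ne_bot Q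
  haveI : Q.IsMaximal := Ideal.IsPrime.isMaximal inferInstance hQ0
  haveI : v.asIdeal.IsMaximal := v.isMaximal
  have hstab := hv Q inferInstance inferInstance
  have h1 : v.asIdeal.ramificationIdxIn (𝓞 N) * v.asIdeal.inertiaDegIn (𝓞 N) = 1 := by
    rw [← Ideal.card_stabilizer_eq (G := Gal(N/F)) v.asIdeal Q, hstab]
    exact Nat.card_unique
  have h2 : v.asIdeal.inertiaDegIn (𝓞 N) = 1 := Nat.eq_one_of_mul_eq_one_left h1
  have h3 : Q.inertiaDeg (𝓞 F) = 1 := by
    rw [← Ideal.inertiaDegIn_eq_inertiaDeg v.asIdeal Q Gal(N/F), h2]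
  refine ⟨Q, inferInstance, inferInstance, ?_⟩
  rw [Ideal.relNorm_eq_pow_of_isMaximal Q v.asIdeal, h3, pow_one]

/-- an `S`-product of primes with trivial decomposition groups is the relative norm of an ideal
of `N` all of whose prime factors lie over `S` -/
theorem exists_relNorm_eq_sProd (S : Finset (HeightOneSpectrum (𝓞 F)))
    (hS : ∀ v ∈ S, ∀ Q : Ideal (𝓞 N), Q.IsPrime → Q.LiesOver v.asIdeal →
      MulAction.stabilizer Gal(N/F) Q = ⊥) (n : HeightOneSpectrum (𝓞 F) → ℕ) :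
    ∃ J : Ideal (𝓞 N), J ≠ ⊥ ∧ Ideal.relNorm (𝓞 F) J = sProd S n ∧
      ∀ Q : Ideal (𝓞 N), Q.IsPrime → (∀ v ∈ S, Q.under (𝓞 F) ≠ v.asIdeal) → ¬ J ≤ Q := by
  classical
  have hex : ∀ v : HeightOneSpectrum (𝓞 F), ∃ Q : Ideal (𝓞 N), v ∈ S →
      (Q.IsMaximal ∧ Q.LiesOver v.asIdeal ∧ Ideal.relNorm (𝓞 F) Q = v.asIdeal) := by
    intro v
    by_cases hv : v ∈ S
    · obtain ⟨Q, h1, h2, h3⟩ := exists_prime_relNorm_eq (N := N) v (hS v hv)
      exact ⟨Q, fun _ => ⟨h1, h2, h3⟩⟩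
    · exact ⟨⊤, fun h => absurd h hv⟩
  choose P hP using hex
  refine ⟨∏ v ∈ S, P v ^ n v, ?_, ?_, ?_⟩
  · rw [← Ideal.zero_eq_bot, Finset.prod_ne_zero_iff]
    intro v hv
    apply pow_ne_zero
    rw [Ideal.zero_eq_bot]
    haveI := (hP v hv).2.1
    exact Ideal.ne_bot_of_liesOver_of_ne_bot v.ne_bot (P v)
  · rw [map_prod, sProd]
    refine Finset.prod_congr rfl fun v hv => ?_
    rw [map_pow, (hP v hv).2.2]
  · intro Q hQ hQS hle
    obtain ⟨v, hv, hle'⟩ := (Ideal.IsPrime.prod_le hQ).mp hle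
    have h1 : P v ≤ Q := Ideal.IsPrime.le_of_pow_le hle'
    have h2 : P v = Q := (hP v hv).1.eq_of_le hQ.ne_top h1
    apply hQS v hv
    rw [← h2]
    exact ((hP v hv).2.1.over).symm

end Ext

section Kummer

variable {F N : Type*} [Field F] [NumberField F] [Field N] [NumberField N] [Algebra F N]
  [IsGalois F N] {p : ℕ}

theorem kummer_inertia_eq_bot_of_valuation_eq_one (hp : p.Prime) {ζ : F}
    (hζ : IsPrimitiveRoot ζ p) (hdeg : Module.finrank F N = p) {θ : N} {x : F}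
    (hθ : θ ^ p = algebraMap F N x) (hθF : θ ∉ Set.range (algebraMap F N))
    (v : HeightOneSpectrum (𝓞 F)) (hvp : v.valuation F (p : F) = 1)
    (hvx : v.valuation F x = 1) (Q : Ideal (𝓞 N)) [Q.IsPrime] [Q.LiesOver v.asIdeal] :
    Q.inertia Gal(N/F) = ⊥ := by
  have h1 := kummer_ramificationIdxIn_eq_one hp hζ hdeg hθ hθF v hvp hvx
  apply Subgroup.eq_bot_of_card_eq
  rw [Ideal.card_inertia_eq_ramificationIdxIn (G := Gal(N/F)) v.asIdeal Q, h1]

end Kummer

section Residue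

variable {F : Type*} [Field F] [NumberField F] {p : ℕ}

/-- the residue computation of Lemma B: if `u / c₀` is a `p`-th power modulo `q` then so is
`z / y` for `z = (c₀ / u) y`, in integral form. -/
theorem exists_sub_mul_pow_mem (q : HeightOneSpectrum (𝓞 F)) {c₀ u : F}
    (hc₀ : q.valuation F c₀ = 1) (hu : q.valuation F u = 1) {y z : 𝓞 F} (hy : y ∉ q.asIdeal)
    (hz : algebraMap (𝓞 F) F z = c₀ / u * algebraMap (𝓞 F) F y)
    (hpow : ∃ t : F, q.valuation F (u / c₀ - t ^ p) < 1) (hp : p ≠ 0) :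
    ∃ w : 𝓞 F, z - y * w ^ p ∈ q.asIdeal := by
  obtain ⟨t, ht⟩ := hpow
  have hc₀0 : c₀ ≠ 0 := fun h => by rw [h, map_zero] at hc₀; exact zero_ne_one hc₀
  have hu0 : u ≠ 0 := fun h => by rw [h, map_zero] at hu; exact zero_ne_one hu
  have huc : q.valuation F (u / c₀) = 1 := by rw [map_div₀, hu, hc₀, _root_.div_one]
  have htp : q.valuation F (t ^ p) = 1 := by
    have h2 : t ^ p = u / c₀ - (u / c₀ - t ^ p) := by ring
    rw [h2, Valuation.map_sub_eq_of_lt_left _ (by rw [huc]; exact ht), huc]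
  have ht1 : q.valuation F t = 1 := by
    rw [map_pow] at htp
    exact le_antisymm ((pow_le_one_iff hp).mp htp.le) ((one_le_pow_iff hp).mp htp.ge)
  have ht0 : t ≠ 0 := fun h => by rw [h, map_zero] at ht1; exact zero_ne_one ht1
  have hti : q.valuation F t⁻¹ = 1 := by rw [map_inv₀, ht1, inv_one]
  obtain ⟨w, hw⟩ := exists_valuation_sub_le_exp q hti.le 1
  have hw' : q.valuation F (t⁻¹ - algebraMap (𝓞 F) F w) < 1 := by
    rw [Valuation.map_sub_swap]
    refine lt_of_le_of_lt hw ?_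
    rw [← exp_zero, exp_lt_exp]
    norm_num
  refine ⟨w, ?_⟩
  rw [mem_asIdeal_iff_valuation_lt_one, map_sub, map_mul, map_pow, hz]
  have hy1 : q.valuation F (algebraMap (𝓞 F) F y) = 1 := valuation_eq_one_of_not_mem q hy
  have e1 : c₀ / u * algebraMap (𝓞 F) F y - algebraMap (𝓞 F) F y * algebraMap (𝓞 F) F w ^ p =
      algebraMap (𝓞 F) F y * ((c₀ / u - t⁻¹ ^ p) + (t⁻¹ ^ p - algebraMap (𝓞 F) F w ^ p)) := by
    ring
  rw [e1, map_mul, hy1, one_mul]
  apply Valuation.map_add_lt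
  · have htp0 : t ^ p ≠ 0 := pow_ne_zero p ht0
    have e2 : c₀ / u - t⁻¹ ^ p = -((u / c₀ - t ^ p) * (c₀ / u * t⁻¹ ^ p)) := by
      rw [inv_pow]
      field_simp
      ring
    rw [e2, Valuation.map_neg, map_mul, map_mul, map_div₀, hc₀, hu, _root_.div_one, one_mul,
      map_pow, hti, one_pow, mul_one]
    exact ht
  · exact valuation_pow_sub_pow_lt_one q hti.le (q.valuation_le_one w) hw'

end Residue

section Main

universe u

variable {F : Type u} [Field F] [NumberField F] {p : ℕ}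

/-- **Lemma B of the second inequality** (C–F VII.9, Claim 2): an `S ∪ T`-unit which is locally a
`p`-th power at the primes of `S` (to sufficient precision) is a `p`-th power, provided the
`S`-units surject onto the `p`-th power residue classes at `T`. -/
theorem lemmaB_general (hp : p.Prime) (hp2 : p ≠ 2) {ζ : F} (hζ : IsPrimitiveRoot ζ p)
    (S T : Finset (HeightOneSpectrum (𝓞 F))) (hST : Disjoint S T)
    (hSp : ∀ v : HeightOneSpectrum (𝓞 F), v ∉ S → v.valuation F (p : F) = 1)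
    (hS : ∀ C : ClassGroup (𝓞 F), ∃ D : HeightOneSpectrum (𝓞 F) →₀ ℤ,
      D.support ⊆ S ∧ divClass D = C)
    (e k : HeightOneSpectrum (𝓞 F) → ℕ)
    (he : ∀ v ∈ S, v.valuation F (p : F) = exp (-(e v : ℤ)))
    (hk : ∀ v ∈ S, p * e v < (p - 1) * k v)
    (U : Subgroup Fˣ)
    (hU : ∀ u ∈ U, ∀ v : HeightOneSpectrum (𝓞 F), v ∉ S → v.valuation F (u : F) = 1)
    (hsurj : ∀ c : HeightOneSpectrum (𝓞 F) → Fˣ, (∀ v ∈ T, c v ∈ vUnits v) →
      ∃ u ∈ U, ∀ v ∈ T, ∃ y : F, v.valuation F ((u : F) / (c v : F) - y ^ p) < 1)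
    (hF3 : ∀ (N : Type u) [Field N] [NumberField N] [Algebra F N] [IsGalois F N],
      TameFirstIneq p F N)
    (x : Fˣ)
    (hxU : ∀ v : HeightOneSpectrum (𝓞 F), v ∉ S → v ∉ T → v.valuation F (x : F) = 1)
    (hxW : ∀ v ∈ S, x ∈ powCongr v p (k v)) :
    ∃ y : Fˣ, y ^ p = x := by
  by_contra hne
  push Not at hne
  have hx' : ∀ c : F, c ^ p ≠ (x : F) := by
    intro c hc
    have hc0 : c ≠ 0 := by
      rintro rfl
      rw [zero_pow hp.ne_zero] at hc
      exact x.ne_zero hc.symm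
    exact hne (Units.mk0 c hc0) (Units.ext (by simpa using hc))
  obtain ⟨N, iN1, iN2, iN3, hgal, hdeg, hcard, θ, hθ, hθF⟩ := exists_kummerExt F hp hζ hx'
  haveI := hgal
  have hTS : ∀ q ∈ T, q ∉ S := fun q hq h => Finset.disjoint_left.mp hST h hq
  -- splitting at `S`
  have hsplit : ∀ v ∈ S, ∀ Q : Ideal (𝓞 N), Q.IsPrime → Q.LiesOver v.asIdeal →
      MulAction.stabilizer Gal(N/F) Q = ⊥ := by
    intro v hv Q hQ1 hQ2
    have hk0 : k v ≠ 0 := by
      intro h0
      have := hk v hv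
      rw [h0, mul_zero] at this
      exact Nat.not_lt_zero _ this
    obtain ⟨y, hy⟩ := (mem_powCongr_iff v hk0).mp (hxW v hv)
    exact stabilizer_eq_bot_of_isPow_mod_pow hp hζ hdeg hθ hθF v (he v hv) (hk v hv)
      ⟨(y : F), y.ne_zero, hy⟩ Q
  apply hF3 N hp hp2 ⟨ζ, hζ⟩ hcard T
  · -- `p ∉ q` for `q ∈ T`
    intro q hq
    exact natCast_not_mem_of_valuation q (hSp q (hTS q hq))
  · -- unramified outside `T`
    intro Q hQ1 hQ0 hQT
    haveI := hQ1
    have hu0 : Q.under (𝓞 F) ≠ ⊥ := fun h => hQ0 (Ideal.eq_bot_of_comap_eq_bot h)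
    let v : HeightOneSpectrum (𝓞 F) := ⟨Q.under (𝓞 F), inferInstance, hu0⟩
    haveI : Q.LiesOver v.asIdeal := ⟨rfl⟩
    by_cases hvS : v ∈ S
    · rw [eq_bot_iff, ← hsplit v hvS Q hQ1 inferInstance]
      exact Ideal.inertia_le_stabilizer Q
    · have hvT : v ∉ T := fun h => hQT v h rfl
      exact kummer_inertia_eq_bot_of_valuation_eq_one hp hζ hdeg hθ hθF v (hSp v hvS)
        (hxU v hvS hvT) Q
  · -- every ideal prime to `T` is a quotient of norms times a `p`-th power residue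
    intro 𝔞 h𝔞0 h𝔞T
    obtain ⟨c₀, hc₀⟩ := exists_valuation_eq_of_divClass F S hS h𝔞0
    have hcountT : ∀ q ∈ T, count F q (𝔞 : FractionalIdeal (𝓞 F)⁰ F) = 0 := fun q hq =>
      (count_coe_eq_zero_iff F h𝔞0 q).mpr (h𝔞T q hq)
    have hc₀T : ∀ q ∈ T, q.valuation F (c₀ : F) = 1 := by
      intro q hq
      rw [hc₀ q (hTS q hq), hcountT q hq, neg_zero, exp_zero]
    obtain ⟨u, huU, hu⟩ := hsurj (fun _ => c₀)
      (fun q hq => (mem_vUnits_iff q c₀).mpr (hc₀T q hq))
    set c₁ : F := (c₀ : F) / (u : F) with hc₁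
    have hc₁0 : c₁ ≠ 0 := div_ne_zero c₀.ne_zero u.ne_zero
    have hc₁v : ∀ v : HeightOneSpectrum (𝓞 F), v ∉ S →
        v.valuation F c₁ = exp (-(count F v (𝔞 : FractionalIdeal (𝓞 F)⁰ F))) := by
      intro v hv
      rw [hc₁, map_div₀, hU u huU v hv, _root_.div_one, hc₀ v hv]
    let m : HeightOneSpectrum (𝓞 F) → ℕ := fun v => (log (v.valuation F c₁)).toNat
    obtain ⟨y, hy𝔫, hy0, hyT⟩ := exists_mem_sub_one_mem T (sProd_ne_bot S m)
      (fun q hq => not_sProd_le S m (hTS q hq))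
    have hy0' : algebraMap (𝓞 F) F y ≠ 0 := by
      rw [Ne, map_eq_zero_iff _ (FaithfulSMul.algebraMap_injective (𝓞 F) F)]
      exact hy0
    have hzint : ∀ v : HeightOneSpectrum (𝓞 F),
        v.valuation F (c₁ * algebraMap (𝓞 F) F y) ≤ 1 := by
      intro v
      rw [map_mul]
      by_cases hv : v ∈ S
      · have h1 : v.valuation F (algebraMap (𝓞 F) F y) ≤ exp (-(m v : ℤ)) :=
          (valuation_algebraMap_le_exp_iff v y (m v)).mpr (sProd_le_pow S m hv hy𝔫)
        have hne0 : v.valuation F c₁ ≠ 0 := (Valuation.ne_zero_iff _).mpr hc₁0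
        have h2 : v.valuation F c₁ ≤ exp (m v : ℤ) := by
          calc v.valuation F c₁ = exp (log (v.valuation F c₁)) := (exp_log hne0).symm
            _ ≤ exp (m v : ℤ) := exp_le_exp.mpr (Int.self_le_toNat _)
        calc _ ≤ exp (m v : ℤ) * exp (-(m v : ℤ)) := mul_le_mul' h2 h1
          _ = 1 := by rw [← exp_add, add_neg_cancel, exp_zero]
      · have h1 : v.valuation F c₁ ≤ 1 := by
          rw [hc₁v v hv, ← exp_zero, exp_le_exp]
          have := count_coe_nonneg F v 𝔞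
          omega
        exact mul_le_one' h1 (v.valuation_le_one y)
    obtain ⟨z, hz⟩ := HeightOneSpectrum.mem_integers_of_valuation_le_one F _ hzint
    have hz0' : algebraMap (𝓞 F) F z ≠ 0 := by
      rw [hz]
      exact mul_ne_zero hc₁0 hy0'
    have hz0 : z ≠ 0 := fun h => hz0' (by rw [h, map_zero])
    have hsy0 : Ideal.span {y} ≠ ⊥ := by rwa [Ne, Ideal.span_singleton_eq_bot]
    have hI0 : Ideal.span {y} * 𝔞 ≠ ⊥ := mul_ne_zero hsy0 h𝔞0
    have hI'0 : Ideal.span {z} ≠ ⊥ := by rwa [Ne, Ideal.span_singleton_eq_bot]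
    have hcnt : ∀ v : HeightOneSpectrum (𝓞 F), v ∉ S →
        count F v ((Ideal.span {y} * 𝔞 : Ideal (𝓞 F)) : FractionalIdeal (𝓞 F)⁰ F) =
          count F v ((Ideal.span {z} : Ideal (𝓞 F)) : FractionalIdeal (𝓞 F)⁰ F) := by
      intro v hv
      rw [coeIdeal_mul, count_mul F v (coeIdeal_ne_zero.mpr hsy0)
        (coeIdeal_ne_zero.mpr h𝔞0), coeIdeal_span_singleton, coeIdeal_span_singleton,
        Fermat.Agent.S20.count_spanSingleton v hy0', Fermat.Agent.S20.count_spanSingleton v hz0',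
        hz, map_mul, log_mul ((Valuation.ne_zero_iff _).mpr hc₁0)
          ((Valuation.ne_zero_iff _).mpr hy0'), hc₁v v hv, log_exp]
      ring
    have hN := mul_sProd_eq_mul_sProd F S hI0 hI'0 hcnt
    obtain ⟨J, hJ0, hJN, hJT⟩ := exists_relNorm_eq_sProd (N := N) S hsplit
      (fun v => (count F v ((Ideal.span {y} * 𝔞 : Ideal (𝓞 F)) :
        FractionalIdeal (𝓞 F)⁰ F)).toNat)
    obtain ⟨J', hJ'0, hJ'N, hJ'T⟩ := exists_relNorm_eq_sProd (N := N) S hsplit
      (fun v => (count F v ((Ideal.span {z} : Ideal (𝓞 F)) : FractionalIdeal (𝓞 F)⁰ F)).toNat)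
    have hprimeT : ∀ q ∈ T, ∀ Q : Ideal (𝓞 N), Q.IsPrime → Q.under (𝓞 F) = q.asIdeal →
        ∀ v ∈ S, Q.under (𝓞 F) ≠ v.asIdeal := by
      intro q hq Q _ hQq v hv hQv
      have : v = q := HeightOneSpectrum.ext (by rw [← hQv, hQq])
      exact hTS q hq (this ▸ hv)
    refine ⟨y, z, J, J', hy0, hz0, ?_, hJ0, hJ'0, ?_, ?_⟩
    · intro q hq
      have hyq : y ∉ q.asIdeal := by
        intro hmem
        have h1 : (1 : 𝓞 F) ∈ q.asIdeal := by
          have := q.asIdeal.sub_mem hmem (hyT q hq)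
          simpa using this
        exact q.isPrime.ne_top ((Ideal.eq_top_iff_one _).mpr h1)
      have huq : q.valuation F (u : F) = 1 := hU u huU q (hTS q hq)
      have hzq : z ∉ q.asIdeal := by
        rw [mem_asIdeal_iff_valuation_lt_one, hz, map_mul, hc₁, map_div₀, hc₀T q hq, huq,
          _root_.div_one, one_mul, valuation_eq_one_of_not_mem q hyq]
        exact lt_irrefl _
      refine ⟨hyq, hzq, ?_⟩
      exact exists_sub_mul_pow_mem q (hc₀T q hq) huq hyq hz (hu q hq) hp.ne_zero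
    · intro q hq Q hQ hQq
      exact ⟨hJT Q hQ (hprimeT q hq Q hQ hQq), hJ'T Q hQ (hprimeT q hq Q hQ hQq)⟩
    · rw [hJN, hJ'N]
      exact hN

/-- **Lemma B**, in the shape of the second inequality: `U_S` the `S`-units, `W = ⨅ v ∈ S, powCongr
v p (k v)`, `x ∈ U_{S ∪ T} ⊓ W` is the `p`-th power of an `S ∪ T`-unit. -/
theorem lemmaB (hp : p.Prime) (hp2 : p ≠ 2) {ζ : F} (hζ : IsPrimitiveRoot ζ p)
    (S T : Finset (HeightOneSpectrum (𝓞 F))) (hST : Disjoint S T)
    (hSp : ∀ v : HeightOneSpectrum (𝓞 F), v.valuation F (p : F) ≠ 1 → v ∈ S)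
    (hS : ∀ C : ClassGroup (𝓞 F), ∃ D : HeightOneSpectrum (𝓞 F) →₀ ℤ,
      D.support ⊆ S ∧ divClass D = C)
    (k : HeightOneSpectrum (𝓞 F) → ℕ) (hk : ∀ v ∈ S, p * natOrdAt v p < (p - 1) * k v)
    (hsurj : ∀ c : HeightOneSpectrum (𝓞 F) → Fˣ, (∀ v ∈ T, c v ∈ vUnits v) →
      ∃ u ∈ (S : Set (HeightOneSpectrum (𝓞 F))).unit F,
        ∀ v ∈ T, ∃ y : F, v.valuation F ((u : F) / (c v : F) - y ^ p) < 1)
    (hF3 : ∀ (N : Type u) [Field N] [NumberField N] [Algebra F N] [IsGalois F N],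
      TameFirstIneq p F N)
    (x : Fˣ)
    (hxU : x ∈ ((S : Set (HeightOneSpectrum (𝓞 F))) ∪ (T : Set (HeightOneSpectrum (𝓞 F)))).unit F)
    (hxW : x ∈ ⨅ v ∈ S, powCongr v p (k v)) :
    ∃ y ∈ ((S : Set (HeightOneSpectrum (𝓞 F))) ∪ (T : Set (HeightOneSpectrum (𝓞 F)))).unit F,
      y ^ p = x := by
  obtain ⟨y, hy⟩ := lemmaB_general hp hp2 hζ S T hST
    (fun v hv => by
      by_contra h
      exact hv (hSp v h))
    hS (fun v => natOrdAt v p) k (fun v _ => valuation_natCast_eq_exp v hp.ne_zero) hk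
    ((S : Set (HeightOneSpectrum (𝓞 F))).unit F)
    (fun u hu v hv => hu v (by simpa using hv)) hsurj hF3 x
    (fun v hvS hvT => hxU v (by simp [hvS, hvT]))
    (fun v hv => by
      rw [Subgroup.mem_iInf] at hxW
      have := hxW v
      rw [Subgroup.mem_iInf] at this
      exact this hv)
  refine ⟨y, ?_, hy⟩
  intro v hv
  have h1 : v.valuation F ((y ^ p : Fˣ) : F) = 1 := by
    rw [hy]
    exact hxU v hv
  rw [Units.val_pow_eq_pow_val, map_pow] at h1
  exact le_antisymm ((pow_le_one_iff hp.ne_zero).mp h1.le) ((one_le_pow_iff hp.ne_zero).mp h1.ge)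

/-- **Lemma B**, subtype form (the hypothesis `hUW` of `index_sup_le_of_count`). -/
theorem lemmaB_subtype (hp : p.Prime) (hp2 : p ≠ 2) {ζ : F} (hζ : IsPrimitiveRoot ζ p)
    (S T : Finset (HeightOneSpectrum (𝓞 F))) (hST : Disjoint S T)
    (hSp : ∀ v : HeightOneSpectrum (𝓞 F), v.valuation F (p : F) ≠ 1 → v ∈ S)
    (hS : ∀ C : ClassGroup (𝓞 F), ∃ D : HeightOneSpectrum (𝓞 F) →₀ ℤ,
      D.support ⊆ S ∧ divClass D = C)
    (k : HeightOneSpectrum (𝓞 F) → ℕ) (hk : ∀ v ∈ S, p * natOrdAt v p < (p - 1) * k v)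
    (hsurj : ∀ c : HeightOneSpectrum (𝓞 F) → Fˣ, (∀ v ∈ T, c v ∈ vUnits v) →
      ∃ u ∈ (S : Set (HeightOneSpectrum (𝓞 F))).unit F,
        ∀ v ∈ T, ∃ y : F, v.valuation F ((u : F) / (c v : F) - y ^ p) < 1)
    (hF3 : ∀ (N : Type u) [Field N] [NumberField N] [Algebra F N] [IsGalois F N],
      TameFirstIneq p F N)
    (x : ((S : Set (HeightOneSpectrum (𝓞 F))) ∪ (T : Set (HeightOneSpectrum (𝓞 F)))).unit F)
    (hxW : (x : Fˣ) ∈ ⨅ v ∈ S, powCongr v p (k v)) :
    ∃ y : ((S : Set (HeightOneSpectrum (𝓞 F))) ∪ (T : Set (HeightOneSpectrum (𝓞 F)))).unit F,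
      y ^ p = x := by
  obtain ⟨y, hyU, hy⟩ := lemmaB hp hp2 hζ S T hST hSp hS k hk hsurj hF3 (x : Fˣ) x.2 hxW
  exact ⟨⟨y, hyU⟩, Subtype.ext hy⟩

end Main

end Fermat.Agent.CFT
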