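import Mathlib

/-!
# CFT stream [C], (G6a): selecting independent "functionals" of order `p`

Abstract form of the choice of the auxiliary set `T` in the proof of the second inequality
(Cassels–Fröhlich VII.9): `U` a commutative group (the `S`-units), `A ≤ U` a subgroup of index
`p ^ m` (`A = ⟨a⟩ U^p`), `r i : U →* C i` homomorphisms to groups of order `p` (the residue maps
`U_S → U_v / U_v^p`) which are trivial on `A` and separate the elements outside `A`.
Then there is a finite set `T` of `m` indices (outside any prescribed finite set `B₀`) such that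
`⋂_{i ∈ T} ker (r i) = A` and `U → ∏_{i ∈ T} C i` is surjective.
-/

set_option autoImplicit false

namespace Fermat.Agent.CFT

section Select

variable {U : Type*} [CommGroup U] {ι : Type*} {C : ι → Type*} [∀ i, Group (C i)]

/-- the intersection of the kernels of the `r i`, `i ∈ T` -/
def kerInf (r : ∀ i, U →* C i) (T : Finset ι) : Subgroup U := ⨅ i ∈ T, (r i).ker

theorem mem_kerInf {r : ∀ i, U →* C i} {T : Finset ι} {u : U} :
    u ∈ kerInf r T ↔ ∀ i ∈ T, r i u = 1 := by
  simp only [kerInf, Subgroup.mem_iInf, MonoidHom.mem_ker]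

theorem kerInf_empty (r : ∀ i, U →* C i) : kerInf r (∅ : Finset ι) = ⊤ := by
  ext u
  simp [mem_kerInf]

theorem kerInf_insert [DecidableEq ι] (r : ∀ i, U →* C i) (T : Finset ι) (i : ι) :
    kerInf r (insert i T) = kerInf r T ⊓ (r i).ker := by
  ext u
  simp only [mem_kerInf, Subgroup.mem_inf, MonoidHom.mem_ker, Finset.mem_insert, forall_eq_or_imp]
  tauto

/-- One step: adding an index `i` with `r i u ≠ 1` for some `u ∈ kerInf r T` multiplies the index
by exactly `p`. -/
theorem index_kerInf_insert [DecidableEq ι] {p : ℕ} (hp : p.Prime) (r : ∀ i, U →* C i)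
    (hC : ∀ i, Nat.card (C i) = p) (T : Finset ι) (i : ι) {u : U} (hu : u ∈ kerInf r T)
    (hiu : r i u ≠ 1) : (kerInf r (insert i T)).index = (kerInf r T).index * p := by
  have : Fact p.Prime := ⟨hp⟩
  rw [kerInf_insert, ← Subgroup.relIndex_mul_index (inf_le_left : kerInf r T ⊓ (r i).ker ≤ _),
    inf_comm, Subgroup.inf_relIndex_right, Subgroup.relIndex_ker, mul_comm]
  congr 1
  -- the image of `kerInf r T` in `C i` is a nontrivial subgroup of a group of order `p`
  have hCp : Fact (Nat.card (C i)).Prime := ⟨by rw [hC i]; exact hp⟩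
  rcases Subgroup.eq_bot_or_eq_top_of_prime_card ((kerInf r T).map (r i)) with h | h
  · exfalso
    apply hiu
    have : r i u ∈ (kerInf r T).map (r i) := Subgroup.mem_map_of_mem _ hu
    rwa [h, Subgroup.mem_bot] at this
  · rw [h, Nat.card_congr Subgroup.topEquiv.toEquiv, hC i]

/-- **Selection lemma.** -/
theorem exists_finset_kerInf_eq {p : ℕ} (hp : p.Prime) (A : Subgroup U) (r : ∀ i, U →* C i)
    (hC : ∀ i, Nat.card (C i) = p) (hA : ∀ i, A ≤ (r i).ker) (B₀ : Finset ι)
    (hsep : ∀ u, u ∉ A → ∃ i, i ∉ B₀ ∧ r i u ≠ 1) {m : ℕ} (hidx : A.index = p ^ m) :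
    ∃ T : Finset ι, T.card = m ∧ Disjoint T B₀ ∧ kerInf r T = A ∧
      Function.Surjective (fun (u : U) (i : T) => r i u) := by
  classical
  -- inductive construction
  have key : ∀ k, k ≤ m → ∃ T : Finset ι, T.card = k ∧ Disjoint T B₀ ∧ A ≤ kerInf r T ∧
      (kerInf r T).index = p ^ k := by
    intro k
    induction k with
    | zero =>
      intro _
      refine ⟨∅, rfl, Finset.disjoint_empty_left _, ?_, ?_⟩
      · rw [kerInf_empty]; exact le_top
      · rw [kerInf_empty, Subgroup.index_top, pow_zero]
    | succ k ih =>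
      intro hk
      obtain ⟨T, hTc, hTB, hAT, hTi⟩ := ih (Nat.le_of_succ_le hk)
      -- `kerInf r T ≠ A`
      have hne : ¬ kerInf r T ≤ A := by
        intro hle
        have heq : kerInf r T = A := le_antisymm hle hAT
        rw [heq, hidx] at hTi
        have := Nat.pow_right_injective hp.two_le hTi
        omega
      obtain ⟨u, huT, huA⟩ := Set.not_subset.mp hne
      obtain ⟨i, hiB, hiu⟩ := hsep u huA
      have hiT : i ∉ T := fun hi => hiu (mem_kerInf.mp huT i hi)
      refine ⟨insert i T, ?_, ?_, ?_, ?_⟩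
      · rw [Finset.card_insert_of_notMem hiT, hTc]
      · rw [Finset.disjoint_insert_left]
        exact ⟨hiB, hTB⟩
      · rw [kerInf_insert]
        exact le_inf hAT (hA i)
      · rw [index_kerInf_insert hp r hC T i huT hiu, hTi, pow_succ]
  obtain ⟨T, hTc, hTB, hAT, hTi⟩ := key m le_rfl
  have hpm : p ^ m ≠ 0 := pow_ne_zero m hp.ne_zero
  have hTA : kerInf r T = A := by
    refine le_antisymm ?_ hAT
    have h1 := Subgroup.relIndex_mul_index hAT
    rw [hTi, hidx] at h1
    have h2 : A.relIndex (kerInf r T) = 1 := by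
      have : A.relIndex (kerInf r T) * p ^ m = 1 * p ^ m := by rw [h1, one_mul]
      exact Nat.eq_of_mul_eq_mul_right (Nat.pos_of_ne_zero hpm) this
    exact Subgroup.relIndex_eq_one.mp h2
  refine ⟨T, hTc, hTB, hTA, ?_⟩
  -- surjectivity by counting
  let φ : U →* (∀ i : T, C i) := MonoidHom.pi fun i : T => r i
  have hker : φ.ker = kerInf r T := by
    ext u
    simp only [MonoidHom.mem_ker, mem_kerInf, φ]
    constructor
    · intro h i hi
      exact congrFun h ⟨i, hi⟩
    · intro h
      funext i
      exact h i i.2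
  have hfin : ∀ i, Finite (C i) := fun i =>
    Nat.finite_of_card_ne_zero (by rw [hC i]; exact hp.ne_zero)
  have hcard : Nat.card (∀ i : T, C i) = p ^ m := by
    rw [Nat.card_pi]
    simp only [hC, Finset.prod_const, Finset.card_univ, Fintype.card_coe, hTc]
  have hrange : Nat.card φ.range = p ^ m := by
    rw [← Subgroup.index_ker, hker, hTi]
  have htop : φ.range = ⊤ := Subgroup.eq_top_of_card_eq _ (by rw [hrange, hcard])
  intro c
  have : c ∈ φ.range := by rw [htop]; exact Subgroup.mem_top c
  obtain ⟨u, hu⟩ := this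
  exact ⟨u, hu⟩

end Select

end Fermat.Agent.CFT
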