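import Mathlib
import Fermat.Agent.CFT.Global.ResiduePower
import Fermat.Agent.CFT.Global.SelectFunctionals

/-!
# CFT stream [C], (G6a): the auxiliary set of primes `T` of the second inequality

Number-field instance of `SelectFunctionals.exists_finset_kerInf_eq`.

`F ∋ ζ_p` a number field, `U ≤ Fˣ` (the `S`-units), `a ∈ U`, `A = ⟨a⟩ U^p`
(`powSpan U a p`), `B` a finite set of primes such that every `u ∈ U` is a `v`-unit and `v ∤ p`
for `v ∉ B`.  Assume `[U : A] = p ^ m` and the separation property `hsep` (for `u ∈ U ∖ A` there is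
`v ∉ B` such that `a` is a `p`-th power modulo `v` and `u` is not; this comes from the analytic
input (G1) applied to `F(a^{1/p})`).  Then there is a set `T` of exactly `m` primes outside `B`
such that `a` is a `p`-th power modulo each `v ∈ T` (so `v` splits in `F(a^{1/p})`), the elements
of `U` which are `p`-th powers modulo all `v ∈ T` are exactly those of `A`, and
`U → ∏_{v ∈ T} U_v / U_v^p` is surjective.
-/

set_option autoImplicit false
set_option linter.unusedSectionVars false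

namespace Fermat.Agent.CFT

open NumberField IsDedekindDomain

variable {F : Type*} [Field F] [NumberField F]

/-- `⟨a⟩ U^p` -/
def powSpan (U : Subgroup Fˣ) (a : Fˣ) (p : ℕ) : Subgroup Fˣ :=
  U.map (powMonoidHom p) ⊔ Subgroup.zpowers a

theorem mem_powSpan_iff {U : Subgroup Fˣ} {a : Fˣ} {p : ℕ} {u : Fˣ} :
    u ∈ powSpan U a p ↔ ∃ c ∈ U, ∃ k : ℤ, c ^ p * a ^ k = u := by
  rw [powSpan, Subgroup.mem_sup]
  constructor
  · rintro ⟨y, ⟨c, hc, rfl⟩, z, ⟨k, rfl⟩, rfl⟩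
    exact ⟨c, hc, k, rfl⟩
  · rintro ⟨c, hc, k, rfl⟩
    exact ⟨c ^ p, ⟨c, hc, rfl⟩, a ^ k, ⟨k, rfl⟩, rfl⟩

theorem powSpan_le {U : Subgroup Fˣ} {a : Fˣ} (ha : a ∈ U) (p : ℕ) : powSpan U a p ≤ U := by
  intro u hu
  obtain ⟨c, hc, k, rfl⟩ := mem_powSpan_iff.mp hu
  exact U.mul_mem (U.pow_mem hc p) (U.zpow_mem ha k)

theorem pow_mem_powSpan {U : Subgroup Fˣ} (a : Fˣ) (p : ℕ) {c : Fˣ} (hc : c ∈ U) :
    c ^ p ∈ powSpan U a p :=
  mem_powSpan_iff.mpr ⟨c, hc, 0, by simp⟩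

theorem self_mem_powSpan (U : Subgroup Fˣ) (a : Fˣ) (p : ℕ) : a ∈ powSpan U a p :=
  mem_powSpan_iff.mpr ⟨1, U.one_mem, 1, by simp⟩

/-- **Existence of `T`** (second inequality, C–F VII.9). -/
theorem exists_finset_primes_of_sep {p : ℕ} {ζ : F} (hp : p.Prime) (hζ : IsPrimitiveRoot ζ p)
    (U : Subgroup Fˣ) (a : Fˣ) (ha : a ∈ U)
    (B : Finset (HeightOneSpectrum (𝓞 F)))
    (hUB : ∀ v, v ∉ B → U ≤ vUnits v)
    (hpB : ∀ v, v ∉ B → v.valuation F (p : F) = 1)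
    {m : ℕ} (hidx : (powSpan U a p).relIndex U = p ^ m)
    (hsep : ∀ u ∈ U, u ∉ powSpan U a p → ∃ v, v ∉ B ∧
      (∃ y : F, v.valuation F ((a : F) - y ^ p) < 1) ∧
      ¬ ∃ y : F, v.valuation F ((u : F) - y ^ p) < 1) :
    ∃ T : Finset (HeightOneSpectrum (𝓞 F)), T.card = m ∧ Disjoint T B ∧
      (∀ v ∈ T, ∃ y : F, v.valuation F ((a : F) - y ^ p) < 1) ∧
      (∀ u ∈ U, (∀ v ∈ T, ∃ y : F, v.valuation F ((u : F) - y ^ p) < 1) → u ∈ powSpan U a p) ∧
      (∀ c : HeightOneSpectrum (𝓞 F) → Fˣ, (∀ v ∈ T, c v ∈ vUnits v) →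
        ∃ u ∈ U, ∀ v ∈ T, ∃ y : F, v.valuation F ((u : F) / (c v : F) - y ^ p) < 1) := by
  classical
  -- index type: primes outside `B` where `a` is a `p`-th power residue
  let ι := {v : HeightOneSpectrum (𝓞 F) // v ∉ B ∧ ∃ y : F, v.valuation F ((a : F) - y ^ p) < 1}
  let C : ι → Type _ := fun i => vUnits i.1 ⧸ powModSubgroup i.1 p
  let r : ∀ i : ι, U →* C i := fun i =>
    (QuotientGroup.mk' (powModSubgroup i.1 p)).comp (Subgroup.inclusion (hUB i.1 i.2.1))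
  have hr1 : ∀ (i : ι) (u : U), r i u = 1 ↔
      ∃ y : F, i.1.valuation F (((u : Fˣ) : F) - y ^ p) < 1 := by
    intro i u
    rw [MonoidHom.comp_apply, QuotientGroup.mk'_apply, QuotientGroup.eq_one_iff,
      mem_powModSubgroup_iff]
    rfl
  have hC : ∀ i, Nat.card (C i) = p := fun i => by
    rw [← Subgroup.index_eq_card]
    exact index_powModSubgroup i.1 p hp hζ (hpB i.1 i.2.1)
  have hAker : ∀ i, (powSpan U a p).subgroupOf U ≤ (r i).ker := by
    intro i u hu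
    rw [Subgroup.mem_subgroupOf] at hu
    obtain ⟨c, hc, k, hck⟩ := mem_powSpan_iff.mp hu
    have hu' : u = (⟨c, hc⟩ : U) ^ p * (⟨a, ha⟩ : U) ^ k := by
      apply Subtype.ext
      rw [← hck]
      simp
    rw [MonoidHom.mem_ker, hu', map_mul, map_pow, map_zpow]
    have h1 : r i ⟨a, ha⟩ = 1 := (hr1 i ⟨a, ha⟩).mpr i.2.2
    have h2 : (r i ⟨c, hc⟩) ^ p = 1 := by
      rw [← map_pow]
      refine (hr1 i _).mpr ⟨(c : F), ?_⟩
      simp only [SubgroupClass.coe_pow, Units.val_pow_eq_pow_val, sub_self, map_zero]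
      exact zero_lt_one
    rw [h1, h2, one_zpow]
    exact mul_one (1 : vUnits i.1 ⧸ powModSubgroup i.1 p)
  have hsep' : ∀ u : U, u ∉ (powSpan U a p).subgroupOf U → ∃ i : ι, i ∉ (∅ : Finset ι) ∧
      r i u ≠ 1 := by
    intro u hu
    rw [Subgroup.mem_subgroupOf] at hu
    obtain ⟨v, hvB, hva, hvu⟩ := hsep u u.2 hu
    refine ⟨⟨v, hvB, hva⟩, Finset.notMem_empty _, ?_⟩
    rw [Ne, hr1]
    exact hvu
  obtain ⟨T, hTc, -, hTker, hTsurj⟩ :=
    exists_finset_kerInf_eq hp ((powSpan U a p).subgroupOf U) r hC hAker ∅ hsep' hidx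
  refine ⟨T.map ⟨Subtype.val, Subtype.val_injective⟩, ?_, ?_, ?_, ?_, ?_⟩
  · rw [Finset.card_map, hTc]
  · rw [Finset.disjoint_left]
    intro v hv
    rw [Finset.mem_map] at hv
    obtain ⟨i, -, rfl⟩ := hv
    exact i.2.1
  · intro v hv
    rw [Finset.mem_map] at hv
    obtain ⟨i, -, rfl⟩ := hv
    exact i.2.2
  · intro u hu hall
    have hmem : (⟨u, hu⟩ : U) ∈ kerInf r T := by
      rw [mem_kerInf]
      intro i hi
      rw [hr1]
      exact hall i.1 (Finset.mem_map.mpr ⟨i, hi, rfl⟩)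
    rw [hTker, Subgroup.mem_subgroupOf] at hmem
    exact hmem
  · intro c hc
    have hcT : ∀ i : T, c i.1.1 ∈ vUnits i.1.1 := fun i =>
      hc i.1.1 (Finset.mem_map.mpr ⟨i.1, i.2, rfl⟩)
    obtain ⟨u, hu⟩ := hTsurj fun i : T =>
      (QuotientGroup.mk' (powModSubgroup i.1.1 p) ⟨c i.1.1, hcT i⟩ : C i.1)
    refine ⟨u, u.2, ?_⟩
    intro v hv
    rw [Finset.mem_map] at hv
    obtain ⟨i, hi, rfl⟩ := hv
    have h1 := congrFun hu ⟨i, hi⟩
    simp only [r, MonoidHom.comp_apply, QuotientGroup.mk'_apply] at h1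
    rw [QuotientGroup.eq, mem_powModSubgroup_iff] at h1
    obtain ⟨y, hy⟩ := h1
    -- `h1` is about `u⁻¹ * c`; pass to `u / c = (u⁻¹ c)⁻¹`
    set w : F := ((((Subgroup.inclusion (hUB i.1 i.2.1) u)⁻¹ * ⟨c i.1, hcT ⟨i, hi⟩⟩ :
      vUnits i.1) : Fˣ) : F) with hw
    have hw1 : i.1.valuation F w = 1 := (mem_vUnits_iff i.1 _).mp (Subtype.prop _)
    have hy' : i.1.valuation F (w - y ^ p) < 1 := hy
    have hy1 : i.1.valuation F (y ^ p) = 1 := by
      have h2 : y ^ p = w - (w - y ^ p) := by ring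
      rw [h2, Valuation.map_sub_eq_of_lt_left _ (by rw [hw1]; exact hy'), hw1]
    have hy0 : y ≠ 0 := by
      rintro rfl
      rw [zero_pow hp.ne_zero, map_zero] at hy1
      exact zero_ne_one hy1
    refine ⟨y⁻¹, ?_⟩
    have hwc : w = ((u : Fˣ) : F)⁻¹ * (c i.1 : F) := by
      simp [hw]
    have hw0 : w ≠ 0 := by
      rintro h0
      rw [h0, map_zero] at hw1
      exact zero_ne_one hw1
    have hdiv : ((u : Fˣ) : F) / (c i.1 : F) = w⁻¹ := by
      rw [hwc, mul_inv, inv_inv, div_eq_mul_inv]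
    change i.1.valuation F (((u : Fˣ) : F) / (c i.1 : F) - y⁻¹ ^ p) < 1
    rw [hdiv, inv_pow]
    have hyp0 : y ^ p ≠ 0 := pow_ne_zero p hy0
    have : w⁻¹ - (y ^ p)⁻¹ = (y ^ p - w) * (w⁻¹ * (y ^ p)⁻¹) := by
      field_simp
    rw [this, map_mul, map_mul, map_inv₀, map_inv₀, hw1, hy1, inv_one, mul_one, mul_one,
      Valuation.map_sub_swap]
    exact hy'

end Fermat.Agent.CFT
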