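import Fermat.Agent.CFT.Global.DegreeOne
import Fermat.Agent.CFT.Global.Contracts

set_option autoImplicit false
set_option linter.style.haveILetI false
set_option linter.unusedSectionVars false

/-!
# CFT [C] (G1) (helper15): the analytic contracts

* `degreeOneNonsplit_holds : DegreeOneNonsplit F M` (the contract of `Contracts.lean`);
* `degreeOneNotPow_holds`: the field-free form, in the shape consumed by the `T`-selection.
-/

namespace Fermat.Agent.CFT

open NumberField Ideal IsDedekindDomain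

section

variable (F M : Type*) [Field F] [NumberField F] [Field M] [NumberField M] [Algebra F M]
  [IsGalois F M]

/-- **(G1)**, contract form: in a nontrivial Galois extension of number fields there is a prime
of absolute degree one, prime to a given nonzero ideal, which does not split completely. -/
theorem degreeOneNonsplit_holds : DegreeOneNonsplit F M := by
  intro hdeg 𝔟 h𝔟
  have hfin : {v : HeightOneSpectrum (𝓞 F) | 𝔟 ≤ v.asIdeal}.Finite := by
    refine (Ideal.finite_factors (I := 𝔟) h𝔟).subset fun v hv ↦ ?_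
    exact Ideal.dvd_iff_le.mpr hv
  obtain ⟨v, hvT, hlt⟩ := exists_ncard_primesOver_lt_of_thin F M hdeg _
    (isThinSet_union_not_prime_absNorm F _ hfin)
  have hv𝔟 : ¬ 𝔟 ≤ v.asIdeal := fun h ↦ hvT (Or.inl h)
  have hvprime : (absNorm v.asIdeal).Prime := by
    by_contra hcon
    exact hvT (Or.inr hcon)
  refine ⟨v.asIdeal, v.isMaximal, hvprime, hv𝔟, ?_⟩
  have : IsGaloisGroup Gal(M/F) (𝓞 F) (𝓞 M) :=
    IsGaloisGroup.of_isFractionRing Gal(M/F) (𝓞 F) (𝓞 M) F M
  obtain ⟨P, hP1, hP2⟩ := Ideal.exists_ideal_over_prime_of_isIntegral_of_isDomain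
    (S := 𝓞 M) v.asIdeal (by
      rw [(RingHom.injective_iff_ker_eq_bot _).mp
        (FaithfulSMul.algebraMap_injective (𝓞 F) (𝓞 M))]
      exact bot_le)
  haveI : P.IsPrime := hP1
  haveI : P.LiesOver v.asIdeal := ⟨hP2.symm⟩
  refine ⟨P, hP1, inferInstance, fun hbot ↦ ?_⟩
  have h1 := Ideal.ncard_primesOver_mul_ramificationIdxIn_mul_inertiaDegIn v.asIdeal (𝓞 M)
    Gal(M/F)
  rw [← Ideal.card_stabilizer_eq (G := Gal(M/F)) v.asIdeal P, hbot, Nat.card_unique, mul_one,
    IsGalois.card_aut_eq_finrank] at h1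
  rw [h1] at hlt
  exact lt_irrefl _ hlt

end

/-- **(G1)**, field-free form, in the shape consumed by the `T`-selection of the second
inequality. -/
theorem degreeOneNotPow_holds {p : ℕ} (hp : p.Prime) (N : Type*) [Field N] [NumberField N] :
    ∀ ζ : 𝓞 N, IsPrimitiveRoot ζ p → ∀ u : 𝓞 N, (¬ ∃ c : N, c ^ p = (u : N)) →
      ∀ B : Finset (HeightOneSpectrum (𝓞 N)), ∃ w : HeightOneSpectrum (𝓞 N), w ∉ B ∧
        (p : 𝓞 N) ∉ w.asIdeal ∧ u ∉ w.asIdeal ∧ (Ideal.absNorm w.asIdeal).Prime ∧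
        ¬ ∃ c : 𝓞 N, u - c ^ p ∈ w.asIdeal := by
  intro ζ hζ u hu B
  obtain ⟨w, h1, h2, h3, h4, h5⟩ := exists_degree_one_prime_not_isPow N hp hζ u
    (fun y hy ↦ hu ⟨y, hy⟩) (B : Set (HeightOneSpectrum (𝓞 N))) B.finite_toSet
  exact ⟨w, by simpa using h1, h3, h4, h2, h5⟩

end Fermat.Agent.CFT
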