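import Mathlib

set_option autoImplicit false

/-!
# CFT, stream [C]: elementary Kummer theory for a prime exponent

`K` a field containing a primitive `p`-th root of unity `ζ`, `p` prime.  If `α ^ p = a ∈ K`,
`β ^ p = b ∈ K` and `β ∈ K(α)`, then `β = c α ^ i` with `c ∈ K`, `i < p`; hence
`b = c ^ p a ^ i`.  (Kummer theory for two radicals, no Galois theory needed.)
-/

namespace Fermat.Agent.CFT

open Polynomial IntermediateField

variable {K L : Type*} [Field K] [Field L] [Algebra K L] {p : ℕ}

/-- a `p`-th root of an element of `K` which lies in `K(α)`, `α ^ p ∈ K`, is of the form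
`c α ^ i`. -/
theorem kummer_eq_mul_pow_of_mem_adjoin (hp : p.Prime) {ζ : K} (hζ : IsPrimitiveRoot ζ p)
    {α β : L} {a b : K} (hα : α ^ p = algebraMap K L a) (hβ : β ^ p = algebraMap K L b)
    (hmem : β ∈ K⟮α⟯) : ∃ (i : ℕ) (c : K), i < p ∧ β = algebraMap K L c * α ^ i := by
  have hζL : IsPrimitiveRoot (algebraMap K L ζ) p :=
    hζ.map_of_injective (algebraMap K L).injective
  have hp0 : 0 < p := hp.pos
  have : NeZero p := ⟨hp.ne_zero⟩
  by_cases hd : ∃ d : K, d ^ p = a
  · -- then `α ∈ K`
    obtain ⟨d, rfl⟩ := hd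
    have hαK : α ∈ (⊥ : IntermediateField K L) := by
      rw [IntermediateField.mem_bot]
      by_cases hd0 : d = 0
      · refine ⟨0, ?_⟩
        rw [hd0, zero_pow hp.ne_zero, map_zero] at hα
        rw [map_zero, (pow_eq_zero_iff hp.ne_zero).mp hα]
      · have hdL : algebraMap K L d ≠ 0 := (_root_.map_ne_zero _).mpr hd0
        have h1 : (α / algebraMap K L d) ^ p = 1 := by
          rw [div_pow, hα, map_pow, div_self (pow_ne_zero _ hdL)]
        obtain ⟨k, -, hk⟩ := hζL.eq_pow_of_pow_eq_one h1
        refine ⟨ζ ^ k * d, ?_⟩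
        rw [map_mul, map_pow, hk, div_mul_cancel₀ _ hdL]
    rw [(adjoin_simple_eq_bot_iff).mpr hαK, IntermediateField.mem_bot] at hmem
    obtain ⟨c, rfl⟩ := hmem
    exact ⟨0, c, hp0, by rw [pow_zero, mul_one]⟩
  · push Not at hd
    have H : Irreducible (X ^ p - C a) := X_pow_sub_C_irreducible_of_prime hp hd
    have hmonic : (X ^ p - C a : K[X]).Monic := monic_X_pow_sub_C a hp.ne_zero
    have hroot : aeval α (X ^ p - C a : K[X]) = 0 := by
      rw [map_sub, map_pow, aeval_X, aeval_C, hα, sub_self]
    have hint : IsIntegral K α := ⟨X ^ p - C a, hmonic, hroot⟩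
    have hmin : minpoly K α = X ^ p - C a :=
      (minpoly.eq_of_irreducible_of_monic H hroot hmonic).symm
    have hdeg : (minpoly K α).natDegree = p := by rw [hmin, natDegree_X_pow_sub_C]
    -- write `β = f(α)` with `deg f < p`
    obtain ⟨f, hfdeg, hf⟩ : ∃ f : K[X], f.natDegree < p ∧ aeval α f = β := by
      have h1 : β ∈ K⟮α⟯.toSubalgebra := hmem
      rw [adjoin_simple_toSubalgebra_of_isAlgebraic hint.isAlgebraic,
        Algebra.adjoin_singleton_eq_range_aeval] at h1
      obtain ⟨f, hf⟩ := h1
      refine ⟨f %ₘ (X ^ p - C a), ?_, ?_⟩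
      · have := natDegree_modByMonic_lt f hmonic (by
          intro h1
          have := congrArg natDegree h1
          rw [natDegree_X_pow_sub_C, natDegree_one] at this
          exact hp.ne_zero this)
        rwa [natDegree_X_pow_sub_C] at this
      · have h2 := modByMonic_add_div f (X ^ p - C a)
        have h3 : aeval α f = aeval α (f %ₘ (X ^ p - C a)) := by
          conv_lhs => rw [← h2]
          rw [map_add, map_mul, hroot, zero_mul, add_zero]
        rw [← h3]
        exact hf
    by_cases hb : b = 0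
    · refine ⟨0, 0, hp0, ?_⟩
      rw [hb, map_zero] at hβ
      rw [map_zero, zero_mul, (pow_eq_zero_iff hp.ne_zero).mp hβ]
    have hβ0 : β ≠ 0 := by
      intro h0
      rw [h0, zero_pow hp.ne_zero] at hβ
      exact hb ((_root_.map_eq_zero _).mp hβ.symm)
    -- `f(ζα)` is again a `p`-th root of `b`
    have hdvd : X ^ p - C a ∣ f ^ p - C b := by
      rw [← hmin]
      apply minpoly.dvd
      rw [map_sub, map_pow, hf, aeval_C, hβ, sub_self]
    have hroot' : aeval (algebraMap K L ζ * α) (X ^ p - C a : K[X]) = 0 := by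
      rw [map_sub, map_pow, aeval_X, aeval_C, mul_pow, hα, ← map_pow, hζ.pow_eq_one, map_one,
        one_mul, sub_self]
    have h2 : (aeval (algebraMap K L ζ * α) f) ^ p = β ^ p := by
      obtain ⟨q, hq⟩ := hdvd
      have := congrArg (aeval (algebraMap K L ζ * α)) hq
      rw [map_mul, hroot', zero_mul, map_sub, map_pow, aeval_C, sub_eq_zero] at this
      rw [this, hβ]
    have h3 : (aeval (algebraMap K L ζ * α) f / β) ^ p = 1 := by
      rw [div_pow, h2, div_self (pow_ne_zero _ hβ0)]
    obtain ⟨j, hj, hjk⟩ := hζL.eq_pow_of_pow_eq_one h3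
    have h4 : aeval (algebraMap K L ζ * α) f = algebraMap K L (ζ ^ j) * β := by
      rw [map_pow, hjk, div_mul_cancel₀ _ hβ0]
    -- the polynomial `f(ζX) - ζ^j f` vanishes at `α` and has degree `< p`
    set g : K[X] := f.comp (C ζ * X) - C (ζ ^ j) * f with hg
    have hgα : aeval α g = 0 := by
      rw [hg, map_sub, aeval_comp, map_mul, aeval_C, aeval_X, h4, map_mul, aeval_C, hf, sub_self]
    have hg0 : g = 0 := by
      by_contra hne
      have h5 := natDegree_le_natDegree (minpoly.degree_le_of_ne_zero K α hne hgα)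
      rw [hdeg] at h5
      have h6 : g.natDegree < p := by
        refine lt_of_le_of_lt (natDegree_sub_le _ _) (max_lt ?_ ?_)
        · refine lt_of_le_of_lt natDegree_comp_le ?_
          have : (C ζ * X : K[X]).natDegree ≤ 1 := by
            refine le_trans (natDegree_C_mul_le _ _) ?_
            rw [natDegree_X]
          calc f.natDegree * (C ζ * X : K[X]).natDegree ≤ f.natDegree * 1 :=
                Nat.mul_le_mul_left _ this
            _ = f.natDegree := mul_one _
            _ < p := hfdeg
        · exact lt_of_le_of_lt (natDegree_C_mul_le _ _) hfdeg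
      omega
    -- compare coefficients
    have hcoeff : ∀ i, i ≠ j → f.coeff i = 0 := by
      intro i hij
      by_cases hip : i < p
      · have h5 := congrArg (fun q : K[X] => q.coeff i) hg0
        simp only [hg, coeff_sub, comp_C_mul_X_coeff, coeff_C_mul, coeff_zero] at h5
        have h6 : f.coeff i * (ζ ^ i - ζ ^ j) = 0 := by
          rw [mul_sub, mul_comm (f.coeff i) (ζ ^ j)]
          exact h5
        rcases mul_eq_zero.mp h6 with h7 | h7
        · exact h7
        · exfalso
          exact hij (hζ.pow_inj hip hj (sub_eq_zero.mp h7))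
      · exact coeff_eq_zero_of_natDegree_lt (lt_of_lt_of_le hfdeg (not_lt.mp hip))
    have hfmono : f = monomial j (f.coeff j) := by
      ext i
      rw [coeff_monomial]
      by_cases hij : j = i
      · rw [if_pos hij, hij]
      · rw [if_neg hij]
        exact hcoeff i (Ne.symm hij)
    refine ⟨j, f.coeff j, hj, ?_⟩
    rw [← hf, hfmono, aeval_monomial, coeff_monomial, if_pos rfl]

/-- the relation between the radicands. -/
theorem kummer_radicand_of_mem_adjoin (hp : p.Prime) {ζ : K} (hζ : IsPrimitiveRoot ζ p)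
    {α β : L} {a b : K} (hα : α ^ p = algebraMap K L a) (hβ : β ^ p = algebraMap K L b)
    (hmem : β ∈ K⟮α⟯) : ∃ (i : ℕ) (c : K), i < p ∧ b = c ^ p * a ^ i := by
  obtain ⟨i, c, hi, h⟩ := kummer_eq_mul_pow_of_mem_adjoin hp hζ hα hβ hmem
  refine ⟨i, c, hi, (algebraMap K L).injective ?_⟩
  rw [← hβ, h, mul_pow, ← pow_mul, mul_comm i p, pow_mul, hα, map_mul, map_pow, map_pow]

end Fermat.Agent.CFT
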