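import Mathlib
import Fermat.Agent.CFT.Global.KummerBasic
import Fermat.Agent.CFT.Global.KummerRes
import Fermat.Agent.CFT.Global.ExistsT
import Fermat.Agent.CFT.Global.DegreeOneContract

set_option autoImplicit false
set_option linter.unusedSectionVars false
set_option linter.style.haveILetI false

/-!
# CFT, stream [C], (G6) Lemma A: the separation input

`M = F(α)`, `α ^ p = a`, a Kummer extension of number fields.  For `u ∈ 𝓞 F`, `u ∉ ⟨a⟩ F^{×p}`,
and a finite set `B` of primes there is a prime `v ∉ B`, `v ∤ p a u`, such that `a` is a `p`-th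
power modulo `v` and `u` is not.  The analytic input is the field-free statement
`DegreeOneNotPow p M` over the top field `M` (a prime of absolute degree one modulo which a given
non-`p`-th power stays a non-`p`-th power).
-/

namespace Fermat.Agent.CFT

open NumberField IsDedekindDomain

/-- the field-free form of (G1): every non-`p`-th power of `𝓞 N` stays a non-`p`-th power modulo
some prime of absolute degree one outside a given finite set (and prime to `p u`). -/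
def DegreeOneNotPow (p : ℕ) (N : Type*) [Field N] [NumberField N] : Prop :=
  ∀ ζ : 𝓞 N, IsPrimitiveRoot ζ p → ∀ u : 𝓞 N, (¬ ∃ c : N, c ^ p = (u : N)) →
    ∀ B : Finset (HeightOneSpectrum (𝓞 N)),
      ∃ w : HeightOneSpectrum (𝓞 N), w ∉ B ∧ (p : 𝓞 N) ∉ w.asIdeal ∧ u ∉ w.asIdeal ∧
        (Ideal.absNorm w.asIdeal).Prime ∧ ¬ ∃ c : 𝓞 N, u - c ^ p ∈ w.asIdeal

section

variable {F M : Type*} [Field F] [NumberField F] [Field M] [NumberField M] [Algebra F M]
  [IsGalois F M] {p : ℕ} {ζ a : 𝓞 F} {α : 𝓞 M}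

/-- a Kummer generator generates. -/
theorem IsKummerGen.adjoin_eq_top (h : IsKummerGen p ζ a α) :
    IntermediateField.adjoin F {(α : M)} = ⊤ := by
  have h1 : (IntermediateField.adjoin F {(α : M)}).fixingSubgroup = ⊥ := by
    rw [eq_bot_iff]
    intro τ hτ
    rw [Subgroup.mem_bot]
    apply h.gen
    apply RingOfIntegers.ext
    show τ (α : M) = (α : M)
    rw [IntermediateField.mem_fixingSubgroup_iff] at hτ
    exact hτ _ (IntermediateField.mem_adjoin_simple_self F _)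
  rw [← IsGalois.fixedField_fixingSubgroup (IntermediateField.adjoin F {(α : M)}), h1,
    IntermediateField.fixedField_bot]

/-- a nonzero element in all primes of a finite set. -/
theorem exists_ne_zero_mem_of_finset (B : Finset (HeightOneSpectrum (𝓞 F))) :
    ∃ d : 𝓞 F, d ≠ 0 ∧ ∀ v ∈ B, d ∈ v.asIdeal := by
  classical
  have h1 : ∀ v : HeightOneSpectrum (𝓞 F), ∃ x : 𝓞 F, x ∈ v.asIdeal ∧ x ≠ 0 := fun v =>
    Submodule.exists_mem_ne_zero_of_ne_bot v.ne_bot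
  choose x hx hx0 using h1
  refine ⟨∏ v ∈ B, x v, Finset.prod_ne_zero_iff.mpr fun v _ => hx0 v, fun v hv => ?_⟩
  exact Ideal.mem_of_dvd _ (Finset.dvd_prod_of_mem x hv) (hx v)

/-- **the separation input of Lemma A**: a prime `v ∉ B`, `v ∤ p a u`, modulo which `a` is a
`p`-th power and `u` is not. -/
theorem IsKummerGen.exists_prime_isPow_not_isPow (h : IsKummerGen p ζ a α) (hp : p.Prime)
    (ha : a ≠ 0) (hG1 : DegreeOneNotPow p M) (u : 𝓞 F)
    (hnot : ¬ ∃ (i : ℕ) (c : F), (u : F) = c ^ p * (a : F) ^ i)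
    (B : Finset (HeightOneSpectrum (𝓞 F))) :
    ∃ v : HeightOneSpectrum (𝓞 F), v ∉ B ∧ (p : 𝓞 F) ∉ v.asIdeal ∧ a ∉ v.asIdeal ∧
      u ∉ v.asIdeal ∧ (∃ c : 𝓞 F, a - c ^ p ∈ v.asIdeal) ∧
      ¬ ∃ c : 𝓞 F, u - c ^ p ∈ v.asIdeal := by
  classical
  obtain ⟨d, hd0, hdB⟩ := exists_ne_zero_mem_of_finset B
  set u' : 𝓞 F := u * (d * a) ^ p with hu'
  have hinj : Function.Injective (algebraMap (𝓞 F) (𝓞 M)) :=
    FaithfulSMul.algebraMap_injective (𝓞 F) (𝓞 M)
  have hda : ((d * a : 𝓞 F) : F) ≠ 0 := by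
    rw [Ne, RingOfIntegers.coe_eq_zero_iff]
    exact mul_ne_zero hd0 ha
  -- `u'` is not a `p`-th power in `M`
  have hnotM : ¬ ∃ c : M, c ^ p = ((algebraMap (𝓞 F) (𝓞 M) u' : 𝓞 M) : M) := by
    rintro ⟨c, hc⟩
    have hcmem : c ∈ IntermediateField.adjoin F {(α : M)} := by
      rw [h.adjoin_eq_top]; exact IntermediateField.mem_top
    have hζF : IsPrimitiveRoot (ζ : F) p :=
      h.prim.map_of_injective (FaithfulSMul.algebraMap_injective (𝓞 F) F)
    have hα : (α : M) ^ p = algebraMap F M (a : F) := by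
      have h1 : algebraMap F M (a : F) = ((algebraMap (𝓞 F) (𝓞 M) a : 𝓞 M) : M) := rfl
      rw [h1, ← h.pow]; push_cast; rfl
    have hβ : c ^ p = algebraMap F M (u' : F) := by
      rw [hc]; rfl
    obtain ⟨i, c', _, hic⟩ := kummer_radicand_of_mem_adjoin hp hζF hα hβ hcmem
    apply hnot
    refine ⟨i, c' / ((d * a : 𝓞 F) : F), ?_⟩
    have h3 : (u' : F) = (u : F) * ((d * a : 𝓞 F) : F) ^ p := by
      rw [hu']; push_cast; ring
    rw [h3] at hic
    rw [div_pow, div_mul_eq_mul_div, eq_div_iff (pow_ne_zero _ hda), hic]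
  have hζM : IsPrimitiveRoot (algebraMap (𝓞 F) (𝓞 M) ζ) p := h.prim.map_of_injective hinj
  obtain ⟨w, -, hpw, huw, hwprime, hwnot⟩ := hG1 _ hζM _ hnotM ∅
  -- the prime below
  set q : Ideal (𝓞 F) := w.asIdeal.under (𝓞 F) with hq
  haveI : w.asIdeal.IsPrime := w.isPrime
  haveI hqprime : q.IsPrime := Ideal.IsPrime.under (𝓞 F) w.asIdeal
  haveI hlies : w.asIdeal.LiesOver q := ⟨rfl⟩
  have hmemq : ∀ x : 𝓞 F, x ∈ q ↔ algebraMap (𝓞 F) (𝓞 M) x ∈ w.asIdeal := fun x => Iff.rfl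
  have hq0 : q ≠ ⊥ := by
    intro hbot
    have h1 : ((Ideal.absNorm w.asIdeal : ℕ) : 𝓞 F) ∈ q := by
      rw [hmemq, map_natCast]
      exact Ideal.absNorm_mem w.asIdeal
    rw [hbot, Ideal.mem_bot, Nat.cast_eq_zero] at h1
    rw [h1] at hwprime
    exact Nat.not_prime_zero hwprime
  have hu'q : u' ∉ q := fun hmem => huw ((hmemq _).mp hmem)
  have hpq : (p : 𝓞 F) ∉ q := fun hmem => hpw (by have := (hmemq _).mp hmem; rwa [map_natCast] at this)
  have huq : u ∉ q := fun hmem => hu'q (Ideal.mul_mem_right _ _ hmem)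
  have hdaq : d * a ∉ q := fun hmem =>
    hu'q (Ideal.mul_mem_left _ _ (Ideal.pow_mem_of_mem _ hmem p hp.pos))
  have hdq : d ∉ q := fun hmem => hdaq (Ideal.mul_mem_right _ _ hmem)
  have haq : a ∉ q := fun hmem => hdaq (Ideal.mul_mem_left _ _ hmem)
  -- residue degree one
  have hf : w.asIdeal.inertiaDeg (𝓞 F) = 1 := by
    haveI : q.IsMaximal := Ideal.IsPrime.isMaximal hqprime hq0
    haveI : w.asIdeal.IsMaximal := Ideal.IsPrime.isMaximal w.isPrime w.ne_bot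
    have h1 := Ideal.absNorm_eq_pow_inertiaDeg'_of_liesOver w.asIdeal q hqprime hq0
    rw [Ideal.inertiaDeg'_eq_inertiaDeg] at h1
    rw [h1] at hwprime
    exact Nat.Prime.eq_one_of_pow hwprime
  obtain ⟨c0, hc0⟩ := h.exists_sub_pow_mem_of_inertiaDeg_eq_one q hq0 w.asIdeal hf
  refine ⟨⟨q, hqprime, hq0⟩, fun hvB => hdq (hdB _ hvB), hpq, haq, huq, ⟨c0, hc0⟩, ?_⟩
  rintro ⟨c, hc⟩
  apply hwnot
  refine ⟨algebraMap (𝓞 F) (𝓞 M) (c * (d * a)), ?_⟩
  rw [← map_pow, ← map_sub, ← hmemq]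
  have : u' - (c * (d * a)) ^ p = (u - c ^ p) * (d * a) ^ p := by rw [hu']; ring
  rw [this]
  exact Ideal.mul_mem_right _ _ hc

/-- from a `p`-th power residue in the valuation sense to an integral witness. -/
theorem exists_int_sub_pow_mem_of_exists_valuation_lt (v : HeightOneSpectrum (𝓞 F)) (hp0 : p ≠ 0)
    (r : 𝓞 F) (hex : ∃ y : F, v.valuation F ((r : F) - y ^ p) < 1) :
    ∃ c : 𝓞 F, r - c ^ p ∈ v.asIdeal := by
  obtain ⟨y, hy⟩ := hex
  have hr1 : v.valuation F (r : F) ≤ 1 := valuation_int_le_one v r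
  have hyp : v.valuation F (y ^ p) ≤ 1 := by
    have h1 : y ^ p = (r : F) - ((r : F) - y ^ p) := by ring
    rw [h1]
    exact le_trans (Valuation.map_sub _ _ _) (max_le hr1 hy.le)
  have hy1 : v.valuation F y ≤ 1 := by
    rw [map_pow] at hyp
    exact (pow_le_one_iff hp0).mp hyp
  set Y : valRing v := ⟨y, (mem_valRing_iff v y).mpr hy1⟩ with hY
  set R : valRing v :=
    ⟨algebraMap (𝓞 F) F r, (mem_valRing_iff v _).mpr (valuation_int_le_one v r)⟩ with hR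
  have h0 : redHom v (R - Y ^ p) = 0 := by
    rw [redHom_eq_zero_iff]
    exact hy
  obtain ⟨c, hc⟩ := Ideal.Quotient.mk_surjective (redHom v Y)
  refine ⟨c, ?_⟩
  rw [← Ideal.Quotient.eq_zero_iff_mem, map_sub, map_pow, hc, ← redHom_int v r, ← map_pow,
    ← map_sub]
  exact h0

/-- **the hypothesis `hsep` of `exists_finset_primes_of_sep`** for a `p`-saturated subgroup `U`
of `Fˣ` containing `a`. -/
theorem IsKummerGen.exists_prime_sep (h : IsKummerGen p ζ a α) (hp : p.Prime)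
    (ha : a ≠ 0) (hG1 : DegreeOneNotPow p M) (U : Subgroup Fˣ) (a' : Fˣ)
    (ha' : (a' : F) = (a : F)) (haU : a' ∈ U) (hsat : ∀ c : Fˣ, c ^ p ∈ U → c ∈ U)
    (B : Finset (HeightOneSpectrum (𝓞 F))) (u : Fˣ) (hu : u ∈ U) (hnot : u ∉ powSpan U a' p) :
    ∃ v, v ∉ B ∧ (∃ y : F, v.valuation F ((a' : F) - y ^ p) < 1) ∧
      ¬ ∃ y : F, v.valuation F ((u : F) - y ^ p) < 1 := by
  obtain ⟨n, s, hs, hns⟩ := IsFractionRing.div_surjective (A := 𝓞 F) (u : F)
  have hs0 : s ≠ 0 := nonZeroDivisors.ne_zero hs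
  have hsF : (s : F) ≠ 0 := by
    rw [Ne, RingOfIntegers.coe_eq_zero_iff]; exact hs0
  obtain ⟨k, rfl⟩ : ∃ k, p = k + 1 := ⟨p - 1, (Nat.succ_pred_eq_of_pos hp.pos).symm⟩
  set ui : 𝓞 F := n * s ^ k with hui
  have huiF : (ui : F) = (u : F) * (s : F) ^ (k + 1) := by
    rw [hui, ← hns]; push_cast
    show (n : F) * (s : F) ^ k = (n : F) / (s : F) * (s : F) ^ (k + 1)
    field_simp
    ring
  have hnot' : ¬ ∃ (i : ℕ) (c : F), (ui : F) = c ^ (k + 1) * (a : F) ^ i := by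
    rintro ⟨i, c, hic⟩
    apply hnot
    have hcs : c / (s : F) ≠ 0 := by
      intro h0
      have hc0 : c = 0 := by
        rcases div_eq_zero_iff.mp h0 with h1 | h1
        · exact h1
        · exact absurd h1 hsF
      rw [hc0, zero_pow (Nat.succ_ne_zero k), zero_mul, huiF] at hic
      exact (mul_ne_zero u.ne_zero (pow_ne_zero _ hsF)) hic
    have hu_eq : u = (Units.mk0 _ hcs) ^ (k + 1) * a' ^ (i : ℤ) := by
      apply Units.ext
      push_cast
      rw [Units.val_mk0, ha', div_pow, zpow_natCast, div_mul_eq_mul_div, ← hic, huiF,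
        mul_div_assoc, div_self (pow_ne_zero _ hsF), mul_one]
    rw [mem_powSpan_iff]
    refine ⟨Units.mk0 _ hcs, hsat _ ?_, (i : ℤ), hu_eq.symm⟩
    have : (Units.mk0 _ hcs) ^ (k + 1) = u * (a' ^ (i : ℤ))⁻¹ := by
      rw [hu_eq, mul_inv_cancel_right]
    rw [this]
    exact U.mul_mem hu (U.inv_mem (U.zpow_mem haU _))
  obtain ⟨v, hvB, -, -, -, ⟨c0, hc0⟩, hvnot⟩ :=
    h.exists_prime_isPow_not_isPow hp ha hG1 ui hnot' B
  refine ⟨v, hvB, ⟨(c0 : F), ?_⟩, ?_⟩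
  · rw [ha']
    have := (mem_asIdeal_iff_lt_one v _).mp hc0
    rwa [map_sub, map_pow] at this
  · rintro ⟨y, hy⟩
    apply hvnot
    apply exists_int_sub_pow_mem_of_exists_valuation_lt v (Nat.succ_ne_zero k)
    refine ⟨y * (s : F), ?_⟩
    have h1 : (ui : F) - (y * (s : F)) ^ (k + 1) = ((u : F) - y ^ (k + 1)) * (s : F) ^ (k + 1) := by
      rw [huiF]; ring
    rw [h1, map_mul, map_pow]
    exact mul_lt_one_of_lt_of_le hy (pow_le_one' (valuation_int_le_one v s) _)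

/-- **Lemma A of the second inequality, separation discharged**. -/
theorem IsKummerGen.exists_finset_primes (h : IsKummerGen p ζ a α) (hp : p.Prime)
    (ha : a ≠ 0) (hG1 : DegreeOneNotPow p M) (U : Subgroup Fˣ) (a' : Fˣ)
    (ha' : (a' : F) = (a : F)) (haU : a' ∈ U) (hsat : ∀ c : Fˣ, c ^ p ∈ U → c ∈ U)
    (B : Finset (HeightOneSpectrum (𝓞 F)))
    (hUB : ∀ v, v ∉ B → U ≤ vUnits v)
    (hpB : ∀ v, v ∉ B → v.valuation F (p : F) = 1)
    {m : ℕ} (hidx : (powSpan U a' p).relIndex U = p ^ m) :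
    ∃ T : Finset (HeightOneSpectrum (𝓞 F)), T.card = m ∧ Disjoint T B ∧
      (∀ v ∈ T, ∃ y : F, v.valuation F ((a' : F) - y ^ p) < 1) ∧
      (∀ u ∈ U, (∀ v ∈ T, ∃ y : F, v.valuation F ((u : F) - y ^ p) < 1) → u ∈ powSpan U a' p) ∧
      (∀ c : HeightOneSpectrum (𝓞 F) → Fˣ, (∀ v ∈ T, c v ∈ vUnits v) →
        ∃ u ∈ U, ∀ v ∈ T, ∃ y : F, v.valuation F ((u : F) / (c v : F) - y ^ p) < 1) :=
  exists_finset_primes_of_sep hp
    (h.prim.map_of_injective (FaithfulSMul.algebraMap_injective (𝓞 F) F)) U a' haU B hUB hpB hidx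
    (fun u hu hnot => h.exists_prime_sep hp ha hG1 U a' ha' haU hsat B u hu hnot)

/-- `[U : ⟨a⟩ U^p] = p ^ (s - 1)` when `[U : U^p] = p ^ s` and `a ∈ U ∖ U^p`. -/
theorem relIndex_powSpan_of_index (hp : p.Prime) (U : Subgroup Fˣ) (a' : Fˣ) (haU : a' ∈ U)
    (hna : ¬ ∃ c ∈ U, c ^ p = a') {s : ℕ}
    (hs : (powMonoidHom p : U →* U).range.index = p ^ s) :
    1 ≤ s ∧ (powSpan U a' p).relIndex U = p ^ (s - 1) := by
  set P : Subgroup U := (powMonoidHom p : U →* U).range with hP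
  set aU : U := ⟨a', haU⟩ with haU'
  have hcardQ : Nat.card (U ⧸ P) = p ^ s := by rw [← hs]; rfl
  have hx : (QuotientGroup.mk aU : U ⧸ P) ^ p = 1 := by
    rw [← QuotientGroup.mk_pow, QuotientGroup.eq_one_iff]; exact ⟨aU, rfl⟩
  have hx1 : (QuotientGroup.mk aU : U ⧸ P) ≠ 1 := by
    rw [Ne, QuotientGroup.eq_one_iff]
    rintro ⟨c, hc⟩
    refine hna ⟨c, c.2, ?_⟩
    have := congrArg (fun t : U => (t : Fˣ)) hc
    simpa using this
  haveI : Fact p.Prime := ⟨hp⟩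
  have hord : orderOf (QuotientGroup.mk aU : U ⧸ P) = p := orderOf_eq_prime hx hx1
  have hsub : (powSpan U a' p).subgroupOf U =
      (Subgroup.zpowers (QuotientGroup.mk aU : U ⧸ P)).comap (QuotientGroup.mk' P) := by
    ext x
    rw [Subgroup.mem_subgroupOf, mem_powSpan_iff, Subgroup.mem_comap, Subgroup.mem_zpowers_iff]
    constructor
    · rintro ⟨c, hc, k, hk⟩
      refine ⟨k, ?_⟩
      rw [QuotientGroup.mk'_apply, ← QuotientGroup.mk_zpow, QuotientGroup.eq]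
      refine ⟨⟨c, hc⟩, ?_⟩
      apply Subtype.ext
      have h1 : ((powMonoidHom p : U →* U) ⟨c, hc⟩ : Fˣ) = c ^ p := rfl
      have h2 : (((aU ^ k)⁻¹ * x : U) : Fˣ) = (a' ^ k)⁻¹ * (x : Fˣ) := by
        push_cast; rfl
      rw [h1, h2, ← hk, mul_comm, mul_inv_cancel_right]
    · rintro ⟨k, hk⟩
      rw [QuotientGroup.mk'_apply, ← QuotientGroup.mk_zpow, QuotientGroup.eq] at hk
      obtain ⟨c, hc⟩ := hk
      refine ⟨c, c.2, k, ?_⟩
      have h1 := congrArg (fun t : U => (t : Fˣ)) hc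
      have h2 : (((aU ^ k)⁻¹ * x : U) : Fˣ) = (a' ^ k)⁻¹ * (x : Fˣ) := by
        push_cast; rfl
      have h3 : ((powMonoidHom p : U →* U) c : Fˣ) = (c : Fˣ) ^ p := rfl
      simp only [h2, h3] at h1
      rw [h1, mul_comm, mul_inv_cancel_left]
  have h1 := Subgroup.index_mul_card (Subgroup.zpowers (QuotientGroup.mk aU : U ⧸ P))
  rw [Nat.card_zpowers, hord, hcardQ] at h1
  have hs1 : 1 ≤ s := by
    rcases Nat.eq_zero_or_pos s with h0 | h0
    · rw [h0, pow_zero] at h1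
      exact absurd (Nat.eq_one_of_mul_eq_one_left h1) hp.one_lt.ne'
    · exact h0
  refine ⟨hs1, ?_⟩
  rw [Subgroup.relIndex, hsub, Subgroup.index_comap_of_surjective _ (QuotientGroup.mk'_surjective P)]
  obtain ⟨t, rfl⟩ : ∃ t, s = t + 1 := ⟨s - 1, (Nat.succ_pred_eq_of_pos hs1).symm⟩
  rw [pow_succ] at h1
  rw [Nat.add_sub_cancel]
  exact Nat.eq_of_mul_eq_mul_right hp.pos h1

/-- a Kummer radicand of a nontrivial extension is not a `p`-th power. -/
theorem IsKummerGen.not_exists_pow_eq (h : IsKummerGen p ζ a α) (hp : p.Prime) (ha : a ≠ 0)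
    (hnt : Nat.card Gal(M/F) ≠ 1) : ¬ ∃ c : F, c ^ p = (a : F) := by
  rintro ⟨c, hc⟩
  apply hnt
  have haF : (a : F) ≠ 0 := by rw [Ne, RingOfIntegers.coe_eq_zero_iff]; exact ha
  have hc0 : c ≠ 0 := by
    rintro rfl
    rw [zero_pow hp.ne_zero] at hc
    exact haF hc.symm
  have hcM : algebraMap F M c ≠ 0 := by
    rw [Ne, map_eq_zero]; exact hc0
  have hα : (α : M) ^ p = algebraMap F M (a : F) := by
    have h1 : algebraMap F M (a : F) = ((algebraMap (𝓞 F) (𝓞 M) a : 𝓞 M) : M) := rfl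
    rw [h1, ← h.pow]; push_cast; rfl
  have hζM : IsPrimitiveRoot (algebraMap F M (ζ : F)) p :=
    (h.prim.map_of_injective (FaithfulSMul.algebraMap_injective (𝓞 F) F)).map_of_injective
      (algebraMap F M).injective
  have h1 : ((α : M) / algebraMap F M c) ^ p = 1 := by
    rw [div_pow, hα, ← hc, map_pow, div_self (pow_ne_zero _ hcM)]
  haveI : NeZero p := ⟨hp.ne_zero⟩
  obtain ⟨k, -, hk⟩ := hζM.eq_pow_of_pow_eq_one h1
  have hαF : (α : M) = algebraMap F M ((ζ : F) ^ k * c) := by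
    rw [map_mul, map_pow, hk, div_mul_cancel₀ _ hcM]
  have hall : ∀ τ : Gal(M/F), τ = 1 := fun τ => h.gen τ (by
    apply RingOfIntegers.ext
    show τ (α : M) = (α : M)
    rw [hαF, τ.commutes])
  rw [Nat.card_eq_one_iff_unique]
  exact ⟨⟨fun x y => (hall x).trans (hall y).symm⟩, ⟨1⟩⟩

/-- **Lemma A for the `S`-units**: if `[U_S : U_S^p] = p ^ s` there are `s - 1` primes outside `S`
at which `a` is a `p`-th power, which detect `⟨a⟩ U_S^p` inside `U_S`, and such that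
`U_S → ∏_{v ∈ T} U_v / U_v^p` is onto. -/
theorem IsKummerGen.exists_finset_primes_sUnit (h : IsKummerGen p ζ a α) (hp : p.Prime)
    (ha : a ≠ 0) (hnt : Nat.card Gal(M/F) ≠ 1) (hG1 : DegreeOneNotPow p M)
    (S : Finset (HeightOneSpectrum (𝓞 F))) (a' : Fˣ) (ha' : (a' : F) = (a : F))
    (haS : a' ∈ (S : Set (HeightOneSpectrum (𝓞 F))).unit F)
    (hpS : ∀ v, v ∉ S → (p : 𝓞 F) ∉ v.asIdeal) {s : ℕ}
    (hs : (powMonoidHom p : ((S : Set (HeightOneSpectrum (𝓞 F))).unit F) →*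
      ((S : Set (HeightOneSpectrum (𝓞 F))).unit F)).range.index = p ^ s) :
    1 ≤ s ∧ ∃ T : Finset (HeightOneSpectrum (𝓞 F)), T.card = s - 1 ∧ Disjoint T S ∧
      (∀ v ∈ T, ∃ y : F, v.valuation F ((a' : F) - y ^ p) < 1) ∧
      (∀ u ∈ (S : Set (HeightOneSpectrum (𝓞 F))).unit F,
        (∀ v ∈ T, ∃ y : F, v.valuation F ((u : F) - y ^ p) < 1) →
          ∃ c ∈ (S : Set (HeightOneSpectrum (𝓞 F))).unit F, ∃ k : ℤ, c ^ p * a' ^ k = u) ∧
      (∀ c : HeightOneSpectrum (𝓞 F) → Fˣ, (∀ v ∈ T, c v ∈ vUnits v) →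
        ∃ u ∈ (S : Set (HeightOneSpectrum (𝓞 F))).unit F,
          ∀ v ∈ T, ∃ y : F, v.valuation F ((u : F) / (c v : F) - y ^ p) < 1) := by
  set U : Subgroup Fˣ := (S : Set (HeightOneSpectrum (𝓞 F))).unit F with hU
  have hmem : ∀ x : Fˣ, x ∈ U ↔ ∀ v, v ∉ S → v.valuation F (x : F) = 1 := fun x => Iff.rfl
  have hsat : ∀ c : Fˣ, c ^ p ∈ U → c ∈ U := by
    intro c hc
    rw [hmem] at hc ⊢
    intro v hv
    have h1 := hc v hv
    rw [Units.val_pow_eq_pow_val, map_pow] at h1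
    exact le_antisymm ((pow_le_one_iff hp.ne_zero).mp h1.le) ((one_le_pow_iff hp.ne_zero).mp h1.ge)
  have hna : ¬ ∃ c ∈ U, c ^ p = a' := by
    rintro ⟨c, -, hc⟩
    apply h.not_exists_pow_eq hp ha hnt
    refine ⟨(c : F), ?_⟩
    rw [← ha', ← hc, Units.val_pow_eq_pow_val]
  obtain ⟨hs1, hidx⟩ := relIndex_powSpan_of_index hp U a' haS hna hs
  refine ⟨hs1, ?_⟩
  have hUB : ∀ v, v ∉ S → U ≤ vUnits v := by
    intro v hv x hx
    rw [mem_vUnits_iff]
    exact (hmem x).mp hx v hv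
  have hpB : ∀ v, v ∉ S → v.valuation F (p : F) = 1 := by
    intro v hv
    have h1 : (p : F) = algebraMap (𝓞 F) F (p : 𝓞 F) := by rw [map_natCast]
    rw [h1]
    apply le_antisymm (valuation_int_le_one v _)
    rw [← not_lt, ← mem_asIdeal_iff_lt_one]
    exact hpS v hv
  obtain ⟨T, hT1, hT2, hT3, hT4, hT5⟩ :=
    h.exists_finset_primes hp ha hG1 U a' ha' haS hsat S hUB hpB hidx
  exact ⟨T, hT1, hT2, hT3, fun u hu hv => mem_powSpan_iff.mp (hT4 u hu hv), hT5⟩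

/-- (G1) holds (helper15's `degreeOneNotPow_holds`), in contract form. -/
theorem degreeOneNotPow_contract (hp : p.Prime) (N : Type*) [Field N] [NumberField N] :
    DegreeOneNotPow p N :=
  degreeOneNotPow_holds hp N

/-- **the separation input of Lemma A**, unconditional. -/
theorem IsKummerGen.exists_prime_isPow_not_isPow' (h : IsKummerGen p ζ a α) (hp : p.Prime)
    (ha : a ≠ 0) (u : 𝓞 F) (hnot : ¬ ∃ (i : ℕ) (c : F), (u : F) = c ^ p * (a : F) ^ i)
    (B : Finset (HeightOneSpectrum (𝓞 F))) :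
    ∃ v : HeightOneSpectrum (𝓞 F), v ∉ B ∧ (p : 𝓞 F) ∉ v.asIdeal ∧ a ∉ v.asIdeal ∧
      u ∉ v.asIdeal ∧ (∃ c : 𝓞 F, a - c ^ p ∈ v.asIdeal) ∧
      ¬ ∃ c : 𝓞 F, u - c ^ p ∈ v.asIdeal :=
  h.exists_prime_isPow_not_isPow hp ha (degreeOneNotPow_contract hp M) u hnot B

/-- **Lemma A of the second inequality**, unconditional, general `p`-saturated `U`. -/
theorem IsKummerGen.exists_finset_primes' (h : IsKummerGen p ζ a α) (hp : p.Prime)
    (ha : a ≠ 0) (U : Subgroup Fˣ) (a' : Fˣ)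
    (ha' : (a' : F) = (a : F)) (haU : a' ∈ U) (hsat : ∀ c : Fˣ, c ^ p ∈ U → c ∈ U)
    (B : Finset (HeightOneSpectrum (𝓞 F)))
    (hUB : ∀ v, v ∉ B → U ≤ vUnits v)
    (hpB : ∀ v, v ∉ B → v.valuation F (p : F) = 1)
    {m : ℕ} (hidx : (powSpan U a' p).relIndex U = p ^ m) :
    ∃ T : Finset (HeightOneSpectrum (𝓞 F)), T.card = m ∧ Disjoint T B ∧
      (∀ v ∈ T, ∃ y : F, v.valuation F ((a' : F) - y ^ p) < 1) ∧
      (∀ u ∈ U, (∀ v ∈ T, ∃ y : F, v.valuation F ((u : F) - y ^ p) < 1) → u ∈ powSpan U a' p) ∧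
      (∀ c : HeightOneSpectrum (𝓞 F) → Fˣ, (∀ v ∈ T, c v ∈ vUnits v) →
        ∃ u ∈ U, ∀ v ∈ T, ∃ y : F, v.valuation F ((u : F) / (c v : F) - y ^ p) < 1) :=
  h.exists_finset_primes hp ha (degreeOneNotPow_contract hp M) U a' ha' haU hsat B hUB hpB hidx

/-- **Lemma A for the `S`-units**, unconditional. -/
theorem IsKummerGen.exists_finset_primes_sUnit' (h : IsKummerGen p ζ a α) (hp : p.Prime)
    (ha : a ≠ 0) (hnt : Nat.card Gal(M/F) ≠ 1)
    (S : Finset (HeightOneSpectrum (𝓞 F))) (a' : Fˣ) (ha' : (a' : F) = (a : F))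
    (haS : a' ∈ (S : Set (HeightOneSpectrum (𝓞 F))).unit F)
    (hpS : ∀ v, v ∉ S → (p : 𝓞 F) ∉ v.asIdeal) {s : ℕ}
    (hs : (powMonoidHom p : ((S : Set (HeightOneSpectrum (𝓞 F))).unit F) →*
      ((S : Set (HeightOneSpectrum (𝓞 F))).unit F)).range.index = p ^ s) :
    1 ≤ s ∧ ∃ T : Finset (HeightOneSpectrum (𝓞 F)), T.card = s - 1 ∧ Disjoint T S ∧
      (∀ v ∈ T, ∃ y : F, v.valuation F ((a' : F) - y ^ p) < 1) ∧
      (∀ u ∈ (S : Set (HeightOneSpectrum (𝓞 F))).unit F,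
        (∀ v ∈ T, ∃ y : F, v.valuation F ((u : F) - y ^ p) < 1) →
          ∃ c ∈ (S : Set (HeightOneSpectrum (𝓞 F))).unit F, ∃ k : ℤ, c ^ p * a' ^ k = u) ∧
      (∀ c : HeightOneSpectrum (𝓞 F) → Fˣ, (∀ v ∈ T, c v ∈ vUnits v) →
        ∃ u ∈ (S : Set (HeightOneSpectrum (𝓞 F))).unit F,
          ∀ v ∈ T, ∃ y : F, v.valuation F ((u : F) / (c v : F) - y ^ p) < 1) :=
  h.exists_finset_primes_sUnit hp ha hnt (degreeOneNotPow_contract hp M) S a' ha' haS hpS hs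

end

end Fermat.Agent.CFT
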