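import Mathlib
import Fermat.Agent.CFT.Global.Contracts
import Fermat.Agent.CFT.Global.SUnitRank

set_option autoImplicit false

/-!
# CFT stream [C]: contract (B1) `SUnitCount` (Dirichlet's `S`-unit theorem modulo `p`-th powers)

`sUnitCount_holds p F : SUnitCount p F`, from `Global/SUnitRank.lean`
(`index_range_powMonoidHom_sUnit`) and the fact that a number field containing a primitive `p`-th
root of unity, `p` odd, has no real place.
-/

open NumberField

namespace Fermat.Agent.CFT

/-- a number field containing a primitive `p`-th root of unity (`p > 2`) is totally complex: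
the number of infinite places is the number of complex places -/
theorem card_infinitePlace_eq_nrComplexPlaces (F : Type*) [Field F] [NumberField F] {p : ℕ}
    (hp : 2 < p) {ζ : F} (hζ : IsPrimitiveRoot ζ p) :
    Fintype.card (InfinitePlace F) = InfinitePlace.nrComplexPlaces F := by
  rw [InfinitePlace.card_eq_nrRealPlaces_add_nrComplexPlaces,
    NumberField.InfinitePlace.IsPrimitiveRoot.nrRealPlaces_eq_zero_of_two_lt hp hζ, zero_add]

/-- **Contract (B1)**: `[U_S : U_S^p] = p ^ (|S| + r₂)`. -/
theorem sUnitCount_holds (p : ℕ) (F : Type*) [Field F] [NumberField F] : SUnitCount p F := by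
  intro hp hp2 ⟨ζ, hζ⟩ S
  have : Fact p.Prime := ⟨hp⟩
  have h2 : 2 < p := lt_of_le_of_ne hp.two_le (Ne.symm hp2)
  rw [← card_infinitePlace_eq_nrComplexPlaces F h2 hζ]
  exact index_range_powMonoidHom_sUnit F S hζ

end Fermat.Agent.CFT
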