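import Fermat.Agent.CFT.Global.LocalPower

set_option autoImplicit false

/-!
# CFT, stream [C], chunk (G5), part 2: the group `W_P` of local `p`-th powers and its index

(continues helper8's `Global/LocalPower.lean`, which has the integral form of (LP1))

* `exists_root_near_of_valuation_lt`: for any valuation `w` on a field containing a primitive
  `p`-th root of unity `ζ`, if `w (x ^ p - 1) < w (1 - ζ) ^ p` then `x` is `w`-close to exactly one
  `p`-th root of unity.
* `not_valuation_invariant_of_valuation_lt`: core of the splitting criterion.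
* `exists_root_near_of_adic`: the adic form (LP1).
* `localUnits v m`, `powCongr v p k` and the index bound `index_powCongr_le` (LP1').
-/

namespace Fermat.Agent.CFT

open Finset Polynomial WithZero IsDedekindDomain

section ValuationRoots

variable {K Γ₀ : Type*} [Field K] [LinearOrderedCommGroupWithZero Γ₀] (w : Valuation K Γ₀)
  {p : ℕ}

/-- a root of unity has valuation one -/
theorem valuation_eq_one_of_pow_eq_one {μ : K} {n : ℕ} (hn : n ≠ 0) (hμ : μ ^ n = 1) :
    w μ = 1 := by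
  have h : (w μ) ^ n = 1 := by rw [← map_pow, hμ, map_one]
  exact (pow_eq_one_iff_of_nonneg zero_le hn).mp h

/-- `w (1 - ζ ^ i) ≤ w (1 - ζ)` -/
theorem valuation_one_sub_pow_le {ζ : K} {n : ℕ} (hn : n ≠ 0) (hζ : ζ ^ n = 1) (i : ℕ) :
    w (1 - ζ ^ i) ≤ w (1 - ζ) := by
  have h1 : (1 - ζ ^ i) = (∑ l ∈ range i, ζ ^ l) * (1 - ζ) := by
    rw [mul_comm]; exact (mul_neg_geom_sum ζ i).symm
  have h2 : w (∑ l ∈ range i, ζ ^ l) ≤ 1 := by
    refine w.map_sum_le fun l _ => ?_
    rw [valuation_eq_one_of_pow_eq_one w hn (μ := ζ ^ l)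
      (by rw [← pow_mul, mul_comm, pow_mul, hζ, one_pow])]
  rw [h1, map_mul]
  exact mul_le_of_le_one_left' h2

/-- all `1 - η`, `η` a primitive `p`-th root of unity, have the same valuation -/
theorem valuation_one_sub_primitiveRoot_eq (hp : p.Prime) {ζ η : K} (hζ : IsPrimitiveRoot ζ p)
    (hη : IsPrimitiveRoot η p) : w (1 - η) = w (1 - ζ) := by
  have : NeZero p := ⟨hp.ne_zero⟩
  obtain ⟨i, -, rfl⟩ := hζ.eq_pow_of_pow_eq_one hη.pow_eq_one
  obtain ⟨j, -, hj⟩ := hη.eq_pow_of_pow_eq_one hζ.pow_eq_one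
  refine le_antisymm (valuation_one_sub_pow_le w hp.ne_zero hζ.pow_eq_one i) ?_
  conv_lhs => rw [← hj]
  exact valuation_one_sub_pow_le w hp.ne_zero hη.pow_eq_one j

/-- two distinct `p`-th roots of unity differ by an element of valuation `w (1 - ζ)` -/
theorem valuation_sub_eq_of_pow_eq_one (hp : p.Prime) {ζ : K} (hζ : IsPrimitiveRoot ζ p)
    {μ μ' : K} (hμ : μ ^ p = 1) (hμ' : μ' ^ p = 1) (hne : μ ≠ μ') :
    w (μ - μ') = w (1 - ζ) := by
  have hμ0 : μ ≠ 0 := fun h => by simp [h, hp.ne_zero] at hμ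
  have h1 : μ - μ' = μ * (1 - μ' / μ) := by field_simp
  have hq : (μ' / μ) ^ p = 1 := by rw [div_pow, hμ, hμ', div_one]
  have hq1 : μ' / μ ≠ 1 := fun h => hne (by field_simp at h; exact h.symm)
  have hprim : IsPrimitiveRoot (μ' / μ) p :=
    isPrimitiveRoot_of_mem_nthRootsFinset hp ((mem_nthRootsFinset hp.pos 1).mpr hq) hq1
  rw [h1, map_mul, valuation_eq_one_of_pow_eq_one w hp.ne_zero hμ, one_mul,
    valuation_one_sub_primitiveRoot_eq w hp hζ hprim]

/-- `w (1 - ζ) ^ (p - 1) = w p` -/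
theorem valuation_one_sub_pow_pred_eq (hp : p.Prime) {ζ : K} (hζ : IsPrimitiveRoot ζ p) :
    w (1 - ζ) ^ (p - 1) = w (p : K) := by
  obtain ⟨n, rfl⟩ : ∃ n, p = n + 1 := ⟨p - 1, (Nat.succ_pred_eq_of_pos hp.pos).symm⟩
  have h := hζ.prod_one_sub_pow_eq_order
  have h2 : w (∏ k ∈ range n, (1 - ζ ^ (k + 1))) = w (1 - ζ) ^ n := by
    rw [map_prod]
    rw [Finset.prod_congr rfl (g := fun _ => w (1 - ζ))]
    · rw [Finset.prod_const, card_range]
    · intro k hk
      have hk' : k + 1 < n + 1 := by simpa using hk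
      refine valuation_one_sub_primitiveRoot_eq w hp hζ ?_
      exact hζ.pow_of_coprime _ (Nat.coprime_of_lt_prime (Nat.succ_ne_zero k) hk' hp).symm
  rw [Nat.add_sub_cancel, ← h2, h]
  push_cast
  rfl

/-- **Key lemma**: if `x ^ p` is very close to `1` then `x` is close to exactly one `p`-th root
of unity. -/
theorem exists_root_near_of_valuation_lt (hp : p.Prime) {ζ : K} (hζ : IsPrimitiveRoot ζ p)
    {x : K} (hx : w (x ^ p - 1) < w (1 - ζ) ^ p) :
    ∃ μ : K, μ ^ p = 1 ∧ w (x - μ) < w (1 - ζ) ∧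
      (∀ μ' : K, μ' ^ p = 1 → μ' ≠ μ → w (x - μ') = w (1 - ζ)) ∧
      w (x ^ p - 1) = w (x - μ) * w (1 - ζ) ^ (p - 1) := by
  classical
  have hprod : x ^ p - 1 = ∏ μ ∈ nthRootsFinset p (1 : K), (x - μ) := by
    have := hζ.pow_sub_pow_eq_prod_sub_mul x 1 hp.pos
    simpa using this
  have hcard : #(nthRootsFinset p (1 : K)) = p := hζ.card_nthRootsFinset
  have hmem : ∀ μ : K, μ ∈ nthRootsFinset p (1 : K) ↔ μ ^ p = 1 := fun μ =>
    mem_nthRootsFinset hp.pos 1
  have hex : ∃ μ ∈ nthRootsFinset p (1 : K), w (x - μ) < w (1 - ζ) := by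
    by_contra hcon
    push Not at hcon
    have := Finset.pow_card_le_prod (nthRootsFinset p (1 : K)) (fun μ => w (x - μ)) _ hcon
    rw [hcard, ← map_prod, ← hprod] at this
    exact absurd hx (not_lt.mpr this)
  obtain ⟨μ, hμS, hμ⟩ := hex
  have hother : ∀ μ' : K, μ' ^ p = 1 → μ' ≠ μ → w (x - μ') = w (1 - ζ) := by
    intro μ' hμ' hne
    have h1 : x - μ' = (x - μ) + (μ - μ') := by ring
    have h2 : w (μ - μ') = w (1 - ζ) :=
      valuation_sub_eq_of_pow_eq_one w hp hζ ((hmem μ).mp hμS) hμ' hne.symm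
    rw [h1, w.map_add_eq_of_lt_right (by rw [h2]; exact hμ), h2]
  refine ⟨μ, (hmem μ).mp hμS, hμ, hother, ?_⟩
  rw [hprod, map_prod, ← Finset.mul_prod_erase _ _ hμS]
  congr 1
  rw [Finset.prod_congr rfl (g := fun _ => w (1 - ζ))]
  · rw [Finset.prod_const, Finset.card_erase_of_mem hμS, hcard]
  · intro μ' hμ'
    rw [Finset.mem_erase] at hμ'
    exact hother μ' ((hmem μ').mp hμ'.2) hμ'.1

/-- **Core of the splitting criterion**: if `θ ^ p` is very close to `1`, a field automorphism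
`σ` with `σ θ = ζ θ`, `σ ζ = ζ` cannot preserve the valuation. -/
theorem not_valuation_invariant_of_valuation_lt (hp : p.Prime) {ζ : K} (hζ : IsPrimitiveRoot ζ p)
    {θ : K} (hθ : w (θ ^ p - 1) < w (1 - ζ) ^ p) (σ : K ≃+* K) (hσζ : σ ζ = ζ)
    (hσθ : σ θ = ζ * θ) : ¬ ∀ x, w (σ x) = w x := by
  intro hinv
  have : NeZero p := ⟨hp.ne_zero⟩
  obtain ⟨μ, hμp, hμ, hother, -⟩ := exists_root_near_of_valuation_lt w hp hζ hθ
  obtain ⟨i, -, rfl⟩ := hζ.eq_pow_of_pow_eq_one hμp
  have hζ0 : ζ ≠ 0 := hζ.ne_zero hp.ne_zero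
  have h1 : σ (θ - ζ ^ i) = ζ * (θ - ζ⁻¹ * ζ ^ i) := by
    rw [map_sub, map_pow, hσζ, hσθ]
    field_simp
  have h2 : w (θ - ζ ^ i) = w (θ - ζ⁻¹ * ζ ^ i) := by
    rw [← hinv (θ - ζ ^ i), h1, map_mul, valuation_eq_one_of_pow_eq_one w hp.ne_zero hζ.pow_eq_one,
      one_mul]
  have h3 : w (θ - ζ⁻¹ * ζ ^ i) = w (1 - ζ) := by
    refine hother _ ?_ ?_
    · rw [mul_pow, inv_pow, hζ.pow_eq_one, hμp, inv_one, one_mul]
    · intro h
      have : ζ⁻¹ = 1 := by
        have h' : ζ⁻¹ * ζ ^ i = 1 * ζ ^ i := by rw [one_mul]; exact h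
        exact mul_right_cancel₀ (pow_ne_zero i hζ0) h'
      rw [inv_eq_one] at this
      exact hζ.ne_one hp.one_lt this
  rw [h2, h3] at hμ
  exact lt_irrefl _ hμ

end ValuationRoots

section Adic

variable {R F : Type*} [CommRing R] [IsDedekindDomain R] [Field F] [Algebra R F]
  [IsFractionRing R F] (v : HeightOneSpectrum R) {p : ℕ}

/-- `exp (-k) < v (1 - ζ) ^ p` as soon as `k > p e / (p - 1)`, `e = v (p)`. -/
theorem exp_neg_lt_valuation_one_sub_pow (hp : p.Prime) {ζ : F} (hζ : IsPrimitiveRoot ζ p)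
    {e k : ℕ} (he : v.valuation F (p : F) = exp (-(e : ℤ))) (hk : p * e < (p - 1) * k) :
    exp (-(k : ℤ)) < v.valuation F (1 - ζ) ^ p := by
  have h1 := valuation_one_sub_pow_pred_eq (v.valuation F) hp hζ
  rw [he] at h1
  have hp1 : p - 1 ≠ 0 := Nat.sub_ne_zero_of_lt hp.one_lt
  rw [← pow_lt_pow_iff_left₀ zero_le zero_le hp1, ← pow_mul, mul_comm p, pow_mul, h1,
    ← exp_nsmul, ← exp_nsmul, exp_lt_exp]
  simp only [nsmul_eq_mul, mul_neg, neg_lt_neg_iff]
  exact_mod_cast hk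

/-- **(LP1)** approximate `p`-th roots of `1` are close to `p`-th roots of unity. -/
theorem exists_root_near_of_adic (hp : p.Prime) {ζ : F} (hζ : IsPrimitiveRoot ζ p)
    {e k : ℕ} (he : v.valuation F (p : F) = exp (-(e : ℤ))) (hk : p * e < (p - 1) * k)
    {x : F} (hx : v.valuation F (x ^ p - 1) ≤ exp (-(k : ℤ))) :
    ∃ μ : F, μ ^ p = 1 ∧ v.valuation F (x - μ) ≤ exp (-((k - e : ℕ) : ℤ)) := by
  have hlt := exp_neg_lt_valuation_one_sub_pow v hp hζ he hk
  obtain ⟨μ, hμ, -, -, hprod⟩ :=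
    exists_root_near_of_valuation_lt (v.valuation F) hp hζ (lt_of_le_of_lt hx hlt)
  refine ⟨μ, hμ, ?_⟩
  rw [valuation_one_sub_pow_pred_eq (v.valuation F) hp hζ, he] at hprod
  rw [hprod] at hx
  have hek : e ≤ k := by
    by_contra hcon
    push Not at hcon
    have h1 : (p - 1) * k ≤ (p - 1) * e := Nat.mul_le_mul_left _ hcon.le
    have h2 : (p - 1) * e ≤ p * e := Nat.mul_le_mul_right _ (Nat.sub_le p 1)
    omega
  have h1 : v.valuation F (x - μ) = v.valuation F (x - μ) * exp (-(e : ℤ)) * exp (e : ℤ) := by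
    rw [mul_assoc, ← exp_add]; simp
  have h2 : exp (-((k - e : ℕ) : ℤ)) = exp (-(k : ℤ)) * exp (e : ℤ) := by
    rw [← exp_add, Nat.cast_sub hek]; congr 1; ring
  rw [h1, h2]
  gcongr

end Adic

section GroupLemmas

variable {G : Type*} [Group G]

/-- if finitely many left cosets of `H` cover `G`, the index of `H` is bounded -/
theorem index_ne_zero_and_le_of_cover (H : Subgroup G) {T : Type*} [Finite T] (φ : T → G)
    (h : ∀ g : G, ∃ t, (φ t)⁻¹ * g ∈ H) : H.index ≠ 0 ∧ H.index ≤ Nat.card T := by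
  have hsurj : Function.Surjective (fun t => (QuotientGroup.mk (φ t) : G ⧸ H)) := by
    intro x
    induction x using QuotientGroup.induction_on with
    | H g =>
      obtain ⟨t, ht⟩ := h g
      exact ⟨t, QuotientGroup.eq.mpr ht⟩
  have : Finite (G ⧸ H) := Finite.of_surjective _ hsurj
  refine ⟨Subgroup.index_ne_zero_of_finite, ?_⟩
  rw [Subgroup.index_eq_card]
  exact Nat.card_le_card_of_surjective _ hsurj

/-- if a map to a finite set separates the left cosets of `H`, the index of `H` is bounded -/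
theorem index_ne_zero_and_le_of_separating (H : Subgroup G) {T : Type*} [Finite T] (ψ : G → T)
    (h : ∀ a b : G, ψ a = ψ b → a⁻¹ * b ∈ H) : H.index ≠ 0 ∧ H.index ≤ Nat.card T := by
  have hinj : Function.Injective (fun x : G ⧸ H => ψ x.out) := by
    intro x y hxy
    have := QuotientGroup.eq.mpr (h _ _ hxy)
    rwa [QuotientGroup.out_eq', QuotientGroup.out_eq'] at this
  have : Finite (G ⧸ H) := Finite.of_injective _ hinj
  refine ⟨Subgroup.index_ne_zero_of_finite, ?_⟩
  rw [Subgroup.index_eq_card]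
  exact Nat.card_le_card_of_injective _ hinj

/-- relative version of `index_ne_zero_and_le_of_separating` -/
theorem relIndex_ne_zero_and_le_of_separating (H K : Subgroup G) {T : Type*} [Finite T]
    (ψ : K → T) (h : ∀ a b : K, ψ a = ψ b → (a : G)⁻¹ * (b : G) ∈ H) :
    H.relIndex K ≠ 0 ∧ H.relIndex K ≤ Nat.card T := by
  refine index_ne_zero_and_le_of_separating (H.subgroupOf K) ψ fun a b hab => ?_
  rw [Subgroup.mem_subgroupOf]
  simpa using h a b hab

/-- In a commutative group, for a subgroup `V` of finite index the cokernel and the kernel of the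
`n`-th power map modulo `V` have the same order. -/
theorem index_range_pow_sup {A : Type*} [CommGroup A] (V : Subgroup A) (hV : V.index ≠ 0)
    (n : ℕ) : ((powMonoidHom n : A →* A).range ⊔ V).index =
      V.relIndex (V.comap (powMonoidHom n : A →* A)) := by
  have : V.FiniteIndex := ⟨hV⟩
  have hfin : Finite (A ⧸ V) := Subgroup.finite_quotient_of_finiteIndex
  set φ : (A ⧸ V) →* (A ⧸ V) := powMonoidHom n with hφ
  have hπ : Function.Surjective (QuotientGroup.mk' V) := QuotientGroup.mk'_surjective V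
  -- the two comaps
  have h1 : φ.range.comap (QuotientGroup.mk' V) = (powMonoidHom n : A →* A).range ⊔ V := by
    ext x
    rw [Subgroup.mem_comap, MonoidHom.mem_range, Subgroup.mem_sup]
    constructor
    · rintro ⟨y, hy⟩
      obtain ⟨a, rfl⟩ := hπ y
      refine ⟨a ^ n, ⟨a, rfl⟩, (a ^ n)⁻¹ * x, ?_, by group⟩
      have : ((a ^ n : A) : A ⧸ V) = (x : A ⧸ V) := by
        simpa [hφ] using hy
      exact QuotientGroup.eq.mp this
    · rintro ⟨y, ⟨a, rfl⟩, z, hz, rfl⟩
      refine ⟨QuotientGroup.mk' V a, ?_⟩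
      simp only [hφ, powMonoidHom_apply, QuotientGroup.mk'_apply]
      rw [← QuotientGroup.mk_pow, QuotientGroup.eq]
      simpa using hz
  have h2 : φ.ker.comap (QuotientGroup.mk' V) = V.comap (powMonoidHom n : A →* A) := by
    ext x
    rw [Subgroup.mem_comap, MonoidHom.mem_ker, Subgroup.mem_comap]
    simp only [hφ, powMonoidHom_apply, QuotientGroup.mk'_apply]
    rw [← QuotientGroup.mk_pow, QuotientGroup.eq_one_iff]
  have hle : V ≤ V.comap (powMonoidHom n : A →* A) := fun x hx => by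
    rw [Subgroup.mem_comap]; exact V.pow_mem hx n
  have e1 : ((powMonoidHom n : A →* A).range ⊔ V).index = φ.range.index := by
    rw [← h1, Subgroup.index_comap_of_surjective _ hπ]
  have e2 : (V.comap (powMonoidHom n : A →* A)).index = Nat.card φ.range := by
    rw [← h2, Subgroup.index_comap_of_surjective _ hπ, Subgroup.index_ker]
  have e3 : V.relIndex (V.comap (powMonoidHom n : A →* A)) * Nat.card φ.range = Nat.card (A ⧸ V) := by
    rw [← e2, Subgroup.relIndex_mul_index hle, Subgroup.index_eq_card]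
  have e4 : Nat.card φ.range * φ.range.index = Nat.card (A ⧸ V) := Subgroup.card_mul_index _
  have hpos : 0 < Nat.card φ.range := Nat.card_pos
  rw [e1]
  have : φ.range.index * Nat.card φ.range =
      V.relIndex (V.comap (powMonoidHom n : A →* A)) * Nat.card φ.range := by
    rw [e3, mul_comm, e4]
  exact Nat.eq_of_mul_eq_mul_right hpos this

end GroupLemmas

section LocalUnits

variable {R F : Type*} [CommRing R] [IsDedekindDomain R] [Field F] [Algebra R F]
  [IsFractionRing R F] (v : HeightOneSpectrum R)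

/-- `v`-units of `F` which are `≡ 1 mod v ^ m` (for `m = 0`: all `v`-units). -/
def localUnits (m : ℕ) : Subgroup Fˣ where
  carrier := {c | v.valuation F (c : F) = 1 ∧ v.valuation F ((c : F) - 1) ≤ exp (-(m : ℤ))}
  one_mem' := by simp
  mul_mem' := by
    rintro a b ⟨ha1, ha⟩ ⟨hb1, hb⟩
    refine ⟨by rw [Units.val_mul, map_mul, ha1, hb1, one_mul], ?_⟩
    have h : ((a * b : Fˣ) : F) - 1 = (a : F) * ((b : F) - 1) + ((a : F) - 1) := by
      rw [Units.val_mul]; ring
    rw [h]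
    refine (Valuation.map_add _ _ _).trans (max_le ?_ ha)
    rw [map_mul, ha1, one_mul]; exact hb
  inv_mem' := by
    rintro a ⟨ha1, ha⟩
    refine ⟨by rw [Units.val_inv_eq_inv_val, map_inv₀, ha1, inv_one], ?_⟩
    have h : ((a⁻¹ : Fˣ) : F) - 1 = (a : F)⁻¹ * (1 - (a : F)) := by
      rw [Units.val_inv_eq_inv_val, mul_sub, mul_one, inv_mul_cancel₀ a.ne_zero]
    rw [h, map_mul, map_inv₀, ha1, inv_one, one_mul, Valuation.map_sub_swap]
    exact ha

theorem mem_localUnits_iff {m : ℕ} {c : Fˣ} : c ∈ localUnits (F := F) v m ↔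
    v.valuation F (c : F) = 1 ∧ v.valuation F ((c : F) - 1) ≤ exp (-(m : ℤ)) := Iff.rfl

/-- for `m ≥ 1` the unit condition is automatic -/
theorem mem_localUnits_iff_of_pos {m : ℕ} (hm : m ≠ 0) {c : Fˣ} : c ∈ localUnits (F := F) v m ↔
    v.valuation F ((c : F) - 1) ≤ exp (-(m : ℤ)) := by
  refine ⟨fun h => h.2, fun h => ⟨?_, h⟩⟩
  have hlt : v.valuation F ((c : F) - 1) < 1 := by
    refine lt_of_le_of_lt h ?_
    rw [← exp_zero, exp_lt_exp]
    have : 0 < m := Nat.pos_of_ne_zero hm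
    omega
  have h1 : (c : F) = ((c : F) - 1) + 1 := by ring
  rw [h1, Valuation.map_add_eq_of_lt_right _ (by rwa [map_one]), map_one]

theorem mem_localUnits_zero_iff {c : Fˣ} : c ∈ localUnits (F := F) v 0 ↔
    v.valuation F (c : F) = 1 := by
  rw [mem_localUnits_iff]
  refine ⟨fun h => h.1, fun h => ⟨h, ?_⟩⟩
  simp only [CharP.cast_eq_zero, neg_zero, exp_zero]
  refine (Valuation.map_sub _ _ _).trans (max_le h.le ?_)
  rw [map_one]

theorem localUnits_anti {m n : ℕ} (h : m ≤ n) : localUnits (F := F) v n ≤ localUnits v m := by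
  rintro c ⟨h1, h2⟩
  refine ⟨h1, h2.trans ?_⟩
  rw [exp_le_exp]; omega


/-- approximation of `v`-integral elements of `F` by elements of `R` -/
theorem exists_valuation_sub_le_exp {x : F} (hx : v.valuation F x ≤ 1) (n : ℕ) :
    ∃ r : R, v.valuation F (algebraMap R F r - x) ≤ exp (-(n : ℤ)) := by
  obtain ⟨r, hr⟩ := v.exists_valuation_sub_lt_of_integer hx
    (Units.mk0 (exp (-(n : ℤ)) * exp 1) (mul_ne_zero exp_ne_zero exp_ne_zero))
  refine ⟨r, ?_⟩
  rw [Units.val_mk0] at hr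
  exact (lt_mul_exp_iff_le exp_ne_zero).mp hr

theorem valuation_algebraMap_le_exp_iff (r : R) (n : ℕ) :
    v.valuation F (algebraMap R F r) ≤ exp (-(n : ℤ)) ↔ r ∈ v.asIdeal ^ n := by
  rw [HeightOneSpectrum.valuation_of_algebraMap, HeightOneSpectrum.intValuation_le_pow_iff_mem]

/-- `[U_m : U_{m+n}] ≤ q ^ n` -/
theorem relIndex_localUnits [Finite (R ⧸ v.asIdeal)] (m n : ℕ) :
    (localUnits (F := F) v (m + n)).relIndex (localUnits v m) ≠ 0 ∧
      (localUnits (F := F) v (m + n)).relIndex (localUnits v m) ≤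
        Nat.card (R ⧸ v.asIdeal) ^ n := by
  obtain ⟨π, hπ⟩ := v.valuation_exists_uniformizer F
  have hπ0 : π ≠ 0 := fun h => by rw [h, map_zero] at hπ; exact exp_ne_zero hπ.symm
  have hπm : v.valuation F (π ^ m) = exp (-(m : ℤ)) := by
    rw [map_pow, hπ, ← exp_nsmul]; simp
  have hint : ∀ a : localUnits (F := F) v m,
      v.valuation F ((((a : Fˣ) : F) - 1) / π ^ m) ≤ 1 := by
    intro a
    rw [map_div₀, hπm]
    exact div_le_one_of_le₀ a.2.2 zero_le
  choose r hr using fun a => exists_valuation_sub_le_exp v (hint a) n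
  have : Finite (R ⧸ v.asIdeal ^ n) := finite_quotient_pow v n
  rw [← natCard_quotient_pow]
  refine relIndex_ne_zero_and_le_of_separating _ _
    (fun a => Ideal.Quotient.mk (v.asIdeal ^ n) (r a)) fun a b hab => ?_
  rw [Ideal.Quotient.eq, ← valuation_algebraMap_le_exp_iff (F := F)] at hab
  -- `v ((a - 1)/π^m - (b-1)/π^m) ≤ exp (-n)`
  have h1 : v.valuation F ((((a : Fˣ) : F) - 1) / π ^ m - (((b : Fˣ) : F) - 1) / π ^ m) ≤
      exp (-(n : ℤ)) := by
    have e : (((a : Fˣ) : F) - 1) / π ^ m - (((b : Fˣ) : F) - 1) / π ^ m =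
        (algebraMap R F (r a - r b) - (algebraMap R F (r a) - (((a : Fˣ) : F) - 1) / π ^ m)) +
          (algebraMap R F (r b) - (((b : Fˣ) : F) - 1) / π ^ m) := by
      rw [map_sub]; ring
    rw [e]
    refine (Valuation.map_add _ _ _).trans (max_le ?_ (hr b))
    exact (Valuation.map_sub _ _ _).trans (max_le hab (hr a))
  have h2 : v.valuation F (((a : Fˣ) : F) - ((b : Fˣ) : F)) ≤ exp (-((m + n : ℕ) : ℤ)) := by
    have e : ((a : Fˣ) : F) - ((b : Fˣ) : F) =
        π ^ m * ((((a : Fˣ) : F) - 1) / π ^ m - (((b : Fˣ) : F) - 1) / π ^ m) := by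
      field_simp; ring
    rw [e, map_mul, hπm]
    have : exp (-((m + n : ℕ) : ℤ)) = exp (-(m : ℤ)) * exp (-(n : ℤ)) := by
      rw [← exp_add]; congr 1; push_cast; ring
    rw [this]
    gcongr
  have ha1 : v.valuation F ((a : Fˣ) : F) = 1 := a.2.1
  have hb1 : v.valuation F ((b : Fˣ) : F) = 1 := b.2.1
  refine ⟨?_, ?_⟩
  · rw [Units.val_mul, Units.val_inv_eq_inv_val, map_mul, map_inv₀, ha1, hb1, inv_one, one_mul]
  · have e : (((a : Fˣ)⁻¹ * (b : Fˣ) : Fˣ) : F) - 1 =
        ((a : Fˣ) : F)⁻¹ * (((b : Fˣ) : F) - ((a : Fˣ) : F)) := by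
      rw [Units.val_mul, Units.val_inv_eq_inv_val, mul_sub, inv_mul_cancel₀ (a : Fˣ).ne_zero]
    rw [e, map_mul, map_inv₀, ha1, inv_one, one_mul, Valuation.map_sub_swap]
    exact h2


end LocalUnits

section PowCongr

variable {R F : Type*} [CommRing R] [IsDedekindDomain R] [Field F] [Algebra R F]
  [IsFractionRing R F] (v : HeightOneSpectrum R)

/-- `W_P`: the elements of `Fˣ` which are `p`-th powers modulo `v ^ k` (multiplicatively) -/
def powCongr (p k : ℕ) : Subgroup Fˣ := (powMonoidHom p : Fˣ →* Fˣ).range ⊔ localUnits v k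

theorem mem_powCongr_iff' {p k : ℕ} {c : Fˣ} : c ∈ powCongr (F := F) v p k ↔
    ∃ y : Fˣ, c / y ^ p ∈ localUnits v k := by
  rw [powCongr, Subgroup.mem_sup]
  constructor
  · rintro ⟨_, ⟨y, rfl⟩, z, hz, rfl⟩
    refine ⟨y, ?_⟩
    simpa using hz
  · rintro ⟨y, hy⟩
    exact ⟨y ^ p, ⟨y, rfl⟩, c / y ^ p, hy, by simp⟩

theorem mem_powCongr_iff {p k : ℕ} (hk : k ≠ 0) {c : Fˣ} : c ∈ powCongr (F := F) v p k ↔
    ∃ y : Fˣ, v.valuation F ((c : F) / (y : F) ^ p - 1) ≤ exp (-(k : ℤ)) := by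
  rw [mem_powCongr_iff']
  refine exists_congr fun y => ?_
  rw [mem_localUnits_iff_of_pos v hk]
  simp

theorem pow_mem_powCongr {p k : ℕ} (y : Fˣ) : y ^ p ∈ powCongr (F := F) v p k :=
  Subgroup.mem_sup_left ⟨y, rfl⟩

theorem localUnits_le_powCongr {p k : ℕ} : localUnits v k ≤ powCongr (F := F) v p k :=
  le_sup_right

/-- `[Fˣ : Fˣ^p U] ≤ p` -/
theorem index_range_pow_sup_localUnits_zero {p : ℕ} (hp : p ≠ 0) :
    ((powMonoidHom p : Fˣ →* Fˣ).range ⊔ localUnits v 0).index ≠ 0 ∧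
      ((powMonoidHom p : Fˣ →* Fˣ).range ⊔ localUnits v 0).index ≤ p := by
  obtain ⟨π, hπ⟩ := v.valuation_exists_uniformizer F
  have hπ0 : π ≠ 0 := fun h => by rw [h, map_zero] at hπ; exact exp_ne_zero hπ.symm
  set πu : Fˣ := Units.mk0 π hπ0 with hπu
  have hcov : ∀ g : Fˣ, ∃ t : Fin p, (πu ^ (t : ℕ))⁻¹ * g ∈
      (powMonoidHom p : Fˣ →* Fˣ).range ⊔ localUnits v 0 := by
    intro g
    have hg0 : v.valuation F (g : F) ≠ 0 := (Valuation.ne_zero_iff _).mpr g.ne_zero
    set n : ℤ := -(log (v.valuation F (g : F))) with hn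
    have hgn : v.valuation F (g : F) = exp (-n) := by rw [hn, neg_neg, exp_log hg0]
    have hppos : (0 : ℤ) < p := by exact_mod_cast Nat.pos_of_ne_zero hp
    have hi0 : 0 ≤ n % p := Int.emod_nonneg _ hppos.ne'
    have hip : n % p < p := Int.emod_lt_of_pos _ hppos
    refine ⟨⟨(n % p).toNat, by omega⟩, ?_⟩
    rw [Subgroup.mem_sup]
    refine ⟨(πu ^ (n / p)) ^ p, ⟨πu ^ (n / p), rfl⟩, g * (πu ^ n)⁻¹, ?_, ?_⟩
    · rw [mem_localUnits_zero_iff]
      rw [Units.val_mul, map_mul, hgn, Units.val_inv_eq_inv_val, map_inv₀, Units.val_zpow_eq_zpow_val,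
        map_zpow₀, hπu, Units.val_mk0, hπ, ← exp_zsmul, ← exp_neg, ← exp_add]
      simp
    · have e : πu ^ n = πu ^ (n % p).toNat * (πu ^ (n / p)) ^ p := by
        conv_lhs => rw [← Int.emod_add_mul_ediv n p]
        rw [zpow_add, zpow_mul', zpow_natCast, ← zpow_natCast πu (n % p).toNat,
          Int.toNat_of_nonneg hi0]
      simp only
      rw [e, mul_inv_rev, mul_left_comm (g : Fˣ), mul_inv_cancel_left, mul_comm]
  have := index_ne_zero_and_le_of_cover _ (fun t : Fin p => πu ^ (t : ℕ)) hcov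
  simpa using this


/-- (LP1) in subgroup form: `v`-units whose `p`-th power is `≡ 1 mod v ^ k` are `≡` a root of
unity `mod v ^ (k - e)`. -/
theorem inf_comap_pow_localUnits_le {p : ℕ} (hp : p.Prime) {ζ : Fˣ}
    (hζ : IsPrimitiveRoot (ζ : F) p) {e k : ℕ} (he : v.valuation F (p : F) = exp (-(e : ℤ)))
    (hk : p * e < (p - 1) * k) :
    localUnits v 0 ⊓ (localUnits v k).comap (powMonoidHom p : Fˣ →* Fˣ) ≤
      Subgroup.zpowers ζ ⊔ localUnits v (k - e) := by
  intro a ha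
  rw [Subgroup.mem_inf, Subgroup.mem_comap, powMonoidHom_apply] at ha
  obtain ⟨ha0, hak⟩ := ha
  have : NeZero p := ⟨hp.ne_zero⟩
  have hx : v.valuation F ((a : F) ^ p - 1) ≤ exp (-(k : ℤ)) := by
    have := hak.2
    rwa [Units.val_pow_eq_pow_val] at this
  obtain ⟨μ, hμ, hμa⟩ := exists_root_near_of_adic v hp hζ he hk hx
  obtain ⟨i, -, rfl⟩ := hζ.eq_pow_of_pow_eq_one hμ
  rw [Subgroup.mem_sup]
  refine ⟨ζ ^ i, Subgroup.pow_mem _ (Subgroup.mem_zpowers ζ) i, a / ζ ^ i, ?_, by simp⟩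
  have hζ1 : v.valuation F ((ζ : F) ^ i) = 1 :=
    valuation_eq_one_of_pow_eq_one _ hp.ne_zero hμ
  have ha1 : v.valuation F (a : F) = 1 := (mem_localUnits_zero_iff v).mp ha0
  refine ⟨?_, ?_⟩
  · rw [Units.val_div_eq_div_val, map_div₀, Units.val_pow_eq_pow_val, hζ1, ha1, div_one]
  · have e1 : ((a / ζ ^ i : Fˣ) : F) - 1 = ((a : F) - (ζ : F) ^ i) / (ζ : F) ^ i := by
      rw [Units.val_div_eq_div_val, Units.val_pow_eq_pow_val, sub_div,
        div_self (pow_ne_zero _ ζ.ne_zero)]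
    rw [e1, map_div₀, hζ1, div_one]
    exact hμa

/-- **(LP1')** the index bound `[Fˣ : W_P] ≤ p² N(P)^e`. -/
theorem index_powCongr [Finite (R ⧸ v.asIdeal)] {p : ℕ} (hp : p.Prime) {ζ : F}
    (hζ : IsPrimitiveRoot ζ p) {e k : ℕ} (he : v.valuation F (p : F) = exp (-(e : ℤ)))
    (hk : p * e < (p - 1) * k) :
    (powCongr (F := F) v p k).index ≠ 0 ∧
      (powCongr (F := F) v p k).index ≤ p ^ 2 * Nat.card (R ⧸ v.asIdeal) ^ e := by
  set q := Nat.card (R ⧸ v.asIdeal) with hq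
  set ζu : Fˣ := (hζ.isUnit hp.ne_zero).unit with hζu
  have hζu' : IsPrimitiveRoot ((ζu : Fˣ) : F) p := by rw [hζu, IsUnit.unit_spec]; exact hζ
  have hζuord : IsPrimitiveRoot ζu p := IsPrimitiveRoot.coe_units_iff.mp hζu'
  have hek : e ≤ k := by
    by_contra hcon
    push Not at hcon
    have h1 : (p - 1) * k ≤ (p - 1) * e := Nat.mul_le_mul_left _ hcon.le
    have h2 : (p - 1) * e ≤ p * e := Nat.mul_le_mul_right _ (Nat.sub_le p 1)
    omega
  set U := localUnits (F := F) v 0 with hU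
  set Uk := localUnits (F := F) v k with hUk
  set Uke := localUnits (F := F) v (k - e) with hUke
  set W := powCongr (F := F) v p k with hW
  have hUkU : Uk ≤ U := localUnits_anti v (Nat.zero_le k)
  have hUkUke : Uk ≤ Uke := localUnits_anti v (Nat.sub_le k e)
  have hUkeU : Uke ≤ U := localUnits_anti v (Nat.zero_le _)
  -- step 1: `[Fˣ : W ⊔ U] ≤ p`
  have h1 := index_range_pow_sup_localUnits_zero (F := F) v hp.ne_zero
  have hWU : (powMonoidHom p : Fˣ →* Fˣ).range ⊔ localUnits v 0 ≤ W ⊔ U :=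
    sup_le (le_sup_of_le_left (le_sup_left)) le_sup_right
  have h1a : (W ⊔ U).index ≠ 0 := by
    intro h0
    have hd := Subgroup.index_dvd_of_le hWU
    rw [h0] at hd
    exact h1.1 (Nat.eq_zero_of_zero_dvd hd)
  have h1b : (W ⊔ U).index ≤ p :=
    (Nat.le_of_dvd (Nat.pos_of_ne_zero h1.1) (Subgroup.index_dvd_of_le hWU)).trans h1.2
  -- step 2: `[U : W ⊓ U] ≤ p q^e`
  set W' : Subgroup Fˣ := U.map (powMonoidHom p : Fˣ →* Fˣ) ⊔ Uk with hW'
  have hW'W : W' ≤ W := by
    refine sup_le ?_ le_sup_right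
    rintro _ ⟨y, -, rfl⟩
    exact pow_mem_powCongr v y
  have hW'U : W' ≤ U := by
    refine sup_le ?_ hUkU
    rintro _ ⟨y, hy, rfl⟩
    exact U.pow_mem hy p
  -- the finite group computation inside `U`
  set V : Subgroup U := Uk.subgroupOf U with hV
  have hVidx : V.index ≠ 0 := by
    have := (relIndex_localUnits (F := F) v 0 k).1
    rwa [zero_add] at this
  have hsub : W'.subgroupOf U = (powMonoidHom p : U →* U).range ⊔ V := by
    rw [hW', Subgroup.subgroupOf_sup (by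
      rintro _ ⟨y, hy, rfl⟩
      exact U.pow_mem hy p) hUkU]
    congr 1
    ext x
    rw [Subgroup.mem_subgroupOf, Subgroup.mem_map, MonoidHom.mem_range]
    constructor
    · rintro ⟨y, hy, hyx⟩
      exact ⟨⟨y, hy⟩, Subtype.ext hyx⟩
    · rintro ⟨y, rfl⟩
      exact ⟨y, y.2, rfl⟩
  have h2 : W'.relIndex U = V.relIndex (V.comap (powMonoidHom p : U →* U)) := by
    rw [Subgroup.relIndex, hsub, index_range_pow_sup V hVidx p]
  -- the `p`-torsion bound
  set Z : Subgroup Fˣ := Subgroup.zpowers ζu ⊔ Uke with hZ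
  have hZU : Z ≤ U := by
    refine sup_le ?_ hUkeU
    rw [Subgroup.zpowers_le, hU, mem_localUnits_zero_iff]
    exact valuation_eq_one_of_pow_eq_one _ hp.ne_zero hζu'.pow_eq_one
  have hcomap : V.comap (powMonoidHom p : U →* U) ≤ Z.subgroupOf U := by
    intro a ha
    rw [Subgroup.mem_subgroupOf]
    apply inf_comap_pow_localUnits_le v hp hζu' he hk
    rw [Subgroup.mem_inf]
    refine ⟨a.2, ?_⟩
    rw [Subgroup.mem_comap, hV, Subgroup.mem_subgroupOf] at ha
    simpa using ha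
  have h3 : V.relIndex (Z.subgroupOf U) = Uk.relIndex Z := by
    rw [hV, Subgroup.relIndex_subgroupOf hZU]
  have h4 : Uk.relIndex Z = Uk.relIndex Uke * Uke.relIndex Z :=
    (Subgroup.relIndex_mul_relIndex _ _ _ hUkUke le_sup_right).symm
  have h5 : Uke.relIndex Z ∣ p := by
    rw [hZ, Subgroup.relIndex_sup_right]
    have := Subgroup.relIndex_dvd_card Uke (Subgroup.zpowers ζu)
    rwa [Nat.card_zpowers, hζuord.eq_orderOf.symm] at this
  have h6 := relIndex_localUnits (F := F) v (k - e) e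
  rw [Nat.sub_add_cancel hek] at h6
  have h5' : Uke.relIndex Z ≠ 0 := by
    intro h0
    rw [h0] at h5
    exact hp.ne_zero (Nat.eq_zero_of_zero_dvd h5)
  have h7 : Uk.relIndex Z ≠ 0 := by rw [h4]; exact mul_ne_zero h6.1 h5'
  have h8 : Uk.relIndex Z ≤ q ^ e * p := by
    rw [h4]
    exact Nat.mul_le_mul h6.2 (Nat.le_of_dvd hp.pos h5)
  have h9 : W'.relIndex U ≤ q ^ e * p := by
    rw [h2]
    exact (Subgroup.relIndex_le_of_le_right hcomap (by rw [h3]; exact h7)).trans (by rw [h3]; exact h8)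
  have h9' : W'.relIndex U ≠ 0 := by
    rw [h2]
    intro h0
    have hle : V ≤ V.comap (powMonoidHom p : U →* U) := fun x hx => by
      rw [Subgroup.mem_comap]; exact V.pow_mem hx p
    have : V.relIndex (Z.subgroupOf U) = 0 := Subgroup.relIndex_eq_zero_of_le_right hcomap h0
    rw [h3] at this
    exact h7 this
  have h10 : W.relIndex U ∣ W'.relIndex U := Subgroup.relIndex_dvd_of_le_left U hW'W
  have h10a : W.relIndex U ≠ 0 := by
    intro h0
    rw [h0] at h10
    exact h9' (Nat.eq_zero_of_zero_dvd h10)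
  have h10b : W.relIndex U ≤ q ^ e * p := (Nat.le_of_dvd (Nat.pos_of_ne_zero h9') h10).trans h9
  -- assemble
  have h11 : W.index = W.relIndex U * (W ⊔ U).index := by
    rw [← Subgroup.relIndex_sup_left U W, Subgroup.relIndex_mul_index le_sup_left]
  rw [h11]
  refine ⟨mul_ne_zero h10a h1a, ?_⟩
  calc W.relIndex U * (W ⊔ U).index ≤ (q ^ e * p) * p := Nat.mul_le_mul h10b h1b
    _ = p ^ 2 * q ^ e := by ring


end PowCongr

end Fermat.Agent.CFT
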