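import Mathlib
import Fermat.Agent.CFT.Global.Contracts
import Fermat.Agent.CFT.Global.DivClass

set_option autoImplicit false

/-!
# CFT stream [C] Global: the frame of the second inequality

`F` a number field, `M / F` Galois of degree `p`, `S` a finite set of primes generating the class
group, `T` a finite set of primes (disjoint from `S`) which are norms from `M`.  The homomorphism
`sClassHom F S : Fˣ →* ClassGroup (𝓞 F)`, `c ↦ ∏_{P ∈ S} [P] ^ (- ord_P c)`, is surjective, and
maps the `S ∪ T`-units and the elements with `p ∣ ord_P c` for all `P ∈ S` into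
`normClasses F M`.  Hence `[I_F : P_F N(I_M)]` divides the index of every subgroup of `Fˣ`
contained in the group generated by these two.
-/

open NumberField IsDedekindDomain HeightOneSpectrum WithZero
open scoped nonZeroDivisors

namespace Fermat.Agent.CFT

section General

variable {R : Type*} [CommRing R] [IsDedekindDomain R]
variable (F : Type*) [Field F] [Algebra R F] [IsFractionRing R F]

/-- the divisor of `c : Fˣ` -/
noncomputable def divOfUnit (c : Fˣ) : HeightOneSpectrum R →₀ ℤ :=
  Finsupp.ofSupportFinite (fun v => -log (v.valuation F (c : F))) (by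
    refine (finite_setOf_valuation_ne_one F c.ne_zero).subset fun v hv => ?_
    rw [Function.mem_support] at hv
    intro h1
    apply hv
    rw [h1, log_one, neg_zero])

@[simp] theorem divOfUnit_apply (c : Fˣ) (v : HeightOneSpectrum R) :
    divOfUnit F c v = -log (v.valuation F (c : F)) := rfl

theorem valuation_eq_exp_neg_divOfUnit (c : Fˣ) (v : HeightOneSpectrum R) :
    v.valuation F (c : F) = exp (-(divOfUnit F c v)) := by
  rw [divOfUnit_apply, neg_neg, exp_log ((Valuation.ne_zero_iff _).mpr c.ne_zero)]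

theorem divClass_divOfUnit (c : Fˣ) : divClass (divOfUnit (R := R) F c) = 1 :=
  divClass_eq_one_of_valuation F _ c (valuation_eq_exp_neg_divOfUnit F c)

theorem divOfUnit_mul (c d : Fˣ) :
    divOfUnit (R := R) F (c * d) = divOfUnit F c + divOfUnit F d := by
  ext v
  rw [Finsupp.add_apply, divOfUnit_apply, divOfUnit_apply, divOfUnit_apply, Units.val_mul,
    map_mul, log_mul ((Valuation.ne_zero_iff _).mpr c.ne_zero)
      ((Valuation.ne_zero_iff _).mpr d.ne_zero)]
  ring

theorem divOfUnit_one : divOfUnit (R := R) F 1 = 0 := by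
  ext v
  simp

open Classical in
/-- the `S`-part of a divisor -/
noncomputable def divRestrict (S : Finset (HeightOneSpectrum R)) (D : HeightOneSpectrum R →₀ ℤ) :
    HeightOneSpectrum R →₀ ℤ :=
  D.filter (· ∈ S)

open Classical in
/-- `c ↦ ∏_{P ∈ S} [P] ^ ord_P c` as a homomorphism `Fˣ →* ClassGroup R` -/
noncomputable def sClassHom (S : Finset (HeightOneSpectrum R)) : Fˣ →* ClassGroup R where
  toFun c := divClass (divRestrict S (divOfUnit F c))
  map_one' := by
    rw [divOfUnit_one, divRestrict, Finsupp.filter_zero, divClass_zero]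
  map_mul' c d := by
    rw [divOfUnit_mul, divRestrict, Finsupp.filter_add, divClass_add]
    rfl

theorem sClassHom_apply (S : Finset (HeightOneSpectrum R)) (c : Fˣ) :
    sClassHom F S c = divClass (divRestrict S (divOfUnit F c)) := rfl

open Classical in
/-- `sClassHom F S` is surjective if `S` generates the class group -/
theorem sClassHom_surjective (S : Finset (HeightOneSpectrum R))
    (hS : ∀ C : ClassGroup R, ∃ D : HeightOneSpectrum R →₀ ℤ, D.support ⊆ S ∧ divClass D = C) :
    Function.Surjective (sClassHom F S) := by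
  intro C
  obtain ⟨D, hDS, rfl⟩ := hS C
  obtain ⟨c, hc⟩ := exists_units_forall_valuation_eq F S (fun v => D v)
  refine ⟨c, ?_⟩
  rw [sClassHom_apply]
  congr 1
  ext v
  rw [divRestrict, Finsupp.filter_apply]
  split_ifs with hv
  · rw [divOfUnit_apply, hc v hv, log_exp, neg_neg]
  · symm
    by_contra hne
    exact hv (hDS (Finsupp.mem_support_iff.mpr hne))

/-- `S ∪ T`-units are mapped by `sClassHom F S` into any subgroup containing the classes of the
primes of `T` -/
theorem sClassHom_mem_of_unit (S T : Finset (HeightOneSpectrum R)) (N : Subgroup (ClassGroup R))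
    (hT : ∀ q ∈ T, primeClass q ∈ N) (c : Fˣ)
    (hc : ∀ v : HeightOneSpectrum R, v ∉ S → v ∉ T → v.valuation F (c : F) = 1) :
    sClassHom F S c ∈ N := by
  classical
  set D := divOfUnit (R := R) F c with hD
  have h1 : divClass D = 1 := divClass_divOfUnit F c
  have h2 : D = D.filter (· ∈ S) + D.filter (fun v => ¬ v ∈ S) :=
    (Finsupp.filter_add_filter_not D _).symm
  rw [h2, divClass_add] at h1
  have h3 : sClassHom F S c = (divClass (D.filter (fun v => ¬ v ∈ S)))⁻¹ := by
    rw [sClassHom_apply, divRestrict, eq_inv_iff_mul_eq_one]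
    convert h1
  rw [h3]
  refine N.inv_mem ?_
  have hsupp : (D.filter (fun v => ¬ v ∈ S)).support ⊆ T := by
    intro v hv
    rw [Finsupp.support_filter, Finset.mem_filter, Finsupp.mem_support_iff] at hv
    by_contra hvT
    apply hv.1
    rw [hD, divOfUnit_apply, hc v hv.2 hvT, log_one, neg_zero]
  rw [divClass_eq_prod _ T hsupp]
  exact N.prod_mem fun v hv => N.zpow_mem (hT v hv) _

/-- elements whose valuations at `S` are divisible by `p` are mapped by `sClassHom F S` into any
subgroup containing all `p`-th powers -/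
theorem sClassHom_mem_of_dvd (S : Finset (HeightOneSpectrum R)) (N : Subgroup (ClassGroup R))
    (p : ℕ) (hN : ∀ C : ClassGroup R, C ^ p ∈ N) (c : Fˣ)
    (hc : ∀ v ∈ S, (p : ℤ) ∣ log (v.valuation F (c : F))) :
    sClassHom F S c ∈ N := by
  classical
  set D := divRestrict S (divOfUnit (R := R) F c) with hD
  have hdvd : ∀ v, (p : ℤ) ∣ D v := by
    intro v
    rw [hD, divRestrict, Finsupp.filter_apply]
    split_ifs with hv
    · rw [divOfUnit_apply, dvd_neg]
      exact hc v hv
    · exact dvd_zero _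
  let E : HeightOneSpectrum R →₀ ℤ := D.mapRange (fun n => n / (p : ℤ)) (Int.zero_ediv _)
  have hE : D = (p : ℤ) • E := by
    ext v
    rw [Finsupp.smul_apply, Finsupp.mapRange_apply, smul_eq_mul, Int.mul_ediv_cancel' (hdvd v)]
  rw [sClassHom_apply, ← hD, hE, divClass_smul, zpow_natCast]
  exact hN _

/-- the subgroup of `Fˣ` of elements whose valuations at all `v ∈ S` are divisible by `p` -/
def ordDvd (S : Finset (HeightOneSpectrum R)) (p : ℕ) : Subgroup Fˣ where
  carrier := {c | ∀ v ∈ S, (p : ℤ) ∣ log (v.valuation F (c : F))}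
  one_mem' := fun v _ => by simp
  mul_mem' := by
    intro a b ha hb v hv
    rw [Units.val_mul, map_mul, log_mul ((Valuation.ne_zero_iff _).mpr a.ne_zero)
      ((Valuation.ne_zero_iff _).mpr b.ne_zero)]
    exact dvd_add (ha v hv) (hb v hv)
  inv_mem' := by
    intro a ha v hv
    rw [Units.val_inv_eq_inv_val, map_inv₀, log_inv, dvd_neg]
    exact ha v hv

theorem mem_ordDvd {S : Finset (HeightOneSpectrum R)} {p : ℕ} {c : Fˣ} :
    c ∈ ordDvd F S p ↔ ∀ v ∈ S, (p : ℤ) ∣ log (v.valuation F (c : F)) := Iff.rfl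

/-- **Frame of the second inequality, abstract form.**  If `S` generates the class group, `N`
contains the classes of the primes in `T` and all `p`-th powers, then the index of `N` divides
the index of every subgroup of `Fˣ` contained in `ordDvd F S p ⊔ (S ∪ T)-units`. -/
theorem index_dvd_of_le_ordDvd_sup_unit (S T : Finset (HeightOneSpectrum R))
    (hS : ∀ C : ClassGroup R, ∃ D : HeightOneSpectrum R →₀ ℤ, D.support ⊆ S ∧ divClass D = C)
    (N : Subgroup (ClassGroup R)) (hT : ∀ q ∈ T, primeClass q ∈ N)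
    (p : ℕ) (hN : ∀ C : ClassGroup R, C ^ p ∈ N) (H : Subgroup Fˣ)
    (hH : H ≤ ordDvd F S p ⊔
      (((S : Set (HeightOneSpectrum R)) ∪ (T : Set (HeightOneSpectrum R))).unit F)) :
    N.index ∣ H.index := by
  rw [← Subgroup.index_comap_of_surjective N (sClassHom_surjective F S hS)]
  refine Subgroup.index_dvd_of_le (hH.trans (sup_le ?_ ?_))
  · intro c hc
    exact sClassHom_mem_of_dvd F S N p hN c hc
  · intro c hc
    refine sClassHom_mem_of_unit F S T N hT c fun v hvS hvT => hc v ?_
    simp only [Set.mem_union, Finset.mem_coe, not_or]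
    exact ⟨hvS, hvT⟩

end General

section NumberField

variable (p : ℕ) (F M : Type*) [Field F] [NumberField F] [Field M] [NumberField M] [Algebra F M]

/-- the class of a relative norm lies in `normClasses` -/
theorem mk0_relNorm_mem_normClasses (J : Ideal (𝓞 M)) (hJ : J ≠ ⊥) :
    ClassGroup.mk0 ⟨Ideal.relNorm (𝓞 F) J,
      mem_nonZeroDivisors_iff_ne_zero.mpr (fun h => hJ (Ideal.relNorm_eq_bot_iff.mp h))⟩ ∈
      normClasses F M :=
  Subgroup.subset_closure ⟨J, hJ, rfl⟩

/-- the class of a prime which is a norm lies in `normClasses` -/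
theorem primeClass_mem_normClasses (q : HeightOneSpectrum (𝓞 F))
    (hq : ∃ Q : Ideal (𝓞 M), Ideal.relNorm (𝓞 F) Q = q.asIdeal) :
    primeClass q ∈ normClasses F M := by
  obtain ⟨Q, hQ⟩ := hq
  have hQ0 : Q ≠ ⊥ := by
    rintro rfl
    rw [Ideal.relNorm_bot] at hQ
    exact q.ne_bot hQ.symm
  have h := mk0_relNorm_mem_normClasses F M Q hQ0
  have he : (⟨q.asIdeal, mem_nonZeroDivisors_iff_ne_zero.mpr q.ne_bot⟩ : (Ideal (𝓞 F))⁰) =
      ⟨Ideal.relNorm (𝓞 F) Q,
        mem_nonZeroDivisors_iff_ne_zero.mpr (fun h => hQ0 (Ideal.relNorm_eq_bot_iff.mp h))⟩ :=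
    Subtype.ext hQ.symm
  rwa [primeClass, he]

/-- `[M : F]`-th powers of classes lie in `normClasses` -/
theorem pow_finrank_mem_normClasses (C : ClassGroup (𝓞 F)) :
    C ^ Module.finrank F M ∈ normClasses F M := by
  obtain ⟨I, rfl⟩ := ClassGroup.mk0_surjective C
  have hI0 : (I : Ideal (𝓞 F)) ≠ ⊥ := nonZeroDivisors.ne_zero I.2
  have hJ0 : (I : Ideal (𝓞 F)).map (algebraMap (𝓞 F) (𝓞 M)) ≠ ⊥ := by
    rw [Ne, Ideal.map_eq_bot_iff_of_injective (RingOfIntegers.algebraMap.injective F M)]
    exact hI0
  have h := mk0_relNorm_mem_normClasses F M _ hJ0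
  have he : I ^ Module.finrank F M =
      (⟨Ideal.relNorm (𝓞 F) ((I : Ideal (𝓞 F)).map (algebraMap (𝓞 F) (𝓞 M))),
        mem_nonZeroDivisors_iff_ne_zero.mpr
          (fun h => hJ0 (Ideal.relNorm_eq_bot_iff.mp h))⟩ : (Ideal (𝓞 F))⁰) := by
    apply Subtype.ext
    rw [SubmonoidClass.coe_pow]
    simp only
    rw [Ideal.relNorm_algebraMap, IsFractionRing.finrank_eq (𝓞 F) F (𝓞 M) M]
  rwa [← map_pow, he]

/-- **Frame of the second inequality.**  `M / F` of degree `p`, `S` a finite set of primes
generating the class group of `F`, `T` a finite set of primes which are norms of ideals of `M`: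
then `[I_F : P_F N(I_M)]` divides the index of every subgroup `H ≤ Fˣ` contained in
`{c | ∀ v ∈ S, p ∣ ord_v c} ⊔ (S ∪ T)-units`. -/
theorem normClasses_index_dvd (hdeg : Module.finrank F M = p)
    (S T : Finset (HeightOneSpectrum (𝓞 F)))
    (hS : ∀ C : ClassGroup (𝓞 F), ∃ D : HeightOneSpectrum (𝓞 F) →₀ ℤ,
      D.support ⊆ S ∧ divClass D = C)
    (hT : ∀ q ∈ T, ∃ Q : Ideal (𝓞 M), Ideal.relNorm (𝓞 F) Q = q.asIdeal)
    (H : Subgroup Fˣ)
    (hH : H ≤ ordDvd F S p ⊔
      (((S : Set (HeightOneSpectrum (𝓞 F))) ∪ (T : Set (HeightOneSpectrum (𝓞 F)))).unit F)) :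
    (normClasses F M).index ∣ H.index :=
  index_dvd_of_le_ordDvd_sup_unit F S T hS (normClasses F M)
    (fun q hq => primeClass_mem_normClasses F M q (hT q hq)) p
    (fun C => hdeg ▸ pow_finrank_mem_normClasses F M C) H hH

end NumberField

end Fermat.Agent.CFT
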