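import Mathlib
import Fermat.Agent.CFT.Global.SecondIneqFrame
import Fermat.Agent.CFT.Global.PowCongr

set_option autoImplicit false

/-!
# CFT stream [C] Global: bridges for the assembly of the second inequality

* `powCongr_le_ordDvd`, `iInf_powCongr_le_ordDvd` : `W = ⨅_{v ∈ S} powCongr v p (k v)` is
  contained in `ordDvd F S p` (the input `hH` of `normClasses_index_dvd`);
* `exists_finset_generating_superset` : a finite set of primes containing a given finite set and
  generating the class group (`divClass` form);
* `closure_primeClass_eq_top_iff` : the `divClass` form of "`S` generates the class group" is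
  equivalent to `Subgroup.closure {[v] | v ∈ S} = ⊤`.
-/

open IsDedekindDomain HeightOneSpectrum WithZero

namespace Fermat.Agent.CFT

variable {R : Type*} [CommRing R] [IsDedekindDomain R]
variable (F : Type*) [Field F] [Algebra R F] [IsFractionRing R F]

/-- elements of `powCongr v p k` have valuation at `v` divisible by `p` -/
theorem dvd_log_valuation_of_mem_powCongr (v : HeightOneSpectrum R) (p k : ℕ) {c : Fˣ}
    (hc : c ∈ powCongr (F := F) v p k) : (p : ℤ) ∣ log (v.valuation F (c : F)) := by
  obtain ⟨y, hy⟩ := (mem_powCongr_iff' v).mp hc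
  have h1 : v.valuation F ((c / y ^ p : Fˣ) : F) = 1 := ((mem_localUnits_iff v).mp hy).1
  have h2 : (c : F) = ((c / y ^ p : Fˣ) : F) * (y : F) ^ p := by
    rw [Units.val_div_eq_div_val, Units.val_pow_eq_pow_val,
      div_mul_cancel₀ _ (pow_ne_zero p y.ne_zero)]
  rw [h2, map_mul, h1, one_mul, map_pow, log_pow]
  exact ⟨log (v.valuation F (y : F)), by rw [nsmul_eq_mul]⟩

theorem powCongr_le_ordDvd (v : HeightOneSpectrum R) (p k : ℕ) :
    powCongr (F := F) v p k ≤ ordDvd F {v} p := by
  intro c hc w hw
  rw [Finset.mem_singleton] at hw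
  subst hw
  exact dvd_log_valuation_of_mem_powCongr F w p k hc

/-- `W = ⨅_{v ∈ S} powCongr v p (k v) ≤ ordDvd F S p` -/
theorem iInf_powCongr_le_ordDvd (S : Finset (HeightOneSpectrum R)) (p : ℕ)
    (k : HeightOneSpectrum R → ℕ) :
    (⨅ v ∈ S, powCongr (F := F) v p (k v)) ≤ ordDvd F S p := by
  intro c hc v hv
  simp only [Subgroup.mem_iInf] at hc
  exact dvd_log_valuation_of_mem_powCongr F v p (k v) (hc v hv)

/-- a finite set of primes containing `B` and generating the class group -/
theorem exists_finset_generating_superset [Finite (ClassGroup R)]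
    (B : Finset (HeightOneSpectrum R)) :
    ∃ S : Finset (HeightOneSpectrum R), B ⊆ S ∧ ∀ C : ClassGroup R,
      ∃ D : HeightOneSpectrum R →₀ ℤ, D.support ⊆ S ∧ divClass D = C := by
  classical
  obtain ⟨S0, hS0⟩ := exists_finset_forall_exists_divClass_eq (R := R)
  refine ⟨B ∪ S0, Finset.subset_union_left, fun C => ?_⟩
  obtain ⟨D, hD, rfl⟩ := hS0 C
  exact ⟨D, hD.trans Finset.subset_union_right, rfl⟩

/-- the two forms of "`S` generates the class group" -/
theorem closure_primeClass_eq_top_iff (S : Finset (HeightOneSpectrum R)) :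
    Subgroup.closure {c : ClassGroup R | ∃ v ∈ S, c = primeClass v} = ⊤ ↔
      ∀ C : ClassGroup R, ∃ D : HeightOneSpectrum R →₀ ℤ, D.support ⊆ S ∧ divClass D = C := by
  classical
  constructor
  · intro h C
    have hC : C ∈ Subgroup.closure {c : ClassGroup R | ∃ v ∈ S, c = primeClass v} := by
      rw [h]; exact Subgroup.mem_top C
    induction hC using Subgroup.closure_induction with
    | mem c hc =>
      obtain ⟨v, hv, rfl⟩ := hc
      refine ⟨Finsupp.single v 1, ?_, by rw [divClass_single, zpow_one]⟩
      exact (Finsupp.support_single_subset).trans (Finset.singleton_subset_iff.mpr hv)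
    | one => exact ⟨0, by simp, divClass_zero⟩
    | mul a b _ _ ha hb =>
      obtain ⟨Da, hDa, rfl⟩ := ha
      obtain ⟨Db, hDb, rfl⟩ := hb
      exact ⟨Da + Db, (Finsupp.support_add).trans (Finset.union_subset hDa hDb),
        divClass_add Da Db⟩
    | inv a _ ha =>
      obtain ⟨Da, hDa, rfl⟩ := ha
      exact ⟨-Da, by rwa [Finsupp.support_neg], divClass_neg Da⟩
  · intro h
    rw [eq_top_iff]
    intro C _
    obtain ⟨D, hD, rfl⟩ := h C
    rw [divClass_eq_prod D S hD]
    refine Subgroup.prod_mem _ fun v hv => Subgroup.zpow_mem _ ?_ _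
    exact Subgroup.subset_closure ⟨v, hv, rfl⟩

end Fermat.Agent.CFT
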