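import Mathlib

set_option autoImplicit false

/-!
# CFT stream [C] Global: the index count of the second inequality (pure group theory)

`X` a commutative group (`Fˣ`), `W U ≤ X`.  If `[X : W] ≤ p ^ (m + 1)`, `[U : U ^ p] ≥ p ^ m`
and `U ∩ W ⊆ U ^ p`, then `[X : W U] ≤ p`.
-/

namespace Fermat.Agent.CFT

variable {X : Type*} [CommGroup X]

/-- `[U : U ∩ W] ≥ [U : U ^ p]` when `U ∩ W ⊆ U ^ p` and the former is finite -/
theorem le_relIndex_of_inf_le_pow (W U : Subgroup X) (p : ℕ) (hWU : W.relIndex U ≠ 0)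
    (hUW : ∀ u : U, (u : X) ∈ W → ∃ u' : U, u' ^ p = u) :
    (powMonoidHom p : ↥U →* ↥U).range.index ≤ W.relIndex U := by
  have hle : W.subgroupOf U ≤ (powMonoidHom p : ↥U →* ↥U).range := by
    intro u hu
    obtain ⟨u', hu'⟩ := hUW u (Subgroup.mem_subgroupOf.mp hu)
    exact ⟨u', hu'⟩
  exact Nat.le_of_dvd (Nat.pos_of_ne_zero hWU) (Subgroup.index_dvd_of_le hle)

/-- **The index count of the second inequality.** -/
theorem index_sup_le_of_count (W U : Subgroup X) (p m : ℕ) (hp : 0 < p)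
    (hW0 : W.index ≠ 0) (hW : W.index ≤ p ^ (m + 1))
    (hU : p ^ m ≤ (powMonoidHom p : ↥U →* ↥U).range.index)
    (hUW : ∀ u : U, (u : X) ∈ W → ∃ u' : U, u' ^ p = u) :
    (W ⊔ U).index ≠ 0 ∧ (W ⊔ U).index ≤ p := by
  have h1 : W.relIndex (W ⊔ U) * (W ⊔ U).index = W.index :=
    Subgroup.relIndex_mul_index le_sup_left
  have h2 : W.relIndex (W ⊔ U) = W.relIndex U := Subgroup.relIndex_sup_left U W
  rw [h2] at h1
  have hWU : W.relIndex U ≠ 0 := fun h => hW0 (by rw [← h1, h, zero_mul])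
  have hsup : (W ⊔ U).index ≠ 0 := fun h => hW0 (by rw [← h1, h, mul_zero])
  refine ⟨hsup, ?_⟩
  have h3 : p ^ m ≤ W.relIndex U := hU.trans (le_relIndex_of_inf_le_pow W U p hWU hUW)
  have h4 : p ^ m * (W ⊔ U).index ≤ p ^ m * p := by
    calc p ^ m * (W ⊔ U).index ≤ W.relIndex U * (W ⊔ U).index := Nat.mul_le_mul_right _ h3
      _ = W.index := h1
      _ ≤ p ^ (m + 1) := hW
      _ = p ^ m * p := pow_succ p m
  exact Nat.le_of_mul_le_mul_left h4 (pow_pos hp m)

end Fermat.Agent.CFT
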