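import Mathlib
import Fermat.Agent.CFT.Global.Contracts
import Fermat.Agent.CFT.Global.SecondIneqFrame
import Fermat.Agent.CFT.Global.SecondIneqCount
import Fermat.Agent.CFT.Global.SecondIneqBridge
import Fermat.Agent.CFT.Global.ExistsT
import Fermat.Agent.CFT.Global.ExistsTSep
import Fermat.Agent.CFT.Global.PowCongrGlobal
import Fermat.Agent.CFT.Global.SUnitCount
import Fermat.Agent.CFT.Global.KummerField
import Fermat.Agent.CFT.Global.WeakApprox

/-!
# CFT, stream [C], (G6): assembly of the second inequality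

`F ∋ ζ_p` a number field, `M / F` unramified cyclic of degree `p` (`p` odd).  Then
`[I_F : P_F N(I_M)] ≤ p` (`SecondIneq p F M` of `Contracts.lean`).
-/

set_option autoImplicit false
set_option linter.unusedSectionVars false
set_option linter.style.haveILetI false

open NumberField IsDedekindDomain
open scoped IntermediateField

namespace Fermat.Agent.CFT

/-! ### primes which split completely are relative norms -/

section Split

variable {F M : Type*} [Field F] [NumberField F] [Field M] [NumberField M] [Algebra F M]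
  [IsGalois F M] {p : ℕ}

/-- If `a` is a `p`-th power modulo `v ∤ p a` then `v` is the relative norm of a prime of
`M = F(a^{1/p})`. -/
theorem exists_relNorm_eq_of_isPow_mod (hp : p.Prime) {ζ : F} (hζ : IsPrimitiveRoot ζ p)
    (hdeg : Module.finrank F M = p) {θ : M} {u : F} (hθ : θ ^ p = algebraMap F M u)
    (hθF : θ ∉ Set.range (algebraMap F M)) (v : HeightOneSpectrum (𝓞 F))
    (hvp : v.valuation F (p : F) = 1) (hvu : v.valuation F u = 1)
    (hy : ∃ y : F, v.valuation F (u - y ^ p) < 1) :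
    ∃ Q : Ideal (𝓞 M), Ideal.relNorm (𝓞 F) Q = v.asIdeal := by
  obtain ⟨hef, -⟩ := kummer_splits_of_isPow_mod hp hζ hdeg hθ hθF v hvp hvu hy
  have hf : v.asIdeal.inertiaDegIn (𝓞 M) = 1 := Nat.eq_one_of_mul_eq_one_left hef
  haveI : v.asIdeal.IsMaximal := v.isMaximal
  obtain ⟨⟨Q, hQp, hQl⟩⟩ := v.asIdeal.nonempty_primesOver (S := 𝓞 M)
  haveI : Q.IsPrime := hQp
  haveI : Q.LiesOver v.asIdeal := hQl
  haveI : Q.IsMaximal := Ideal.IsMaximal.of_liesOver_isMaximal Q v.asIdeal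
  refine ⟨Q, ?_⟩
  rw [Ideal.relNorm_eq_pow_of_isMaximal Q v.asIdeal,
    ← Ideal.inertiaDegIn_eq_inertiaDeg v.asIdeal Q Gal(M/F), hf, pow_one]

/-- integral Kummer data for `M = F(θ)`, `θ ^ p = u`. -/
theorem exists_isKummerGen_global (hp : p.Prime) {ζ : F} (hζ : IsPrimitiveRoot ζ p)
    (hdeg : Module.finrank F M = p) {θ : M} {u : F} (hθ : θ ^ p = algebraMap F M u)
    (hθF : θ ∉ Set.range (algebraMap F M)) :
    ∃ (ζ' a d : 𝓞 F) (α : 𝓞 M), IsKummerGen p ζ' a α ∧ d ≠ 0 ∧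
      algebraMap (𝓞 F) F a = algebraMap (𝓞 F) F d ^ p * u ∧ algebraMap (𝓞 F) F ζ' = ζ ∧
      algebraMap (𝓞 M) M α = algebraMap F M (algebraMap (𝓞 F) F d) * θ := by
  obtain ⟨n, d, hd, hnd⟩ := IsFractionRing.div_surjective (A := 𝓞 F) u
  have hd0 : d ≠ 0 := nonZeroDivisors.ne_zero hd
  have hdF : algebraMap (𝓞 F) F d ≠ 0 := by
    rwa [Ne, map_eq_zero_iff _ (FaithfulSMul.algebraMap_injective (𝓞 F) F)]
  have hp1 : 1 ≤ p := hp.pos
  have ha : algebraMap (𝓞 F) F (n * d ^ (p - 1)) = algebraMap (𝓞 F) F d ^ p * u := by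
    have h1 : algebraMap (𝓞 F) F d ^ p =
        algebraMap (𝓞 F) F d ^ (p - 1) * algebraMap (𝓞 F) F d := by
      rw [← pow_succ, Nat.sub_add_cancel hp1]
    rw [map_mul, map_pow, h1, ← hnd]
    field_simp
  have hαint : IsIntegral ℤ (algebraMap F M (algebraMap (𝓞 F) F d) * θ) := by
    apply IsIntegral.of_pow hp.pos
    rw [mul_pow, hθ, ← map_pow, ← map_mul, ← ha]
    exact (RingOfIntegers.isIntegral_coe (n * d ^ (p - 1))).map
      ((Algebra.ofId F M).restrictScalars ℤ)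
  refine ⟨⟨ζ, hζ.isIntegral hp.pos⟩, n * d ^ (p - 1), d, ⟨_, hαint⟩, ⟨?_, ?_, ?_⟩, hd0, ha, rfl,
    rfl⟩
  · refine IsPrimitiveRoot.of_map_of_injective (f := algebraMap (𝓞 F) F) ?_
      (FaithfulSMul.algebraMap_injective (𝓞 F) F)
    exact hζ
  · apply RingOfIntegers.ext
    show (algebraMap F M (algebraMap (𝓞 F) F d) * θ) ^ p =
      algebraMap F M (algebraMap (𝓞 F) F (n * d ^ (p - 1)))
    rw [mul_pow, hθ, ← map_pow, ← map_mul, ← ha]
  · intro τ hτ
    apply eq_one_of_fixes_of_prime_degree hp hdeg hθF τ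
    have h1 := congrArg (fun x : 𝓞 M => (x : M)) hτ
    have h2 : τ (algebraMap F M (algebraMap (𝓞 F) F d) * θ) =
        algebraMap F M (algebraMap (𝓞 F) F d) * θ := h1
    rw [map_mul, τ.commutes] at h2
    have hd0' : algebraMap F M (algebraMap (𝓞 F) F d) ≠ 0 := by
      rw [Ne, map_eq_zero]
      exact hdF
    exact mul_left_cancel₀ hd0' h2

end Split

/-! ### the remaining input (Lemma B), as a contract, and the assembly -/

section Assembly

variable (p : ℕ) (F M : Type*) [Field F] [NumberField F] [Field M] [NumberField M] [Algebra F M]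
  [IsGalois F M]

/-- Lemma B of the second inequality: an `S ∪ T`-unit which is a local `p`-th power at `S`
(up to high congruence) is a `p`-th power.  Hypotheses: `p` odd prime, `ζ_p ∈ F`; `S`, `T` disjoint
finite sets of primes, `S` contains the primes over `p` and generates the class group;
`k v` large (`p e_v < (p - 1) k_v`); the `S`-units surject onto `∏_{v ∈ T} U_v / U_v^p`. -/
def SecondIneqLemmaB : Prop :=
  p.Prime → p ≠ 2 → (∃ ζ : F, IsPrimitiveRoot ζ p) →
  ∀ (S T : Finset (HeightOneSpectrum (𝓞 F))), Disjoint S T →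
    (∀ v : HeightOneSpectrum (𝓞 F), v.valuation F (p : F) ≠ 1 → v ∈ S) →
    (∀ C : ClassGroup (𝓞 F), ∃ D : HeightOneSpectrum (𝓞 F) →₀ ℤ,
      D.support ⊆ S ∧ divClass D = C) →
    ∀ k : HeightOneSpectrum (𝓞 F) → ℕ, (∀ v ∈ S, p * natOrdAt v p < (p - 1) * k v) →
    (∀ c : HeightOneSpectrum (𝓞 F) → Fˣ, (∀ v ∈ T, c v ∈ vUnits v) →
        ∃ u ∈ sUnit F S, ∀ v ∈ T,
          ∃ y : F, v.valuation F ((u : F) / (c v : F) - y ^ p) < 1) →
    ∀ x : Fˣ, (∀ v : HeightOneSpectrum (𝓞 F), v ∉ S → v ∉ T → v.valuation F (x : F) = 1) →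
      (∀ v ∈ S, x ∈ powCongr (F := F) v p (k v)) → ∃ y : Fˣ, y ^ p = x

variable {p F M}

/-- **Second inequality**, from Lemma B. -/
theorem secondIneq_of_lemmaB (hLB : SecondIneqLemmaB p F) : SecondIneq p F M := by
  classical
  intro hs
  obtain ⟨hp, hp2, ⟨ζ, hζ⟩, hcard, -⟩ := hs
  haveI : Fact p.Prime := ⟨hp⟩
  have h2p : 2 < p := lt_of_le_of_ne hp.two_le (Ne.symm hp2)
  have hdeg : Module.finrank F M = p := by rw [← IsGalois.card_aut_eq_finrank, hcard]
  have hnt : Nat.card Gal(M/F) ≠ 1 := by rw [hcard]; exact hp.one_lt.ne'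
  -- Kummer generator
  haveI : IsCyclic Gal(M/F) := isCyclic_of_prime_card hcard
  have hK : (primitiveRoots (Module.finrank F M) F).Nonempty := by
    rw [hdeg]
    exact ⟨ζ, (mem_primitiveRoots hp.pos).mpr hζ⟩
  obtain ⟨θ₀, ⟨a₀, ha₀⟩, hθtop⟩ := exists_root_adjoin_eq_top_of_isCyclic F M hK
  rw [hdeg] at ha₀
  have hθ₀F : θ₀ ∉ Set.range (algebraMap F M) := by
    rintro ⟨x, rfl⟩
    have hbot : F⟮algebraMap F M x⟯ = ⊥ :=
      IntermediateField.adjoin_simple_eq_bot_iff.mpr (IntermediateField.algebraMap_mem ⊥ x)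
    rw [hbot] at hθtop
    have h1 : Module.finrank F M = 1 := IntermediateField.bot_eq_top_iff_finrank_eq_one.mp hθtop
    rw [hdeg] at h1
    exact hp.one_lt.ne' h1
  have ha₀0 : a₀ ≠ 0 := by
    rintro rfl
    rw [map_zero] at ha₀
    apply hθ₀F
    exact ⟨0, by rw [map_zero]; exact ((pow_eq_zero_iff hp.ne_zero).mp ha₀.symm).symm⟩
  -- integral Kummer data
  obtain ⟨ζ', a₁, d, α, hKG, hd0, ha₁, -, hα⟩ :=
    exists_isKummerGen_global hp hζ hdeg ha₀.symm hθ₀F
  have hdF : algebraMap (𝓞 F) F d ≠ 0 := by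
    rwa [Ne, map_eq_zero_iff _ (FaithfulSMul.algebraMap_injective (𝓞 F) F)]
  have ha₁F : (a₁ : F) ≠ 0 := by
    show algebraMap (𝓞 F) F a₁ ≠ 0
    rw [ha₁]
    exact mul_ne_zero (pow_ne_zero p hdF) ha₀0
  have ha₁0 : a₁ ≠ 0 := by
    rintro rfl
    exact ha₁F (map_zero _)
  set θ : M := algebraMap (𝓞 M) M α with hθdef
  have hθ : θ ^ p = algebraMap F M (a₁ : F) := by
    have h1 : algebraMap F M (a₁ : F) = ((algebraMap (𝓞 F) (𝓞 M) a₁ : 𝓞 M) : M) := rfl
    rw [h1, ← hKG.pow]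
    rfl
  have hθF : θ ∉ Set.range (algebraMap F M) := by
    rintro ⟨x, hx⟩
    apply hθ₀F
    refine ⟨x / algebraMap (𝓞 F) F d, ?_⟩
    have hdM : algebraMap F M (algebraMap (𝓞 F) F d) ≠ 0 := by
      rw [Ne, map_eq_zero]
      exact hdF
    rw [map_div₀, hx, hα, mul_comm, mul_div_assoc, div_self hdM, mul_one]
  set a : Fˣ := Units.mk0 (a₁ : F) ha₁F with ha
  have haa : (a : F) = (a₁ : F) := rfl
  have hp0F : (p : F) ≠ 0 := Nat.cast_ne_zero.mpr hp.ne_zero
  -- the set `S`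
  set B₀ : Finset (HeightOneSpectrum (𝓞 F)) :=
    (finite_setOf_valuation_ne_one (R := 𝓞 F) F hp0F).toFinset ∪
      (finite_setOf_valuation_ne_one (R := 𝓞 F) F a.ne_zero).toFinset with hB₀
  obtain ⟨S, hB₀S, hS⟩ := exists_finset_generating_superset (R := 𝓞 F) B₀
  have hSp : ∀ v : HeightOneSpectrum (𝓞 F), v.valuation F (p : F) ≠ 1 → v ∈ S := by
    intro v hv
    apply hB₀S
    rw [hB₀, Finset.mem_union]
    left
    rw [Set.Finite.mem_toFinset]
    exact hv
  have hSa : ∀ v : HeightOneSpectrum (𝓞 F), v ∉ S → v.valuation F (a : F) = 1 := by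
    intro v hv
    by_contra hne
    apply hv
    apply hB₀S
    rw [hB₀, Finset.mem_union]
    right
    rw [Set.Finite.mem_toFinset]
    exact hne
  have hSp' : ∀ v : HeightOneSpectrum (𝓞 F), v ∉ S → v.valuation F (p : F) = 1 := by
    intro v hv
    by_contra hne
    exact hv (hSp v hne)
  have haU : a ∈ sUnit F S := (mem_sUnit_iff F S a).mpr hSa
  -- the set `T`
  set s : ℕ := S.card + Fintype.card (InfinitePlace F) with hs
  have hUidx : (powMonoidHom p : sUnit F S →* sUnit F S).range.index = p ^ s :=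
    index_range_powMonoidHom_sUnit F S hζ
  obtain ⟨hs1, T, hTcard, hTS, hTa, -, hTsurj⟩ :=
    hKG.exists_finset_primes_sUnit hp ha₁0 hnt (degreeOneNotPow_contract hp M) S a haa haU
      (fun v hv => natCast_not_mem_of_valuation v (hSp' v hv)) hUidx
  obtain ⟨m, hsm⟩ : ∃ m, s = m + 1 := ⟨s - 1, (Nat.succ_pred_eq_of_pos hs1).symm⟩
  have hTcard' : T.card = m := by rw [hTcard, hsm, Nat.add_sub_cancel]
  have hST : Disjoint S T := hTS.symm
  have hTnotS : ∀ v ∈ T, v ∉ S := fun v hv hvS => (Finset.disjoint_left.mp hTS hv) hvS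
  -- the primes of `T` are norms
  have hTnorm : ∀ q ∈ T, ∃ Q : Ideal (𝓞 M), Ideal.relNorm (𝓞 F) Q = q.asIdeal := by
    intro q hq
    exact exists_relNorm_eq_of_isPow_mod hp hζ hdeg hθ hθF q (hSp' q (hTnotS q hq))
      (hSa q (hTnotS q hq)) (hTa q hq)
  -- the group `W`
  set k : HeightOneSpectrum (𝓞 F) → ℕ := fun v => p * natOrdAt v p + 1 with hk
  have hkS : ∀ v ∈ S, p * natOrdAt v p < (p - 1) * k v := by
    intro v _
    have h1 : 1 ≤ p - 1 := by omega
    calc p * natOrdAt v p < 1 * (p * natOrdAt v p + 1) := by omega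
      _ ≤ (p - 1) * (p * natOrdAt v p + 1) := Nat.mul_le_mul_right _ h1
  set W : Subgroup Fˣ := ⨅ v ∈ S, powCongr (F := F) v p (k v) with hW
  obtain ⟨hW0, hWle⟩ := index_iInf_powCongr_le hp hζ S hSp k hkS
  -- the `S ∪ T`-units
  have hcoe : ((S ∪ T : Finset (HeightOneSpectrum (𝓞 F))) : Set (HeightOneSpectrum (𝓞 F))) =
      (S : Set (HeightOneSpectrum (𝓞 F))) ∪ (T : Set (HeightOneSpectrum (𝓞 F))) :=
    Finset.coe_union S T
  set U' : Subgroup Fˣ := sUnit F (S ∪ T) with hU'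
  have hmemU' : ∀ x : Fˣ, x ∈ U' ↔
      ∀ v : HeightOneSpectrum (𝓞 F), v ∉ S → v ∉ T → v.valuation F (x : F) = 1 := by
    intro x
    rw [hU', mem_sUnit_iff]
    constructor
    · intro h v hvS hvT
      exact h v (by rw [Finset.mem_union, not_or]; exact ⟨hvS, hvT⟩)
    · intro h v hv
      rw [Finset.mem_union, not_or] at hv
      exact h v hv.1 hv.2
  have hU'idx : (powMonoidHom p : U' →* U').range.index = p ^ (s + m) := by
    have h1 := index_range_powMonoidHom_sUnit F (S ∪ T) hζ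
    rw [Finset.card_union_of_disjoint hST, hTcard'] at h1
    have h2 : S.card + m + Fintype.card (InfinitePlace F) = s + m := by rw [hs]; ring
    rw [h2] at h1
    exact h1
  -- the count
  have hfin : Module.finrank ℚ F = 2 * Fintype.card (InfinitePlace F) := by
    rw [card_infinitePlace_eq_nrComplexPlaces F h2p hζ,
      ← InfinitePlace.card_add_two_mul_card_eq_rank,
      NumberField.InfinitePlace.IsPrimitiveRoot.nrRealPlaces_eq_zero_of_two_lt h2p hζ, zero_add]
  have hWle' : W.index ≤ p ^ (s + m + 1) := by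
    refine hWle.trans (le_of_eq ?_)
    congr 1
    rw [hfin, hs] at *
    omega
  have hUW : ∀ u : U', (u : Fˣ) ∈ W → ∃ u' : U', u' ^ p = u := by
    intro u hu
    have hx := (hmemU' (u : Fˣ)).mp u.2
    have hxW : ∀ v ∈ S, (u : Fˣ) ∈ powCongr (F := F) v p (k v) := by
      intro v hv
      rw [hW] at hu
      simp only [Subgroup.mem_iInf] at hu
      exact hu v hv
    obtain ⟨y, hy⟩ := hLB hp hp2 ⟨ζ, hζ⟩ S T hST hSp hS k hkS hTsurj (u : Fˣ) hx hxW
    have hyU' : y ∈ U' := by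
      rw [hU', ← pow_mem_sUnit_iff F (S ∪ T) hp.ne_zero, hy]
      exact u.2
    exact ⟨⟨y, hyU'⟩, Subtype.ext hy⟩
  obtain ⟨hsup0, hsuple⟩ := index_sup_le_of_count W U' p (s + m) hp.pos hW0 hWle'
    (le_of_eq hU'idx.symm) hUW
  -- the frame
  have hH : W ⊔ U' ≤ ordDvd F S p ⊔
      (((S : Set (HeightOneSpectrum (𝓞 F))) ∪ (T : Set (HeightOneSpectrum (𝓞 F)))).unit F) := by
    rw [← hcoe]
    exact sup_le_sup_right (iInf_powCongr_le_ordDvd F S p k) U'
  have hdvd := normClasses_index_dvd p F M hdeg S T hS hTnorm (W ⊔ U') hH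
  exact (Nat.le_of_dvd (Nat.pos_of_ne_zero hsup0) hdvd).trans hsuple

end Assembly

end Fermat.Agent.CFT
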