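import Mathlib
import Fermat.Agent.CFT.Global.LemmaB
import Fermat.Agent.CFT.Global.SecondIneq

set_option autoImplicit false

/-!
# CFT, stream [C], (G6): Lemma B in the contract shape of `SecondIneq.lean`, and the second
inequality from the tame first inequality

* `secondIneqLemmaB_of_tame` : `SecondIneqLemmaB p F` from `TameFirstIneq p F N` for all `N`;
* `secondIneq_of_tame` : `SecondIneq p F M` from `TameFirstIneq p F N` for all `N`.
-/

namespace Fermat.Agent.CFT

open NumberField IsDedekindDomain HeightOneSpectrum

universe u v

theorem secondIneqLemmaB_of_tame {p : ℕ} {F : Type u} [Field F] [NumberField F]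
    (hF3 : ∀ (N : Type u) [Field N] [NumberField N] [Algebra F N] [IsGalois F N],
      TameFirstIneq p F N) : SecondIneqLemmaB p F := by
  intro hp hp2 hζ S T hST hSp hS k hk hsurj x hxU hxW
  obtain ⟨ζ, hζ⟩ := hζ
  exact lemmaB_general hp hp2 hζ S T hST
    (fun v hv => by
      by_contra h
      exact hv (hSp v h))
    hS (fun v => natOrdAt v p) k (fun v _ => valuation_natCast_eq_exp v hp.ne_zero) hk
    (sUnit F S) (fun u hu v hv => (mem_sUnit_iff F S u).mp hu v hv) hsurj hF3 x hxU hxW

/-- **Second inequality** `[I_F : P_F N(I_M)] ≤ p` for unramified cyclic `M / F` of degree `p`,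
assuming the tame first inequality for all Kummer extensions of `F`. -/
theorem secondIneq_of_tame {p : ℕ} {F : Type u} [Field F] [NumberField F] {M : Type v} [Field M]
    [NumberField M] [Algebra F M] [IsGalois F M]
    (hF3 : ∀ (N : Type u) [Field N] [NumberField N] [Algebra F N] [IsGalois F N],
      TameFirstIneq p F N) : SecondIneq p F M :=
  secondIneq_of_lemmaB (secondIneqLemmaB_of_tame hF3)

end Fermat.Agent.CFT
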