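import Mathlib

/-!
# Package (CV) for the crossing (X): additive valuations `ordAt` and their Galois behaviour

(helper25, PROJECT CFT stream [C], package (CV) of helper23's msg 758)
-/

set_option autoImplicit false

namespace Fermat.Agent.CFT

open NumberField UniqueFactorizationMonoid IsDedekindDomain

open scoped Pointwise

section dedekind

variable {R : Type*} [CommRing R] [IsDedekindDomain R] {F : Type*} [Field F] [Algebra R F]
  [IsFractionRing R F]

/-- The additive `v`-adic valuation (order) of `x : F`; junk value `0` at `x = 0`. -/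
noncomputable def ordAt (v : HeightOneSpectrum R) (x : F) : ℤ :=
  -(WithZero.log (v.valuation F x))

theorem valuation_ne_zero_of_ne_zero (v : HeightOneSpectrum R) {x : F} (hx : x ≠ 0) :
    v.valuation F x ≠ 0 :=
  (Valuation.ne_zero_iff _).mpr hx

theorem ordAt_mul (v : HeightOneSpectrum R) {x y : F} (hx : x ≠ 0) (hy : y ≠ 0) :
    ordAt v (x * y) = ordAt v x + ordAt v y := by
  unfold ordAt
  rw [map_mul, WithZero.log_mul (valuation_ne_zero_of_ne_zero v hx)
    (valuation_ne_zero_of_ne_zero v hy)]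
  ring

theorem ordAt_one (v : HeightOneSpectrum R) : ordAt v (1 : F) = 0 := by
  unfold ordAt
  rw [map_one, WithZero.log_one, neg_zero]

theorem ordAt_inv (v : HeightOneSpectrum R) {x : F} (_hx : x ≠ 0) :
    ordAt v x⁻¹ = -ordAt v x := by
  unfold ordAt
  rw [map_inv₀, WithZero.log_inv]

theorem ordAt_div (v : HeightOneSpectrum R) {x y : F} (hx : x ≠ 0) (hy : y ≠ 0) :
    ordAt v (x / y) = ordAt v x - ordAt v y := by
  rw [div_eq_mul_inv, ordAt_mul v hx (inv_ne_zero hy), ordAt_inv v hy]
  ring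

theorem ordAt_pow (v : HeightOneSpectrum R) {x : F} (_hx : x ≠ 0) (n : ℕ) :
    ordAt v (x ^ n) = n * ordAt v x := by
  unfold ordAt
  rw [map_pow, WithZero.log_pow, nsmul_eq_mul]
  ring

theorem ordAt_prod (v : HeightOneSpectrum R) {ι : Type*} (s : Finset ι) (f : ι → F)
    (hf : ∀ i ∈ s, f i ≠ 0) : ordAt v (∏ i ∈ s, f i) = ∑ i ∈ s, ordAt v (f i) := by
  classical
  induction s using Finset.induction_on with
  | empty => simp [ordAt_one]
  | insert a s ha ih =>
    rw [Finset.prod_insert ha, Finset.sum_insert ha,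
      ordAt_mul v (hf a (Finset.mem_insert_self a s))
        (Finset.prod_ne_zero_iff.mpr fun i hi => hf i (Finset.mem_insert_of_mem hi)),
      ih fun i hi => hf i (Finset.mem_insert_of_mem hi)]

theorem exp_neg_ordAt (v : HeightOneSpectrum R) {x : F} (hx : x ≠ 0) :
    WithZero.exp (-(ordAt v x)) = v.valuation F x := by
  unfold ordAt
  rw [neg_neg, WithZero.exp_log (valuation_ne_zero_of_ne_zero v hx)]

theorem ordAt_eq_zero_iff (v : HeightOneSpectrum R) {x : F} (hx : x ≠ 0) :
    ordAt v x = 0 ↔ v.valuation F x = 1 := by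
  rw [← exp_neg_ordAt v hx, WithZero.exp_eq_one, neg_eq_zero]

/-- (V4) the order of an element of `R` is the multiplicity of `v` in its principal ideal. -/
theorem ordAt_algebraMap (v : HeightOneSpectrum R) {r : R} (hr : r ≠ 0) :
    ordAt v (algebraMap R F r) = ((normalizedFactors (Ideal.span {r})).count v.asIdeal : ℤ) := by
  classical
  have hsr : Ideal.span {r} ≠ 0 := Submodule.span_singleton_eq_bot.mp.mt hr
  unfold ordAt
  rw [HeightOneSpectrum.valuation_of_algebraMap, v.intValuation_if_neg hr, WithZero.log_exp,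
    neg_neg, Ideal.count_associates_factors_eq hsr v.isPrime v.ne_bot]

/-- (V5) a `v`-unit is a quotient of two elements of `R` outside `v`. -/
theorem exists_eq_div_of_valuation_eq_one (v : HeightOneSpectrum R) {x : F}
    (hx : v.valuation F x = 1) :
    ∃ r s : R, r ∉ v.asIdeal ∧ s ∉ v.asIdeal ∧ x * algebraMap R F s = algebraMap R F r := by
  obtain ⟨n, d, hnd⟩ := v.exists_primeCompl_mul_eq_of_integer x hx.le
  refine ⟨n, d, ?_, d.2, hnd⟩
  have h1 : v.valuation F (algebraMap R F n) = 1 := by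
    rw [← hnd, map_mul, hx, one_mul, HeightOneSpectrum.valuation_of_algebraMap]
    exact (v.intValuation_eq_one_iff_mem_primeCompl d).mpr d.2
  rw [HeightOneSpectrum.valuation_of_algebraMap] at h1
  exact (v.intValuation_eq_one_iff_mem_primeCompl n).mp h1

end dedekind

section withZero

open WithZero

/-- Two elements `≤ 1` of `ℤᵐ⁰` lying below the same `exp (-n)` are equal. -/
theorem eq_of_forall_le_exp_iff {a b : ℤᵐ⁰} (ha : a ≤ 1) (hb : b ≤ 1)
    (h : ∀ n : ℕ, a ≤ exp (-(n : ℤ)) ↔ b ≤ exp (-(n : ℤ))) : a = b := by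
  have key : ∀ c : ℤᵐ⁰, c ≤ 1 → c ≠ 0 → ∃ n : ℕ, c = exp (-(n : ℤ)) := by
    intro c hc hc0
    have h1 : log c ≤ 0 := by
      have : exp (log c) ≤ exp (0 : ℤ) := by rwa [exp_log hc0, exp_zero]
      exact exp_le_exp.mp this
    refine ⟨(-log c).toNat, ?_⟩
    rw [Int.toNat_of_nonneg (by omega), neg_neg, exp_log hc0]
  have key0 : ∀ c : ℤᵐ⁰, (∀ n : ℕ, c ≤ exp (-(n : ℤ))) → c = 0 := by
    intro c hc
    by_contra hc0
    have hc1 : c ≤ 1 := by simpa using hc 0
    obtain ⟨n, hn⟩ := key c hc1 hc0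
    have := hc (n + 1)
    rw [hn, exp_le_exp] at this
    push_cast at this
    omega
  have main : ∀ a b : ℤᵐ⁰, b ≤ 1 →
      (∀ n : ℕ, a ≤ exp (-(n : ℤ)) ↔ b ≤ exp (-(n : ℤ))) → a ≤ b := by
    intro a b hb h
    by_cases hb0 : b = 0
    · subst hb0
      have : a = 0 := key0 a (fun n => (h n).mpr zero_le)
      rw [this]
    · obtain ⟨n, hn⟩ := key b hb hb0
      rw [hn]
      exact (h n).mpr hn.le
  exact le_antisymm (main a b hb h) (main b a ha fun n => (h n).symm)

end withZero

section galois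

variable {K M : Type*} [Field K] [NumberField K] [Field M] [NumberField M] [Algebra K M]
  [IsGalois K M]

omit [NumberField K] [NumberField M] [IsGalois K M] in
theorem algebraMap_galSmul_ringOfIntegers (g : Gal(M/K)) (r : 𝓞 M) :
    algebraMap (𝓞 M) M (g • r) = g (algebraMap (𝓞 M) M r) := rfl

omit [NumberField K] [IsGalois K M] in
/-- integral version of (V2) -/
theorem intValuation_smul_eq (Q : HeightOneSpectrum (𝓞 M)) (g : Gal(M/K))
    (hg : g • Q.asIdeal = Q.asIdeal) (r : 𝓞 M) :
    Q.intValuation (g • r) = Q.intValuation r := by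
  refine eq_of_forall_le_exp_iff (Q.intValuation_le_one _) (Q.intValuation_le_one _) fun n => ?_
  rw [Q.intValuation_le_pow_iff_mem, Q.intValuation_le_pow_iff_mem]
  have h1 : g • (Q.asIdeal ^ n) = Q.asIdeal ^ n := by rw [smul_pow', hg]
  conv_lhs => rw [← h1]
  exact Ideal.smul_mem_pointwise_smul_iff

omit [NumberField K] [IsGalois K M] in
/-- (V2) an automorphism stabilizing `Q` preserves the `Q`-adic valuation. -/
theorem valuation_smul_eq (Q : HeightOneSpectrum (𝓞 M)) (g : Gal(M/K))
    (hg : g • Q.asIdeal = Q.asIdeal) (x : M) : Q.valuation M (g x) = Q.valuation M x := by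
  obtain ⟨u, w, hw, rfl⟩ := IsFractionRing.div_surjective (A := 𝓞 M) x
  rw [map_div₀, map_div₀, map_div₀, ← algebraMap_galSmul_ringOfIntegers,
    ← algebraMap_galSmul_ringOfIntegers, HeightOneSpectrum.valuation_of_algebraMap,
    HeightOneSpectrum.valuation_of_algebraMap, HeightOneSpectrum.valuation_of_algebraMap,
    HeightOneSpectrum.valuation_of_algebraMap, intValuation_smul_eq Q g hg,
    intValuation_smul_eq Q g hg]

omit [NumberField K] [IsGalois K M] in
theorem ordAt_smul_eq (Q : HeightOneSpectrum (𝓞 M)) (g : Gal(M/K))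
    (hg : g • Q.asIdeal = Q.asIdeal) (x : M) : ordAt Q (g x) = ordAt Q x := by
  unfold ordAt
  rw [valuation_smul_eq Q g hg]

/-- The ramification index is `1` when the inertia group is trivial. -/
theorem ramificationIdx'_eq_one_of_inertia_eq_bot (Q : HeightOneSpectrum (𝓞 M))
    (q : HeightOneSpectrum (𝓞 K)) [Q.asIdeal.LiesOver q.asIdeal]
    (hQ : Q.asIdeal.inertia Gal(M/K) = ⊥) : q.asIdeal.ramificationIdx' Q.asIdeal = 1 := by
  have := q.isPrime
  have := Q.isPrime
  rw [Ideal.ramificationIdx'_eq_ramificationIdx q.asIdeal Q.asIdeal q.ne_bot,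
    ← Ideal.ramificationIdxIn_eq_ramificationIdx q.asIdeal Q.asIdeal Gal(M/K),
    ← Ideal.card_inertia_eq_ramificationIdxIn (G := Gal(M/K)) q.asIdeal Q.asIdeal, hQ]
  exact Nat.card_unique

/-- (V3) at a prime with trivial inertia the valuation of `M` extends that of `K`
(no ramification exponent). -/
theorem valuation_algebraMap_eq_of_inertia_eq_bot (Q : HeightOneSpectrum (𝓞 M))
    (q : HeightOneSpectrum (𝓞 K)) [Q.asIdeal.LiesOver q.asIdeal]
    (hQ : Q.asIdeal.inertia Gal(M/K) = ⊥) (x : K) :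
    Q.valuation M (algebraMap K M x) = q.valuation K x := by
  have h1 := HeightOneSpectrum.valuation_liesOver M q Q x
  rw [← h1, ramificationIdx'_eq_one_of_inertia_eq_bot Q q hQ, pow_one]

theorem ordAt_algebraMap_eq_of_inertia_eq_bot (Q : HeightOneSpectrum (𝓞 M))
    (q : HeightOneSpectrum (𝓞 K)) [Q.asIdeal.LiesOver q.asIdeal]
    (hQ : Q.asIdeal.inertia Gal(M/K) = ⊥) (x : K) :
    ordAt Q (algebraMap K M x) = ordAt q x := by
  unfold ordAt
  rw [valuation_algebraMap_eq_of_inertia_eq_bot Q q hQ]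

end galois

end Fermat.Agent.CFT
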