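import Fermat.Agent.CFT.Global.PrimeDivisor
import Fermat.Agent.CFT.Global.PermLattice
import Fermat.Agent.CFT.Global.CrossVal

set_option autoImplicit false
set_option linter.unusedSectionVars false

/-!
# CFT [C] (helper15): Galois invariants, norms and `Ĥ⁻¹` of the divisor group of `M / F`

`M / F` a Galois extension of number fields with group `G = Gal(M/F)`, acting on the primes of `M`
(`heightOneSpectrumMulAction`) and on the divisors `HeightOneSpectrum (𝓞 M) →₀ ℤ` by
`(g • D) w = D (g⁻¹ • w)` (`Finsupp.comapDistribMulAction`, used as a local instance).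

* abstract part (any finite group acting on a set `X`, finitely supported functions `X →₀ ℤ`):
  `finsupp_smul_eq_self_iff` (invariants are constant on orbits), `normHom_finsupp_single_apply`,
  `exists_subOneHom_eq_of_normHom_eq_zero` (`ker N ≤ range (σ - 1)` with control of the support);
* `divExt F M` : pullback of divisors of `F` to `M` (the extension of divisors at unramified
  primes), injective, with Galois-invariant values;
* **(U1)** `exists_divExt_eq_of_smul_eq` : a Galois-invariant divisor is a pullback;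
* `divNorm F M` (`w ↦ f(w|q) q`, matches `Ideal.relNorm`), `divNormStab F M` (`w ↦ |Stab w| q`);
* **(U2)** `normHom_eq_divExt_divNormStab` (always) and `normHom_eq_divExt_divNorm` (divisor
  supported at unramified primes): the `G`-norm is the pullback of the relative norm;
* **(U3)** `exists_subOneHom_eq_of_mem_divOutside` : `ker N ≤ range (σ - 1)` on divisors
  supported outside the primes above a set `R` of primes of `F`;
* `divOutside F M R`, its stability properties, `(U1)` relative to `R`;
* `divHom_algebraMap_eq_divExt` : principal divisors of `F` extend to principal divisors of `M`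
  (unramified case), `divHom_units_map_smul` : equivariance of the divisor map of `M`.
-/

namespace Fermat.Agent.CFT

open scoped BigOperators Pointwise
open Finset Function MulAction

section Abstract

variable {G : Type*} [Group G] [Fintype G] {X : Type*} [MulAction G X]

attribute [local instance] Finsupp.comapSMul Finsupp.comapMulAction Finsupp.comapDistribMulAction

theorem normHom_finsupp_apply (D : X →₀ ℤ) (x : X) :
    normHom G (X →₀ ℤ) D x = ∑ g : G, D (g⁻¹ • x) := by
  rw [normHom_apply, Finsupp.finsetSum_apply]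
  simp only [Finsupp.comapSMul_apply]

theorem normHom_finsupp_eq_permNorm (D : X →₀ ℤ) :
    ⇑(normHom G (X →₀ ℤ) D) = permNorm G (⇑D) := by
  funext x
  rw [normHom_finsupp_apply, permNorm_apply]

omit [Fintype G] in
theorem subOneHom_finsupp_apply (σ : G) (D : X →₀ ℤ) (x : X) :
    subOneHom (X →₀ ℤ) σ D x = D (σ⁻¹ • x) - D x := by
  rw [subOneHom_apply, Finsupp.sub_apply, Finsupp.comapSMul_apply]

omit [Fintype G] in
/-- (A-U1) invariant finitely supported functions are constant on orbits. -/
theorem finsupp_smul_eq_self_iff (D : X →₀ ℤ) :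
    (∀ g : G, g • D = D) ↔ ∀ (g : G) (x : X), D (g • x) = D x := by
  constructor
  · intro h g x
    have := DFunLike.congr_fun (h g⁻¹) x
    rw [Finsupp.comapSMul_apply, inv_inv] at this
    exact this
  · intro h g
    ext x
    rw [Finsupp.comapSMul_apply, h]

open scoped Classical in
/-- (A-U2) the norm of a single point. -/
theorem normHom_finsupp_single_apply (y : X) (n : ℤ) (x : X) :
    normHom G (X →₀ ℤ) (Finsupp.single y n) x =
      if y ∈ orbit G x then (Nat.card (stabilizer G y) : ℤ) * n else 0 := by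
  classical
  rw [normHom_finsupp_apply]
  simp only [Finsupp.single_apply]
  rw [← Finset.sum_filter, Finset.sum_const]
  have h1 : (univ.filter fun g : G => y = g⁻¹ • x) = univ.filter fun g : G => g⁻¹ • x = y := by
    ext g
    simp only [mem_filter, mem_univ, true_and]
    exact eq_comm
  rw [h1, card_filter_inv_smul_eq]
  split_ifs <;> simp

/-- (A-U3) `Ĥ⁻¹ = 0` for finitely supported functions on a `G`-set, with control of the support. -/
theorem exists_subOneHom_eq_of_normHom_eq_zero {σ : G} (hσ : ∀ τ, τ ∈ Subgroup.zpowers σ)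
    (D : X →₀ ℤ) (hD : normHom G (X →₀ ℤ) D = 0) :
    ∃ D' : X →₀ ℤ, (∀ x, D' x ≠ 0 → ∃ g : G, D (g • x) ≠ 0) ∧ subOneHom (X →₀ ℤ) σ D' = D := by
  classical
  have hN : permNorm G (⇑D) = 0 := by
    rw [← normHom_finsupp_eq_permNorm, hD]
    rfl
  obtain ⟨ψ, hψ⟩ := ker_permNorm_le_range_permSubOne hσ (show (⇑D) ∈ (permNorm G (X := X)).ker from hN)
  have hψ' : ∀ x, ψ (σ⁻¹ • x) - ψ x = D x := fun x => by
    have := congrFun hψ x
    rwa [permSubOne_apply] at this
  set S : Set X := {x | ∃ g : G, D (g • x) ≠ 0} with hS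
  have hSfin : S.Finite := by
    have : S ⊆ ⋃ g : G, (fun y => g⁻¹ • y) '' (D.support : Set X) := by
      rintro x ⟨g, hg⟩
      refine Set.mem_iUnion.mpr ⟨g, g • x, ?_, inv_smul_smul g x⟩
      exact Finsupp.mem_support_iff.mpr hg
    exact (Set.finite_iUnion fun g => (D.support.finite_toSet.image _)).subset this
  have hSstable : ∀ (τ : G) (x : X), τ • x ∈ S ↔ x ∈ S := by
    intro τ x
    constructor
    · rintro ⟨g, hg⟩
      exact ⟨g * τ, by rwa [mul_smul]⟩
    · rintro ⟨g, hg⟩
      exact ⟨g * τ⁻¹, by rwa [mul_smul, inv_smul_smul]⟩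
  have hfin : (Function.support fun x => if x ∈ S then ψ x else 0).Finite := by
    refine hSfin.subset fun x hx => ?_
    by_contra hxS
    exact hx (if_neg hxS)
  refine ⟨Finsupp.ofSupportFinite _ hfin, ?_, ?_⟩
  · intro x hx
    by_contra hcon
    apply hx
    show (if x ∈ S then ψ x else 0) = 0
    exact if_neg hcon
  · ext x
    rw [subOneHom_finsupp_apply]
    show (if σ⁻¹ • x ∈ S then ψ (σ⁻¹ • x) else 0) - (if x ∈ S then ψ x else 0) = D x
    by_cases hx : x ∈ S
    · rw [if_pos hx, if_pos ((hSstable σ⁻¹ x).mpr hx), hψ']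
    · rw [if_neg hx, if_neg (fun h => hx ((hSstable σ⁻¹ x).mp h)), sub_zero]
      by_contra hne
      exact hx ⟨1, by rwa [one_smul, ne_comm]⟩

end Abstract

section NumberField

open IsDedekindDomain IsDedekindDomain.HeightOneSpectrum NumberField

attribute [local instance] heightOneSpectrumMulAction
attribute [local instance] Finsupp.comapSMul Finsupp.comapMulAction Finsupp.comapDistribMulAction

variable (F M : Type*) [Field F] [Field M] [NumberField F] [NumberField M] [Algebra F M]
  [IsGalois F M]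

/-- the fibres of `primeBelow` are finite. -/
theorem finite_primeBelow_fiber (q : HeightOneSpectrum (𝓞 F)) :
    {w : HeightOneSpectrum (𝓞 M) | primeBelow F M w = q}.Finite := by
  obtain ⟨w0, hw0⟩ := primeBelow_surjective F M q
  refine (Set.finite_range fun g : M ≃ₐ[F] M => g • w0).subset fun w hw => ?_
  obtain ⟨g, hg⟩ := exists_smul_eq_of_primeBelow_eq F M (hw0.trans (Eq.symm hw))
  exact ⟨g, hg.symm⟩

/-- pullback of divisors along `primeBelow` (= extension of divisors, at unramified primes). -/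
noncomputable def divExt :
    (HeightOneSpectrum (𝓞 F) →₀ ℤ) →+ (HeightOneSpectrum (𝓞 M) →₀ ℤ) where
  toFun D0 := Finsupp.ofSupportFinite (fun w => D0 (primeBelow F M w)) (by
    have : (Function.support fun w => D0 (primeBelow F M w)) ⊆
        ⋃ q ∈ (D0.support : Set (HeightOneSpectrum (𝓞 F))),
          {w : HeightOneSpectrum (𝓞 M) | primeBelow F M w = q} := by
      intro w hw
      simp only [Set.mem_iUnion]
      exact ⟨primeBelow F M w, Finsupp.mem_support_iff.mpr hw, rfl⟩
    exact (Set.Finite.biUnion D0.support.finite_toSet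
      fun q _ => finite_primeBelow_fiber F M q).subset this)
  map_zero' := by
    ext w
    rfl
  map_add' D D' := by
    ext w
    rfl

@[simp] theorem divExt_apply (D0 : HeightOneSpectrum (𝓞 F) →₀ ℤ) (w : HeightOneSpectrum (𝓞 M)) :
    divExt F M D0 w = D0 (primeBelow F M w) := rfl

theorem divExt_injective : Function.Injective (divExt F M) := by
  intro D D' h
  ext q
  obtain ⟨w, rfl⟩ := primeBelow_surjective F M q
  exact DFunLike.congr_fun h w

theorem smul_divExt (g : M ≃ₐ[F] M) (D0 : HeightOneSpectrum (𝓞 F) →₀ ℤ) :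
    g • divExt F M D0 = divExt F M D0 := by
  ext w
  rw [Finsupp.comapSMul_apply, divExt_apply, divExt_apply, primeBelow_smul]

/-- **(U1)** a Galois-invariant divisor of `M` is the pullback of a divisor of `F`. -/
theorem exists_divExt_eq_of_smul_eq (D : HeightOneSpectrum (𝓞 M) →₀ ℤ)
    (hD : ∀ g : M ≃ₐ[F] M, g • D = D) :
    ∃ D0 : HeightOneSpectrum (𝓞 F) →₀ ℤ, divExt F M D0 = D ∧
      ∀ q, D0 q ≠ 0 → ∃ w, primeBelow F M w = q ∧ D w ≠ 0 := by
  classical
  have hconst : ∀ (g : M ≃ₐ[F] M) (w : HeightOneSpectrum (𝓞 M)), D (g • w) = D w := by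
    intro g w
    have := DFunLike.congr_fun (hD g⁻¹) w
    rw [Finsupp.comapSMul_apply, inv_inv] at this
    exact this
  choose s hs using primeBelow_surjective F M
  have hfin : (Function.support fun q => D (s q)).Finite := by
    refine (D.support.finite_toSet.image (primeBelow F M)).subset fun q hq => ?_
    exact ⟨s q, Finsupp.mem_support_iff.mpr hq, hs q⟩
  refine ⟨Finsupp.ofSupportFinite _ hfin, ?_, ?_⟩
  · ext w
    rw [divExt_apply]
    show D (s (primeBelow F M w)) = D w
    obtain ⟨g, hg⟩ := exists_smul_eq_of_primeBelow_eq F M (hs (primeBelow F M w))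
    have := hconst g (s (primeBelow F M w))
    rw [← hg] at this
    exact this.symm
  · intro q hq
    exact ⟨s q, hs q, hq⟩

/-- the relative norm of divisors: `w ↦ f(w | q) · q`. -/
noncomputable def divNorm :
    (HeightOneSpectrum (𝓞 M) →₀ ℤ) →+ (HeightOneSpectrum (𝓞 F) →₀ ℤ) :=
  Finsupp.liftAddHom fun w => (Finsupp.singleAddHom (primeBelow F M w)).comp
    (AddMonoidHom.mulLeft ((w.asIdeal.inertiaDeg (𝓞 F) : ℕ) : ℤ))

/-- the stabilizer-weighted norm of divisors: `w ↦ |Stab w| · q` (`= e f · q`). -/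
noncomputable def divNormStab :
    (HeightOneSpectrum (𝓞 M) →₀ ℤ) →+ (HeightOneSpectrum (𝓞 F) →₀ ℤ) :=
  Finsupp.liftAddHom fun w => (Finsupp.singleAddHom (primeBelow F M w)).comp
    (AddMonoidHom.mulLeft ((Nat.card (stabilizer (M ≃ₐ[F] M) w) : ℕ) : ℤ))

theorem divNorm_single (w : HeightOneSpectrum (𝓞 M)) (n : ℤ) :
    divNorm F M (Finsupp.single w n) =
      Finsupp.single (primeBelow F M w) ((w.asIdeal.inertiaDeg (𝓞 F) : ℤ) * n) := by
  simp [divNorm]

theorem divNormStab_single (w : HeightOneSpectrum (𝓞 M)) (n : ℤ) :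
    divNormStab F M (Finsupp.single w n) =
      Finsupp.single (primeBelow F M w) ((Nat.card (stabilizer (M ≃ₐ[F] M) w) : ℤ) * n) := by
  simp [divNormStab]

/-- **(U2), general form**: the Galois norm of a divisor is the pullback of its
stabilizer-weighted norm. -/
theorem normHom_eq_divExt_divNormStab (D : HeightOneSpectrum (𝓞 M) →₀ ℤ) :
    normHom (M ≃ₐ[F] M) (HeightOneSpectrum (𝓞 M) →₀ ℤ) D = divExt F M (divNormStab F M D) := by
  classical
  suffices h : normHom (M ≃ₐ[F] M) (HeightOneSpectrum (𝓞 M) →₀ ℤ) =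
      (divExt F M).comp (divNormStab F M) from DFunLike.congr_fun h D
  refine Finsupp.addHom_ext fun w n => ?_
  ext w'
  rw [normHom_finsupp_single_apply, AddMonoidHom.comp_apply, divNormStab_single, divExt_apply,
    Finsupp.single_apply]
  have hiff : w ∈ orbit (M ≃ₐ[F] M) w' ↔ primeBelow F M w = primeBelow F M w' :=
    (primeBelow_eq_iff_orbitRel F M w w').symm
  by_cases h : w ∈ orbit (M ≃ₐ[F] M) w'
  · rw [if_pos h, if_pos (hiff.mp h)]
  · rw [if_neg h, if_neg (fun h' => h (hiff.mpr h'))]

/-- at an unramified prime the decomposition group has order `f`. -/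
theorem card_stabilizer_eq_inertiaDeg (w : HeightOneSpectrum (𝓞 M))
    (hw : w.asIdeal.inertia (M ≃ₐ[F] M) = ⊥) :
    Nat.card (stabilizer (M ≃ₐ[F] M) w) = w.asIdeal.inertiaDeg (𝓞 F) := by
  have : IsGaloisGroup (M ≃ₐ[F] M) (𝓞 F) (𝓞 M) :=
    IsGaloisGroup.of_isFractionRing (M ≃ₐ[F] M) (𝓞 F) (𝓞 M) F M
  have hlies : w.asIdeal.LiesOver (primeBelow F M w).asIdeal := Ideal.over_under w.asIdeal
  have h1 := Ideal.card_stabilizer_eq_card_inertia_mul_finrank (G := M ≃ₐ[F] M)
    (primeBelow F M w).asIdeal w.asIdeal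
  rw [hw, Subgroup.card_bot, one_mul] at h1
  rw [← h1]
  refine Nat.card_congr (Equiv.subtypeEquivRight fun g => ?_)
  rw [mem_stabilizer_iff, mem_stabilizer_iff]
  exact HeightOneSpectrum.ext_iff

/-- **(U2)**: for a divisor supported at unramified primes, the Galois norm is the pullback of the
relative norm. -/
theorem normHom_eq_divExt_divNorm (D : HeightOneSpectrum (𝓞 M) →₀ ℤ)
    (hD : ∀ w, D w ≠ 0 → w.asIdeal.inertia (M ≃ₐ[F] M) = ⊥) :
    normHom (M ≃ₐ[F] M) (HeightOneSpectrum (𝓞 M) →₀ ℤ) D = divExt F M (divNorm F M D) := by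
  rw [normHom_eq_divExt_divNormStab]
  congr 1
  rw [divNormStab, divNorm, Finsupp.liftAddHom_apply, Finsupp.liftAddHom_apply]
  refine Finsupp.sum_congr fun w hw => ?_
  rw [card_stabilizer_eq_inertiaDeg F M w (hD w (Finsupp.mem_support_iff.mp hw))]


/-! ### divisors supported outside a set of primes of `F` -/

/-- divisors of `M` supported outside the primes above `R`. -/
def divOutside (R : Set (HeightOneSpectrum (𝓞 F))) :
    AddSubgroup (HeightOneSpectrum (𝓞 M) →₀ ℤ) where
  carrier := {D | ∀ w, primeBelow F M w ∈ R → D w = 0}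
  zero_mem' := fun _ _ => rfl
  add_mem' := by
    intro D D' hD hD' w hw
    rw [Finsupp.add_apply, hD w hw, hD' w hw, add_zero]
  neg_mem' := by
    intro D hD w hw
    rw [Finsupp.neg_apply, hD w hw, neg_zero]

variable {F M} in
theorem mem_divOutside_iff {R : Set (HeightOneSpectrum (𝓞 F))}
    {D : HeightOneSpectrum (𝓞 M) →₀ ℤ} :
    D ∈ divOutside F M R ↔ ∀ w, primeBelow F M w ∈ R → D w = 0 := Iff.rfl

theorem smul_mem_divOutside (R : Set (HeightOneSpectrum (𝓞 F))) (g : M ≃ₐ[F] M)
    {D : HeightOneSpectrum (𝓞 M) →₀ ℤ} (hD : D ∈ divOutside F M R) :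
    g • D ∈ divOutside F M R := by
  intro w hw
  rw [Finsupp.comapSMul_apply]
  refine hD _ ?_
  rwa [primeBelow_smul]

theorem normHom_mem_divOutside (R : Set (HeightOneSpectrum (𝓞 F)))
    {D : HeightOneSpectrum (𝓞 M) →₀ ℤ} (hD : D ∈ divOutside F M R) :
    normHom (M ≃ₐ[F] M) (HeightOneSpectrum (𝓞 M) →₀ ℤ) D ∈ divOutside F M R := by
  rw [normHom_apply]
  exact AddSubgroup.sum_mem _ fun g _ => smul_mem_divOutside F M R g hD

theorem subOneHom_mem_divOutside (R : Set (HeightOneSpectrum (𝓞 F))) (σ : M ≃ₐ[F] M)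
    {D : HeightOneSpectrum (𝓞 M) →₀ ℤ} (hD : D ∈ divOutside F M R) :
    subOneHom (HeightOneSpectrum (𝓞 M) →₀ ℤ) σ D ∈ divOutside F M R := by
  rw [subOneHom_apply]
  exact AddSubgroup.sub_mem _ (smul_mem_divOutside F M R σ hD) hD

theorem divExt_mem_divOutside_iff (R : Set (HeightOneSpectrum (𝓞 F)))
    (D0 : HeightOneSpectrum (𝓞 F) →₀ ℤ) :
    divExt F M D0 ∈ divOutside F M R ↔ ∀ q ∈ R, D0 q = 0 := by
  constructor
  · intro h q hq
    obtain ⟨w, rfl⟩ := primeBelow_surjective F M q
    exact h w hq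
  · intro h w hw
    exact h _ hw

/-- **(U1)** relative to `R`. -/
theorem exists_divExt_eq_of_smul_eq_of_mem (R : Set (HeightOneSpectrum (𝓞 F)))
    (D : HeightOneSpectrum (𝓞 M) →₀ ℤ) (hDR : D ∈ divOutside F M R)
    (hD : ∀ g : M ≃ₐ[F] M, g • D = D) :
    ∃ D0 : HeightOneSpectrum (𝓞 F) →₀ ℤ, (∀ q ∈ R, D0 q = 0) ∧ divExt F M D0 = D := by
  obtain ⟨D0, h1, h2⟩ := exists_divExt_eq_of_smul_eq F M D hD
  refine ⟨D0, fun q hq => ?_, h1⟩
  by_contra hne
  obtain ⟨w, hw, hDw⟩ := h2 q hne
  exact hDw (hDR w (hw ▸ hq))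

/-- **(U3)**: `ker N ≤ range (σ - 1)` on the divisors supported outside the primes above `R`
(`G = ⟨σ⟩`). -/
theorem exists_subOneHom_eq_of_mem_divOutside {σ : M ≃ₐ[F] M}
    (hσ : ∀ τ, τ ∈ Subgroup.zpowers σ) (R : Set (HeightOneSpectrum (𝓞 F)))
    (D : HeightOneSpectrum (𝓞 M) →₀ ℤ) (hDR : D ∈ divOutside F M R)
    (hN : normHom (M ≃ₐ[F] M) (HeightOneSpectrum (𝓞 M) →₀ ℤ) D = 0) :
    ∃ D' ∈ divOutside F M R, subOneHom (HeightOneSpectrum (𝓞 M) →₀ ℤ) σ D' = D := by
  obtain ⟨D', h1, h2⟩ := exists_subOneHom_eq_of_normHom_eq_zero hσ D hN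
  refine ⟨D', fun w hw => ?_, h2⟩
  by_contra hne
  obtain ⟨g, hg⟩ := h1 w hne
  refine hg (hDR _ ?_)
  rwa [primeBelow_smul]

/-! ### principal divisors -/

/-- equivariance of the divisor map of `M`. -/
theorem divHom_units_map_smul (g : M ≃ₐ[F] M) (x : Mˣ) :
    divHom (𝓞 M) M (Additive.ofMul (Units.map (g : M →* M) x)) =
      g • divHom (𝓞 M) M (Additive.ofMul x) := by
  ext w
  rw [Finsupp.comapSMul_apply, divHom_apply, divHom_apply, toMul_ofMul, toMul_ofMul, divFun_eq_iff,
    ← valuation_eq_exp_divFun]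
  have := hos_smul_valuation F M g (g⁻¹ • w) (x : M)
  rw [smul_inv_smul] at this
  exact this

/-- at an unramified prime the valuation exponent of an element of `F` does not change. -/
theorem divFun_algebraMap_of_inertia_eq_bot (w : HeightOneSpectrum (𝓞 M))
    (hw : w.asIdeal.inertia (M ≃ₐ[F] M) = ⊥) (x : Fˣ) :
    divFun (𝓞 M) M (Units.map (algebraMap F M : F →* M) x) w =
      divFun (𝓞 F) F x (primeBelow F M w) := by
  have hlies : w.asIdeal.LiesOver (primeBelow F M w).asIdeal := Ideal.over_under w.asIdeal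
  rw [divFun_eq_iff, ← valuation_eq_exp_divFun]
  exact valuation_algebraMap_eq_of_inertia_eq_bot w (primeBelow F M w) hw (x : F)

/-- in an unramified extension the divisor of `x ∈ Fˣ` in `M` is the pullback of its divisor in
`F`. -/
theorem divHom_algebraMap_eq_divExt
    (hur : ∀ w : HeightOneSpectrum (𝓞 M), w.asIdeal.inertia (M ≃ₐ[F] M) = ⊥) (x : Fˣ) :
    divHom (𝓞 M) M (Additive.ofMul (Units.map (algebraMap F M : F →* M) x)) =
      divExt F M (divHom (𝓞 F) F (Additive.ofMul x)) := by
  ext w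
  rw [divHom_apply, divExt_apply, divHom_apply, toMul_ofMul, toMul_ofMul]
  exact divFun_algebraMap_of_inertia_eq_bot F M w (hur w) x

end NumberField

end Fermat.Agent.CFT
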