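import Fermat.Agent.CFT.Global.NormClassesDiv
import Fermat.Agent.CFT.Global.DivInvariants

set_option autoImplicit false

/-!
# CFT, stream [C], (F3)(ID): the dictionary ideals ↔ divisors

Complements `NormClassesDiv.lean` (`idealDiv`, `idealDiv_mul`, `idealDiv_pow`, `idealDiv_asIdeal`,
`idealDiv_span_singleton`, `map_idealDiv_eq_idealDiv_relNorm`):

* `idealDiv_nonneg`, `idealDiv_eq_zero_iff` (`idealDiv J w = 0 ↔ ¬ J ≤ w.asIdeal`),
  `idealDiv_prod`, `idealDiv_injOn`;
* `exists_idealDiv_eq` : every effective divisor is the divisor of a nonzero ideal;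
* `exists_idealDiv_sub_eq` : every divisor is `idealDiv 𝔞 - idealDiv 𝔟` with `𝔞`, `𝔟` nonzero and
  prime to every `w` outside the support;
* `idealDiv_relNorm` : `idealDiv (relNorm J) = divNorm (idealDiv J)`;
* `idealDiv_span_singleton'` : principal ideals, with the generator as an element of `R`.
-/

namespace Fermat.Agent.CFT

open IsDedekindDomain IsDedekindDomain.HeightOneSpectrum NumberField FractionalIdeal
open scoped nonZeroDivisors

section General

variable (R : Type*) [CommRing R] [IsDedekindDomain R]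

theorem idealDiv_apply_eq_count {J : Ideal R} (hJ : J ≠ ⊥) (w : HeightOneSpectrum R) :
    idealDiv R J w = ((Associates.mk w.asIdeal).count (Associates.mk J).factors : ℤ) := by
  rw [idealDiv_apply R (FractionRing R), count_coe (FractionRing R) w hJ]

theorem idealDiv_nonneg (J : Ideal R) : 0 ≤ idealDiv R J := by
  intro w
  rw [idealDiv_apply R (FractionRing R), Finsupp.zero_apply]
  exact count_coe_nonneg (FractionRing R) w J

/-- `w` does not occur in the divisor of `J` iff `J` is prime to `w`. -/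
theorem idealDiv_eq_zero_iff {J : Ideal R} (hJ : J ≠ ⊥) (w : HeightOneSpectrum R) :
    idealDiv R J w = 0 ↔ ¬ J ≤ w.asIdeal := by
  classical
  rw [idealDiv_apply_eq_count R hJ, Int.natCast_eq_zero, ← Ideal.dvd_iff_le,
    ← Associates.count_ne_zero_iff_dvd hJ w.irreducible, not_not]

theorem idealDiv_prod {ι : Type*} (s : Finset ι) (f : ι → Ideal R) (hf : ∀ i ∈ s, f i ≠ ⊥) :
    idealDiv R (∏ i ∈ s, f i) = ∑ i ∈ s, idealDiv R (f i) := by
  classical
  induction s using Finset.induction_on with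
  | empty => rw [Finset.prod_empty, Finset.sum_empty, Ideal.one_eq_top, idealDiv_top]
  | insert a s ha ih =>
    have hs : ∀ i ∈ s, f i ≠ ⊥ := fun i hi => hf i (Finset.mem_insert_of_mem hi)
    have hprod : ∏ i ∈ s, f i ≠ ⊥ := by
      rw [← Ideal.zero_eq_bot, Finset.prod_ne_zero_iff]; exact hs
    rw [Finset.prod_insert ha, Finset.sum_insert ha,
      idealDiv_mul R (hf a (Finset.mem_insert_self a s)) hprod, ih hs]

/-- every effective divisor is the divisor of a nonzero integral ideal -/
theorem exists_idealDiv_eq (D : HeightOneSpectrum R →₀ ℤ) (hD : 0 ≤ D) :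
    ∃ J : Ideal R, J ≠ ⊥ ∧ idealDiv R J = D := by
  classical
  refine ⟨∏ w ∈ D.support, w.asIdeal ^ (D w).toNat, ?_, ?_⟩
  · rw [← Ideal.zero_eq_bot, Finset.prod_ne_zero_iff]
    exact fun w _ => pow_ne_zero _ w.ne_bot
  · rw [idealDiv_prod R _ _ fun w _ => pow_ne_zero _ w.ne_bot]
    simp only [idealDiv_pow, idealDiv_asIdeal]
    ext v
    rw [Finsupp.finsetSum_apply]
    simp only [Finsupp.smul_apply, Finsupp.single_apply, nsmul_eq_mul]
    rw [Finset.sum_eq_single v]
    · rw [if_pos rfl, mul_one, Int.toNat_of_nonneg (hD v)]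
    · intro w _ hwv
      rw [if_neg hwv, mul_zero]
    · intro hv
      rw [Finsupp.notMem_support_iff] at hv
      rw [hv]; simp

/-- the divisor determines a nonzero ideal -/
theorem idealDiv_injOn {I J : Ideal R} (hI : I ≠ ⊥) (hJ : J ≠ ⊥)
    (h : idealDiv R I = idealDiv R J) : I = J := by
  have h1 := Ideal.finprod_heightOneSpectrum_factorization (I := I) hI
  have h2 := Ideal.finprod_heightOneSpectrum_factorization (I := J) hJ
  rw [← h1, ← h2]
  refine finprod_congr fun v => ?_
  have := DFunLike.congr_fun h v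
  rw [idealDiv_apply_eq_count R hI, idealDiv_apply_eq_count R hJ, Int.natCast_inj] at this
  rw [HeightOneSpectrum.maxPowDividing, HeightOneSpectrum.maxPowDividing, this]

/-- every divisor is a difference of divisors of nonzero integral ideals which are prime to all
primes outside its support. -/
theorem exists_idealDiv_sub_eq (D : HeightOneSpectrum R →₀ ℤ) :
    ∃ 𝔞 𝔟 : Ideal R, 𝔞 ≠ ⊥ ∧ 𝔟 ≠ ⊥ ∧ idealDiv R 𝔞 - idealDiv R 𝔟 = D ∧
      ∀ w, D w = 0 → ¬ 𝔞 ≤ w.asIdeal ∧ ¬ 𝔟 ≤ w.asIdeal := by
  classical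
  -- positive and negative parts
  let Dp : HeightOneSpectrum R →₀ ℤ := D.mapRange (fun n => max n 0) (by simp)
  let Dm : HeightOneSpectrum R →₀ ℤ := D.mapRange (fun n => max (-n) 0) (by simp)
  have hDp : 0 ≤ Dp := fun w => by simp [Dp]
  have hDm : 0 ≤ Dm := fun w => by simp [Dm]
  obtain ⟨𝔞, h𝔞, h𝔞D⟩ := exists_idealDiv_eq R Dp hDp
  obtain ⟨𝔟, h𝔟, h𝔟D⟩ := exists_idealDiv_eq R Dm hDm
  refine ⟨𝔞, 𝔟, h𝔞, h𝔟, ?_, ?_⟩
  · rw [h𝔞D, h𝔟D]
    ext w
    simp only [Finsupp.sub_apply, Dp, Dm, Finsupp.mapRange_apply]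
    omega
  · intro w hw
    rw [← idealDiv_eq_zero_iff R h𝔞, ← idealDiv_eq_zero_iff R h𝔟, h𝔞D, h𝔟D]
    simp [Dp, Dm, Finsupp.mapRange_apply, hw]

variable (K : Type*) [Field K] [Algebra R K] [IsFractionRing R K]

/-- the divisor of a principal ideal, generator given in `R` -/
theorem idealDiv_span_singleton' {r : R} (hr : r ≠ 0) :
    idealDiv R (Ideal.span {r}) = - divHom R K (Additive.ofMul
      (Units.mk0 (algebraMap R K r)
        ((map_ne_zero_iff _ (IsFractionRing.injective R K)).mpr hr))) :=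
  idealDiv_span_singleton R K _ r rfl

end General

section NumberField

variable (F M : Type*) [Field F] [NumberField F] [Field M] [NumberField M] [Algebra F M]
  [IsGalois F M]

/-- **the divisor of the relative norm is the norm of the divisor** -/
theorem idealDiv_relNorm (J : Ideal (𝓞 M)) (hJ : J ≠ ⊥) :
    idealDiv (𝓞 F) (Ideal.relNorm (𝓞 F) J) = divNorm F M (idealDiv (𝓞 M) J) :=
  (map_idealDiv_eq_idealDiv_relNorm F M (divNorm F M)
    (fun w => by rw [divNorm_single, mul_one]) J hJ).symm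

end NumberField

end Fermat.Agent.CFT
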