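import Mathlib
import Fermat.Agent.CFT.Global.IdealDiv

set_option autoImplicit false
set_option linter.unusedSectionVars false

/-!
# CFT stream [C] Global: the ideal ↔ divisor dictionary, order part (helper27)

Complements `NormClassesDiv.lean` (`idealDiv`, `idealDiv_mul`, `idealDiv_span_singleton`,
`map_idealDiv_eq_idealDiv_relNorm`) and helper20's `IdealDiv.lean` (`idealDiv_nonneg`,
`idealDiv_eq_zero_iff`, `exists_idealDiv_eq`, `exists_idealDiv_sub_eq`, `idealDiv_relNorm`):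

* `idealDiv_pos_iff`, `le_iff_idealDiv_le`, `idealDiv_injective`;
* `exists_idealDiv_sub_eq_signed` : every divisor is `idealDiv a - idealDiv b` with `a` prime to
  the primes where `D ≤ 0` and `b` prime to the primes where `0 ≤ D`;
* `idealDiv_sub_eq_of_span_mul_eq`, `idealDiv_eq_of_span_mul_eq` : the translation of the ideal
  identity `(y) 𝔞₁ N(J') = (z) 𝔞₂ N(J)` of `Contracts.TameFirstIneq` / `TameApprox.tame_reduce`
  into divisors: `idealDiv 𝔞₁ - idealDiv 𝔞₂ = div(y / z) + N (idealDiv J - idealDiv J')`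
  (`divHom` has Mathlib's sign, so `div(y / z) = divHom (y / z)` is `ord z - ord y`).
-/

namespace Fermat.Agent.CFT

open IsDedekindDomain IsDedekindDomain.HeightOneSpectrum NumberField FractionalIdeal
open scoped nonZeroDivisors

section General

variable (R : Type*) [CommRing R] [IsDedekindDomain R]

theorem idealDiv_pos_iff {J : Ideal R} (hJ : J ≠ ⊥) (w : HeightOneSpectrum R) :
    0 < idealDiv R J w ↔ J ≤ w.asIdeal := by
  rw [← not_iff_not, not_lt, ← idealDiv_eq_zero_iff R hJ w]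
  exact ⟨fun h => le_antisymm h (idealDiv_nonneg R J w), fun h => h.le⟩

theorem le_iff_idealDiv_le {I J : Ideal R} (hI : I ≠ ⊥) (hJ : J ≠ ⊥) :
    I ≤ J ↔ ∀ w : HeightOneSpectrum R, idealDiv R J w ≤ idealDiv R I w := by
  rw [← coeIdeal_le_coeIdeal (FractionRing R),
    Fermat.Agent.S20.le_iff_count (coeIdeal_ne_zero.mpr hI) (coeIdeal_ne_zero.mpr hJ)]
  refine forall_congr' fun w => ?_
  rw [idealDiv_apply R (FractionRing R), idealDiv_apply R (FractionRing R)]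

theorem idealDiv_injective {I J : Ideal R} (hI : I ≠ ⊥) (hJ : J ≠ ⊥)
    (h : idealDiv R I = idealDiv R J) : I = J :=
  le_antisymm ((le_iff_idealDiv_le R hI hJ).mpr fun w => by rw [h])
    ((le_iff_idealDiv_le R hJ hI).mpr fun w => by rw [h])

/-- every divisor is a difference of divisors of coprime-to-the-right-places ideals -/
theorem exists_idealDiv_sub_eq_signed (D : HeightOneSpectrum R →₀ ℤ) :
    ∃ a b : Ideal R, a ≠ ⊥ ∧ b ≠ ⊥ ∧ D = idealDiv R a - idealDiv R b ∧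
      (∀ w, D w ≤ 0 → ¬ a ≤ w.asIdeal) ∧ (∀ w, 0 ≤ D w → ¬ b ≤ w.asIdeal) := by
  obtain ⟨a, ha0, ha⟩ := exists_idealDiv_eq R (D.mapRange (fun n => max n 0) (by simp))
    (fun w => by rw [Finsupp.mapRange_apply]; exact le_max_right _ _)
  obtain ⟨b, hb0, hb⟩ := exists_idealDiv_eq R (D.mapRange (fun n => max (-n) 0) (by simp))
    (fun w => by rw [Finsupp.mapRange_apply]; exact le_max_right _ _)
  refine ⟨a, b, ha0, hb0, ?_, ?_, ?_⟩
  · ext w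
    rw [Finsupp.sub_apply, ha, hb, Finsupp.mapRange_apply, Finsupp.mapRange_apply]
    omega
  · intro w hw
    rw [← idealDiv_eq_zero_iff R ha0, ha, Finsupp.mapRange_apply]
    omega
  · intro w hw
    rw [← idealDiv_eq_zero_iff R hb0, hb, Finsupp.mapRange_apply]
    omega

end General

section NumberField

variable (F M : Type*) [Field F] [NumberField F] [Field M] [NumberField M] [Algebra F M]

/-- **Ideal identity ⇒ divisor identity** (shape of `TameApprox.tame_reduce`):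
`(y) 𝔞₁ N(J') = (z) 𝔞₂ N(J)` gives `div 𝔞₁ - div 𝔞₂ = divHom (y / z) + N (div J - div J')`
for any additive norm map `N` on divisors with `N(w) = f(w|q) q` (e.g. `divNorm F M`). -/
theorem idealDiv_sub_eq_of_span_mul_eq
    (N : (HeightOneSpectrum (𝓞 M) →₀ ℤ) →+ (HeightOneSpectrum (𝓞 F) →₀ ℤ))
    (hN : ∀ w : HeightOneSpectrum (𝓞 M), N (Finsupp.single w 1) =
      Finsupp.single (primeBelow F M w) (w.asIdeal.inertiaDeg (𝓞 F) : ℤ))
    {y z : 𝓞 F} (uy uz : Fˣ) (huy : (uy : F) = (y : F)) (huz : (uz : F) = (z : F))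
    {𝔞₁ 𝔞₂ : Ideal (𝓞 F)} (h𝔞₁ : 𝔞₁ ≠ ⊥) (h𝔞₂ : 𝔞₂ ≠ ⊥)
    {J J' : Ideal (𝓞 M)} (hJ : J ≠ ⊥) (hJ' : J' ≠ ⊥)
    (h : Ideal.span {y} * 𝔞₁ * Ideal.relNorm (𝓞 F) J' =
      Ideal.span {z} * 𝔞₂ * Ideal.relNorm (𝓞 F) J) :
    idealDiv (𝓞 F) 𝔞₁ - idealDiv (𝓞 F) 𝔞₂ =
      divHom (𝓞 F) F (Additive.ofMul (uy / uz)) +
        N (idealDiv (𝓞 M) J - idealDiv (𝓞 M) J') := by
  have hy0 : y ≠ 0 := by
    rintro rfl
    exact uy.ne_zero (by rw [huy]; rfl)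
  have hz0 : z ≠ 0 := by
    rintro rfl
    exact uz.ne_zero (by rw [huz]; rfl)
  have hsy : Ideal.span {y} ≠ (⊥ : Ideal (𝓞 F)) := by
    rwa [Ne, Ideal.span_singleton_eq_bot]
  have hsz : Ideal.span {z} ≠ (⊥ : Ideal (𝓞 F)) := by
    rwa [Ne, Ideal.span_singleton_eq_bot]
  have hNJ : Ideal.relNorm (𝓞 F) J ≠ ⊥ := fun h => hJ (Ideal.relNorm_eq_bot_iff.mp h)
  have hNJ' : Ideal.relNorm (𝓞 F) J' ≠ ⊥ := fun h => hJ' (Ideal.relNorm_eq_bot_iff.mp h)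
  have h1 := congrArg (idealDiv (𝓞 F)) h
  rw [idealDiv_mul (𝓞 F) (mul_ne_zero hsy h𝔞₁) hNJ', idealDiv_mul (𝓞 F) hsy h𝔞₁,
    idealDiv_mul (𝓞 F) (mul_ne_zero hsz h𝔞₂) hNJ, idealDiv_mul (𝓞 F) hsz h𝔞₂,
    idealDiv_span_singleton (𝓞 F) F uy y huy.symm, idealDiv_span_singleton (𝓞 F) F uz z huz.symm,
    ← map_idealDiv_eq_idealDiv_relNorm F M N hN J hJ,
    ← map_idealDiv_eq_idealDiv_relNorm F M N hN J' hJ'] at h1
  have h2 : divHom (𝓞 F) F (Additive.ofMul (uy / uz)) =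
      divHom (𝓞 F) F (Additive.ofMul uy) - divHom (𝓞 F) F (Additive.ofMul uz) := by
    rw [ofMul_div, map_sub]
  rw [h2, map_sub]
  have h3 : idealDiv (𝓞 F) 𝔞₁ = divHom (𝓞 F) F (Additive.ofMul uy) -
      divHom (𝓞 F) F (Additive.ofMul uz) + idealDiv (𝓞 F) 𝔞₂ + N (idealDiv (𝓞 M) J) -
        N (idealDiv (𝓞 M) J') := by
    rw [eq_sub_iff_add_eq, ← sub_eq_iff_eq_add'.mpr h1.symm]
    abel
  rw [h3]
  abel

/-- **Ideal identity ⇒ divisor identity** (shape of `Contracts.TameFirstIneq`):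
`(y) 𝔞 N(J') = (z) N(J)` gives `div 𝔞 = divHom (y / z) + N (div J - div J')`. -/
theorem idealDiv_eq_of_span_mul_eq
    (N : (HeightOneSpectrum (𝓞 M) →₀ ℤ) →+ (HeightOneSpectrum (𝓞 F) →₀ ℤ))
    (hN : ∀ w : HeightOneSpectrum (𝓞 M), N (Finsupp.single w 1) =
      Finsupp.single (primeBelow F M w) (w.asIdeal.inertiaDeg (𝓞 F) : ℤ))
    {y z : 𝓞 F} (uy uz : Fˣ) (huy : (uy : F) = (y : F)) (huz : (uz : F) = (z : F))
    {𝔞 : Ideal (𝓞 F)} (h𝔞 : 𝔞 ≠ ⊥) {J J' : Ideal (𝓞 M)} (hJ : J ≠ ⊥) (hJ' : J' ≠ ⊥)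
    (h : Ideal.span {y} * 𝔞 * Ideal.relNorm (𝓞 F) J' = Ideal.span {z} * Ideal.relNorm (𝓞 F) J) :
    idealDiv (𝓞 F) 𝔞 =
      divHom (𝓞 F) F (Additive.ofMul (uy / uz)) +
        N (idealDiv (𝓞 M) J - idealDiv (𝓞 M) J') := by
  have h' : Ideal.span {y} * 𝔞 * Ideal.relNorm (𝓞 F) J' =
      Ideal.span {z} * ⊤ * Ideal.relNorm (𝓞 F) J := by
    rw [Ideal.mul_top, h]
  have := idealDiv_sub_eq_of_span_mul_eq F M N hN uy uz huy huz h𝔞 top_ne_bot hJ hJ' h'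
  rwa [idealDiv_top, sub_zero] at this

section Galois

variable [IsGalois F M]

/-- `idealDiv_sub_eq_of_span_mul_eq` for helper15's `divNorm F M`. -/
theorem idealDiv_sub_eq_divHom_add_divNorm
    {y z : 𝓞 F} (uy uz : Fˣ) (huy : (uy : F) = (y : F)) (huz : (uz : F) = (z : F))
    {𝔞₁ 𝔞₂ : Ideal (𝓞 F)} (h𝔞₁ : 𝔞₁ ≠ ⊥) (h𝔞₂ : 𝔞₂ ≠ ⊥)
    {J J' : Ideal (𝓞 M)} (hJ : J ≠ ⊥) (hJ' : J' ≠ ⊥)
    (h : Ideal.span {y} * 𝔞₁ * Ideal.relNorm (𝓞 F) J' =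
      Ideal.span {z} * 𝔞₂ * Ideal.relNorm (𝓞 F) J) :
    idealDiv (𝓞 F) 𝔞₁ - idealDiv (𝓞 F) 𝔞₂ =
      divHom (𝓞 F) F (Additive.ofMul (uy / uz)) +
        divNorm F M (idealDiv (𝓞 M) J - idealDiv (𝓞 M) J') :=
  idealDiv_sub_eq_of_span_mul_eq F M (divNorm F M) (fun w => by rw [divNorm_single, mul_one])
    uy uz huy huz h𝔞₁ h𝔞₂ hJ hJ' h

/-- `idealDiv_eq_of_span_mul_eq` for helper15's `divNorm F M`. -/
theorem idealDiv_eq_divHom_add_divNorm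
    {y z : 𝓞 F} (uy uz : Fˣ) (huy : (uy : F) = (y : F)) (huz : (uz : F) = (z : F))
    {𝔞 : Ideal (𝓞 F)} (h𝔞 : 𝔞 ≠ ⊥) {J J' : Ideal (𝓞 M)} (hJ : J ≠ ⊥) (hJ' : J' ≠ ⊥)
    (h : Ideal.span {y} * 𝔞 * Ideal.relNorm (𝓞 F) J' = Ideal.span {z} * Ideal.relNorm (𝓞 F) J) :
    idealDiv (𝓞 F) 𝔞 =
      divHom (𝓞 F) F (Additive.ofMul (uy / uz)) +
        divNorm F M (idealDiv (𝓞 M) J - idealDiv (𝓞 M) J') :=
  idealDiv_eq_of_span_mul_eq F M (divNorm F M) (fun w => by rw [divNorm_single, mul_one])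
    uy uz huy huz h𝔞 hJ hJ' h

end Galois

end NumberField

end Fermat.Agent.CFT
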