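import Mathlib

/-!
# (F3) arithmetic end: moving ideals off `T` by principal ideals `≡ 1` at the ramified primes

(helper25, PROJECT CFT stream [C], chunk (F3)(iii))

Pure Dedekind-domain ideal theory, in the vocabulary of `Contracts.TameFirstIneq`.

* `exists_span_eq_mul_prime_to` : for a nonzero ideal `𝔞` prime to `R ⊆ T` there are `a ≠ 0` and
  `𝔟` prime to `T` with `(a) = 𝔞 𝔟` and `a ≡ 1` modulo every `q ∈ R`;
* `tame_reduce` (stated against the CURRENT shape of `Contracts.TameFirstIneq`, with `y ≠ 0 ∧ z ≠ 0`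
  as first conjuncts) : if every nonzero integral ideal prime to `T` is of the shape
  `(z / y) N(J) / N(J')` (negated conclusion of `TameFirstIneq`), then every quotient `𝔞₁ / 𝔞₂` of
  nonzero integral ideals prime to `R` is of that shape, with the congruence conditions at `R` only.
-/

set_option autoImplicit false

namespace Fermat.Agent.CFT

open IsDedekindDomain

section dedekind

variable {A : Type*} [CommRing A] [IsDedekindDomain A]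

/-- A maximal ideal containing a finite product of height-one primes is one of them. -/
theorem exists_eq_of_prod_le {T : Finset (HeightOneSpectrum A)} {P : Ideal A} (hP : P.IsPrime)
    (h : ∏ q ∈ T, q.asIdeal ≤ P) : ∃ q ∈ T, q.asIdeal = P := by
  obtain ⟨q, hq, hqP⟩ := (Ideal.IsPrime.prod_le hP).mp h
  exact ⟨q, hq, (q.isMaximal.eq_of_le hP.ne_top hqP)⟩

omit [IsDedekindDomain A] in
theorem prod_le_of_mem {T : Finset (HeightOneSpectrum A)} {q : HeightOneSpectrum A}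
    (hq : q ∈ T) : ∏ q ∈ T, q.asIdeal ≤ q.asIdeal :=
  Ideal.prod_le_inf.trans (Finset.inf_le hq)

theorem prod_asIdeal_ne_bot (T : Finset (HeightOneSpectrum A)) :
    ∏ q ∈ T, q.asIdeal ≠ ⊥ := by
  rw [← Ideal.zero_eq_bot, Finset.prod_ne_zero_iff]
  exact fun q _ => q.ne_bot

/-- **Moving an ideal off `T`**: for a nonzero ideal `𝔞` prime to `R ⊆ T` there are `a ≠ 0` and
an ideal `𝔟` prime to `T` with `(a) = 𝔞 𝔟` and `a ≡ 1` modulo every `q ∈ R`. -/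
theorem exists_span_eq_mul_prime_to (T R : Finset (HeightOneSpectrum A)) (hRT : R ⊆ T)
    (𝔞 : Ideal A) (h𝔞 : 𝔞 ≠ ⊥) (hR : ∀ q ∈ R, ¬ 𝔞 ≤ q.asIdeal) :
    ∃ (a : A) (𝔟 : Ideal A), a ≠ 0 ∧ Ideal.span {a} = 𝔞 * 𝔟 ∧
      (∀ q ∈ T, ¬ 𝔟 ≤ q.asIdeal) ∧ ∀ q ∈ R, a - 1 ∈ q.asIdeal := by
  classical
  rcases T.eq_empty_or_nonempty with hT | hT
  · subst hT
    have hR' : R = ∅ := Finset.subset_empty.mp hRT
    subst hR'
    obtain ⟨a, ha, ha0⟩ := Submodule.exists_mem_ne_zero_of_ne_bot h𝔞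
    obtain ⟨𝔟, h𝔟⟩ := Ideal.dvd_iff_le.mpr ((Ideal.span_singleton_le_iff_mem 𝔞).mpr ha)
    exact ⟨a, 𝔟, ha0, h𝔟, by simp, by simp⟩
  set 𝔪 : Ideal A := ∏ q ∈ T, q.asIdeal with h𝔪
  set 𝔪' : Ideal A := ∏ q ∈ T \ R, q.asIdeal with h𝔪'
  set 𝔯 : Ideal A := ∏ q ∈ R, q.asIdeal with h𝔯
  have h𝔪0 : 𝔪 ≠ ⊥ := prod_asIdeal_ne_bot T
  -- Step 1
  obtain ⟨a₀, ha₀⟩ := IsDedekindDomain.exists_sup_span_eq (I := 𝔞 * 𝔪) (J := 𝔞)
    Ideal.mul_le_left (by rw [Ideal.zero_eq_bot]; exact mul_ne_zero h𝔞 h𝔪0)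
  have ha₀mem : a₀ ∈ 𝔞 := by
    rw [← ha₀]
    exact Ideal.mem_sup_right (Ideal.mem_span_singleton_self a₀)
  -- Step 2: coprimality
  have hcop : 𝔞 * 𝔪' ⊔ 𝔯 = ⊤ := by
    by_contra hne
    obtain ⟨P, hP, hle⟩ := Ideal.exists_le_maximal _ hne
    obtain ⟨q, hqR, hqP⟩ := exists_eq_of_prod_le hP.isPrime (le_sup_right.trans hle)
    rcases (Ideal.IsPrime.mul_le hP.isPrime).mp (le_sup_left.trans hle) with h | h
    · exact hR q hqR (hqP ▸ h)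
    · obtain ⟨q', hq', hq'P⟩ := exists_eq_of_prod_le hP.isPrime h
      have : q' = q := HeightOneSpectrum.ext (hq'P.trans hqP.symm)
      rw [this] at hq'
      exact (Finset.mem_sdiff.mp hq').2 hqR
  obtain ⟨u, hu, v, hv, huv⟩ := Submodule.mem_sup.mp
    ((Ideal.eq_top_iff_one _).mp hcop)
  set a : A := a₀ + u * (1 - a₀) with ha
  have ha_sub : a - a₀ ∈ 𝔞 * 𝔪' := by
    have : a - a₀ = u * (1 - a₀) := by rw [ha]; ring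
    rw [this]
    exact Ideal.mul_mem_right _ _ hu
  have ha_one : a - 1 ∈ 𝔯 := by
    have : a - 1 = v * (a₀ - 1) := by
      rw [ha]
      have hu' : u = 1 - v := by rw [← huv]; ring
      rw [hu']; ring
    rw [this]
    exact Ideal.mul_mem_right _ _ hv
  -- Step 3
  have hamem : a ∈ 𝔞 := by
    have h1 : a - a₀ ∈ 𝔞 := Ideal.mul_le_left ha_sub
    have := 𝔞.add_mem h1 ha₀mem
    rwa [sub_add_cancel] at this
  obtain ⟨𝔟, h𝔟⟩ := Ideal.dvd_iff_le.mpr ((Ideal.span_singleton_le_iff_mem 𝔞).mpr hamem)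
  have hRmem : ∀ q ∈ R, a - 1 ∈ q.asIdeal := fun q hq => prod_le_of_mem hq ha_one
  -- Step 5
  have hprime : ∀ q ∈ T, ¬ 𝔟 ≤ q.asIdeal := by
    intro q hqT h𝔟q
    by_cases hqR : q ∈ R
    · have h1 : a ∈ q.asIdeal := by
        have : a ∈ 𝔞 * 𝔟 := by rw [← h𝔟]; exact Ideal.mem_span_singleton_self a
        exact h𝔟q (Ideal.mul_le_right this)
      have h2 := q.asIdeal.sub_mem h1 (hRmem q hqR)
      rw [sub_sub_cancel] at h2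
      exact q.isPrime.ne_top ((Ideal.eq_top_iff_one _).mpr h2)
    · have hq' : q ∈ T \ R := Finset.mem_sdiff.mpr ⟨hqT, hqR⟩
      have h1 : a ∈ 𝔞 * q.asIdeal := by
        have : a ∈ 𝔞 * 𝔟 := by rw [← h𝔟]; exact Ideal.mem_span_singleton_self a
        exact Ideal.mul_mono_right h𝔟q this
      have h2 : a - a₀ ∈ 𝔞 * q.asIdeal := Ideal.mul_mono_right (prod_le_of_mem hq') ha_sub
      have h3 : a₀ ∈ 𝔞 * q.asIdeal := by
        have := (𝔞 * q.asIdeal).sub_mem h1 h2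
        rwa [sub_sub_cancel] at this
      have h4 : 𝔞 ≤ 𝔞 * q.asIdeal := by
        conv_lhs => rw [← ha₀]
        refine sup_le (Ideal.mul_mono_right (prod_le_of_mem hqT)) ?_
        exact (Ideal.span_singleton_le_iff_mem _).mpr h3
      have h5 : 𝔞 * q.asIdeal = 𝔞 * 1 := by
        rw [mul_one]
        exact le_antisymm Ideal.mul_le_left h4
      have h6 : q.asIdeal = 1 := mul_left_cancel₀ h𝔞 h5
      exact q.isPrime.ne_top (by rw [h6, Ideal.one_eq_top])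
  -- Step 4
  have ha0 : a ≠ 0 := by
    rintro h0
    obtain ⟨q, hq⟩ := hT
    apply hprime q hq
    have : 𝔞 * 𝔟 = ⊥ := by rw [← h𝔟, h0]; simp
    rcases mul_eq_zero.mp (by rwa [← Ideal.zero_eq_bot] at this) with h | h
    · exact absurd h h𝔞
    · rw [h]; exact bot_le
  exact ⟨a, 𝔟, ha0, h𝔟, hprime, hRmem⟩

end dedekind

section numberField

open NumberField

variable (p : ℕ) {F M : Type*} [Field F] [NumberField F] [Field M] [NumberField M] [Algebra F M]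

/-- congruence bookkeeping at one prime `q`: from `z₁ ≡ y₁ w₁ ^ p`, `z₂ ≡ y₂ w₂ ^ p`,
`a₁ ≡ a₂ ≡ 1` we get `a₁ z₂ y₁ ≡ (a₂ z₁ y₂) w ^ p` for a suitable `w`. -/
theorem exists_pow_congr_of_congr {A : Type*} [CommRing A] (hp : p ≠ 0) (q : Ideal A)
    [hq : q.IsMaximal] {a₁ a₂ y₁ z₁ w₁ y₂ z₂ w₂ : A} (ha₁ : a₁ - 1 ∈ q) (ha₂ : a₂ - 1 ∈ q)
    (hz₁ : z₁ ∉ q) (h₁ : z₁ - y₁ * w₁ ^ p ∈ q) (h₂ : z₂ - y₂ * w₂ ^ p ∈ q) :
    ∃ w : A, a₁ * z₂ * y₁ - a₂ * z₁ * y₂ * w ^ p ∈ q := by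
  have hw₁ : w₁ ∉ q := by
    intro hw
    apply hz₁
    have h3 : y₁ * w₁ ^ p ∈ q := q.mul_mem_left _ (q.pow_mem_of_mem hw p (Nat.pos_of_ne_zero hp))
    have := q.add_mem h₁ h3
    rwa [sub_add_cancel] at this
  obtain ⟨w₁', i, hi, hinv⟩ := hq.exists_inv hw₁
  refine ⟨w₂ * w₁', ?_⟩
  rw [← Ideal.Quotient.eq_zero_iff_mem] at ha₁ ha₂ h₁ h₂ hi ⊢
  simp only [map_sub, map_mul, map_pow, map_one] at ha₁ ha₂ h₁ h₂ ⊢
  have hinv' : Ideal.Quotient.mk q w₁' * Ideal.Quotient.mk q w₁ = 1 := by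
    have := congrArg (Ideal.Quotient.mk q) hinv
    simpa [hi] using this
  have hpow : Ideal.Quotient.mk q w₁ ^ p * Ideal.Quotient.mk q w₁' ^ p = 1 := by
    rw [← mul_pow, mul_comm, hinv', one_pow]
  rw [sub_eq_zero] at ha₁ ha₂ h₁ h₂
  rw [ha₁, ha₂, h₁, h₂, mul_pow]
  linear_combination (-(Ideal.Quotient.mk q y₁ * Ideal.Quotient.mk q y₂ *
    Ideal.Quotient.mk q w₂ ^ p)) * hpow

/-- **(F3), arithmetic end.** Assume the negated conclusion of `Contracts.TameFirstIneq`: every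
nonzero ideal of `𝓞 F` prime to `T` is of the shape `(z / y) N(J) / N(J')`.  Then for `R ⊆ T` every
quotient `𝔞₁ / 𝔞₂` of nonzero ideals prime to `R` is of this shape, with the congruence conditions
imposed only at the primes of `R` (and `J`, `J'` still prime to `T`). -/
theorem tame_reduce (hp : p ≠ 0) (T R : Finset (HeightOneSpectrum (𝓞 F))) (hRT : R ⊆ T)
    (Hall : ∀ 𝔞 : Ideal (𝓞 F), 𝔞 ≠ ⊥ → (∀ q ∈ T, ¬ 𝔞 ≤ q.asIdeal) →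
      ∃ (y z : 𝓞 F) (J J' : Ideal (𝓞 M)), y ≠ 0 ∧ z ≠ 0 ∧
        (∀ q ∈ T, y ∉ q.asIdeal ∧ z ∉ q.asIdeal ∧ ∃ w : 𝓞 F, z - y * w ^ p ∈ q.asIdeal) ∧
        J ≠ ⊥ ∧ J' ≠ ⊥ ∧
        (∀ q ∈ T, ∀ Q : Ideal (𝓞 M), Q.IsPrime → Q.under (𝓞 F) = q.asIdeal →
          ¬ J ≤ Q ∧ ¬ J' ≤ Q) ∧
        Ideal.span {y} * 𝔞 * Ideal.relNorm (𝓞 F) J' = Ideal.span {z} * Ideal.relNorm (𝓞 F) J)
    (𝔞₁ 𝔞₂ : Ideal (𝓞 F)) (h𝔞₁ : 𝔞₁ ≠ ⊥) (h𝔞₂ : 𝔞₂ ≠ ⊥)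
    (hR₁ : ∀ q ∈ R, ¬ 𝔞₁ ≤ q.asIdeal) (hR₂ : ∀ q ∈ R, ¬ 𝔞₂ ≤ q.asIdeal) :
    ∃ (y z : 𝓞 F) (J J' : Ideal (𝓞 M)), y ≠ 0 ∧ z ≠ 0 ∧
      (∀ q ∈ R, y ∉ q.asIdeal ∧ z ∉ q.asIdeal ∧ ∃ w : 𝓞 F, z - y * w ^ p ∈ q.asIdeal) ∧
      J ≠ ⊥ ∧ J' ≠ ⊥ ∧
      (∀ q ∈ T, ∀ Q : Ideal (𝓞 M), Q.IsPrime → Q.under (𝓞 F) = q.asIdeal →
        ¬ J ≤ Q ∧ ¬ J' ≤ Q) ∧
      Ideal.span {y} * 𝔞₁ * Ideal.relNorm (𝓞 F) J' =
        Ideal.span {z} * 𝔞₂ * Ideal.relNorm (𝓞 F) J := by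
  obtain ⟨a₁, 𝔟₁, ha₁0, ha₁, h𝔟₁T, ha₁R⟩ := exists_span_eq_mul_prime_to T R hRT 𝔞₁ h𝔞₁ hR₁
  obtain ⟨a₂, 𝔟₂, ha₂0, ha₂, h𝔟₂T, ha₂R⟩ := exists_span_eq_mul_prime_to T R hRT 𝔞₂ h𝔞₂ hR₂
  have h𝔟₁0 : 𝔟₁ ≠ ⊥ := by
    rintro rfl
    apply ha₁0
    have : Ideal.span {a₁} = ⊥ := by rw [ha₁]; simp
    simpa using this
  have h𝔟₂0 : 𝔟₂ ≠ ⊥ := by
    rintro rfl
    apply ha₂0
    have : Ideal.span {a₂} = ⊥ := by rw [ha₂]; simp
    simpa using this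
  obtain ⟨y₁, z₁, J₁, J₁', hy₁0, hz₁0, hc₁, hJ₁, hJ₁', hpr₁, heq₁⟩ := Hall 𝔟₁ h𝔟₁0 h𝔟₁T
  obtain ⟨y₂, z₂, J₂, J₂', hy₂0, hz₂0, hc₂, hJ₂, hJ₂', hpr₂, heq₂⟩ := Hall 𝔟₂ h𝔟₂0 h𝔟₂T
  refine ⟨a₂ * z₁ * y₂, a₁ * z₂ * y₁, J₂ * J₁', J₁ * J₂', ?_, ?_, ?_, ?_, ?_, ?_, ?_⟩
  · exact mul_ne_zero (mul_ne_zero ha₂0 hz₁0) hy₂0
  · exact mul_ne_zero (mul_ne_zero ha₁0 hz₂0) hy₁0
  · intro q hq
    have hqT := hRT hq
    have := q.isPrime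
    have := q.isMaximal
    obtain ⟨hy₁, hz₁, w₁, hw₁⟩ := hc₁ q hqT
    obtain ⟨hy₂, hz₂, w₂, hw₂⟩ := hc₂ q hqT
    have hone : ∀ {a : 𝓞 F}, a - 1 ∈ q.asIdeal → a ∉ q.asIdeal := by
      intro a ha ha'
      have := q.asIdeal.sub_mem ha' ha
      rw [sub_sub_cancel] at this
      exact q.isPrime.ne_top ((Ideal.eq_top_iff_one _).mpr this)
    refine ⟨?_, ?_, ?_⟩
    · intro h
      rcases q.isPrime.mem_or_mem h with h | h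
      · rcases q.isPrime.mem_or_mem h with h | h
        · exact hone (ha₂R q hq) h
        · exact hz₁ h
      · exact hy₂ h
    · intro h
      rcases q.isPrime.mem_or_mem h with h | h
      · rcases q.isPrime.mem_or_mem h with h | h
        · exact hone (ha₁R q hq) h
        · exact hz₂ h
      · exact hy₁ h
    · exact exists_pow_congr_of_congr p hp q.asIdeal (ha₁R q hq) (ha₂R q hq) hz₁ hw₁ hw₂
  · rw [← Ideal.zero_eq_bot]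
    exact mul_ne_zero hJ₂ hJ₁'
  · rw [← Ideal.zero_eq_bot]
    exact mul_ne_zero hJ₁ hJ₂'
  · intro q hq Q hQ hQq
    refine ⟨fun h => ?_, fun h => ?_⟩
    · rcases (Ideal.IsPrime.mul_le hQ).mp h with h | h
      · exact (hpr₂ q hq Q hQ hQq).1 h
      · exact (hpr₁ q hq Q hQ hQq).2 h
    · rcases (Ideal.IsPrime.mul_le hQ).mp h with h | h
      · exact (hpr₁ q hq Q hQ hQq).1 h
      · exact (hpr₂ q hq Q hQ hQq).2 h
  · have h𝔟 : 𝔟₁ * 𝔟₂ ≠ 0 := by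
      rw [Ideal.zero_eq_bot] at *
      exact mul_ne_zero h𝔟₁0 h𝔟₂0
    apply mul_left_cancel₀ h𝔟
    rw [map_mul, map_mul]
    have e₁ : Ideal.span {a₂ * z₁ * y₂} =
        Ideal.span {a₂} * Ideal.span {z₁} * Ideal.span {y₂} := by
      rw [Ideal.span_singleton_mul_span_singleton, Ideal.span_singleton_mul_span_singleton]
    have e₂ : Ideal.span {a₁ * z₂ * y₁} =
        Ideal.span {a₁} * Ideal.span {z₂} * Ideal.span {y₁} := by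
      rw [Ideal.span_singleton_mul_span_singleton, Ideal.span_singleton_mul_span_singleton]
    rw [e₁, e₂, ha₁, ha₂]
    calc 𝔟₁ * 𝔟₂ * (𝔞₂ * 𝔟₂ * Ideal.span {z₁} * Ideal.span {y₂} * 𝔞₁ *
          (Ideal.relNorm (𝓞 F) J₁ * Ideal.relNorm (𝓞 F) J₂'))
        = 𝔟₁ * 𝔟₂ * 𝔞₁ * 𝔞₂ * (Ideal.span {z₁} * Ideal.relNorm (𝓞 F) J₁) *
          (Ideal.span {y₂} * 𝔟₂ * Ideal.relNorm (𝓞 F) J₂') := by ring
      _ = 𝔟₁ * 𝔟₂ * 𝔞₁ * 𝔞₂ * (Ideal.span {y₁} * 𝔟₁ * Ideal.relNorm (𝓞 F) J₁') *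
          (Ideal.span {z₂} * Ideal.relNorm (𝓞 F) J₂) := by rw [heq₁, heq₂]
      _ = 𝔟₁ * 𝔟₂ * (𝔞₁ * 𝔟₁ * Ideal.span {z₂} * Ideal.span {y₁} * 𝔞₂ *
          (Ideal.relNorm (𝓞 F) J₂ * Ideal.relNorm (𝓞 F) J₁')) := by ring

end numberField

end Fermat.Agent.CFT
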