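import Fermat.Agent.CFT.Global.TameDefs

set_option autoImplicit false
set_option linter.unusedSectionVars false
set_option linter.style.haveILetI false

/-!
# CFT, stream [C], (F3): local facts at a (totally, tamely) ramified prime `Q` of a cyclic
extension `M / F` of prime degree `p` (chunk (TL) of helper29's plan, vocabulary of `TameDefs`)

`Q` a prime of `M` with nontrivial inertia group in `G = Gal(M/F)`, `|G| = p` prime:

* (TL0) the inertia group is `G`; (TL1) `τ • Q = Q`; (TL2) `Q` is the only prime over `q`;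
* (TL3) residue degree one: every integer of `M` is congruent mod `Q` to an integer of `F`;
* (TL4) `v_Q(x) = v_q(x) ^ p` for `x ∈ F`;
* (TL5) `τ u ≡ u mod Q` for `Q`-integral `u`;
* (TL6) if `σ α = ζ α` (`ζ` a primitive `p`-th root of unity, `p ∉ Q`) then `p ∤ ord_Q α`;
* (TL7) `tameRes Q α (σ x) = tameD Q x • z_Q + tameRes Q α x`;
* (TL8), (TL9) `z_Q = ζ mod Q` has order `p` and generates the `p`-torsion of `k(Q)ˣ`;
* `tameRes_prod_eq` : `tameRes Q α (N x) = p • tameRes Q α x` for `p` odd.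
-/

namespace Fermat.Agent.CFT

open NumberField IsDedekindDomain
open scoped Pointwise

attribute [local instance] heightOneSpectrumMulAction

variable {F M : Type*} [Field F] [NumberField F] [Field M] [NumberField M] [Algebra F M]
  [IsGalois F M] {p : ℕ}

instance primeBelow_liesOver (Q : HeightOneSpectrum (𝓞 M)) :
    Q.asIdeal.LiesOver (primeBelow F M Q).asIdeal := ⟨rfl⟩

section Inertia

variable (hp : p.Prime) (hcard : Nat.card Gal(M/F) = p) (Q : HeightOneSpectrum (𝓞 M))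
  (hQ : Q.asIdeal.inertia Gal(M/F) ≠ ⊥)

include hp hcard hQ

/-- (TL0) -/
theorem tame_inertia_eq_top : Q.asIdeal.inertia Gal(M/F) = ⊤ := by
  haveI : Fact (Nat.card Gal(M/F)).Prime := ⟨by rw [hcard]; exact hp⟩
  exact (Subgroup.eq_bot_or_eq_top_of_prime_card _).resolve_left hQ

theorem tame_smul_sub_mem (τ : Gal(M/F)) (x : 𝓞 M) : τ • x - x ∈ Q.asIdeal := by
  have h : τ ∈ Q.asIdeal.inertia Gal(M/F) := by
    rw [tame_inertia_eq_top hp hcard Q hQ]; exact Subgroup.mem_top τ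
  exact h x

theorem tame_smul_asIdeal (τ : Gal(M/F)) : τ • Q.asIdeal = Q.asIdeal := by
  have h : τ ∈ Q.asIdeal.inertia Gal(M/F) := by
    rw [tame_inertia_eq_top hp hcard Q hQ]; exact Subgroup.mem_top τ
  exact MulAction.mem_stabilizer_iff.mp (Ideal.inertia_le_stabilizer Q.asIdeal h)

/-- (TL1) -/
theorem tame_smul_eq (τ : Gal(M/F)) : τ • Q = Q :=
  HeightOneSpectrum.ext (tame_smul_asIdeal hp hcard Q hQ τ)

/-- (TL2) -/
theorem tame_eq_of_primeBelow_eq {Q' : HeightOneSpectrum (𝓞 M)}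
    (h : primeBelow F M Q' = primeBelow F M Q) : Q' = Q := by
  obtain ⟨g, hg⟩ := exists_smul_eq_of_primeBelow_eq F M h.symm
  rw [hg, tame_smul_eq hp hcard Q hQ g]

theorem tame_ramificationIdx' :
    (primeBelow F M Q).asIdeal.ramificationIdx' Q.asIdeal = p := by
  have := (primeBelow F M Q).isPrime
  have := Q.isPrime
  rw [Ideal.ramificationIdx'_eq_ramificationIdx (primeBelow F M Q).asIdeal Q.asIdeal
      (primeBelow F M Q).ne_bot,
    ← Ideal.ramificationIdxIn_eq_ramificationIdx (primeBelow F M Q).asIdeal Q.asIdeal Gal(M/F),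
    ← Ideal.card_inertia_eq_ramificationIdxIn (G := Gal(M/F)) (primeBelow F M Q).asIdeal Q.asIdeal,
    tame_inertia_eq_top hp hcard Q hQ, Nat.card_congr Subgroup.topEquiv.toEquiv, hcard]

/-- (TL4) -/
theorem tame_valuation_algebraMap (x : F) :
    Q.valuation M (algebraMap F M x) = (primeBelow F M Q).valuation F x ^ p := by
  have h1 := HeightOneSpectrum.valuation_liesOver M (primeBelow F M Q) Q x
  rw [← h1, tame_ramificationIdx' hp hcard Q hQ]

/-- (TL4), divisor form. -/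
theorem tameD_map_algebraMap (x : Fˣ) :
    tameD Q (Units.map (algebraMap F M : F →* M) x) =
      p * divFun (𝓞 F) F x (primeBelow F M Q) := by
  rw [tameD, divFun_eq_iff, Units.coe_map, MonoidHom.coe_coe,
    tame_valuation_algebraMap hp hcard Q hQ, valuation_eq_exp_divFun, ← WithZero.exp_nsmul]
  simp

theorem tame_inertiaDeg : Q.asIdeal.inertiaDeg (𝓞 F) = 1 := by
  have := (primeBelow F M Q).isPrime
  have := Q.isPrime
  have H := Ideal.ncard_primesOver_mul_card_inertia_mul_finrank (G := Gal(M/F))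
    (primeBelow F M Q).asIdeal Q.asIdeal
  rw [tame_inertia_eq_top hp hcard Q hQ, Nat.card_congr Subgroup.topEquiv.toEquiv, hcard] at H
  have h1 : ((primeBelow F M Q).asIdeal.primesOver (𝓞 M)).ncard * Q.asIdeal.inertiaDeg (𝓞 F) = 1 := by
    have h2 : ((primeBelow F M Q).asIdeal.primesOver (𝓞 M)).ncard * Q.asIdeal.inertiaDeg (𝓞 F) * p
        = 1 * p := by
      rw [one_mul, mul_right_comm]; exact H
    exact Nat.eq_of_mul_eq_mul_right hp.pos h2
  exact Nat.eq_one_of_mul_eq_one_left h1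

/-- (TL3) -/
theorem tame_exists_sub_mem (x : 𝓞 M) :
    ∃ c : 𝓞 F, x - algebraMap (𝓞 F) (𝓞 M) c ∈ Q.asIdeal := by
  have hf := tame_inertiaDeg hp hcard Q hQ
  haveI : (primeBelow F M Q).asIdeal.IsMaximal := (primeBelow F M Q).isMaximal
  haveI : Q.asIdeal.IsMaximal := Q.isMaximal
  rw [Ideal.inertiaDeg_eq_of_isMaximal (primeBelow F M Q).asIdeal Q.asIdeal] at hf
  letI : Field (𝓞 F ⧸ (primeBelow F M Q).asIdeal) := Ideal.Quotient.field _
  letI : Field (𝓞 M ⧸ Q.asIdeal) := Ideal.Quotient.field _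
  have h1 : Function.Surjective
      (algebraMap (𝓞 F ⧸ (primeBelow F M Q).asIdeal) (𝓞 M ⧸ Q.asIdeal)) := by
    rw [Algebra.surjective_algebraMap_iff, eq_comm]
    exact Subalgebra.bot_eq_top_iff_finrank_eq_one.mpr hf
  obtain ⟨cbar, hcbar⟩ := h1 (Ideal.Quotient.mk Q.asIdeal x)
  obtain ⟨c, rfl⟩ := Ideal.Quotient.mk_surjective cbar
  refine ⟨c, ?_⟩
  rw [← Ideal.Quotient.eq_zero_iff_mem, map_sub, ← hcbar]
  exact sub_eq_zero.mpr rfl

/-- `τ` preserves the `Q`-adic valuation. -/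
theorem tame_valuation_apply (τ : Gal(M/F)) (y : M) : Q.valuation M (τ y) = Q.valuation M y := by
  have h := hos_smul_valuation F M τ Q y
  rwa [tame_smul_eq hp hcard Q hQ τ] at h

/-- (TL5) -/
theorem tame_valuation_apply_sub_lt {u : M} (hu : Q.valuation M u ≤ 1) (τ : Gal(M/F)) :
    Q.valuation M (τ u - u) < 1 := by
  obtain ⟨r, hr⟩ := Q.exists_valuation_sub_lt_of_integer hu 1
  rw [Units.val_one] at hr
  have h1 : Q.valuation M (τ (u - algebraMap (𝓞 M) M r)) < 1 := by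
    rw [tame_valuation_apply hp hcard Q hQ, Valuation.map_sub_swap]
    exact hr
  have h2 : Q.valuation M (algebraMap (𝓞 M) M (τ • r - r)) < 1 :=
    (Q.valuation_lt_one_iff_mem _).mpr (tame_smul_sub_mem hp hcard Q hQ τ r)
  have h3 : Q.valuation M (u - algebraMap (𝓞 M) M r) < 1 := by
    rw [Valuation.map_sub_swap]; exact hr
  have e : τ u - u = τ (u - algebraMap (𝓞 M) M r) + algebraMap (𝓞 M) M (τ • r - r) -
      (u - algebraMap (𝓞 M) M r) := by
    have : algebraMap (𝓞 M) M (τ • r) = τ (algebraMap (𝓞 M) M r) := rfl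
    rw [map_sub, map_sub, this]
    ring
  rw [e]
  exact Valuation.map_sub_lt _ (Valuation.map_add_lt _ h1 h2) h3

end Inertia

section Zeta

variable (Q : HeightOneSpectrum (𝓞 M))

/-- `z_Q = ζ mod Q`, additively (`tameZ 𝓡 ζ Q = tameZQ Q.1 ζ` by `rfl`). -/
noncomputable def tameZQ (ζ : (𝓞 F)ˣ) : Additive (𝓞 M ⧸ Q.asIdeal)ˣ :=
  Additive.ofMul (Units.map
    ((Ideal.Quotient.mk Q.asIdeal).comp (algebraMap (𝓞 F) (𝓞 M)) : 𝓞 F →* 𝓞 M ⧸ Q.asIdeal) ζ)

theorem tameZ_eq_tameZQ (𝓡 : Finset (HeightOneSpectrum (𝓞 M))) (ζ : (𝓞 F)ˣ) (Q : 𝓡) :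
    tameZ 𝓡 ζ Q = tameZQ Q.1 ζ := rfl

theorem coe_tameZQ (ζ : (𝓞 F)ˣ) :
    (((tameZQ Q ζ).toMul : (𝓞 M ⧸ Q.asIdeal)ˣ) : 𝓞 M ⧸ Q.asIdeal) =
      Ideal.Quotient.mk Q.asIdeal (algebraMap (𝓞 F) (𝓞 M) (ζ : 𝓞 F)) := rfl

variable {Q}

/-- `ζ - 1 ∉ Q` when `p ∉ Q`. -/
theorem tame_zeta_sub_one_not_mem (hp : p.Prime) (hpQ : (p : 𝓞 M) ∉ Q.asIdeal) {ζ : (𝓞 F)ˣ}
    (hζ : IsPrimitiveRoot ζ p) : algebraMap (𝓞 F) (𝓞 M) (ζ : 𝓞 F) - 1 ∉ Q.asIdeal := by
  intro h2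
  have hζ' : IsPrimitiveRoot (ζ : 𝓞 F) p := IsPrimitiveRoot.coe_units_iff.mpr hζ
  have hηprim : IsPrimitiveRoot (algebraMap (𝓞 F) (𝓞 M) (ζ : 𝓞 F)) p :=
    hζ'.map_of_injective (FaithfulSMul.algebraMap_injective (𝓞 F) (𝓞 M))
  have h3 : Ideal.Quotient.mk Q.asIdeal (algebraMap (𝓞 F) (𝓞 M) (ζ : 𝓞 F)) = 1 := by
    have := Ideal.Quotient.eq_zero_iff_mem.mpr h2
    rw [map_sub, map_one, sub_eq_zero] at this
    exact this
  have h4 := hηprim.geom_sum_eq_zero hp.one_lt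
  have h5 := congrArg (Ideal.Quotient.mk Q.asIdeal) h4
  rw [map_sum, map_zero] at h5
  simp only [map_pow, h3, one_pow, Finset.sum_const, Finset.card_range, nsmul_eq_mul,
    mul_one] at h5
  apply hpQ
  rw [← Ideal.Quotient.eq_zero_iff_mem, map_natCast]
  exact h5

/-- (TL8) `z_Q` has order `p`. -/
theorem addOrderOf_tameZQ (hp : p.Prime) (hpQ : (p : 𝓞 M) ∉ Q.asIdeal) {ζ : (𝓞 F)ˣ}
    (hζ : IsPrimitiveRoot ζ p) : addOrderOf (tameZQ Q ζ) = p := by
  haveI : Fact p.Prime := ⟨hp⟩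
  apply addOrderOf_eq_prime
  · rw [tameZQ, ← ofMul_pow, ← map_pow, hζ.pow_eq_one, map_one]
    rfl
  · intro h0
    apply tame_zeta_sub_one_not_mem hp hpQ hζ
    have h1 : ((tameZQ Q ζ).toMul : (𝓞 M ⧸ Q.asIdeal)ˣ) = 1 := by
      rw [h0]; rfl
    have h2 := congrArg (fun u : (𝓞 M ⧸ Q.asIdeal)ˣ => (u : 𝓞 M ⧸ Q.asIdeal)) h1
    simp only [coe_tameZQ, Units.val_one] at h2
    rw [← Ideal.Quotient.eq_zero_iff_mem, map_sub, map_one, h2, sub_self]

theorem nsmul_tameZQ (hp : p.Prime) (hpQ : (p : 𝓞 M) ∉ Q.asIdeal) {ζ : (𝓞 F)ˣ}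
    (hζ : IsPrimitiveRoot ζ p) : p • tameZQ Q ζ = 0 := by
  rw [← addOrderOf_tameZQ hp hpQ hζ]
  exact addOrderOf_nsmul_eq_zero _

/-- (TL9) `z_Q` generates the `p`-torsion of `k(Q)ˣ`. -/
theorem exists_zsmul_tameZQ (hp : p.Prime) (hpQ : (p : 𝓞 M) ∉ Q.asIdeal) {ζ : (𝓞 F)ˣ}
    (hζ : IsPrimitiveRoot ζ p) (c : Additive (𝓞 M ⧸ Q.asIdeal)ˣ) (hc : p • c = 0) :
    ∃ j : ℤ, c = j • tameZQ Q ζ := by
  haveI : Q.asIdeal.IsPrime := Q.isPrime
  haveI : NeZero p := ⟨hp.ne_zero⟩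
  have hord : orderOf ((tameZQ Q ζ).toMul : (𝓞 M ⧸ Q.asIdeal)ˣ) = p :=
    addOrderOf_tameZQ hp hpQ hζ
  have hprim : IsPrimitiveRoot ((tameZQ Q ζ).toMul : (𝓞 M ⧸ Q.asIdeal)ˣ) p := by
    rw [← hord]; exact IsPrimitiveRoot.orderOf _
  have hprim' : IsPrimitiveRoot
      ((((tameZQ Q ζ).toMul : (𝓞 M ⧸ Q.asIdeal)ˣ) : 𝓞 M ⧸ Q.asIdeal)) p :=
    IsPrimitiveRoot.coe_units_iff.mpr hprim
  have hc' : ((c.toMul : (𝓞 M ⧸ Q.asIdeal)ˣ) : 𝓞 M ⧸ Q.asIdeal) ^ p = 1 := by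
    have : (c.toMul : (𝓞 M ⧸ Q.asIdeal)ˣ) ^ p = 1 := by
      have := congrArg Additive.toMul hc
      simpa using this
    rw [← Units.val_pow_eq_pow_val, this, Units.val_one]
  obtain ⟨i, -, hi⟩ := hprim'.eq_pow_of_pow_eq_one hc'
  refine ⟨i, ?_⟩
  rw [natCast_zsmul]
  apply Additive.toMul.injective
  apply Units.ext
  rw [toMul_nsmul, Units.val_pow_eq_pow_val, hi]

end Zeta

section Alpha

variable (hp : p.Prime) (hcard : Nat.card Gal(M/F) = p) (Q : HeightOneSpectrum (𝓞 M))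
  (hQ : Q.asIdeal.inertia Gal(M/F) ≠ ⊥)

include hp hcard hQ

/-- (TL6) if `σ α = ζ α` then `p ∤ ord_Q α`. -/
theorem tame_not_dvd_tameD (hpQ : (p : 𝓞 M) ∉ Q.asIdeal) {ζ : (𝓞 F)ˣ}
    (hζ : IsPrimitiveRoot ζ p) {σ : Gal(M/F)} {α : Mˣ}
    (hα : σ (α : M) = algebraMap (𝓞 F) M (ζ : 𝓞 F) * (α : M)) : ¬ (p : ℤ) ∣ tameD Q α := by
  rintro ⟨j, hj⟩
  obtain ⟨π, hπ⟩ := (primeBelow F M Q).valuation_exists_uniformizer F
  have hπM : Q.valuation M (algebraMap F M π) = WithZero.exp (-(p : ℤ)) := by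
    rw [tame_valuation_algebraMap hp hcard Q hQ, hπ, ← WithZero.exp_nsmul]
    simp
  -- the `Q`-unit `u = α π^j`
  have hu : Q.valuation M ((α : M) * algebraMap F M π ^ j) = 1 := by
    rw [map_mul, map_zpow₀, hπM, valuation_eq_exp_divFun, ← WithZero.exp_zsmul,
      ← WithZero.exp_add, ← WithZero.exp_zero, WithZero.exp_inj]
    have : divFun (𝓞 M) M α Q = p * j := hj
    rw [this, smul_eq_mul]
    ring
  have hσu : σ ((α : M) * algebraMap F M π ^ j) =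
      algebraMap (𝓞 F) M (ζ : 𝓞 F) * ((α : M) * algebraMap F M π ^ j) := by
    rw [map_mul, map_zpow₀, σ.commutes, hα]
    ring
  have h1 := tame_valuation_apply_sub_lt hp hcard Q hQ hu.le σ
  rw [hσu] at h1
  have h2 : algebraMap (𝓞 F) M (ζ : 𝓞 F) * ((α : M) * algebraMap F M π ^ j) -
      (α : M) * algebraMap F M π ^ j =
      algebraMap (𝓞 M) M (algebraMap (𝓞 F) (𝓞 M) (ζ : 𝓞 F) - 1) *
        ((α : M) * algebraMap F M π ^ j) := by
    rw [map_sub, map_one, ← IsScalarTower.algebraMap_apply]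
    ring
  rw [h2, map_mul, hu, mul_one, Q.valuation_lt_one_iff_mem] at h1
  exact tame_zeta_sub_one_not_mem hp hpQ hζ h1

omit hp hcard hQ in
/-- two `Q`-units with difference of valuation `< 1` have the same reduction. -/
theorem redUnits_eq_of_valuation_sub_lt {a b : vUnits Q}
    (h : Q.valuation M (((a : Mˣ) : M) - ((b : Mˣ) : M)) < 1) : redUnits Q a = redUnits Q b := by
  apply Units.ext
  rw [coe_redUnits, coe_redUnits, ← sub_eq_zero, ← map_sub, redHom_eq_zero_iff]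
  exact h

omit hp hcard hQ in
/-- the reduction of (the image of) a unit of `𝓞 F`. -/
theorem redUnits_map_unit (ζ : (𝓞 F)ˣ)
    (h : Units.map (algebraMap (𝓞 F) M : 𝓞 F →* M) ζ ∈ vUnits Q) :
    Additive.ofMul (redUnits Q ⟨_, h⟩) = tameZQ Q ζ := by
  apply Additive.toMul.injective
  apply Units.ext
  show ((redUnits Q ⟨_, h⟩ : (𝓞 M ⧸ Q.asIdeal)ˣ) : 𝓞 M ⧸ Q.asIdeal) = _
  rw [coe_redUnits, coe_tameZQ]
  exact redHom_int Q (algebraMap (𝓞 F) (𝓞 M) (ζ : 𝓞 F))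

omit hp hcard hQ in
theorem unit_mem_vUnits (ζ : (𝓞 F)ˣ) :
    Units.map (algebraMap (𝓞 F) M : 𝓞 F →* M) ζ ∈ vUnits Q := by
  rw [mem_vUnits_iff]
  have h1 : ((Units.map (algebraMap (𝓞 F) M : 𝓞 F →* M) ζ : Mˣ) : M) =
      algebraMap (𝓞 M) M ((Units.map (algebraMap (𝓞 F) (𝓞 M) : 𝓞 F →* 𝓞 M) ζ : (𝓞 M)ˣ) : 𝓞 M) :=
    rfl
  rw [h1]
  set u : (𝓞 M)ˣ := Units.map (algebraMap (𝓞 F) (𝓞 M) : 𝓞 F →* 𝓞 M) ζ
  have h2 : Q.valuation M (algebraMap (𝓞 M) M (u : 𝓞 M)) ≤ 1 := Q.valuation_le_one _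
  have h3 : Q.valuation M (algebraMap (𝓞 M) M ((u⁻¹ : (𝓞 M)ˣ) : 𝓞 M)) ≤ 1 := Q.valuation_le_one _
  have h4 : Q.valuation M (algebraMap (𝓞 M) M (u : 𝓞 M)) *
      Q.valuation M (algebraMap (𝓞 M) M ((u⁻¹ : (𝓞 M)ˣ) : 𝓞 M)) = 1 := by
    rw [← map_mul, ← map_mul, ← Units.val_mul, mul_inv_cancel, Units.val_one, map_one, map_one]
  exact eq_one_of_one_le_mul_left h2 h3 h4.ge

/-- (TL7) the twisted equivariance of the tame residue symbol. -/
theorem tameRes_apply_of_eq {ζ : (𝓞 F)ˣ} {σ : Gal(M/F)} {α : Mˣ}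
    (hα : σ (α : M) = algebraMap (𝓞 F) M (ζ : 𝓞 F) * (α : M)) (x y : Mˣ)
    (hy : (y : M) = σ (x : M)) :
    tameRes Q α (Additive.ofMul y) =
      tameD Q x • tameZQ Q ζ + tameRes Q α (Additive.ofMul x) := by
  have hd : tameD Q y = tameD Q x := by
    rw [tameD, divFun_eq_iff, hy, tame_valuation_apply hp hcard Q hQ, valuation_eq_exp_divFun]
  -- the `Q`-unit `σ (tameUnit x)`
  have hw : Units.map (σ : M →* M) ((tameUnit Q α x : vUnits Q) : Mˣ) ∈ vUnits Q := by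
    rw [mem_vUnits_iff, Units.coe_map]
    show Q.valuation M (σ _) = 1
    rw [tame_valuation_apply hp hcard Q hQ]
    exact (mem_vUnits_iff Q _).mp (tameUnit Q α x).2
  have hζV := unit_mem_vUnits (F := F) Q ζ
  have key : tameUnit Q α y =
      (⟨_, hw⟩ : vUnits Q) * (⟨_, hζV⟩ : vUnits Q) ^ (tameD Q x) := by
    apply Subtype.ext
    apply Units.ext
    rw [Subgroup.coe_mul, Subgroup.coe_zpow, coe_tameUnit, hd]
    simp only [Units.val_mul, Units.val_zpow_eq_zpow_val, Units.coe_map, MonoidHom.coe_coe,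
      coe_tameUnit]
    rw [hy, map_mul, map_zpow₀, map_zpow₀, hα, mul_zpow]
    have hζ0 : algebraMap (𝓞 F) M (ζ : 𝓞 F) ≠ 0 := by
      have := (Units.map (algebraMap (𝓞 F) M : 𝓞 F →* M) ζ).ne_zero
      simpa using this
    have hα0 : (α : M) ≠ 0 := α.ne_zero
    rw [zpow_neg, zpow_neg]
    field_simp
  have hred : redUnits Q ⟨_, hw⟩ = redUnits Q (tameUnit Q α x) := by
    apply redUnits_eq_of_valuation_sub_lt
    have h1 : Q.valuation M (((tameUnit Q α x : vUnits Q) : Mˣ) : M) ≤ 1 :=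
      ((mem_vUnits_iff Q _).mp (tameUnit Q α x).2).le
    exact tame_valuation_apply_sub_lt hp hcard Q hQ h1 σ
  rw [tameRes_apply, tameRes_apply, toMul_ofMul, toMul_ofMul, key, map_mul, map_zpow, hred,
    ofMul_mul, ofMul_zpow, redUnits_map_unit Q ζ hζV, add_comm]

end Alpha

section Norm

theorem tameZQ_pow (Q : HeightOneSpectrum (𝓞 M)) (ζ : (𝓞 F)ˣ) (i : ℕ) :
    tameZQ Q (ζ ^ i) = i • tameZQ Q ζ := by
  rw [tameZQ, map_pow, ofMul_pow]
  rfl

variable (hp : p.Prime) (hcard : Nat.card Gal(M/F) = p) (Q : HeightOneSpectrum (𝓞 M))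
  (hQ : Q.asIdeal.inertia Gal(M/F) ≠ ⊥)

include hp hcard hQ

/-- (TL7), powers of `σ`. -/
theorem tameRes_apply_pow_of_eq {ζ : (𝓞 F)ˣ} {σ : Gal(M/F)} {α : Mˣ}
    (hα : σ (α : M) = algebraMap (𝓞 F) M (ζ : 𝓞 F) * (α : M)) (i : ℕ) (x y : Mˣ)
    (hy : (y : M) = (σ ^ i) (x : M)) :
    tameRes Q α (Additive.ofMul y) =
      (tameD Q x * i) • tameZQ Q ζ + tameRes Q α (Additive.ofMul x) := by
  have hαi : ∀ n : ℕ,
      (σ ^ n) (α : M) = algebraMap (𝓞 F) M ((ζ ^ n : (𝓞 F)ˣ) : 𝓞 F) * (α : M) := by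
    intro n
    induction n with
    | zero => simp
    | succ n ih =>
      rw [pow_succ', AlgEquiv.mul_apply, ih, map_mul, hα, pow_succ', Units.val_mul, map_mul]
      have : σ (algebraMap (𝓞 F) M ((ζ ^ n : (𝓞 F)ˣ) : 𝓞 F)) =
          algebraMap (𝓞 F) M ((ζ ^ n : (𝓞 F)ˣ) : 𝓞 F) := by
        rw [IsScalarTower.algebraMap_apply (𝓞 F) F M, σ.commutes]
      rw [this]
      ring
  rw [tameRes_apply_of_eq hp hcard Q hQ (hαi i) x y hy, tameZQ_pow, mul_smul, natCast_zsmul]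

/-- the tame residue symbol of a norm: `tameRes Q α (N x) = p • tameRes Q α x` (`p` odd). -/
theorem tameRes_prod_eq [Fintype Gal(M/F)] (hp2 : p ≠ 2) {ζ : (𝓞 F)ˣ} (hζp : ζ ^ p = 1)
    {σ : Gal(M/F)} (hσ : ∀ τ, τ ∈ Subgroup.zpowers σ) {α : Mˣ}
    (hα : σ (α : M) = algebraMap (𝓞 F) M (ζ : 𝓞 F) * (α : M)) (x y : Mˣ)
    (hy : (y : M) = ∏ τ : Gal(M/F), τ (x : M)) :
    tameRes Q α (Additive.ofMul y) = p • tameRes Q α (Additive.ofMul x) := by
  classical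
  have hn : orderOf σ = p := by
    rw [orderOf_eq_card_of_forall_mem_zpowers hσ, hcard]
  have himg : Finset.image (fun i => σ ^ i) (Finset.range p) = Finset.univ := by
    rw [← hn]
    exact IsCyclic.image_range_orderOf hσ
  have hyprod : y = ∏ i ∈ Finset.range p, Units.map ((σ ^ i : Gal(M/F)) : M →* M) x := by
    apply Units.ext
    rw [hy, Units.coe_prod, ← himg, Finset.prod_image]
    · rfl
    · intro i hi i' hi' h
      rw [← hn] at hi hi'
      exact pow_injOn_Iio_orderOf (by simpa using hi) (by simpa using hi') h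
  have hz : p • tameZQ (F := F) Q ζ = 0 := by
    rw [tameZQ, ← ofMul_pow, ← map_pow, hζp, map_one]
    rfl
  rw [hyprod, ofMul_prod, map_sum]
  have h1 : ∀ i ∈ Finset.range p,
      tameRes Q α (Additive.ofMul (Units.map ((σ ^ i : Gal(M/F)) : M →* M) x)) =
        (tameD Q x * i) • tameZQ Q ζ + tameRes Q α (Additive.ofMul x) := fun i _ =>
    tameRes_apply_pow_of_eq hp hcard Q hQ hα i x _ rfl
  rw [Finset.sum_congr rfl h1, Finset.sum_add_distrib, Finset.sum_const, Finset.card_range]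
  have h5 : ∑ i ∈ Finset.range p, (tameD Q x * (i : ℤ)) • tameZQ (F := F) Q ζ =
      (tameD Q x * ∑ i ∈ Finset.range p, (i : ℤ)) • tameZQ (F := F) Q ζ := by
    rw [Finset.mul_sum]
    exact (map_sum ((smulAddHom ℤ (Additive (𝓞 M ⧸ Q.asIdeal)ˣ)).flip (tameZQ (F := F) Q ζ))
      (fun i : ℕ => tameD Q x * (i : ℤ)) (Finset.range p)).symm
  rw [h5]
  -- `∑ i < p, i` is divisible by `p`
  obtain ⟨k, hk⟩ : ∃ k : ℕ, ∑ i ∈ Finset.range p, i = p * k := by
    have hodd : Odd p := hp.odd_of_ne_two hp2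
    obtain ⟨m, hm⟩ := hodd
    refine ⟨m, ?_⟩
    have h2 := Finset.sum_range_id_mul_two p
    have h3 : p * (p - 1) = p * m * 2 := by
      rw [hm]
      simp only [Nat.add_sub_cancel]
      ring
    rw [h3] at h2
    exact Nat.eq_of_mul_eq_mul_right (by norm_num) h2
  have h4 : ((∑ i ∈ Finset.range p, (i : ℤ)) : ℤ) = p * k := by
    rw [← Nat.cast_sum, hk, Nat.cast_mul]
  have h6 : (tameD Q x * ((p : ℤ) * k)) • tameZQ (F := F) Q ζ =
      (tameD Q x * k) • ((p : ℤ) • tameZQ (F := F) Q ζ) := by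
    rw [← mul_smul]
    congr 1
    ring
  rw [h4, h6, natCast_zsmul, hz, smul_zero, zero_add]

end Norm

end Fermat.Agent.CFT
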