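import Fermat.Agent.CFT.Global.TameDefs
import Fermat.Agent.CFT.Global.DivInvariants
import Fermat.Agent.CFT.Global.WeakApprox
import Fermat.Agent.CFT.Global.TameApprox
import Fermat.Agent.CFT.Global.TameLocal
import Fermat.Agent.CFT.Global.IdealDivOrder

/-!
# (F3) (AP): the arithmetic end of the tame first inequality

(helper25, PROJECT CFT stream [C], chunk (F3)(AP) of helper29's msg 832)

`ker (tameFI) ≤ φ(Fˣ) + range (tameGI)` from the negated conclusion of `Contracts.TameFirstIneq`.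
-/

set_option autoImplicit false
set_option linter.unusedSectionVars false
set_option linter.unusedVariables false

namespace Fermat.Agent.CFT

open NumberField IsDedekindDomain IsDedekindDomain.HeightOneSpectrum
open scoped Pointwise

section TameEnd

variable {F M : Type*} [Field F] [NumberField F] [Field M] [NumberField M] [Algebra F M]
  [IsGalois F M]

attribute [local instance] heightOneSpectrumMulAction additiveDistribMulAction
attribute [local instance] Finsupp.comapSMul Finsupp.comapMulAction Finsupp.comapDistribMulAction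

/-- the image of `x ∈ Fˣ` in `Mˣ`. -/
noncomputable abbrev unitsToM (x : Fˣ) : Mˣ := Units.map (algebraMap F M : F →* M) x

omit [NumberField F] [NumberField M] [IsGalois F M] in
theorem smul_unitsToM (g : Gal(M/F)) (x : Fˣ) : g • (unitsToM (M := M) x) = unitsToM x := by
  apply Units.ext
  show g (algebraMap F M x) = algebraMap F M x
  exact g.commutes _

omit [NumberField F] [NumberField M] [IsGalois F M] in
/-- elements of `Fˣ` are `σ`-invariant in `Additive Mˣ`. -/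
theorem ofMul_unitsToM_mem_ker (σ : Gal(M/F)) (x : Fˣ) :
    Additive.ofMul (unitsToM (M := M) x) ∈ (subOneHom (Additive Mˣ) σ).ker := by
  rw [AddMonoidHom.mem_ker, subOneHom_apply, sub_eq_zero]
  show Additive.ofMul (σ • unitsToM (M := M) x) = _
  rw [smul_unitsToM]

/-- the divisor of an element of `Fˣ` is Galois-invariant. -/
theorem smul_divHom_unitsToM (g : Gal(M/F)) (x : Fˣ) :
    g • divHom (𝓞 M) M (Additive.ofMul (unitsToM x)) =
      divHom (𝓞 M) M (Additive.ofMul (unitsToM x)) := by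
  rw [← divHom_units_map_smul F M g (unitsToM x)]
  congr 2
  exact smul_unitsToM g x

omit [NumberField F] [Algebra F M] [IsGalois F M] in
/-- `tameRes` of a `Q`-unit `x` is `d_Q(α) • (x mod Q)`. -/
theorem tameEnd_tameRes_of_mem_vUnits (Q : HeightOneSpectrum (𝓞 M)) (α x : Mˣ) (hx : x ∈ vUnits Q) :
    tameRes Q α (Additive.ofMul x) = tameD Q α • Additive.ofMul (redUnits Q ⟨x, hx⟩) := by
  have hd : tameD Q x = 0 := by
    rw [tameD, divFun_eq_iff, WithZero.exp_zero]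
    exact (mem_vUnits_iff Q x).mp hx
  rw [tameRes_apply, toMul_ofMul]
  have h1 : tameUnit Q α x = (⟨x, hx⟩ : vUnits Q) ^ (tameD Q α) := by
    apply Subtype.ext
    rw [coe_tameUnit, hd, neg_zero, zpow_zero, mul_one]
    simp
  rw [h1, map_zpow]
  rfl

omit [NumberField F] [Algebra F M] [IsGalois F M] in
theorem tameD_eq_zero_iff (Q : HeightOneSpectrum (𝓞 M)) (x : Mˣ) :
    tameD Q x = 0 ↔ x ∈ vUnits Q := by
  rw [tameD, divFun_eq_iff, WithZero.exp_zero, mem_vUnits_iff]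

omit [IsGalois F M] in
/-- integers of `F` outside `q = Q ∩ 𝓞 F` are `Q`-units of `M`. -/
theorem unitsToM_mk0_mem_vUnits (Q : HeightOneSpectrum (𝓞 M)) {y : 𝓞 F}
    (hy : y ∉ (primeBelow F M Q).asIdeal) (hy0 : algebraMap (𝓞 F) F y ≠ 0) :
    unitsToM (M := M) (Units.mk0 (algebraMap (𝓞 F) F y) hy0) ∈ vUnits Q := by
  rw [mem_vUnits_iff]
  show Q.valuation M (algebraMap F M (algebraMap (𝓞 F) F y)) = 1
  have h1 : algebraMap F M (algebraMap (𝓞 F) F y) =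
      algebraMap (𝓞 M) M (algebraMap (𝓞 F) (𝓞 M) y) := rfl
  rw [h1, valuation_of_algebraMap, intValuation_eq_one_iff]
  intro hmem
  apply hy
  exact hmem

omit [IsGalois F M] in
theorem coe_redUnits_unitsToM_mk0 (Q : HeightOneSpectrum (𝓞 M)) {y : 𝓞 F}
    (hy : y ∉ (primeBelow F M Q).asIdeal) (hy0 : algebraMap (𝓞 F) F y ≠ 0) :
    ((redUnits Q ⟨unitsToM (M := M) (Units.mk0 (algebraMap (𝓞 F) F y) hy0),
      unitsToM_mk0_mem_vUnits Q hy hy0⟩ : (𝓞 M ⧸ Q.asIdeal)ˣ) : 𝓞 M ⧸ Q.asIdeal) =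
      Ideal.Quotient.mk Q.asIdeal (algebraMap (𝓞 F) (𝓞 M) y) := by
  rw [coe_redUnits]
  exact redHom_int Q (algebraMap (𝓞 F) (𝓞 M) y)

omit [IsGalois F M] in
/-- **CRT with unit residues** at the ramified primes (needs `f = 1` there). -/
theorem exists_int_forall_mk_eq (RR : Finset (HeightOneSpectrum (𝓞 M)))
    (hTL2 : ∀ Q ∈ RR, ∀ w ∈ RR, primeBelow F M w = primeBelow F M Q → w = Q)
    (hTL3 : ∀ Q ∈ RR, ∀ x : 𝓞 M, ∃ y : 𝓞 F, x - algebraMap (𝓞 F) (𝓞 M) y ∈ Q.asIdeal)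
    (cl : ∀ Q : RR, (𝓞 M ⧸ Q.1.asIdeal)ˣ) :
    ∃ x : 𝓞 F, algebraMap (𝓞 F) F x ≠ 0 ∧ ∀ Q : RR, x ∉ (primeBelow F M Q.1).asIdeal ∧
      Ideal.Quotient.mk Q.1.asIdeal (algebraMap (𝓞 F) (𝓞 M) x) = (cl Q : 𝓞 M ⧸ Q.1.asIdeal) := by
  classical
  rcases RR.eq_empty_or_nonempty with hemp | hne
  · refine ⟨1, by simp, fun Q => ?_⟩
    have h := Q.2
    simp [hemp] at h
  have hlift : ∀ Q : RR, ∃ y : 𝓞 F,
      Ideal.Quotient.mk Q.1.asIdeal (algebraMap (𝓞 F) (𝓞 M) y) = (cl Q : 𝓞 M ⧸ Q.1.asIdeal) := by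
    intro Q
    obtain ⟨r, hr⟩ := Ideal.Quotient.mk_surjective (cl Q : 𝓞 M ⧸ Q.1.asIdeal)
    obtain ⟨y, hy⟩ := hTL3 Q.1 Q.2 r
    refine ⟨y, ?_⟩
    rw [← hr]
    exact (Ideal.Quotient.eq.mpr hy).symm
  choose y hy using hlift
  obtain ⟨x, hx⟩ := IsDedekindDomain.exists_forall_sub_mem_ideal (s := RR)
    (fun Q : HeightOneSpectrum (𝓞 M) => (primeBelow F M Q).asIdeal) (fun _ => 1)
    (fun Q _ => (primeBelow F M Q).prime)
    (fun Q hQ w hw hne h => hne ((hTL2 w hw Q hQ (HeightOneSpectrum.ext h)))) y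
  have hmk : ∀ Q : RR, Ideal.Quotient.mk Q.1.asIdeal (algebraMap (𝓞 F) (𝓞 M) x) =
      (cl Q : 𝓞 M ⧸ Q.1.asIdeal) := by
    intro Q
    rw [← hy Q]
    apply Ideal.Quotient.eq.mpr
    have h1 := hx Q.1 Q.2
    rw [pow_one] at h1
    have h2 : algebraMap (𝓞 F) (𝓞 M) (x - y Q) ∈ Q.1.asIdeal := h1
    rwa [map_sub] at h2
  have hnot : ∀ Q : RR, x ∉ (primeBelow F M Q.1).asIdeal := by
    intro Q hmem
    have h1 : algebraMap (𝓞 F) (𝓞 M) x ∈ Q.1.asIdeal := hmem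
    have h2 := hmk Q
    rw [Ideal.Quotient.eq_zero_iff_mem.mpr h1] at h2
    have : Nontrivial (𝓞 M ⧸ Q.1.asIdeal) :=
      Ideal.Quotient.nontrivial_iff.mpr Q.1.isPrime.ne_top
    exact (cl Q).ne_zero h2.symm
  refine ⟨x, ?_, fun Q => ⟨hnot Q, hmk Q⟩⟩
  obtain ⟨Q, hQ⟩ := hne
  intro h0
  have hx0 : x = 0 := (FaithfulSMul.algebraMap_injective (𝓞 F) F) (by rw [h0, map_zero])
  apply hnot ⟨Q, hQ⟩
  rw [hx0]
  exact Ideal.zero_mem _

/-- **Steps C/D**: under the negated conclusion of `Contracts.TameFirstIneq`, every divisor of `F`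
vanishing on `R ⊆ T` is `div (y / z) + N(E)` with `y, z` units at `R`, `z / y` a `p`-th power
residue at `R`, and `E` supported at unramified primes. -/
theorem exists_divHom_add_divNorm_of_hall {p : ℕ} (hp : p ≠ 0)
    (T R : Finset (HeightOneSpectrum (𝓞 F))) (hRT : R ⊆ T)
    (hunr : ∀ Q : Ideal (𝓞 M), Q.IsPrime → Q ≠ ⊥ →
      (∀ q ∈ T, Q.under (𝓞 F) ≠ q.asIdeal) → Q.inertia Gal(M/F) = ⊥)
    (hall : ∀ 𝔞 : Ideal (𝓞 F), 𝔞 ≠ ⊥ → (∀ q ∈ T, ¬ 𝔞 ≤ q.asIdeal) →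
      ∃ (y z : 𝓞 F) (J J' : Ideal (𝓞 M)), y ≠ 0 ∧ z ≠ 0 ∧
        (∀ q ∈ T, y ∉ q.asIdeal ∧ z ∉ q.asIdeal ∧ ∃ w : 𝓞 F, z - y * w ^ p ∈ q.asIdeal) ∧
        J ≠ ⊥ ∧ J' ≠ ⊥ ∧
        (∀ q ∈ T, ∀ Q : Ideal (𝓞 M), Q.IsPrime → Q.under (𝓞 F) = q.asIdeal →
          ¬ J ≤ Q ∧ ¬ J' ≤ Q) ∧
        Ideal.span {y} * 𝔞 * Ideal.relNorm (𝓞 F) J' = Ideal.span {z} * Ideal.relNorm (𝓞 F) J)
    (D0 : HeightOneSpectrum (𝓞 F) →₀ ℤ) (hD0 : ∀ q ∈ R, D0 q = 0) :
    ∃ (y z : 𝓞 F) (hy : algebraMap (𝓞 F) F y ≠ 0) (hz : algebraMap (𝓞 F) F z ≠ 0)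
      (E : HeightOneSpectrum (𝓞 M) →₀ ℤ),
      (∀ q ∈ R, y ∉ q.asIdeal ∧ z ∉ q.asIdeal ∧ ∃ w : 𝓞 F, z - y * w ^ p ∈ q.asIdeal) ∧
      (∀ w, E w ≠ 0 → w.asIdeal.inertia Gal(M/F) = ⊥) ∧
      D0 = divHom (𝓞 F) F (Additive.ofMul (Units.mk0 _ hy / Units.mk0 _ hz)) + divNorm F M E := by
  obtain ⟨𝔞, 𝔟, h𝔞, h𝔟, hab, hprime⟩ := exists_idealDiv_sub_eq (𝓞 F) D0
  obtain ⟨y, z, J, J', hy0, hz0, hc, hJ, hJ', hpr, heq⟩ :=
    tame_reduce (M := M) p hp T R hRT hall 𝔞 𝔟 h𝔞 h𝔟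
      (fun q hq => (hprime q (hD0 q hq)).1) (fun q hq => (hprime q (hD0 q hq)).2)
  have hinj := FaithfulSMul.algebraMap_injective (𝓞 F) F
  have hy : algebraMap (𝓞 F) F y ≠ 0 := fun h => hy0 (hinj (by rw [h, map_zero]))
  have hz : algebraMap (𝓞 F) F z ≠ 0 := fun h => hz0 (hinj (by rw [h, map_zero]))
  refine ⟨y, z, hy, hz, idealDiv (𝓞 M) J - idealDiv (𝓞 M) J', hc, ?_, ?_⟩
  · intro w hw
    by_contra hram
    have hex : ∃ q ∈ T, w.asIdeal.under (𝓞 F) = q.asIdeal := by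
      by_contra hno
      push Not at hno
      exact hram (hunr w.asIdeal w.isPrime w.ne_bot hno)
    obtain ⟨q, hq, hqw⟩ := hex
    obtain ⟨h1, h2⟩ := hpr q hq w.asIdeal w.isPrime hqw
    apply hw
    rw [Finsupp.sub_apply, (idealDiv_eq_zero_iff (𝓞 M) hJ w).mpr h1,
      (idealDiv_eq_zero_iff (𝓞 M) hJ' w).mpr h2, sub_zero]
  · rw [← hab]
    exact idealDiv_sub_eq_divHom_add_divNorm F M _ _ rfl rfl h𝔞 h𝔟 hJ hJ' heq

omit [IsGalois F M] in
/-- the tame residue of `y / z` (`y, z ∈ 𝓞 F` units at `q = Q ∩ 𝓞 F`, `z ≡ y w ^ p mod q`) is a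
`p`-th multiple. -/
theorem exists_tameRes_mk0_div_mk0_eq_nsmul {p : ℕ} (hp : p ≠ 0) (Q : HeightOneSpectrum (𝓞 M))
    (α : Mˣ) {y z w : 𝓞 F} (hy : y ∉ (primeBelow F M Q).asIdeal)
    (hz : z ∉ (primeBelow F M Q).asIdeal) (hw : z - y * w ^ p ∈ (primeBelow F M Q).asIdeal)
    (hy0 : algebraMap (𝓞 F) F y ≠ 0) (hz0 : algebraMap (𝓞 F) F z ≠ 0) :
    ∃ t : Additive (𝓞 M ⧸ Q.asIdeal)ˣ,
      tameRes Q α (Additive.ofMul (unitsToM (M := M) (Units.mk0 _ hy0 / Units.mk0 _ hz0))) =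
        p • t := by
  have hY := unitsToM_mk0_mem_vUnits (M := M) Q hy hy0
  have hZ := unitsToM_mk0_mem_vUnits (M := M) Q hz hz0
  have hcY := coe_redUnits_unitsToM_mk0 (M := M) Q hy hy0
  have hcZ := coe_redUnits_unitsToM_mk0 (M := M) Q hz hz0
  set rY := redUnits Q ⟨unitsToM (M := M) (Units.mk0 _ hy0), hY⟩ with hrY
  set rZ := redUnits Q ⟨unitsToM (M := M) (Units.mk0 _ hz0), hZ⟩ with hrZ
  -- the relation in the residue field
  have hrel : Ideal.Quotient.mk Q.asIdeal (algebraMap (𝓞 F) (𝓞 M) z) =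
      Ideal.Quotient.mk Q.asIdeal (algebraMap (𝓞 F) (𝓞 M) y) *
        Ideal.Quotient.mk Q.asIdeal (algebraMap (𝓞 F) (𝓞 M) w) ^ p := by
    rw [← map_pow, ← map_mul, ← map_pow, ← map_mul]
    apply Ideal.Quotient.eq.mpr
    have h1 : algebraMap (𝓞 F) (𝓞 M) (z - y * w ^ p) ∈ Q.asIdeal := hw
    rwa [map_sub] at h1
  have hu : IsUnit (Ideal.Quotient.mk Q.asIdeal (algebraMap (𝓞 F) (𝓞 M) w)) := by
    have h1 : IsUnit (Ideal.Quotient.mk Q.asIdeal (algebraMap (𝓞 F) (𝓞 M) y) *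
        Ideal.Quotient.mk Q.asIdeal (algebraMap (𝓞 F) (𝓞 M) w) ^ p) := by
      rw [← hrel, ← hcZ]
      exact rZ.isUnit
    exact (isUnit_pow_iff hp).mp (isUnit_of_mul_isUnit_right h1)
  have hZY : rZ = rY * hu.unit ^ p := by
    apply Units.ext
    rw [Units.val_mul, Units.val_pow_eq_pow_val, IsUnit.unit_spec, hcZ, hcY, hrel]
  refine ⟨-(tameD Q α • Additive.ofMul hu.unit), ?_⟩
  have hdiv : unitsToM (M := M) (Units.mk0 _ hy0 / Units.mk0 _ hz0) =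
      unitsToM (Units.mk0 _ hy0) / unitsToM (Units.mk0 _ hz0) := map_div _ _ _
  rw [hdiv, ofMul_div, map_sub, tameEnd_tameRes_of_mem_vUnits Q α _ hY, tameEnd_tameRes_of_mem_vUnits Q α _ hZ,
    ← hrY, ← hrZ, hZY, ofMul_mul, ofMul_pow]
  module

omit [NumberField M] [Algebra F M] [IsGalois F M] [Field M] in
theorem divFun_mk0_eq_zero (q : HeightOneSpectrum (𝓞 F)) {y : 𝓞 F} (hy : y ∉ q.asIdeal)
    (hy0 : algebraMap (𝓞 F) F y ≠ 0) :
    divFun (𝓞 F) F (Units.mk0 (algebraMap (𝓞 F) F y) hy0) q = 0 := by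
  rw [divFun_eq_iff, WithZero.exp_zero, Units.val_mk0, valuation_of_algebraMap,
    intValuation_eq_one_iff]
  exact hy

omit [IsGalois F M] in
/-- **Step B**: an element of `F`, unit at the ramified primes, with prescribed tame residues
modulo `p`-th multiples. -/
theorem exists_unit_forall_tameRes_eq {p : ℕ} (RR : Finset (HeightOneSpectrum (𝓞 M)))
    (hTL2 : ∀ Q ∈ RR, ∀ w ∈ RR, primeBelow F M w = primeBelow F M Q → w = Q)
    (hTL3 : ∀ Q ∈ RR, ∀ x : 𝓞 M, ∃ y : 𝓞 F, x - algebraMap (𝓞 F) (𝓞 M) y ∈ Q.asIdeal)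
    (α : Mˣ) (hTL6 : ∀ Q ∈ RR, IsCoprime (p : ℤ) (tameD Q α)) (t : tameK RR) :
    ∃ x : Fˣ, (∀ Q ∈ RR, divFun (𝓞 F) F x (primeBelow F M Q) = 0) ∧
      ∀ Q : RR, ∃ s : Additive (𝓞 M ⧸ Q.1.asIdeal)ˣ,
        t Q - tameRes Q.1 α (Additive.ofMul (unitsToM x)) = p • s := by
  have hbez : ∀ Q : RR, ∃ u v : ℤ, u * (p : ℤ) + v * tameD Q.1 α = 1 := fun Q => hTL6 Q.1 Q.2
  choose u v huv using hbez
  obtain ⟨x, hx0, hx⟩ := exists_int_forall_mk_eq (F := F) RR hTL2 hTL3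
    (fun Q => (v Q • t Q).toMul)
  refine ⟨Units.mk0 _ hx0, fun Q hQ => divFun_mk0_eq_zero _ (hx ⟨Q, hQ⟩).1 hx0, fun Q => ?_⟩
  refine ⟨u Q • t Q, ?_⟩
  have hX := unitsToM_mk0_mem_vUnits (M := M) Q.1 (hx Q).1 hx0
  have hred : redUnits Q.1 ⟨unitsToM (M := M) (Units.mk0 _ hx0), hX⟩ = (v Q • t Q).toMul := by
    apply Units.ext
    rw [coe_redUnits_unitsToM_mk0 (M := M) Q.1 (hx Q).1 hx0]
    exact (hx Q).2
  rw [tameEnd_tameRes_of_mem_vUnits Q.1 α _ hX, hred, ofMul_toMul]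
  have h2 : (u Q * (p : ℤ) + v Q * tameD Q.1 α) • t Q - tameD Q.1 α • (v Q • t Q) =
      p • (u Q • t Q) := by module
  rw [huv Q, one_smul] at h2
  exact h2

/-- **(F3)(AP), the arithmetic end of the tame first inequality.**  Under the negated conclusion
`hall` of `Contracts.TameFirstIneq`, the `σ`-invariants of the middle term `Div M × ∏ k(Q)ˣ` are
`φ(Fˣ) + N(I)` -- contradicting the index computation `tame_index_core`. -/
theorem tameFI_ker_le_of_hall [Fintype Gal(M/F)] {p : ℕ} (hp : p.Prime)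
    (hcard : Nat.card Gal(M/F) = p) {σ : Gal(M/F)} (hσ : ∀ τ, τ ∈ Subgroup.zpowers σ)
    (ζ : (𝓞 F)ˣ) (α : Mˣ) (T : Finset (HeightOneSpectrum (𝓞 F)))
    (hunr : ∀ Q : Ideal (𝓞 M), Q.IsPrime → Q ≠ ⊥ →
      (∀ q ∈ T, Q.under (𝓞 F) ≠ q.asIdeal) → Q.inertia Gal(M/F) = ⊥)
    (RR : Finset (HeightOneSpectrum (𝓞 M)))
    (hRR : ∀ Q, Q ∈ RR ↔ Q.asIdeal.inertia Gal(M/F) ≠ ⊥)
    (hTL6 : ∀ Q ∈ RR, ¬ (p : ℤ) ∣ tameD Q α)
    (hTL8 : ∀ (Q : RR) (n : ℤ), n • tameZ RR ζ Q = 0 → (p : ℤ) ∣ n)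
    (hall : ∀ 𝔞 : Ideal (𝓞 F), 𝔞 ≠ ⊥ → (∀ q ∈ T, ¬ 𝔞 ≤ q.asIdeal) →
      ∃ (y z : 𝓞 F) (J J' : Ideal (𝓞 M)), y ≠ 0 ∧ z ≠ 0 ∧
        (∀ q ∈ T, y ∉ q.asIdeal ∧ z ∉ q.asIdeal ∧ ∃ w : 𝓞 F, z - y * w ^ p ∈ q.asIdeal) ∧
        J ≠ ⊥ ∧ J' ≠ ⊥ ∧
        (∀ q ∈ T, ∀ Q : Ideal (𝓞 M), Q.IsPrime → Q.under (𝓞 F) = q.asIdeal →
          ¬ J ≤ Q ∧ ¬ J' ≤ Q) ∧
        Ideal.span {y} * 𝔞 * Ideal.relNorm (𝓞 F) J' = Ideal.span {z} * Ideal.relNorm (𝓞 F) J) :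
    (tameFI RR (subOneHom (HeightOneSpectrum (𝓞 M) →₀ ℤ) σ) (tameZ RR ζ)).ker ≤
      (subOneHom (Additive Mˣ) σ).ker.map (tamePhi RR α) ⊔
        (tameGI RR (normHom Gal(M/F) (HeightOneSpectrum (𝓞 M) →₀ ℤ)) p).range := by
  classical
  obtain rfl : ‹Fintype Gal(M/F)› = AlgEquiv.fintype F M := Subsingleton.elim _ _
  -- the ramified primes of `F`
  set R : Finset (HeightOneSpectrum (𝓞 F)) := RR.image (primeBelow F M) with hR
  have hQ : ∀ Q ∈ RR, Q.asIdeal.inertia Gal(M/F) ≠ ⊥ := fun Q h => (hRR Q).mp h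
  have hRT : R ⊆ T := by
    intro q hq
    obtain ⟨Q, hQR, rfl⟩ := Finset.mem_image.mp hq
    by_contra hqT
    apply hQ Q hQR
    apply hunr Q.asIdeal Q.isPrime Q.ne_bot
    intro q' hq' heq
    apply hqT
    have h1 : primeBelow F M Q = q' := HeightOneSpectrum.ext heq
    rw [h1]
    exact hq'
  have hTL2 : ∀ Q ∈ RR, ∀ w, primeBelow F M w = primeBelow F M Q → w = Q :=
    fun Q h w hw => tame_eq_of_primeBelow_eq hp hcard Q (hQ Q h) hw
  have hTL3 : ∀ Q ∈ RR, ∀ x : 𝓞 M, ∃ y : 𝓞 F, x - algebraMap (𝓞 F) (𝓞 M) y ∈ Q.asIdeal :=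
    fun Q h x => tame_exists_sub_mem hp hcard Q (hQ Q h) x
  have hTL4 : ∀ Q ∈ RR, ∀ x : Fˣ, tameD Q (unitsToM x) =
      p * divFun (𝓞 F) F x (primeBelow F M Q) :=
    fun Q h x => tameD_map_algebraMap hp hcard Q (hQ Q h) x
  have hcop : ∀ Q ∈ RR, IsCoprime (p : ℤ) (tameD Q α) := fun Q h =>
    (Nat.prime_iff_prime_int.mp hp).coprime_iff_not_dvd.mpr (hTL6 Q h)
  rintro ⟨D, c⟩ hDc
  rw [AddMonoidHom.mem_ker, tameFI_apply, Prod.mk_eq_zero] at hDc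
  obtain ⟨hσD, hθ⟩ := hDc
  -- `D` is Galois-invariant
  have hσD' : σ • D = D := by rwa [subOneHom_apply, sub_eq_zero] at hσD
  have hinv : ∀ g : Gal(M/F), g • D = D := by
    intro g
    have h1 : Subgroup.zpowers σ ≤ MulAction.stabilizer Gal(M/F) D := by
      rw [Subgroup.zpowers_le]
      exact hσD'
    exact h1 (hσ g)
  obtain ⟨Dinv, hDinv, -⟩ := exists_divExt_eq_of_smul_eq F M D hinv
  have hDw : ∀ w, D w = Dinv (primeBelow F M w) := fun w => by rw [← hDinv, divExt_apply]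
  -- `p ∣ D Q` at the ramified primes
  have hpD : ∀ Q ∈ RR, (p : ℤ) ∣ D Q := by
    intro Q h
    apply hTL8 ⟨Q, h⟩
    have h1 := congrFun hθ ⟨Q, h⟩
    rwa [tameTheta_apply] at h1
  -- Step A
  obtain ⟨x1, hx1⟩ := exists_units_forall_valuation_eq F R (fun q => -(Dinv q / (p : ℤ)))
  have hx1' : ∀ Q ∈ RR, (p : ℤ) * divFun (𝓞 F) F x1 (primeBelow F M Q) = D Q := by
    intro Q h
    have h1 := hx1 (primeBelow F M Q) (Finset.mem_image_of_mem _ h)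
    rw [neg_neg] at h1
    rw [(divFun_eq_iff (𝓞 F) F x1 _ _).mpr h1, ← hDw Q]
    exact Int.mul_ediv_cancel' (hpD Q h)
  -- Step B
  obtain ⟨x2, hx2d, hx2r⟩ := exists_unit_forall_tameRes_eq (F := F) (p := p) RR
    (fun Q h w _ hw => hTL2 Q h w hw) hTL3 α hcop
    (fun Q => c Q - tameRes Q.1 α (Additive.ofMul (unitsToM x1)))
  choose s hs using hx2r
  -- Steps C/D
  set D0 : HeightOneSpectrum (𝓞 F) →₀ ℤ :=
    (Dinv - divHom (𝓞 F) F (Additive.ofMul x1) - divHom (𝓞 F) F (Additive.ofMul x2)).filter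
      (fun q => q ∉ R) with hD0
  have hD0R : ∀ q ∈ R, D0 q = 0 := fun q hq => by
    rw [hD0, Finsupp.filter_apply_neg]
    simpa using hq
  obtain ⟨y, z, hy, hz, E, hc, hE, hD0eq⟩ :=
    exists_divHom_add_divNorm_of_hall (M := M) hp.ne_zero T R hRT hunr hall D0 hD0R
  set x3 : Fˣ := Units.mk0 _ hy / Units.mk0 _ hz with hx3
  have hx3r : ∀ Q : RR, ∃ t : Additive (𝓞 M ⧸ Q.1.asIdeal)ˣ,
      tameRes Q.1 α (Additive.ofMul (unitsToM x3)) = p • t := by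
    intro Q
    obtain ⟨hyq, hzq, w, hw⟩ := hc (primeBelow F M Q.1) (Finset.mem_image_of_mem _ Q.2)
    exact exists_tameRes_mk0_div_mk0_eq_nsmul hp.ne_zero Q.1 α hyq hzq hw hy hz
  choose t3 ht3 using hx3r
  have hx3d : ∀ q ∈ R, divFun (𝓞 F) F x3 q = 0 := by
    intro q hq
    obtain ⟨hyq, hzq, -⟩ := hc q hq
    rw [hx3, div_eq_mul_inv, divFun_mul, divFun_inv, divFun_mk0_eq_zero q hyq hy,
      divFun_mk0_eq_zero q hzq hz, neg_zero, add_zero]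
  have hNE : ∀ q ∈ R, divNorm F M E q = 0 := by
    intro q hq
    have h1 := DFunLike.congr_fun hD0eq q
    rw [hD0R q hq, Finsupp.add_apply, divHom_apply, toMul_ofMul, hx3d q hq, zero_add] at h1
    exact h1.symm
  -- the decomposition
  rw [AddSubgroup.mem_sup]
  refine ⟨tamePhi RR α (Additive.ofMul (unitsToM (x1 * x2 * x3))),
    AddSubgroup.mem_map_of_mem _ (ofMul_unitsToM_mem_ker σ _),
    tameGI RR (normHom Gal(M/F) _) p (E, fun Q => s Q - t3 Q), ⟨_, rfl⟩, ?_⟩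
  rw [tameGI_apply]
  apply Prod.ext
  · -- the divisor component
    show divHom (𝓞 M) M (Additive.ofMul (unitsToM (x1 * x2 * x3))) +
      normHom Gal(M/F) (HeightOneSpectrum (𝓞 M) →₀ ℤ) E = D
    rw [normHom_eq_divExt_divNorm F M E hE]
    ext w
    rw [Finsupp.add_apply, divHom_apply, toMul_ofMul, divExt_apply]
    by_cases hw : w ∈ RR
    · have hwR : primeBelow F M w ∈ R := Finset.mem_image_of_mem _ hw
      have h4 : divFun (𝓞 M) M (unitsToM (x1 * x2 * x3)) w = _ := hTL4 w hw (x1 * x2 * x3)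
      rw [h4, divFun_mul, divFun_mul, hx2d w hw, hx3d _ hwR, hNE _ hwR, add_zero, add_zero,
        add_zero, hx1' w hw]
    · have hwi : w.asIdeal.inertia Gal(M/F) = ⊥ := by
        by_contra h
        exact hw ((hRR w).mpr h)
      have hwR : primeBelow F M w ∉ R := by
        intro h
        obtain ⟨Q, hQR, hQw⟩ := Finset.mem_image.mp h
        exact hw ((hTL2 Q hQR w hQw.symm) ▸ hQR)
      rw [divFun_algebraMap_of_inertia_eq_bot F M w hwi, hDw w, divFun_mul, divFun_mul]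
      have h1 := DFunLike.congr_fun hD0eq (primeBelow F M w)
      rw [hD0, Finsupp.filter_apply_pos (fun q => q ∉ R) _ hwR, Finsupp.sub_apply, Finsupp.sub_apply,
        Finsupp.add_apply, divHom_apply, divHom_apply, divHom_apply, toMul_ofMul, toMul_ofMul,
        toMul_ofMul] at h1
      linarith
  · -- the residue component
    funext Q
    show tameRes Q.1 α (Additive.ofMul (unitsToM (x1 * x2 * x3))) + p • (s Q - t3 Q) = c Q
    have e : Additive.ofMul (unitsToM (M := M) (x1 * x2 * x3)) =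
        Additive.ofMul (unitsToM x1) + Additive.ofMul (unitsToM x2) +
          Additive.ofMul (unitsToM x3) := by
      have e' : unitsToM (M := M) (x1 * x2 * x3) = unitsToM x1 * unitsToM x2 * unitsToM x3 := by
        rw [unitsToM, map_mul, map_mul]
      rw [e', ofMul_mul, ofMul_mul]
    rw [e, map_add, map_add, ht3 Q]
    have h5 : ∀ a b : Additive (𝓞 M ⧸ Q.1.asIdeal)ˣ, p • b + p • (a - b) = p • a :=
      fun a b => by module
    rw [add_assoc, h5, ← hs Q]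
    abel

end TameEnd

end Fermat.Agent.CFT
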