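import Fermat.Agent.CFT.Global.TameParts
import Fermat.Agent.CFT.Global.TameEnd

/-!
# (F3) the tame first inequality `Contracts.TameFirstIneq` holds

(helper25, PROJECT CFT stream [C])

`tameKerLe_holds : TameKerLe p F M` (the inclusion `I^σ ⊆ φ(Fˣ) + N I` of `TameEnd`, with (TL6),
(TL8) from `TameLocal`), and `tameFirstIneq_holds (p) (F M : Type) : TameFirstIneq p F M`.
-/

set_option autoImplicit false
set_option linter.unusedSectionVars false
set_option linter.unusedVariables false

namespace Fermat.Agent.CFT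

open NumberField IsDedekindDomain IsDedekindDomain.HeightOneSpectrum
open scoped Pointwise

attribute [local instance] heightOneSpectrumMulAction
attribute [local instance] Finsupp.comapSMul Finsupp.comapMulAction Finsupp.comapDistribMulAction
attribute [local instance] additiveDistribMulAction Units.mulDistribMulActionRight

/-- the inclusion contract `TameKerLe` holds. -/
theorem tameKerLe_holds {p : ℕ} {F M : Type*} [Field F] [NumberField F] [Field M] [NumberField M]
    [Algebra F M] [IsGalois F M] : TameKerLe p F M := by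
  intro hp hcard σ hσ ζ hζ α hα T hT hunr 𝓡 h𝓡 Hall
  have h𝓡' : ∀ Q ∈ 𝓡, Q.asIdeal.inertia Gal(M/F) ≠ ⊥ := fun Q hQ => (h𝓡 Q).mp hQ
  have hp𝓡 : ∀ Q ∈ 𝓡, (p : 𝓞 M) ∉ Q.asIdeal := fun Q hQ =>
    natCast_not_mem_of_inertia_ne_bot T hT hunr Q (h𝓡' Q hQ)
  exact tameFI_ker_le_of_hall hp hcard hσ ζ α T hunr 𝓡 h𝓡
    (fun Q hQ => tame_not_dvd_tameD hp hcard Q (h𝓡' Q hQ) (hp𝓡 Q hQ) hζ hα)
    (fun Q n hn => (tame_zsmul_tameZ_eq_zero_iff hp 𝓡 hp𝓡 hζ Q n).mp hn) Hall

/-- **(F3) the tame first inequality.** -/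
theorem tameFirstIneq_holds (p : ℕ) (F M : Type) [Field F] [NumberField F] [Field M]
    [NumberField M] [Algebra F M] [IsGalois F M] : TameFirstIneq p F M :=
  tameFirstIneq_of_kerLe tameKerLe_holds

end Fermat.Agent.CFT
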