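/-
`Fermat/Agent/CFT/Global/CrossFields.lean` (helper7, stream [C], field-theoretic set-up of the
crossing (X)).

An abstract square of number fields `K ⊆ F ⊆ M`, `K ⊆ L ⊆ M` with `M = F·L`, `L/K` Galois and
`M/F` Galois: the restriction map `resGal K F L M : Gal(M/F) →* Gal(L/K)` is injective, it is
bijective when `[L:K]` is prime and `L` does not embed into `F` over `K`, and the arithmetic
hypotheses (unramified everywhere, complete splitting) transfer from `L/K` to `M/F`.
-/
import Mathlib
import Fermat.Agent.CFT.Global.ArtinSymbol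
import Fermat.Agent.CFT.Global.ArtinFunctorial

set_option autoImplicit false
set_option linter.unusedSectionVars false

open NumberField
open scoped Pointwise IsMulCommutative

namespace Fermat.Agent.CFT

section Square

variable (K F L M : Type*) [Field K] [NumberField K] [Field F] [NumberField F] [Field L]
  [NumberField L] [Field M] [NumberField M] [Algebra K F] [Algebra K L] [Algebra F M] [Algebra L M]
  [Algebra K M] [IsScalarTower K F M] [IsScalarTower K L M] [IsGalois K L]

/-- `M` is generated over `F` by the image of `L`. -/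
def IsCompositum : Prop :=
  IntermediateField.adjoin F (Set.range (algebraMap L M)) = ⊤

variable {K F L M}

/-- An `F`-automorphism of `M = F·L` which is trivial on `L` is trivial. -/
theorem eq_one_of_resGal_eq_one (hgen : IsCompositum F L M) (g : Gal(M/F))
    (hg : resGal K F L M g = 1) : g = 1 := by
  have hfix : ∀ x : L, g (algebraMap L M x) = algebraMap L M x := by
    intro x
    rw [← algebraMap_resGal K F L M g x, hg]; rfl
  have hle : IntermediateField.adjoin F (Set.range (algebraMap L M)) ≤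
      IntermediateField.fixedField (Subgroup.zpowers g) := by
    rw [IntermediateField.adjoin_le_iff]
    rintro _ ⟨x, rfl⟩
    rintro ⟨h, hh⟩
    obtain ⟨n, rfl⟩ := Subgroup.mem_zpowers_iff.mp hh
    change (g ^ n) (algebraMap L M x) = algebraMap L M x
    have hstab : g ∈ MulAction.stabilizer Gal(M/F) (algebraMap L M x) := hfix x
    exact (Subgroup.zpow_mem _ hstab n)
  rw [hgen, top_le_iff] at hle
  ext y
  have hy : y ∈ IntermediateField.fixedField (Subgroup.zpowers g) := by rw [hle]; trivial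
  exact hy ⟨g, Subgroup.mem_zpowers g⟩

theorem resGal_injective (hgen : IsCompositum F L M) :
    Function.Injective (resGal K F L M) := by
  rw [injective_iff_map_eq_one]
  exact fun g hg => eq_one_of_resGal_eq_one hgen g hg

/-- `Gal(M/F)` is commutative as soon as `Gal(L/K)` is (for `M = F·L`). -/
theorem isMulCommutative_of_isCompositum (hgen : IsCompositum F L M)
    [IsMulCommutative Gal(L/K)] : IsMulCommutative Gal(M/F) := by
  refine ⟨⟨fun g h => ?_⟩⟩
  apply resGal_injective (K := K) hgen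
  rw [map_mul, map_mul, mul_comm]

variable [IsGalois F M]

/-- **Unramifiedness transfers to the base change** `M/F` of `L/K`. -/
theorem IsUnramifiedEverywhere.baseChange (hgen : IsCompositum F L M)
    (hur : IsUnramifiedEverywhere K L) : IsUnramifiedEverywhere F M := by
  rw [isUnramifiedEverywhere_iff] at hur ⊢
  intro Q hQ hQ0 g hg
  apply eq_one_of_resGal_eq_one (K := K) hgen
  have hq0 : Q.under (𝓞 L) ≠ ⊥ := Ideal.under_ne_bot (𝓞 L) hQ0
  refine hur (Q.under (𝓞 L)) inferInstance hq0 _ fun x => ?_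
  rw [Ideal.under_def, Ideal.mem_comap, map_sub, coe_resGal_smul]
  exact hg _

/-- Inertia groups of the base change inject into those of `L/K`: pointwise version. -/
theorem inertia_eq_bot_baseChange (hgen : IsCompositum F L M) (Q : Ideal (𝓞 M))
    (hq : (Q.under (𝓞 L)).inertia Gal(L/K) = ⊥) : Q.inertia Gal(M/F) = ⊥ := by
  rw [Subgroup.eq_bot_iff_forall] at hq ⊢
  intro g hg
  apply eq_one_of_resGal_eq_one (K := K) hgen
  refine hq _ fun x => ?_
  change (resGal K F L M) g • x - x ∈ Ideal.comap (algebraMap (𝓞 L) (𝓞 M)) Q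
  rw [Ideal.mem_comap, map_sub, coe_resGal_smul]
  exact hg _

/-- Decomposition groups of the base change inject into those of `L/K`. -/
theorem stabilizer_eq_bot_baseChange (hgen : IsCompositum F L M) (Q : Ideal (𝓞 M))
    (hq : MulAction.stabilizer Gal(L/K) (Q.under (𝓞 L)) = ⊥) :
    MulAction.stabilizer Gal(M/F) Q = ⊥ := by
  rw [Subgroup.eq_bot_iff_forall] at hq ⊢
  intro g hg
  apply eq_one_of_resGal_eq_one (K := K) hgen
  refine hq _ ?_
  rw [MulAction.mem_stabilizer_iff] at hg ⊢
  ext x
  rw [Ideal.pointwise_smul_eq_comap, Ideal.mem_comap, Ideal.under_def, Ideal.mem_comap,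
    Ideal.mem_comap]
  have h1 : algebraMap (𝓞 L) (𝓞 M) ((resGal K F L M g)⁻¹ • x) =
      g⁻¹ • algebraMap (𝓞 L) (𝓞 M) x := by
    rw [← map_inv, coe_resGal_smul]
  change algebraMap (𝓞 L) (𝓞 M) ((resGal K F L M g)⁻¹ • x) ∈ Q ↔ _
  rw [h1]
  conv_rhs => rw [← hg]
  rw [Ideal.pointwise_smul_eq_comap, Ideal.mem_comap]
  rfl

/-- **Splitting transfers**: if `Frob_{L/K}(𝔭) ^ f(𝔓/𝔭) = 1` then `Frob_{M/F}(𝔓) = 1`. -/
theorem frobOf_baseChange_eq_one [IsMulCommutative Gal(M/F)] [IsMulCommutative Gal(L/K)]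
    (hgen : IsCompositum F L M)
    (𝔓 : Ideal (𝓞 F)) [𝔓.IsMaximal] (𝔭 : Ideal (𝓞 K)) [𝔭.IsMaximal] [𝔓.LiesOver 𝔭]
    (hur : IsUnramifiedAtPrime K L 𝔭)
    (h : frobOf K L 𝔭 ^ 𝔓.inertiaDeg (𝓞 K) = 1) : frobOf F M 𝔓 = 1 := by
  apply eq_one_of_resGal_eq_one (K := K) hgen
  rw [resGal_frobOf K F L M 𝔓 𝔭 hur, h]

/-- If `Gal(L/K)` has order `n` and `n ∣ f(𝔓/𝔭)`, then `𝔓` has trivial Frobenius in `M/F`. -/
theorem frobOf_baseChange_eq_one_of_dvd [IsMulCommutative Gal(M/F)] [IsMulCommutative Gal(L/K)]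
    (hgen : IsCompositum F L M)
    (𝔓 : Ideal (𝓞 F)) [𝔓.IsMaximal] (𝔭 : Ideal (𝓞 K)) [𝔭.IsMaximal] [𝔓.LiesOver 𝔭]
    (hur : IsUnramifiedAtPrime K L 𝔭)
    (h : Nat.card Gal(L/K) ∣ 𝔓.inertiaDeg (𝓞 K)) : frobOf F M 𝔓 = 1 := by
  apply frobOf_baseChange_eq_one hgen 𝔓 𝔭 hur
  obtain ⟨c, hc⟩ := h
  rw [hc, pow_mul, pow_card_eq_one', one_pow]

/-- If `Gal(M/F)` is trivial then `L` embeds into `F` over `K`. -/
theorem nonempty_algHom_of_subsingleton (hsub : Subsingleton Gal(M/F)) :
    Nonempty (L →ₐ[K] F) := by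
  have h1 : Module.finrank F M = 1 := by
    rw [← IsGalois.card_aut_eq_finrank, Nat.card_eq_one_iff_unique]
    exact ⟨hsub, ⟨1⟩⟩
  have hbij : Function.Bijective (algebraMap F M) := by
    refine ⟨(algebraMap F M).injective, ?_⟩
    have h2 : (⊥ : Subalgebra F M) = ⊤ := Subalgebra.bot_eq_top_of_finrank_eq_one h1
    intro y
    have hy : y ∈ (⊥ : Subalgebra F M) := by rw [h2]; trivial
    exact Algebra.mem_bot.mp hy
  let e : F ≃+* M := RingEquiv.ofBijective (algebraMap F M) hbij
  refine ⟨{ toRingHom := (e.symm : M →+* F).comp (algebraMap L M), commutes' := fun k => ?_ }⟩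
  change e.symm (algebraMap L M (algebraMap K L k)) = algebraMap K F k
  rw [← IsScalarTower.algebraMap_apply K L M, IsScalarTower.algebraMap_apply K F M]
  exact e.symm_apply_apply _

/-- **Linear disjointness from prime degree**: if `Gal(L/K)` has prime order and `L` does not embed
into `F` over `K`, then restriction `Gal(M/F) → Gal(L/K)` is onto. -/
theorem resGal_surjective_of_prime (hgen : IsCompositum F L M) {p : ℕ} (hp : p.Prime)
    (hcard : Nat.card Gal(L/K) = p) (hdisj : IsEmpty (L →ₐ[K] F)) :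
    Function.Surjective (resGal K F L M) := by
  haveI : Fact (Nat.card Gal(L/K)).Prime := ⟨hcard ▸ hp⟩
  rw [← MonoidHom.range_eq_top]
  rcases Subgroup.eq_bot_or_eq_top_of_prime_card (resGal K F L M).range with h | h
  · exfalso
    have hsub : Subsingleton Gal(M/F) := by
      refine ⟨fun a b => ?_⟩
      have ha : resGal K F L M a = 1 := by
        have : resGal K F L M a ∈ (resGal K F L M).range := ⟨a, rfl⟩
        rwa [h, Subgroup.mem_bot] at this
      have hb : resGal K F L M b = 1 := by
        have : resGal K F L M b ∈ (resGal K F L M).range := ⟨b, rfl⟩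
        rwa [h, Subgroup.mem_bot] at this
      rw [eq_one_of_resGal_eq_one hgen a ha, eq_one_of_resGal_eq_one hgen b hb]
    exact hdisj.false (nonempty_algHom_of_subsingleton (K := K) hsub).some
  · exact h

/-- Under the hypotheses of `resGal_surjective_of_prime`, restriction is an isomorphism
`Gal(M/F) ≃* Gal(L/K)`. -/
noncomputable def resGalEquiv (hgen : IsCompositum F L M) {p : ℕ} (hp : p.Prime)
    (hcard : Nat.card Gal(L/K) = p) (hdisj : IsEmpty (L →ₐ[K] F)) :
    Gal(M/F) ≃* Gal(L/K) :=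
  MulEquiv.ofBijective (resGal K F L M)
    ⟨resGal_injective hgen, resGal_surjective_of_prime hgen hp hcard hdisj⟩

theorem resGalEquiv_apply (hgen : IsCompositum F L M) {p : ℕ} (hp : p.Prime)
    (hcard : Nat.card Gal(L/K) = p) (hdisj : IsEmpty (L →ₐ[K] F)) (g : Gal(M/F)) :
    resGalEquiv hgen hp hcard hdisj g = resGal K F L M g := rfl

theorem card_gal_baseChange (hgen : IsCompositum F L M) {p : ℕ} (hp : p.Prime)
    (hcard : Nat.card Gal(L/K) = p) (hdisj : IsEmpty (L →ₐ[K] F)) :
    Nat.card Gal(M/F) = p := by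
  rw [Nat.card_congr (resGalEquiv hgen hp hcard hdisj).toEquiv, hcard]

end Square

end Fermat.Agent.CFT
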