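/-
`Fermat/Agent/CFT/Global/CrossFieldsGalois.lean` (helper7, stream [C], set-up of the crossing (X),
part 2).

For a square `K ⊆ F ⊆ M`, `K ⊆ L ⊆ M` with `M = F·L`, `F/K` and `L/K` Galois:
`M/K` is Galois, `M = L·F` as well, and restriction gives an injective homomorphism
`galProd : Gal(M/K) →* Gal(L/K) × Gal(F/K)`, bijective as soon as `resGal K F L M` is onto.
-/
import Mathlib
import Fermat.Agent.CFT.Global.CrossFields

set_option autoImplicit false
set_option linter.unusedSectionVars false

open NumberField IntermediateField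
open scoped Pointwise IsMulCommutative

namespace Fermat.Agent.CFT

section SquareGalois

variable {K F L M : Type*} [Field K] [Field F] [Field L] [Field M]
  [Algebra K F] [Algebra K L] [Algebra F M] [Algebra L M]
  [Algebra K M] [IsScalarTower K F M] [IsScalarTower K L M]

/-- `(adjoin F S)` seen over `K` is `F' ⊔ K(S)` where `F'` is the image of `F` in `M`. -/
theorem restrictScalars_adjoin_eq_fieldRange_sup (S : Set M) :
    (adjoin F S).restrictScalars K = (IsScalarTower.toAlgHom K F M).fieldRange ⊔ adjoin K S := by
  set F' : IntermediateField K M := (IsScalarTower.toAlgHom K F M).fieldRange with hF'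
  let i : F ≃ₐ[K] F' := AlgEquiv.ofInjectiveField (IsScalarTower.toAlgHom K F M)
  have hi : algebraMap F M = (algebraMap F' M) ∘ i := by
    funext x; rfl
  rw [restrictScalars_adjoin_of_algEquiv i hi S, restrictScalars_adjoin_eq_sup]

theorem adjoin_range_eq_fieldRange (f : L →ₐ[K] M) :
    adjoin K (Set.range f) = f.fieldRange := by
  rw [← AlgHom.coe_fieldRange, adjoin_self]

/-- `M = F·L` in the symmetric form `F' ⊔ L' = ⊤` inside `M/K`. -/
theorem sup_fieldRange_eq_top (hgen : IsCompositum F L M) :
    (IsScalarTower.toAlgHom K F M).fieldRange ⊔ (IsScalarTower.toAlgHom K L M).fieldRange = ⊤ := by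
  have h1 := restrictScalars_adjoin_eq_fieldRange_sup (K := K) (F := F)
    (Set.range (algebraMap L M))
  unfold IsCompositum at hgen
  rw [hgen, restrictScalars_top] at h1
  have h2 : adjoin K (Set.range (algebraMap L M)) = (IsScalarTower.toAlgHom K L M).fieldRange :=
    adjoin_range_eq_fieldRange (IsScalarTower.toAlgHom K L M)
  rw [h2] at h1
  exact h1.symm

/-- The compositum condition is symmetric. -/
theorem IsCompositum.symm (K : Type*) [Field K] [Algebra K F] [Algebra K L] [Algebra K M]
    [IsScalarTower K F M] [IsScalarTower K L M] (hgen : IsCompositum F L M) :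
    IsCompositum L F M := by
  have h1 := restrictScalars_adjoin_eq_fieldRange_sup (K := K) (F := L)
    (Set.range (algebraMap F M))
  have h2 : adjoin K (Set.range (algebraMap F M)) = (IsScalarTower.toAlgHom K F M).fieldRange :=
    adjoin_range_eq_fieldRange (IsScalarTower.toAlgHom K F M)
  rw [h2, sup_comm, sup_fieldRange_eq_top hgen] at h1
  unfold IsCompositum
  apply restrictScalars_injective K
  rw [h1, restrictScalars_top]

/-- `M/K` is normal when `M = F·L` with `F/K`, `L/K` normal. -/
theorem normal_of_isCompositum [Normal K F] [Normal K L] (hgen : IsCompositum F L M) :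
    Normal K M := by
  haveI : Normal K (IsScalarTower.toAlgHom K F M).fieldRange :=
    Normal.of_algEquiv (AlgEquiv.ofInjectiveField (IsScalarTower.toAlgHom K F M))
  haveI : Normal K (IsScalarTower.toAlgHom K L M).fieldRange :=
    Normal.of_algEquiv (AlgEquiv.ofInjectiveField (IsScalarTower.toAlgHom K L M))
  have h : Normal K ((IsScalarTower.toAlgHom K F M).fieldRange ⊔
      (IsScalarTower.toAlgHom K L M).fieldRange : IntermediateField K M) := inferInstance
  rw [sup_fieldRange_eq_top hgen] at h
  exact Normal.of_algEquiv (IntermediateField.topEquiv (F := K) (E := M))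

/-- `M/K` is Galois when `M = F·L` with `F/K`, `L/K` Galois. -/
theorem isGalois_of_isCompositum [IsGalois K F] [IsGalois K L] (hgen : IsCompositum F L M) :
    IsGalois K M := by
  haveI := normal_of_isCompositum (K := K) hgen
  haveI : Algebra.IsSeparable K (IsScalarTower.toAlgHom K F M).fieldRange :=
    Algebra.IsSeparable.of_algHom K F
      (AlgEquiv.ofInjectiveField (IsScalarTower.toAlgHom K F M)).symm.toAlgHom
  haveI : Algebra.IsSeparable K (IsScalarTower.toAlgHom K L M).fieldRange :=
    Algebra.IsSeparable.of_algHom K L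
      (AlgEquiv.ofInjectiveField (IsScalarTower.toAlgHom K L M)).symm.toAlgHom
  have h : Algebra.IsSeparable K ((IsScalarTower.toAlgHom K F M).fieldRange ⊔
      (IsScalarTower.toAlgHom K L M).fieldRange : IntermediateField K M) := inferInstance
  rw [sup_fieldRange_eq_top hgen] at h
  haveI : Algebra.IsSeparable K M :=
    Algebra.IsSeparable.of_algHom K (⊤ : IntermediateField K M)
      (IntermediateField.topEquiv (F := K) (E := M)).symm.toAlgHom
  exact ⟨⟩

section Prod

variable [IsGalois K F] [IsGalois K L]

/-- Restriction to `L` and to `F`. -/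
noncomputable def galProd : Gal(M/K) →* Gal(L/K) × Gal(F/K) :=
  (AlgEquiv.restrictNormalHom L).prod (AlgEquiv.restrictNormalHom F)

theorem galProd_apply (h : Gal(M/K)) :
    galProd (F := F) (L := L) h = (AlgEquiv.restrictNormalHom L h, AlgEquiv.restrictNormalHom F h) :=
  rfl

theorem galProd_injective (hgen : IsCompositum F L M) :
    Function.Injective (galProd (K := K) (F := F) (L := L) (M := M)) := by
  rw [injective_iff_map_eq_one]
  intro h hh
  rw [galProd_apply, Prod.mk_eq_one] at hh
  obtain ⟨hL, hF⟩ := hh
  have hfixL : ∀ x : L, h (algebraMap L M x) = algebraMap L M x := by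
    intro x
    rw [← AlgEquiv.restrictNormal_commutes h L x]
    change algebraMap L M ((AlgEquiv.restrictNormalHom L h) x) = _
    rw [hL]; rfl
  have hfixF : ∀ x : F, h (algebraMap F M x) = algebraMap F M x := by
    intro x
    rw [← AlgEquiv.restrictNormal_commutes h F x]
    change algebraMap F M ((AlgEquiv.restrictNormalHom F h) x) = _
    rw [hF]; rfl
  have hle : (IsScalarTower.toAlgHom K F M).fieldRange ⊔ (IsScalarTower.toAlgHom K L M).fieldRange ≤
      IntermediateField.fixedField (Subgroup.zpowers h) := by
    refine sup_le ?_ ?_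
    · rintro _ ⟨x, rfl⟩ ⟨g, hg⟩
      obtain ⟨n, rfl⟩ := Subgroup.mem_zpowers_iff.mp hg
      have hstab : h ∈ MulAction.stabilizer Gal(M/K) (algebraMap F M x) := hfixF x
      exact (Subgroup.zpow_mem _ hstab n)
    · rintro _ ⟨x, rfl⟩ ⟨g, hg⟩
      obtain ⟨n, rfl⟩ := Subgroup.mem_zpowers_iff.mp hg
      have hstab : h ∈ MulAction.stabilizer Gal(M/K) (algebraMap L M x) := hfixL x
      exact (Subgroup.zpow_mem _ hstab n)
  rw [sup_fieldRange_eq_top hgen, top_le_iff] at hle
  ext y
  have hy : y ∈ IntermediateField.fixedField (Subgroup.zpowers h) := by rw [hle]; trivial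
  exact hy ⟨h, Subgroup.mem_zpowers h⟩

end Prod

end SquareGalois

section SquareNF

variable {K F L M : Type*} [Field K] [NumberField K] [Field F] [NumberField F] [Field L]
  [NumberField L] [Field M] [NumberField M] [Algebra K F] [Algebra K L] [Algebra F M] [Algebra L M]
  [Algebra K M] [IsScalarTower K F M] [IsScalarTower K L M] [IsGalois K L] [IsGalois K F]

/-- An element of `Gal(M/F)`, seen in `Gal(M/K)`, restricts trivially to `F`. -/
theorem restrictNormalHom_restrictScalars_eq_one (g : Gal(M/F)) :
    AlgEquiv.restrictNormalHom F (AlgEquiv.restrictScalarsHom K g) = 1 := by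
  ext x
  apply (algebraMap F M).injective
  have := AlgEquiv.restrictNormal_commutes (AlgEquiv.restrictScalarsHom K g) F x
  change algebraMap F M ((AlgEquiv.restrictNormalHom F (AlgEquiv.restrictScalarsHom K g)) x) = _
    at this
  rw [this]
  change g (algebraMap F M x) = algebraMap F M x
  exact g.commutes x

theorem galProd_restrictScalars (g : Gal(M/F)) :
    galProd (K := K) (F := F) (L := L) (AlgEquiv.restrictScalarsHom K g) =
      (resGal K F L M g, 1) := by
  rw [galProd_apply, restrictNormalHom_restrictScalars_eq_one]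
  rfl

/-- `galProd` is onto as soon as `resGal K F L M` is. -/
theorem galProd_surjective (hgen : IsCompositum F L M)
    (hsurj : Function.Surjective (resGal K F L M)) :
    Function.Surjective (galProd (K := K) (F := F) (L := L) (M := M)) := by
  haveI : IsGalois K M := isGalois_of_isCompositum hgen
  rintro ⟨a, b⟩
  obtain ⟨h₀, hh₀⟩ := AlgEquiv.restrictNormalHom_surjective (F := K) (K₁ := F) M b
  obtain ⟨g, hg⟩ := hsurj (a * (AlgEquiv.restrictNormalHom L h₀)⁻¹)
  refine ⟨AlgEquiv.restrictScalarsHom K g * h₀, ?_⟩
  rw [map_mul, galProd_restrictScalars, hg, galProd_apply, hh₀]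
  ext1
  · simp
  · simp

/-- `Gal(M/K) ≃ Gal(L/K) × Gal(F/K)` for linearly disjoint `L`, `F` with compositum `M`. -/
noncomputable def galProdEquiv (hgen : IsCompositum F L M)
    (hsurj : Function.Surjective (resGal K F L M)) :
    Gal(M/K) ≃* Gal(L/K) × Gal(F/K) :=
  MulEquiv.ofBijective galProd ⟨galProd_injective hgen, galProd_surjective hgen hsurj⟩

theorem galProdEquiv_apply (hgen : IsCompositum F L M)
    (hsurj : Function.Surjective (resGal K F L M)) (h : Gal(M/K)) :
    galProdEquiv hgen hsurj h =
      (AlgEquiv.restrictNormalHom L h, AlgEquiv.restrictNormalHom F h) := rfl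

theorem restrictNormalHom_galProdEquiv_symm_fst (hgen : IsCompositum F L M)
    (hsurj : Function.Surjective (resGal K F L M)) (x : Gal(L/K) × Gal(F/K)) :
    AlgEquiv.restrictNormalHom L ((galProdEquiv hgen hsurj).symm x) = x.1 := by
  have := (galProdEquiv hgen hsurj).apply_symm_apply x
  rw [galProdEquiv_apply] at this
  exact congrArg Prod.fst this

theorem restrictNormalHom_galProdEquiv_symm_snd (hgen : IsCompositum F L M)
    (hsurj : Function.Surjective (resGal K F L M)) (x : Gal(L/K) × Gal(F/K)) :
    AlgEquiv.restrictNormalHom F ((galProdEquiv hgen hsurj).symm x) = x.2 := by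
  have := (galProdEquiv hgen hsurj).apply_symm_apply x
  rw [galProdEquiv_apply] at this
  exact congrArg Prod.snd this

/-- The lift of `a : Gal(L/K)` to `Gal(M/K)` acting trivially on `F`. -/
noncomputable def liftL (hgen : IsCompositum F L M)
    (hsurj : Function.Surjective (resGal K F L M)) : Gal(L/K) →* Gal(M/K) :=
  (galProdEquiv hgen hsurj).symm.toMonoidHom.comp (MonoidHom.inl _ _)

/-- The lift of `b : Gal(F/K)` to `Gal(M/K)` acting trivially on `L`. -/
noncomputable def liftF (hgen : IsCompositum F L M)
    (hsurj : Function.Surjective (resGal K F L M)) : Gal(F/K) →* Gal(M/K) :=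
  (galProdEquiv hgen hsurj).symm.toMonoidHom.comp (MonoidHom.inr _ _)

variable (hgen : IsCompositum F L M) (hsurj : Function.Surjective (resGal K F L M))

theorem liftL_apply_algebraMap_L (a : Gal(L/K)) (x : L) :
    liftL hgen hsurj a (algebraMap L M x) = algebraMap L M (a x) := by
  rw [← AlgEquiv.restrictNormal_commutes]
  congr 1
  exact congrArg (fun s : Gal(L/K) => s x)
    (restrictNormalHom_galProdEquiv_symm_fst hgen hsurj (a, 1))

theorem liftL_apply_algebraMap_F (a : Gal(L/K)) (x : F) :
    liftL hgen hsurj a (algebraMap F M x) = algebraMap F M x := by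
  rw [← AlgEquiv.restrictNormal_commutes]
  congr 1
  exact congrArg (fun s : Gal(F/K) => s x)
    (restrictNormalHom_galProdEquiv_symm_snd hgen hsurj (a, 1))

theorem liftF_apply_algebraMap_F (b : Gal(F/K)) (x : F) :
    liftF hgen hsurj b (algebraMap F M x) = algebraMap F M (b x) := by
  rw [← AlgEquiv.restrictNormal_commutes]
  congr 1
  exact congrArg (fun s : Gal(F/K) => s x)
    (restrictNormalHom_galProdEquiv_symm_snd hgen hsurj (1, b))

theorem liftF_apply_algebraMap_L (b : Gal(F/K)) (x : L) :
    liftF hgen hsurj b (algebraMap L M x) = algebraMap L M x := by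
  rw [← AlgEquiv.restrictNormal_commutes]
  congr 1
  exact congrArg (fun s : Gal(L/K) => s x)
    (restrictNormalHom_galProdEquiv_symm_fst hgen hsurj (1, b))

theorem liftL_commute_liftF (a : Gal(L/K)) (b : Gal(F/K)) :
    Commute (liftL hgen hsurj a) (liftF hgen hsurj b) := by
  unfold liftL liftF Commute SemiconjBy
  simp only [MonoidHom.coe_comp, Function.comp_apply, MulEquiv.coe_toMonoidHom,
    MonoidHom.inl_apply, MonoidHom.inr_apply, ← map_mul]
  congr 1
  try simp

theorem eq_liftL_mul_liftF (h : Gal(M/K)) :
    h = liftL hgen hsurj (AlgEquiv.restrictNormalHom L h) *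
      liftF hgen hsurj (AlgEquiv.restrictNormalHom F h) := by
  apply (galProdEquiv hgen hsurj).injective
  unfold liftL liftF
  simp only [MonoidHom.coe_comp, Function.comp_apply, MulEquiv.coe_toMonoidHom,
    MonoidHom.inl_apply, MonoidHom.inr_apply, map_mul, MulEquiv.apply_symm_apply,
    galProdEquiv_apply]
  simp

/-- The lift of `resGal g` is `g` itself (seen in `Gal(M/K)`). -/
theorem liftL_resGal (g : Gal(M/F)) :
    liftL hgen hsurj (resGal K F L M g) = AlgEquiv.restrictScalarsHom K g := by
  apply (galProdEquiv hgen hsurj).injective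
  unfold liftL
  simp only [MonoidHom.coe_comp, Function.comp_apply, MulEquiv.coe_toMonoidHom,
    MonoidHom.inl_apply, MulEquiv.apply_symm_apply]
  exact (galProd_restrictScalars g).symm

end SquareNF

end Fermat.Agent.CFT
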