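/-
`Fermat/Agent/CFT/Global/CrossFieldsCyclo.lean` (helper7, stream [C], set-up of the crossing (X),
part 3: the cyclotomic instance).

For number fields `L / K` and `n : ℕ` (`n = p ^ (t+1)` in the application):
`M := CyclotomicField n L = L(ζ_n)`, `E := K(ζ_n) ⊆ M` (an `IntermediateField K M`).  Then
`E / K` is cyclotomic, `M = E·L`, all the scalar towers of the square `K ⊆ E ⊆ M`, `K ⊆ L ⊆ M`
hold by instance, and the results of `CrossFields.lean`, `CrossFieldsGalois.lean` apply.
-/
import Mathlib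
import Fermat.Agent.CFT.Global.CrossFields
import Fermat.Agent.CFT.Global.CrossFieldsGalois

set_option autoImplicit false
set_option linter.unusedSectionVars false

open NumberField IntermediateField
open scoped Pointwise IsMulCommutative

namespace Fermat.Agent.CFT

section Cyclo

variable (n : ℕ) [NeZero n] (K L : Type*) [Field K] [NumberField K] [Field L] [NumberField L]
  [Algebra K L]

/-- The top field `M = L(ζ_n)` of the crossing square. -/
abbrev CrossM : Type _ := CyclotomicField n L

/-- The chosen primitive `n`-th root of unity of `M`. -/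
noncomputable def crossZeta : CrossM n L := IsCyclotomicExtension.zeta n L (CrossM n L)

theorem crossZeta_spec : IsPrimitiveRoot (crossZeta n L) n :=
  IsCyclotomicExtension.zeta_spec n L (CrossM n L)

/-- The field `E = K(ζ_n)` inside `M`. -/
noncomputable def crossE : IntermediateField K (CrossM n L) :=
  IntermediateField.adjoin K {crossZeta n L}

theorem crossZeta_mem : crossZeta n L ∈ crossE n K L :=
  IntermediateField.mem_adjoin_simple_self K _

instance crossM_finiteDimensional : FiniteDimensional K (CrossM n L) :=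
  haveI : FiniteDimensional L (CrossM n L) := IsCyclotomicExtension.finiteDimensional {n} L _
  FiniteDimensional.trans K L (CrossM n L)

instance crossE_isCyclotomicExtension : IsCyclotomicExtension {n} K (crossE n K L) :=
  (crossZeta_spec n L).intermediateField_adjoin_isCyclotomicExtension K

instance crossE_numberField : NumberField (crossE n K L) :=
  IsCyclotomicExtension.numberField {n} K _

instance crossE_isGalois : IsGalois K (crossE n K L) :=
  IsCyclotomicExtension.isGalois {n} K _

/-- `M = E·L`. -/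
theorem isCompositum_cross : IsCompositum (crossE n K L) L (CrossM n L) := by
  unfold IsCompositum
  rw [eq_top_iff]
  intro x hxtop
  clear hxtop
  have htop : Algebra.adjoin L ({crossZeta n L} : Set (CrossM n L)) = ⊤ :=
    IsCyclotomicExtension.adjoin_primitive_root_eq_top (crossZeta_spec n L)
  have hx : x ∈ Algebra.adjoin L ({crossZeta n L} : Set (CrossM n L)) := by rw [htop]; trivial
  induction hx using Algebra.adjoin_induction with
  | mem y hy =>
    rw [Set.mem_singleton_iff] at hy
    subst hy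
    have : crossZeta n L = algebraMap (crossE n K L) (CrossM n L) ⟨_, crossZeta_mem n K L⟩ := rfl
    rw [this]
    exact IntermediateField.algebraMap_mem _ _
  | algebraMap r => exact IntermediateField.subset_adjoin _ _ ⟨r, rfl⟩
  | add y z _ _ hy hz => exact add_mem hy hz
  | mul y z _ _ hy hz => exact mul_mem hy hz

variable [IsGalois K L]

instance crossM_isGalois : IsGalois K (CrossM n L) :=
  isGalois_of_isCompositum (isCompositum_cross n K L)

instance crossM_isGalois_E : IsGalois (crossE n K L) (CrossM n L) :=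
  IsGalois.tower_top_of_isGalois K (crossE n K L) (CrossM n L)

end Cyclo

section PrimePower

variable (p k : ℕ) [hp : Fact p.Prime]

/-- A prime of `𝓞 E` containing the rational prime `p` lies over `(p)`. -/
theorem liesOver_span_of_natCast_mem {E : Type*} [Field E] [NumberField E] (P : Ideal (𝓞 E))
    [hP : P.IsPrime] (hpP : (p : 𝓞 E) ∈ P) : P.LiesOver (Ideal.span {(p : ℤ)}) := by
  rw [Ideal.liesOver_iff]
  refine Ideal.IsMaximal.eq_of_le (Int.ideal_span_isMaximal_of_prime p) Ideal.IsPrime.ne_top' ?_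
  rw [Ideal.span_singleton_le_iff_mem, Ideal.under_def, Ideal.mem_comap, algebraMap_int_eq,
    eq_intCast, Int.cast_natCast]
  exact hpP

/-- If the primes of `L` above `p` have trivial decomposition group in `Gal(L/K)` and `L ≠ K`,
then `L` does not embed over `K` into a `p`-power cyclotomic field `E = ℚ(ζ_{p^(k+1)})`
(which has only one prime above `p`). -/
theorem isEmpty_algHom_of_stabilizer_eq_bot {K L E : Type*} [Field K] [NumberField K] [Field L]
    [NumberField L] [Algebra K L] [IsGalois K L] [Field E] [NumberField E] [Algebra K E]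
    [hE : IsCyclotomicExtension {p ^ (k + 1)} ℚ E] (hcard : 1 < Nat.card Gal(L/K))
    (hS : ∀ (Q : Ideal (𝓞 L)) [Q.IsPrime], (p : 𝓞 L) ∈ Q →
      MulAction.stabilizer Gal(L/K) Q = ⊥) : IsEmpty (L →ₐ[K] E) := by
  refine ⟨fun f => ?_⟩
  letI : Algebra L E := f.toRingHom.toAlgebra
  -- the unique prime of `E` above `p`
  set P₀ : Ideal (𝓞 E) :=
    Ideal.span {(IsCyclotomicExtension.zeta_spec (p ^ (k + 1)) ℚ E).toInteger - 1} with hP₀
  set Q₀ : Ideal (𝓞 L) := P₀.under (𝓞 L) with hQ₀
  have huniq : ∀ (Q : Ideal (𝓞 L)) [Q.IsPrime], (p : 𝓞 L) ∈ Q → Q = Q₀ := by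
    intro Q hQ hpQ
    obtain ⟨P, -, hPprime, hPQ⟩ := Ideal.exists_ideal_over_prime_of_isIntegral Q (⊥ : Ideal (𝓞 E))
      (by simp)
    have hpP : (p : 𝓞 E) ∈ P := by
      have : algebraMap (𝓞 L) (𝓞 E) (p : 𝓞 L) ∈ P := by
        rw [← Ideal.mem_comap, hPQ]; exact hpQ
      simpa using this
    haveI := liesOver_span_of_natCast_mem p P hpP
    have := IsCyclotomicExtension.Rat.eq_span_zeta_sub_one_of_liesOver p k E
      (IsCyclotomicExtension.zeta_spec (p ^ (k + 1)) ℚ E) P
    rw [hQ₀, hP₀, ← this, Ideal.under_def, hPQ]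
  haveI hP₀prime : P₀.IsPrime :=
    IsCyclotomicExtension.Rat.isPrime_span_zeta_sub_one p k
      (IsCyclotomicExtension.zeta_spec (p ^ (k + 1)) ℚ E)
  have hpP₀ : (p : 𝓞 E) ∈ P₀ :=
    IsCyclotomicExtension.Rat.p_mem_span_zeta_sub_one p k
      (IsCyclotomicExtension.zeta_spec (p ^ (k + 1)) ℚ E)
  haveI hQ₀prime : Q₀.IsPrime := inferInstance
  have hpQ₀ : (p : 𝓞 L) ∈ Q₀ := by
    rw [hQ₀, Ideal.under_def, Ideal.mem_comap]
    simpa using hpP₀
  have hall : ∀ g : Gal(L/K), g = 1 := by
    intro g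
    have hg : g • Q₀ = Q₀ := by
      apply huniq
      rw [Ideal.pointwise_smul_eq_comap, Ideal.mem_comap]
      simpa using hpQ₀
    have hmem : g ∈ MulAction.stabilizer Gal(L/K) Q₀ := hg
    rw [hS Q₀ hpQ₀, Subgroup.mem_bot] at hmem
    exact hmem
  have : Nat.card Gal(L/K) = 1 := by
    rw [Nat.card_eq_one_iff_unique]
    exact ⟨⟨fun a b => by rw [hall a, hall b]⟩, ⟨1⟩⟩
  omega

variable (t : ℕ) (K L : Type*) [Field K] [NumberField K] [Field L] [NumberField L]
  [Algebra K L] [IsCyclotomicExtension {p} ℚ K]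

/-- For `K = ℚ(ζ_p)`: `E = K(ζ_{p^(t+1)}) = ℚ(ζ_{p^(t+1)})`. -/
instance crossE_isCyclotomicExtension_rat :
    IsCyclotomicExtension {p ^ (t + 1)} ℚ (crossE (p ^ (t + 1)) K L) := by
  have h1 : IsCyclotomicExtension ({p} ∪ {p ^ (t + 1)}) ℚ (crossE (p ^ (t + 1)) K L) :=
    IsCyclotomicExtension.trans (S := {p}) (T := {p ^ (t + 1)}) ℚ K (crossE (p ^ (t + 1)) K L)
      (algebraMap K (crossE (p ^ (t + 1)) K L)).injective
  rw [Set.union_comm] at h1
  exact (IsCyclotomicExtension.iff_union_of_dvd (S := {p ^ (t + 1)}) (n := p) ℚ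
    (crossE (p ^ (t + 1)) K L)
    ⟨p ^ (t + 1), Set.mem_singleton _, pow_ne_zero _ hp.out.ne_zero,
      dvd_pow_self p (Nat.succ_ne_zero t)⟩).mpr h1

theorem finrank_crossE : Module.finrank K (crossE (p ^ (t + 1)) K L) = p ^ t := by
  have h1 : Module.finrank ℚ (crossE (p ^ (t + 1)) K L) = (p ^ (t + 1)).totient :=
    IsCyclotomicExtension.Rat.finrank (p ^ (t + 1)) _
  have h2 : Module.finrank ℚ K = p.totient := IsCyclotomicExtension.Rat.finrank p K
  have h3 := Module.finrank_mul_finrank ℚ K (crossE (p ^ (t + 1)) K L)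
  rw [h1, h2, Nat.totient_prime hp.out, Nat.totient_prime_pow_succ hp.out] at h3
  have hp1 : 0 < p - 1 := Nat.sub_pos_of_lt hp.out.one_lt
  nlinarith [h3]

theorem card_gal_crossE : Nat.card Gal(crossE (p ^ (t + 1)) K L/K) = p ^ t := by
  rw [IsGalois.card_aut_eq_finrank, finrank_crossE]

theorem isCyclic_gal_crossE (hp2 : p ≠ 2) : IsCyclic Gal(crossE (p ^ (t + 1)) K L/K) := by
  haveI : IsCyclic (ZMod (p ^ (t + 1)))ˣ := ZMod.isCyclic_units_of_prime_pow p hp.out hp2 (t + 1)
  refine isCyclic_of_injective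
    ((IsCyclotomicExtension.Rat.galEquivZMod (p ^ (t + 1))
      (crossE (p ^ (t + 1)) K L)).toMonoidHom.comp (AlgEquiv.restrictScalarsHom ℚ)) ?_
  intro a b hab
  apply AlgEquiv.restrictScalarsHom_injective ℚ
  exact (IsCyclotomicExtension.Rat.galEquivZMod (p ^ (t + 1))
    (crossE (p ^ (t + 1)) K L)).injective hab

variable [IsGalois K L]

/-- For `K = ℚ(ζ_p)`, `L/K` of degree `p` with the primes above `p` split completely:
restriction `Gal(M/E) → Gal(L/K)` is onto (`L ∩ E = K`). -/
theorem resGal_cross_surjective (hcard : Nat.card Gal(L/K) = p)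
    (hS : ∀ (Q : Ideal (𝓞 L)) [Q.IsPrime], (p : 𝓞 L) ∈ Q →
      MulAction.stabilizer Gal(L/K) Q = ⊥) :
    Function.Surjective (resGal K (crossE (p ^ (t + 1)) K L) L (CrossM (p ^ (t + 1)) L)) :=
  resGal_surjective_of_prime (isCompositum_cross _ K L) hp.out hcard
    (isEmpty_algHom_of_stabilizer_eq_bot p t (hcard ▸ hp.out.one_lt) hS)

theorem card_gal_crossM_E (hcard : Nat.card Gal(L/K) = p)
    (hS : ∀ (Q : Ideal (𝓞 L)) [Q.IsPrime], (p : 𝓞 L) ∈ Q →
      MulAction.stabilizer Gal(L/K) Q = ⊥) :
    Nat.card Gal(CrossM (p ^ (t + 1)) L/crossE (p ^ (t + 1)) K L) = p :=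
  card_gal_baseChange (isCompositum_cross _ K L) hp.out hcard
    (isEmpty_algHom_of_stabilizer_eq_bot p t (hcard ▸ hp.out.one_lt) hS)

end PrimePower

end Fermat.Agent.CFT
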