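import Fermat.Agent.CFT.Global.AnalyticPrimes

set_option autoImplicit false
set_option linter.style.haveILetI false
set_option linter.unusedSectionVars false

/-!
# CFT [C] (G1) (helper15): primes of absolute degree one

* `isThinSet_not_prime_absNorm`: the primes of a number field whose absolute norm is not a prime
  number (absolute degree `≥ 2`) form a thin set; hence all the existence theorems of
  `NonSplit` / `AnalyticPrimes` produce primes of absolute degree one outside any finite set.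
* `exists_prime_not_isPow_of_thin`, `exists_degree_one_prime_not_isPow`: field-free (G1):
  `ζ_p ∈ F`, `u ∈ 𝓞 F` not a `p`-th power in `F` ⟹ there is a prime `v ∤ p u` (of absolute degree
  one, outside any given finite set) modulo which `u` is not a `p`-th power.
* `IsKummerGen.exists_split_prime_not_pow`: selection lemma for the second inequality.
-/

namespace Fermat.Agent.CFT

open NumberField Ideal IsDedekindDomain Polynomial

noncomputable section

section absolute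

variable (F : Type*) [Field F] [NumberField F]

/-- at most `[F : ℚ]` primes of `F` contain a given rational prime. -/
lemma card_le_finrank_of_natCast_mem (p : ℕ) (hp : p.Prime)
    (S : Finset (HeightOneSpectrum (𝓞 F))) (hS : ∀ v ∈ S, (p : 𝓞 F) ∈ v.asIdeal) :
    S.card ≤ Module.finrank ℚ F := by
  set P : Ideal ℤ := Ideal.span {(p : ℤ)} with hP
  have hpZ : Prime (p : ℤ) := Nat.prime_iff_prime_int.mp hp
  haveI hPprime : P.IsPrime := (Ideal.span_singleton_prime hpZ.ne_zero).mpr hpZ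
  haveI hPmax : P.IsMaximal := hPprime.isMaximal (by simpa [hP] using hpZ.ne_zero)
  have hsum := Ideal.sum_ramification_inertia_eq_finrank P (𝓞 F)
  rw [RingOfIntegers.rank] at hsum
  have hlies : ∀ v ∈ S, v.asIdeal ∈ P.primesOver (𝓞 F) := by
    intro v hv
    refine ⟨v.isPrime, ⟨?_⟩⟩
    have hle : P ≤ v.asIdeal.under ℤ := by
      rw [hP, Ideal.span_singleton_le_iff_mem, Ideal.under_def, Ideal.mem_comap]
      simpa using hS v hv
    have hne : v.asIdeal.under ℤ ≠ ⊤ := by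
      have : (v.asIdeal.under ℤ).IsPrime := Ideal.IsPrime.under ℤ v.asIdeal
      exact this.ne_top
    exact hPmax.eq_of_le hne hle
  let φ : ↥S → ↥(P.primesOver (𝓞 F)) := fun v ↦ ⟨v.1.asIdeal, hlies v.1 v.2⟩
  have hφ : Function.Injective φ := by
    intro v w hvw
    apply Subtype.ext
    apply HeightOneSpectrum.ext
    exact congrArg Subtype.val hvw
  calc S.card = Fintype.card ↥S := (Fintype.card_coe S).symm
    _ ≤ Fintype.card ↥(P.primesOver (𝓞 F)) := Fintype.card_le_of_injective φ hφ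
    _ = ∑ _q : ↥(P.primesOver (𝓞 F)), 1 := by simp
    _ ≤ ∑ q : ↥(P.primesOver (𝓞 F)), q.1.ramificationIdx ℤ * q.1.inertiaDeg ℤ := by
        refine Finset.sum_le_sum fun q _ ↦ ?_
        haveI := q.2.1
        exact Nat.succ_le_of_lt
          (Nat.mul_pos (Ideal.ramificationIdx_pos q.1 ℤ) (Ideal.inertiaDeg_pos q.1 ℤ))
    _ = Module.finrank ℚ F := hsum

/-- the rational prime below a prime of `F`, with the exponent of the norm. -/
lemma exists_prime_absNorm_eq_pow (v : HeightOneSpectrum (𝓞 F)) :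
    ∃ p n : ℕ, 0 < n ∧ (p : 𝓞 F) ∈ v.asIdeal ∧ p.Prime ∧ absNorm v.asIdeal = p ^ n :=
  Ideal.exists_prime_and_absNorm_eq_pow v.asIdeal

/-- the rational prime below `v`. -/
def ratPrime (v : HeightOneSpectrum (𝓞 F)) : ℕ := (exists_prime_absNorm_eq_pow F v).choose

lemma ratPrime_spec (v : HeightOneSpectrum (𝓞 F)) :
    ∃ n : ℕ, 0 < n ∧ (ratPrime F v : 𝓞 F) ∈ v.asIdeal ∧ (ratPrime F v).Prime ∧
      absNorm v.asIdeal = ratPrime F v ^ n :=
  (exists_prime_absNorm_eq_pow F v).choose_spec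

lemma ratPrime_prime (v : HeightOneSpectrum (𝓞 F)) : (ratPrime F v).Prime := by
  obtain ⟨n, -, -, h, -⟩ := ratPrime_spec F v
  exact h

lemma ratPrime_mem (v : HeightOneSpectrum (𝓞 F)) : (ratPrime F v : 𝓞 F) ∈ v.asIdeal := by
  obtain ⟨n, -, h, -, -⟩ := ratPrime_spec F v
  exact h

/-- a prime whose norm is not a prime number has norm at least the square of the rational prime
below it. -/
lemma idealWt_le_of_not_prime {s : ℝ} (hs : 1 < s) (v : HeightOneSpectrum (𝓞 F))
    (hv : ¬ (absNorm v.asIdeal).Prime) :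
    idealWt F s v.asIdeal ≤ 1 / ((ratPrime F v : ℕ) : ℝ) ^ 2 := by
  obtain ⟨n, hn, -, hp, hN⟩ := ratPrime_spec F v
  have hn2 : 2 ≤ n := by
    by_contra hlt
    have : n = 1 := by omega
    rw [this, pow_one] at hN
    exact hv (hN ▸ hp)
  have hp1 : (1 : ℝ) ≤ (ratPrime F v : ℝ) := by exact_mod_cast hp.one_lt.le
  have hp0 : (0 : ℝ) < (ratPrime F v : ℝ) := by linarith
  have hx : ((ratPrime F v : ℕ) : ℝ) ^ 2 ≤ ((absNorm v.asIdeal : ℕ) : ℝ) := by
    rw [hN]
    push_cast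
    exact pow_le_pow_right₀ hp1 hn2
  have hx1 : (1 : ℝ) ≤ ((absNorm v.asIdeal : ℕ) : ℝ) :=
    le_trans (one_le_pow₀ hp1) hx
  unfold idealWt
  calc ((absNorm v.asIdeal : ℕ) : ℝ) ^ (-s) ≤ ((absNorm v.asIdeal : ℕ) : ℝ) ^ (-1 : ℝ) :=
        Real.rpow_le_rpow_of_exponent_le hx1 (by linarith)
    _ = 1 / ((absNorm v.asIdeal : ℕ) : ℝ) := by rw [Real.rpow_neg_one, one_div]
    _ ≤ 1 / ((ratPrime F v : ℕ) : ℝ) ^ 2 :=
        one_div_le_one_div_of_le (by positivity) hx

/-- **The primes of absolute degree `≥ 2` form a thin set.** -/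
theorem isThinSet_not_prime_absNorm :
    IsThinSet F {v : HeightOneSpectrum (𝓞 F) | ¬ (absNorm v.asIdeal).Prime} := by
  have hsumm : Summable fun n : ℕ ↦ 1 / (n : ℝ) ^ 2 :=
    Real.summable_one_div_nat_pow.mpr (by norm_num)
  set d := Module.finrank ℚ F with hd
  refine ⟨d * ∑' n : ℕ, 1 / (n : ℝ) ^ 2, fun s hs ↦ ?_⟩
  have hC0 : 0 ≤ (d : ℝ) * ∑' n : ℕ, 1 / (n : ℝ) ^ 2 :=
    mul_nonneg (Nat.cast_nonneg d) (tsum_nonneg fun n ↦ by positivity)
  refine tsum_le_of_sum_le' hC0 fun S' ↦ ?_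
  classical
  -- pass to a finset of primes
  set S : Finset (HeightOneSpectrum (𝓞 F)) := S'.map (Function.Embedding.subtype _) with hS
  have hS_mem : ∀ v ∈ S, ¬ (absNorm v.asIdeal).Prime := by
    intro v hv
    rw [hS, Finset.mem_map] at hv
    obtain ⟨w, -, rfl⟩ := hv
    exact w.2
  have h1 : ∑ v ∈ S', idealWt F s v.1.asIdeal = ∑ v ∈ S, idealWt F s v.asIdeal := by
    rw [hS, Finset.sum_map]
    rfl
  rw [h1]
  calc ∑ v ∈ S, idealWt F s v.asIdeal
      ≤ ∑ v ∈ S, 1 / ((ratPrime F v : ℕ) : ℝ) ^ 2 :=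
        Finset.sum_le_sum fun v hv ↦ idealWt_le_of_not_prime F hs v (hS_mem v hv)
    _ = ∑ p ∈ S.image (ratPrime F), ∑ v ∈ S with ratPrime F v = p,
          1 / ((ratPrime F v : ℕ) : ℝ) ^ 2 :=
        (Finset.sum_fiberwise_of_maps_to (fun v hv ↦ Finset.mem_image_of_mem _ hv) _).symm
    _ ≤ ∑ p ∈ S.image (ratPrime F), (d : ℝ) * (1 / ((p : ℕ) : ℝ) ^ 2) := by
        refine Finset.sum_le_sum fun p hp ↦ ?_
        have hpp : p.Prime := by
          obtain ⟨v, -, rfl⟩ := Finset.mem_image.mp hp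
          exact ratPrime_prime F v
        have hcard : (S.filter fun v ↦ ratPrime F v = p).card ≤ d := by
          refine card_le_finrank_of_natCast_mem F p hpp _ fun v hv ↦ ?_
          rw [Finset.mem_filter] at hv
          rw [← hv.2]
          exact ratPrime_mem F v
        calc ∑ v ∈ S with ratPrime F v = p, 1 / ((ratPrime F v : ℕ) : ℝ) ^ 2
            = ∑ v ∈ S with ratPrime F v = p, 1 / ((p : ℕ) : ℝ) ^ 2 := by
              refine Finset.sum_congr rfl fun v hv ↦ ?_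
              rw [(Finset.mem_filter.mp hv).2]
          _ = ((S.filter fun v ↦ ratPrime F v = p).card : ℝ) * (1 / ((p : ℕ) : ℝ) ^ 2) := by
              rw [Finset.sum_const, nsmul_eq_mul]
          _ ≤ (d : ℝ) * (1 / ((p : ℕ) : ℝ) ^ 2) :=
              mul_le_mul_of_nonneg_right (by exact_mod_cast hcard) (by positivity)
    _ = (d : ℝ) * ∑ p ∈ S.image (ratPrime F), 1 / ((p : ℕ) : ℝ) ^ 2 := by
        rw [Finset.mul_sum]
    _ ≤ (d : ℝ) * ∑' n : ℕ, 1 / (n : ℝ) ^ 2 :=
        mul_le_mul_of_nonneg_left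
          (hsumm.sum_le_tsum _ fun n _ ↦ by positivity) (Nat.cast_nonneg d)


/-- finite sets together with the primes of absolute degree `≥ 2` are thin. -/
theorem isThinSet_union_not_prime_absNorm (B : Set (HeightOneSpectrum (𝓞 F))) (hB : B.Finite) :
    IsThinSet F (B ∪ {v : HeightOneSpectrum (𝓞 F) | ¬ (absNorm v.asIdeal).Prime}) :=
  (isThinSet_of_finite hB).union (isThinSet_not_prime_absNorm F)

/-- **(G1), field-free form.** `F ∋ ζ_p`, `u ∈ 𝓞 F` not a `p`-th power in `F`: outside any thin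
set of primes there is a prime `v ∤ p u` such that `u` is not a `p`-th power modulo `v`. -/
theorem exists_prime_not_isPow_of_thin {p : ℕ} (hp : p.Prime) {ζ : 𝓞 F} (hζ : IsPrimitiveRoot ζ p)
    (u : 𝓞 F) (hu : ∀ y : F, y ^ p ≠ (u : F))
    (T : Set (HeightOneSpectrum (𝓞 F))) (hT : IsThinSet F T) :
    ∃ v : HeightOneSpectrum (𝓞 F), v ∉ T ∧ (p : 𝓞 F) ∉ v.asIdeal ∧ u ∉ v.asIdeal ∧
      ¬ ∃ c : 𝓞 F, u - c ^ p ∈ v.asIdeal := by
  haveI : NeZero p := ⟨hp.ne_zero⟩
  set a : F := (u : F) with ha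
  have H : Irreducible (X ^ p - C a) := X_pow_sub_C_irreducible_of_prime hp hu
  have hζF : IsPrimitiveRoot ((ζ : 𝓞 F) : F) p :=
    hζ.map_of_injective (FaithfulSMul.algebraMap_injective (𝓞 F) F)
  have hζ' : (primitiveRoots p F).Nonempty := ⟨_, (mem_primitiveRoots hp.pos).mpr hζF⟩
  let M := (X ^ p - C a).SplittingField
  haveI : FiniteDimensional F M := Polynomial.IsSplittingField.finiteDimensional M (X ^ p - C a)
  haveI : NumberField M := NumberField.of_module_finite F M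
  haveI : IsGalois F M := isGalois_of_isSplittingField_X_pow_sub_C hζ' H M
  have hfin : Module.finrank F M = p := finrank_of_isSplittingField_X_pow_sub_C hζ' H M
  set α₀ : M := rootOfSplitsXPowSubC hp.pos a M with hα₀
  have hα₀pow : α₀ ^ p = algebraMap F M a := rootOfSplitsXPowSubC_pow a M
  have hint : IsIntegral ℤ α₀ := by
    refine IsIntegral.of_pow hp.pos ?_
    rw [hα₀pow]
    exact (RingOfIntegers.isIntegral_coe u).map (IsScalarTower.toAlgHom ℤ F M)
  let α : 𝓞 M := ⟨α₀, hint⟩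
  have hgen : IsKummerGen p ζ u α := by
    refine ⟨hζ, ?_, ?_⟩
    · apply RingOfIntegers.ext
      show ((α ^ p : 𝓞 M) : M) = algebraMap F M (u : F)
      rw [← hα₀pow]
      rfl
    · intro τ hτ
      have hτ' : τ α₀ = α₀ := congrArg (fun x : 𝓞 M ↦ (x : M)) hτ
      have htop := Algebra.adjoin_root_eq_top_of_isSplittingField hζ' H hα₀pow
      have : (τ : M →ₐ[F] M) = AlgHom.id F M := by
        refine AlgHom.ext_of_adjoin_eq_top htop ?_
        intro x hx
        rw [Set.mem_singleton_iff] at hx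
        subst hx
        simpa using hτ'
      ext x
      exact DFunLike.congr_fun this x
  have hu0 : u ≠ 0 := by
    intro h0
    refine hu 0 ?_
    rw [zero_pow hp.ne_zero, ha, h0]
    rfl
  exact hgen.exists_prime_not_pow_of_thin hp hu0 (by rw [hfin]; exact hp.two_le) T hT


/-- **(G1), field-free form, absolute degree one.** -/
theorem exists_degree_one_prime_not_isPow {p : ℕ} (hp : p.Prime) {ζ : 𝓞 F}
    (hζ : IsPrimitiveRoot ζ p) (u : 𝓞 F) (hu : ∀ y : F, y ^ p ≠ (u : F))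
    (B : Set (HeightOneSpectrum (𝓞 F))) (hB : B.Finite) :
    ∃ v : HeightOneSpectrum (𝓞 F), v ∉ B ∧ (absNorm v.asIdeal).Prime ∧
      (p : 𝓞 F) ∉ v.asIdeal ∧ u ∉ v.asIdeal ∧ ¬ ∃ c : 𝓞 F, u - c ^ p ∈ v.asIdeal := by
  obtain ⟨v, hv, h1, h2, h3⟩ := exists_prime_not_isPow_of_thin F hp hζ u hu _
    (isThinSet_union_not_prime_absNorm F B hB)
  refine ⟨v, fun hvB ↦ hv (Or.inl hvB), ?_, h1, h2, h3⟩
  by_contra hcon
  exact hv (Or.inr hcon)

end absolute

section relative

variable {F M : Type*} [Field F] [NumberField F] [Field M] [NumberField M] [Algebra F M]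

/-- a prime of absolute degree one has relative degree one. -/
theorem inertiaDeg_eq_one_of_prime_absNorm (q : Ideal (𝓞 F)) [q.IsMaximal] (Q : Ideal (𝓞 M))
    [Q.IsPrime] [Q.LiesOver q] (hQ : (absNorm Q).Prime) : Q.inertiaDeg (𝓞 F) = 1 := by
  haveI : Q.IsMaximal := Ideal.IsMaximal.of_liesOver_isMaximal Q q
  have h := Ideal.cardQuot_pow_inertiaDeg q Q
  rw [← Ideal.absNorm_apply, ← Ideal.absNorm_apply] at h
  exact ((Nat.Prime.pow_eq_iff hQ).mp h).2

/-- a nonzero element lying in all primes of a finite set. -/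
theorem exists_ne_zero_mem_of_finite (B : Set (HeightOneSpectrum (𝓞 F))) (hB : B.Finite) :
    ∃ x : 𝓞 F, x ≠ 0 ∧ ∀ v ∈ B, x ∈ v.asIdeal := by
  classical
  have hex : ∀ v : HeightOneSpectrum (𝓞 F), ∃ y : 𝓞 F, y ∈ v.asIdeal ∧ y ≠ 0 :=
    fun v ↦ Submodule.exists_mem_ne_zero_of_ne_bot v.ne_bot
  choose f hf using hex
  refine ⟨∏ v ∈ hB.toFinset, f v, Finset.prod_ne_zero_iff.mpr fun v _ ↦ (hf v).2, fun v hv ↦ ?_⟩
  exact Ideal.mem_of_dvd _ (Finset.dvd_prod_of_mem f (hB.mem_toFinset.mpr hv)) (hf v).1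

variable [IsGalois F M]

/-- **Selection lemma for the second inequality.** `M = F(α)`, `α ^ p = a`, a Kummer extension;
`u ∈ 𝓞 F` not a `p`-th power in `M`.  Outside any finite set `B` of primes of `F` there is a prime
`v ∤ p a u` of absolute degree one such that `a` IS a `p`-th power modulo `v` (so `v` splits
completely in `M`) while `u` is NOT a `p`-th power modulo `v`. -/
theorem IsKummerGen.exists_split_prime_not_pow {p : ℕ} {ζ a : 𝓞 F} {α : 𝓞 M}
    (h : IsKummerGen p ζ a α) (hp : p.Prime) (ha : a ≠ 0) (u : 𝓞 F)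
    (hu : ∀ y : M, y ^ p ≠ algebraMap F M (u : F))
    (B : Set (HeightOneSpectrum (𝓞 F))) (hB : B.Finite) :
    ∃ v : HeightOneSpectrum (𝓞 F), v ∉ B ∧ (absNorm v.asIdeal).Prime ∧
      (p : 𝓞 F) ∉ v.asIdeal ∧ a ∉ v.asIdeal ∧ u ∉ v.asIdeal ∧
      (∃ c : 𝓞 F, a - c ^ p ∈ v.asIdeal) ∧ ¬ ∃ c : 𝓞 F, u - c ^ p ∈ v.asIdeal := by
  have hinj : Function.Injective (algebraMap (𝓞 F) (𝓞 M)) :=
    FaithfulSMul.algebraMap_injective (𝓞 F) (𝓞 M)
  have hζM : IsPrimitiveRoot (algebraMap (𝓞 F) (𝓞 M) ζ) p := h.prim.map_of_injective hinj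
  obtain ⟨x, hx0, hxB⟩ := exists_ne_zero_mem_of_finite B hB
  set z : 𝓞 M := algebraMap (𝓞 F) (𝓞 M) (x * a) with hz
  have hz0 : z ≠ 0 := by
    rw [hz, Ne, map_eq_zero_iff _ hinj]
    exact mul_ne_zero hx0 ha
  set T' : Set (HeightOneSpectrum (𝓞 M)) :=
    {Q | z ∈ Q.asIdeal} ∪ {Q | ¬ (absNorm Q.asIdeal).Prime} with hT'
  have hT'thin : IsThinSet M T' :=
    (isThinSet_of_finite (finite_setOf_mem_asIdeal z hz0)).union (isThinSet_not_prime_absNorm M)
  obtain ⟨Q, hQT', hpQ, huQ, hnot⟩ := exists_prime_not_isPow_of_thin M hp hζM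
    (algebraMap (𝓞 F) (𝓞 M) u) hu T' hT'thin
  have hzQ : z ∉ Q.asIdeal := fun hmem ↦ hQT' (Or.inl hmem)
  have hQprime : (absNorm Q.asIdeal).Prime := by
    by_contra hcon
    exact hQT' (Or.inr hcon)
  set v : HeightOneSpectrum (𝓞 F) := HeightOneSpectrum.under (𝓞 F) Q with hv
  haveI hlies : Q.asIdeal.LiesOver v.asIdeal := Ideal.over_under Q.asIdeal
  have hmem : ∀ y : 𝓞 F, y ∈ v.asIdeal ↔ algebraMap (𝓞 F) (𝓞 M) y ∈ Q.asIdeal := fun y ↦ by
    rw [Ideal.mem_of_liesOver Q.asIdeal v.asIdeal]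
  have hf : Q.asIdeal.inertiaDeg (𝓞 F) = 1 :=
    inertiaDeg_eq_one_of_prime_absNorm v.asIdeal Q.asIdeal hQprime
  have hxa : x * a ∉ v.asIdeal := fun hmem' ↦ hzQ ((hmem _).mp hmem')
  refine ⟨v, fun hvB ↦ hxa (v.asIdeal.mul_mem_right _ (hxB v hvB)), ?_, ?_,
    fun hav ↦ hxa (v.asIdeal.mul_mem_left _ hav), ?_, ?_, ?_⟩
  · have hc := Ideal.cardQuot_pow_inertiaDeg v.asIdeal Q.asIdeal
    rw [hf, pow_one, ← Ideal.absNorm_apply, ← Ideal.absNorm_apply] at hc
    rw [hc]
    exact hQprime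
  · intro hpv
    apply hpQ
    have := (hmem _).mp hpv
    rwa [map_natCast] at this
  · intro huv
    exact huQ ((hmem _).mp huv)
  · exact h.exists_sub_pow_mem_of_inertiaDeg_eq_one v.asIdeal v.ne_bot Q.asIdeal hf
  · rintro ⟨c, hc⟩
    refine hnot ⟨algebraMap (𝓞 F) (𝓞 M) c, ?_⟩
    rw [← map_pow, ← map_sub]
    exact (hmem _).mp hc


/-- **(R3), absolute degree one.** In an everywhere unramified abelian extension of degree `≥ 2`
there is, outside any finite set, a prime of absolute degree one with non-trivial Frobenius. -/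
theorem exists_degree_one_frobOf_ne_one [IsMulCommutative Gal(M/F)]
    (h2 : 2 ≤ Module.finrank F M) (hur : IsUnramifiedEverywhere F M)
    (B : Set (HeightOneSpectrum (𝓞 F))) (hB : B.Finite) :
    ∃ v : HeightOneSpectrum (𝓞 F), v ∉ B ∧ (absNorm v.asIdeal).Prime ∧
      frobOf F M v.asIdeal ≠ 1 := by
  obtain ⟨v, hv, h1⟩ := exists_frobOf_ne_one_of_isUnramifiedEverywhere F M h2 hur _
    (isThinSet_union_not_prime_absNorm F B hB)
  refine ⟨v, fun hvB ↦ hv (Or.inl hvB), ?_, h1⟩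
  by_contra hcon
  exact hv (Or.inr hcon)

end relative

end

end Fermat.Agent.CFT
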