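import Mathlib
import Fermat.Agent.CFT.Global.CycloFrob

set_option autoImplicit false

/-!
# CFT, stream [C]: cyclotomic reciprocity, fraction form; non-triviality of Frobenius elements in
`K(ζ_n)/K`; `K(ζ_n)/K` is unramified outside `n`
-/

open NumberField UniqueFactorizationMonoid InfinitePlace
open scoped Pointwise IsMulCommutative

namespace Fermat.Agent.CFT

section Generic

/-- a non-trivial `n`-th root of unity congruent to `1` modulo a prime `Q` forces `n ∈ Q`. -/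
theorem natCast_mem_of_pow_eq_one_of_sub_one_mem {R : Type*} [CommRing R] [IsDomain R]
    {Q : Ideal R} {ξ : R} {n : ℕ} (h1 : ξ ^ n = 1) (hne : ξ ≠ 1) (hQ : ξ - 1 ∈ Q) :
    (n : R) ∈ Q := by
  have hsum : ∑ i ∈ Finset.range n, ξ ^ i = 0 := by
    have := geom_sum_mul ξ n
    rw [h1, sub_self] at this
    exact (mul_eq_zero.mp this).resolve_right (sub_ne_zero.mpr hne)
  have hn : (n : R) = ∑ i ∈ Finset.range n, (1 - ξ ^ i) := by
    rw [Finset.sum_sub_distrib, hsum, sub_zero, Finset.sum_const, Finset.card_range,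
      nsmul_eq_mul, mul_one]
  rw [hn]
  refine Q.sum_mem fun i _ => ?_
  have hdvd : ξ - 1 ∣ ξ ^ i - 1 := by
    have := sub_dvd_pow_sub_pow ξ 1 i
    rwa [one_pow] at this
  have : ξ ^ i - 1 ∈ Q := Ideal.mem_of_dvd _ hdvd hQ
  have h2 : 1 - ξ ^ i = -(ξ ^ i - 1) := by ring
  rw [h2]
  exact Q.neg_mem this

theorem eq_one_of_sq_eq_one_of_odd_card {G : Type*} [Group G] (hodd : Odd (Nat.card G))
    (g : G) (hg : g ^ 2 = 1) : g = 1 := by
  have hfin : Finite G := Nat.finite_of_card_ne_zero (by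
    rintro h0
    rw [h0] at hodd
    exact absurd hodd (by decide))
  have h1 : orderOf g ∣ 2 := orderOf_dvd_of_pow_eq_one hg
  have h2 : orderOf g ∣ Nat.card G := orderOf_dvd_natCard g
  rw [← orderOf_eq_one_iff]
  rcases (Nat.dvd_prime Nat.prime_two).mp h1 with h | h
  · exact h
  · exfalso
    rw [h] at h2
    exact (Nat.not_even_iff_odd.mpr hodd) (even_iff_two_dvd.mpr h2)

end Generic

section Coprime

variable {K : Type*} [Field K] [NumberField K]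

/-- if `b` lies in no prime containing `n` then `N((b))` is prime to `n`. -/
theorem coprime_absNorm_span_singleton_of_forall_not_mem {n : ℕ} {b : 𝓞 K}
    (h : ∀ 𝔮 : Ideal (𝓞 K), 𝔮.IsMaximal → (n : 𝓞 K) ∈ 𝔮 → b ∉ 𝔮) :
    (Ideal.absNorm (Ideal.span {b})).Coprime n := by
  have htop : Ideal.span {b} ⊔ Ideal.span {(n : 𝓞 K)} = ⊤ := by
    by_contra hne
    obtain ⟨𝔮, h𝔮, hle⟩ := Ideal.exists_le_maximal _ hne
    have hb : b ∈ 𝔮 := hle (Ideal.mem_sup_left (Ideal.mem_span_singleton_self b))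
    have hn : (n : 𝓞 K) ∈ 𝔮 := hle (Ideal.mem_sup_right (Ideal.mem_span_singleton_self _))
    exact h 𝔮 h𝔮 hn hb
  have h1 : (1 : 𝓞 K) ∈ Ideal.span {b} ⊔ Ideal.span {(n : 𝓞 K)} := by
    rw [htop]; exact Submodule.mem_top
  obtain ⟨x, hx, y, hy, hxy⟩ := Submodule.mem_sup.mp h1
  obtain ⟨u, rfl⟩ := Ideal.mem_span_singleton'.mp hx
  have hmem : u * b - 1 ∈ Ideal.span {(n : 𝓞 K)} := by
    have : u * b - 1 = -y := by rw [← hxy]; ring
    rw [this]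
    exact (Ideal.span {(n : 𝓞 K)}).neg_mem hy
  have hcong := norm_int_modEq_of_sub_mem hmem
  rw [map_mul, map_one] at hcong
  rw [Ideal.absNorm_span_singleton]
  have hc : IsCoprime (Algebra.norm ℤ b) (n : ℤ) := by
    obtain ⟨c, hc⟩ := Int.modEq_iff_dvd.mp hcong.symm
    exact ⟨Algebra.norm ℤ u, -c, by linarith⟩
  have h2 := Int.isCoprime_iff_gcd_eq_one.mp hc
  rwa [Int.gcd, Int.natAbs_natCast] at h2

theorem ne_zero_of_coprime_absNorm_span_singleton {n : ℕ} (hn1 : n ≠ 1) {x : 𝓞 K}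
    (hx : (Ideal.absNorm (Ideal.span {x})).Coprime n) : x ≠ 0 := by
  rintro rfl
  rw [Ideal.span_singleton_zero, Ideal.absNorm_bot, Nat.coprime_zero_left] at hx
  exact hn1 hx

theorem natCast_absNorm_span_singleton_sq (x : 𝓞 K) :
    ((Ideal.absNorm (Ideal.span {x}) : ℕ) : ℤ) ^ 2 = (Algebra.norm ℤ x) ^ 2 := by
  rw [Ideal.absNorm_span_singleton, Int.natCast_natAbs, sq_abs]

end Coprime

section Recip

variable (K E : Type*) [Field K] [NumberField K] [Field E] [NumberField E] [Algebra K E]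
  [IsGalois K E] [IsMulCommutative Gal(E/K)]

/-- the Artin symbol of `(b)`, `b` prime to `n`, acts on `μ_n` through `|N_{K/ℚ}(b)|`; its square
through `N_{K/ℚ}(b)^2`. -/
theorem artinIdeal_sq_smul_of_pow_eq_one {n : ℕ} {ζ : 𝓞 E} (hζ : ζ ^ n = 1) {b : 𝓞 K}
    (hb : (Ideal.absNorm (Ideal.span {b})).Coprime n) (hb0 : b ≠ 0) :
    artinIdeal K E (Ideal.span {b}) ^ 2 • ζ = ζ ^ (Ideal.absNorm (Ideal.span {b}) ^ 2) := by
  have hbI : Ideal.span {b} ≠ (⊥ : Ideal (𝓞 K)) := by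
    rwa [Ne, Ideal.span_singleton_eq_bot]
  have h1 := artinIdeal_smul_of_pow_eq_one K E hζ _ hbI (natCast_not_mem_of_coprime_absNorm hb)
  rw [pow_two, mul_smul, h1, smul_pow', h1, ← pow_mul, ← pow_two]

/-- **Cyclotomic reciprocity, fraction form.** -/
theorem artinIdeal_span_singleton_eq_of_norm_congr {n : ℕ} [NeZero n]
    {ζ : 𝓞 E} (hζ : IsPrimitiveRoot ζ n) (hgen : ∀ σ : Gal(E/K), σ • ζ = ζ → σ = 1)
    (hodd : ∀ g : Gal(E/K), g ^ 2 = 1 → g = 1)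
    {b₁ b₂ : 𝓞 K} {y₁ y₂ : 𝓞 E}
    (hb₁ : (Ideal.absNorm (Ideal.span {b₁})).Coprime n)
    (hb₂ : (Ideal.absNorm (Ideal.span {b₂})).Coprime n)
    (hy₁ : (Ideal.absNorm (Ideal.span {y₁})).Coprime n)
    (hy₂ : (Ideal.absNorm (Ideal.span {y₂})).Coprime n)
    (hcong : b₁ * RingOfIntegers.norm K y₂ - b₂ * RingOfIntegers.norm K y₁ ∈
      Ideal.span {(n : 𝓞 K)}) :
    artinIdeal K E (Ideal.span {b₁}) = artinIdeal K E (Ideal.span {b₂}) := by
  by_cases hn1 : n = 1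
  · have h1 : ζ = 1 := by
      have := hζ.pow_eq_one
      rwa [hn1, pow_one] at this
    have : ∀ σ : Gal(E/K), σ = 1 := fun σ => hgen σ (by rw [h1, smul_one])
    rw [this (artinIdeal K E (Ideal.span {b₁})), this (artinIdeal K E (Ideal.span {b₂}))]
  have hb₁0 := ne_zero_of_coprime_absNorm_span_singleton hn1 hb₁
  have hb₂0 := ne_zero_of_coprime_absNorm_span_singleton hn1 hb₂
  -- the integers
  set a₁ := Algebra.norm ℤ b₁ with ha₁
  set a₂ := Algebra.norm ℤ b₂ with ha₂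
  set c₁ := Algebra.norm ℤ y₁ with hc₁
  set c₂ := Algebra.norm ℤ y₂ with hc₂
  have hcg : a₁ * c₂ ≡ a₂ * c₁ [ZMOD n] := by
    have := norm_int_modEq_of_sub_mem hcong
    rwa [map_mul, map_mul, norm_int_ringOfIntegers_norm, norm_int_ringOfIntegers_norm] at this
  have hc₁sq : c₁ ^ 2 ≡ 1 [ZMOD n] := by
    have h := absNorm_modEq_one_of_isPrimitiveRoot hζ _ hy₁
    have h' : ((Ideal.absNorm (Ideal.span {y₁}) : ℕ) : ℤ) ≡ 1 [ZMOD n] := by
      exact_mod_cast (Int.natCast_modEq_iff.mpr h)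
    have := h'.pow 2
    rwa [natCast_absNorm_span_singleton_sq, one_pow] at this
  have hc₂sq : c₂ ^ 2 ≡ 1 [ZMOD n] := by
    have h := absNorm_modEq_one_of_isPrimitiveRoot hζ _ hy₂
    have h' : ((Ideal.absNorm (Ideal.span {y₂}) : ℕ) : ℤ) ≡ 1 [ZMOD n] := by
      exact_mod_cast (Int.natCast_modEq_iff.mpr h)
    have := h'.pow 2
    rwa [natCast_absNorm_span_singleton_sq, one_pow] at this
  have hasq : a₁ ^ 2 ≡ a₂ ^ 2 [ZMOD n] := by
    have h1 : (a₁ * c₂) ^ 2 ≡ (a₂ * c₁) ^ 2 [ZMOD n] := hcg.pow 2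
    rw [mul_pow, mul_pow] at h1
    have h2 : a₁ ^ 2 * c₂ ^ 2 ≡ a₁ ^ 2 * 1 [ZMOD n] := Int.ModEq.mul_left _ hc₂sq
    have h3 : a₂ ^ 2 * c₁ ^ 2 ≡ a₂ ^ 2 * 1 [ZMOD n] := Int.ModEq.mul_left _ hc₁sq
    rw [mul_one] at h2 h3
    exact (h2.symm.trans h1).trans h3
  have hNsq : Ideal.absNorm (Ideal.span {b₁}) ^ 2 ≡ Ideal.absNorm (Ideal.span {b₂}) ^ 2
      [MOD n] := by
    apply Int.natCast_modEq_iff.mp
    push_cast
    rw [natCast_absNorm_span_singleton_sq, natCast_absNorm_span_singleton_sq]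
    exact hasq
  -- compare the squares of the Artin symbols
  have h1 := artinIdeal_sq_smul_of_pow_eq_one K E hζ.pow_eq_one hb₁ hb₁0
  have h2 := artinIdeal_sq_smul_of_pow_eq_one K E hζ.pow_eq_one hb₂ hb₂0
  have hpow : ζ ^ (Ideal.absNorm (Ideal.span {b₁}) ^ 2) =
      ζ ^ (Ideal.absNorm (Ideal.span {b₂}) ^ 2) := by
    rw [← pow_mod_orderOf ζ (Ideal.absNorm (Ideal.span {b₁}) ^ 2),
      ← pow_mod_orderOf ζ (Ideal.absNorm (Ideal.span {b₂}) ^ 2), ← hζ.eq_orderOf]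
    exact congrArg (ζ ^ ·) hNsq
  set A₁ := artinIdeal K E (Ideal.span {b₁}) with hA₁
  set A₂ := artinIdeal K E (Ideal.span {b₂}) with hA₂
  have hfix : (A₁ * A₂⁻¹) ^ 2 • ζ = ζ := by
    have hcomm : (A₁ * A₂⁻¹) ^ 2 = (A₂ ^ 2)⁻¹ * A₁ ^ 2 := by
      have hc : Commute A₁ A₂⁻¹ := mul_comm' A₁ A₂⁻¹
      rw [hc.mul_pow, inv_pow]
      exact mul_comm' _ _
    rw [hcomm, mul_smul, h1, hpow, ← h2, inv_smul_smul]
  have h3 := hodd _ (hgen _ hfix)
  exact mul_inv_eq_one.mp h3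

/-- **Cyclotomic reciprocity, fraction form**, for `E = K(ζ_n)`; "prime to `n`" in the form
"outside every prime containing `n`". -/
theorem artinIdeal_span_singleton_eq_of_norm_congr_of_isCyclotomicExtension {n : ℕ} [NeZero n]
    [IsCyclotomicExtension {n} K E] (hodd : ∀ g : Gal(E/K), g ^ 2 = 1 → g = 1)
    {b₁ b₂ : 𝓞 K} {y₁ y₂ : 𝓞 E}
    (hb₁ : ∀ 𝔮 : Ideal (𝓞 K), 𝔮.IsMaximal → (n : 𝓞 K) ∈ 𝔮 → b₁ ∉ 𝔮)
    (hb₂ : ∀ 𝔮 : Ideal (𝓞 K), 𝔮.IsMaximal → (n : 𝓞 K) ∈ 𝔮 → b₂ ∉ 𝔮)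
    (hy₁ : ∀ 𝔔 : Ideal (𝓞 E), 𝔔.IsMaximal → (n : 𝓞 E) ∈ 𝔔 → y₁ ∉ 𝔔)
    (hy₂ : ∀ 𝔔 : Ideal (𝓞 E), 𝔔.IsMaximal → (n : 𝓞 E) ∈ 𝔔 → y₂ ∉ 𝔔)
    (hcong : b₁ * RingOfIntegers.norm K y₂ - b₂ * RingOfIntegers.norm K y₁ ∈
      Ideal.span {(n : 𝓞 K)}) :
    artinIdeal K E (Ideal.span {b₁}) = artinIdeal K E (Ideal.span {b₂}) := by
  have hζ := IsCyclotomicExtension.zeta_spec n K E
  have hζ' : IsPrimitiveRoot hζ.toInteger n := hζ.toInteger_isPrimitiveRoot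
  exact artinIdeal_span_singleton_eq_of_norm_congr K E hζ'
    (eq_one_of_smul_eq_of_isCyclotomicExtension K E hζ') hodd
    (coprime_absNorm_span_singleton_of_forall_not_mem hb₁)
    (coprime_absNorm_span_singleton_of_forall_not_mem hb₂)
    (coprime_absNorm_span_singleton_of_forall_not_mem hy₁)
    (coprime_absNorm_span_singleton_of_forall_not_mem hy₂) hcong

end Recip

section FrobNe

variable (K E : Type*) [Field K] [NumberField K] [Field E] [NumberField E] [Algebra K E]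
  [IsGalois K E]

/-- (CF7) the Frobenius of `𝔮` in `K(ζ_n)/K` is non-trivial as soon as `1 < N𝔮 < n`. -/
theorem frobOf_ne_one_of_absNorm_lt {n : ℕ} {ζ : 𝓞 E} (hζ : IsPrimitiveRoot ζ n)
    (𝔮 : Ideal (𝓞 K)) [𝔮.IsMaximal] (hn : (n : 𝓞 K) ∉ 𝔮) (h1 : 1 < Ideal.absNorm 𝔮)
    (h2 : Ideal.absNorm 𝔮 < n) : frobOf K E 𝔮 ≠ 1 := by
  intro h
  have h3 := frobOf_smul_of_pow_eq_one K E 𝔮 hn hζ.pow_eq_one
  rw [h, one_smul] at h3
  have h4 : ζ ^ 1 = ζ ^ Ideal.absNorm 𝔮 := by rw [pow_one]; exact h3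
  have := hζ.pow_inj (by omega) h2 h4
  omega

end FrobNe

section Unram

variable (K E : Type*) [Field K] [NumberField K] [Field E] [NumberField E] [Algebra K E]

/-- (CF8) `K(ζ_n)/K` is unramified outside `n`. -/
theorem inertia_eq_bot_of_natCast_not_mem {n : ℕ} [NeZero n] [IsCyclotomicExtension {n} K E]
    (Q : Ideal (𝓞 E)) [Q.IsPrime] (hn : (n : 𝓞 E) ∉ Q) : Q.inertia Gal(E/K) = ⊥ := by
  rw [eq_bot_iff]
  intro g hg
  rw [Subgroup.mem_bot]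
  have hζ0 := IsCyclotomicExtension.zeta_spec n K E
  have hζ : IsPrimitiveRoot hζ0.toInteger n := hζ0.toInteger_isPrimitiveRoot
  set ζ := hζ0.toInteger with hζdef
  apply eq_one_of_smul_eq_of_isCyclotomicExtension K E hζ
  have hn0 : n ≠ 0 := NeZero.ne n
  have hζn : ζ ^ (n - 1) * ζ = 1 := by
    rw [← pow_succ, Nat.sub_add_cancel (Nat.one_le_iff_ne_zero.mpr hn0), hζ.pow_eq_one]
  set ξ := (g • ζ) * ζ ^ (n - 1) with hξ
  have hξn : ξ ^ n = 1 := by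
    rw [hξ, mul_pow, ← smul_pow', hζ.pow_eq_one, smul_one, one_mul, ← pow_mul, mul_comm,
      pow_mul, hζ.pow_eq_one, one_pow]
  have hξQ : ξ - 1 ∈ Q := by
    have : ξ - 1 = ζ ^ (n - 1) * (g • ζ - ζ) := by
      rw [hξ, mul_sub, hζn]; ring
    rw [this]
    exact Q.mul_mem_left _ (hg ζ)
  have hξ1 : ξ = 1 := by
    by_contra hne
    exact hn (natCast_mem_of_pow_eq_one_of_sub_one_mem hξn hne hξQ)
  calc g • ζ = (g • ζ) * (ζ ^ (n - 1) * ζ) := by rw [hζn, mul_one]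
    _ = ξ * ζ := by rw [hξ]; ring
    _ = ζ := by rw [hξ1, one_mul]

end Unram

end Fermat.Agent.CFT
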