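import Mathlib

set_option autoImplicit false

/-!
# CFT, stream [C]: primes with prescribed `p`-power order of a given integer (Bang / Zsigmondy,
prime-power index)

For an integer `a > 1`, an odd prime `p` and `s ≥ 0` there is a prime `ℓ ≠ p` such that the order
of `a` modulo `ℓ` is exactly `p ^ (s + 1)`.
-/

namespace Fermat.Agent.CFT

open Finset

/-- `(1 + p c)^i = 1 + i p c` modulo `p^2`. -/
theorem one_add_mul_pow_zmod_sq (p c i : ℕ) :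
    ((1 : ZMod (p ^ 2)) + (p : ZMod (p ^ 2)) * c) ^ i = 1 + (i : ZMod (p ^ 2)) * p * c := by
  have hpp : (p : ZMod (p ^ 2)) * (p : ZMod (p ^ 2)) = 0 := by
    rw [← Nat.cast_mul, ← sq]
    exact ZMod.natCast_self (p ^ 2)
  induction i with
  | zero => simp
  | succ i ih =>
    rw [pow_succ ((1 : ZMod (p ^ 2)) + (p : ZMod (p ^ 2)) * c) i, ih]
    push_cast
    have : (1 + (i : ZMod (p ^ 2)) * p * c) * (1 + (p : ZMod (p ^ 2)) * c) =
        1 + ((i : ZMod (p ^ 2)) + 1) * p * c +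
          (i : ZMod (p ^ 2)) * c * c * ((p : ZMod (p ^ 2)) * (p : ZMod (p ^ 2))) := by ring
    rw [this, hpp, mul_zero, add_zero]

/-- the geometric sum `1 + b + ⋯ + b^(p-1)` is `≡ p mod p^2` when `b ≡ 1 mod p`, `p` odd. -/
theorem geom_sum_zmod_sq {p : ℕ} (hp : p.Prime) (hp2 : p ≠ 2) (c : ℕ) :
    (∑ i ∈ range p, ((1 : ZMod (p ^ 2)) + (p : ZMod (p ^ 2)) * c) ^ i) = p := by
  have hpp : (p : ZMod (p ^ 2)) * (p : ZMod (p ^ 2)) = 0 := by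
    rw [← Nat.cast_mul, ← sq]
    exact ZMod.natCast_self (p ^ 2)
  simp_rw [one_add_mul_pow_zmod_sq]
  rw [sum_add_distrib, sum_const, card_range, nsmul_eq_mul, mul_one]
  have hodd : Odd p := hp.odd_of_ne_two hp2
  obtain ⟨k, hk⟩ := hodd
  have hsum : ∑ i ∈ range p, i = p * k := by
    have h := Finset.sum_range_id_mul_two p
    have h2 : p * (p - 1) = (p * k) * 2 := by
      rw [hk]
      simp only [Nat.add_sub_cancel]
      ring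
    rw [h2] at h
    exact Nat.eq_of_mul_eq_mul_right (by norm_num) h
  have : ∑ i ∈ range p, (i : ZMod (p ^ 2)) * p * c =
      ((∑ i ∈ range p, i : ℕ) : ZMod (p ^ 2)) * p * c := by
    push_cast
    rw [sum_mul, sum_mul]
  rw [this, hsum]
  push_cast
  have : (p : ZMod (p ^ 2)) * k * p * c = (k : ZMod (p ^ 2)) * c * ((p : ZMod (p ^ 2)) * p) := by ring
  rw [this, hpp, mul_zero, add_zero]

theorem add_one_lt_two_pow {n : ℕ} (hn : 3 ≤ n) : n + 1 < 2 ^ n := by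
  induction n, hn using Nat.le_induction with
  | base => norm_num
  | succ n hn ih =>
    rw [pow_succ]
    omega

/-- **Bang / Zsigmondy for prime-power index**: for `a > 1`, an odd prime `p` and `s`, some prime
`ℓ ≠ p` has `a` of order exactly `p ^ (s+1)` modulo `ℓ`. -/
theorem exists_prime_orderOf_eq_prime_pow {p : ℕ} (hp : p.Prime) (hp2 : p ≠ 2) {a : ℕ}
    (ha : 1 < a) (s : ℕ) :
    ∃ ℓ : ℕ, ℓ.Prime ∧ ℓ ≠ p ∧ orderOf (a : ZMod ℓ) = p ^ (s + 1) := by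
  set b : ℕ := a ^ p ^ s with hb
  have hb2 : 2 ≤ b := by
    have : 1 < a ^ p ^ s := Nat.one_lt_pow (pow_ne_zero _ hp.ne_zero) ha
    omega
  set Φ : ℕ := ∑ i ∈ range p, b ^ i with hΦ
  have hp3 : 3 ≤ p := by
    have := hp.two_le
    omega
  -- the key identity
  have hkey : Φ * (b - 1) + 1 = b ^ p := by
    have h := Nat.geomSum_eq hb2 p
    rw [hΦ, h]
    have h1 : b - 1 ∣ b ^ p - 1 := Nat.sub_one_dvd_pow_sub_one b p
    rw [Nat.div_mul_cancel h1]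
    have : 1 ≤ b ^ p := Nat.one_le_pow _ _ (by omega)
    omega
  -- `Φ > p`
  have hΦp : p < Φ := by
    have hle : ∑ i ∈ range p, 2 ^ i ≤ Φ :=
      Finset.sum_le_sum fun i _ => Nat.pow_le_pow_left hb2 i
    have hgeo : ∑ i ∈ range p, 2 ^ i = 2 ^ p - 1 := by
      have := Nat.geomSum_eq (le_refl 2) p
      simpa using this
    have hlt : p + 1 < 2 ^ p := add_one_lt_two_pow hp3
    omega
  -- `p ^ 2 ∤ Φ`
  have hsq : ¬ p ^ 2 ∣ Φ := by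
    intro hdvd
    have hpΦ : p ∣ Φ := dvd_trans (dvd_pow_self p two_ne_zero) hdvd
    -- `b ≡ 1 mod p`
    have hb1 : (b : ZMod p) = 1 := by
      have : Fact p.Prime := ⟨hp⟩
      have h1 : ((Φ * (b - 1) + 1 : ℕ) : ZMod p) = ((b ^ p : ℕ) : ZMod p) := by rw [hkey]
      have h2 : (Φ : ZMod p) = 0 := (ZMod.natCast_eq_zero_iff Φ p).mpr hpΦ
      push_cast at h1
      rw [h2, zero_mul, zero_add, ZMod.pow_card] at h1
      exact h1.symm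
    obtain ⟨c, hc⟩ : ∃ c : ℕ, b = 1 + p * c := by
      have h1 : ((b - 1 : ℕ) : ZMod p) = 0 := by
        rw [Nat.cast_sub (by omega), hb1]
        simp
      obtain ⟨c, hc⟩ := (ZMod.natCast_eq_zero_iff _ _).mp h1
      exact ⟨c, by omega⟩
    have h3 : (Φ : ZMod (p ^ 2)) = p := by
      rw [hΦ]
      push_cast
      rw [hc]
      push_cast
      exact geom_sum_zmod_sq hp hp2 c
    have h4 : (Φ : ZMod (p ^ 2)) = 0 := (ZMod.natCast_eq_zero_iff Φ (p ^ 2)).mpr hdvd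
    rw [h4] at h3
    have h5 : p ^ 2 ∣ p := (ZMod.natCast_eq_zero_iff p (p ^ 2)).mp h3.symm
    have h6 : p ^ 2 ≤ p := Nat.le_of_dvd hp.pos h5
    nlinarith [hp.two_le]
  -- a prime factor different from `p`
  obtain ⟨ℓ, hℓ, hℓΦ, hℓp⟩ : ∃ ℓ : ℕ, ℓ.Prime ∧ ℓ ∣ Φ ∧ ℓ ≠ p := by
    by_contra hcon
    push Not at hcon
    have hΦ0 : Φ ≠ 0 := by omega
    have h := Nat.eq_prime_pow_of_unique_prime_dvd hΦ0 (fun {d} hd hdΦ => hcon d hd hdΦ)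
    set t := Φ.primeFactorsList.length
    have ht : 2 ≤ t := by
      by_contra ht
      have : t = 0 ∨ t = 1 := by omega
      rcases this with h0 | h0
      · rw [h0, pow_zero] at h
        omega
      · rw [h0, pow_one] at h
        omega
    exact hsq (h ▸ pow_dvd_pow p ht)
  refine ⟨ℓ, hℓ, hℓp, ?_⟩
  have : Fact ℓ.Prime := ⟨hℓ⟩
  have hΦ0 : (Φ : ZMod ℓ) = 0 := (ZMod.natCast_eq_zero_iff Φ ℓ).mpr hℓΦ
  have hbp : (b : ZMod ℓ) ^ p = 1 := by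
    have h1 : ((Φ * (b - 1) + 1 : ℕ) : ZMod ℓ) = ((b ^ p : ℕ) : ZMod ℓ) := by rw [hkey]
    push_cast at h1
    rw [hΦ0, zero_mul, zero_add] at h1
    exact h1.symm
  have hb' : (b : ZMod ℓ) = (a : ZMod ℓ) ^ p ^ s := by
    rw [hb]
    push_cast
    rfl
  have hpf : Fact p.Prime := ⟨hp⟩
  refine orderOf_eq_prime_pow ?_ ?_
  · intro h1
    -- then `b = 1` so `Φ = p` in `ZMod ℓ`
    have hb1 : (b : ZMod ℓ) = 1 := by rw [hb', h1]
    have h2 : (Φ : ZMod ℓ) = p := by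
      rw [hΦ]
      push_cast
      rw [hb1]
      simp
    rw [hΦ0] at h2
    have h3 : ℓ ∣ p := (ZMod.natCast_eq_zero_iff p ℓ).mp h2.symm
    exact hℓp ((Nat.prime_dvd_prime_iff_eq hℓ hp).mp h3)
  · rw [pow_succ, pow_mul, ← hb', hbp]

theorem exists_prime_orderOf_eq_prime_pow_not_mem {p : ℕ} (hp : p.Prime) (hp2 : p ≠ 2) {a : ℕ}
    (ha : 1 < a) (B : Finset ℕ) (r : ℕ) :
    ∃ ℓ s : ℕ, ℓ.Prime ∧ ℓ ≠ p ∧ ℓ ∉ B ∧ r ≤ s ∧ orderOf (a : ZMod ℓ) = p ^ (s + 1) := by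
  classical
  choose f hf using fun s => exists_prime_orderOf_eq_prime_pow hp hp2 ha s
  have hinj : Function.Injective f := by
    intro s t hst
    have h1 := (hf s).2.2
    have h2 := (hf t).2.2
    rw [hst] at h1
    rw [h1] at h2
    have := Nat.pow_right_injective hp.two_le h2
    omega
  by_contra hcon
  push Not at hcon
  have hsub : (Finset.image (fun i => f (r + i)) (range (B.card + 1))) ⊆ B := by
    intro x hx
    rw [mem_image] at hx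
    obtain ⟨i, _, rfl⟩ := hx
    by_contra hnot
    exact hcon (f (r + i)) (r + i) (hf _).1 (hf _).2.1 hnot (by omega) (hf _).2.2
  have hcard := Finset.card_le_card hsub
  rw [Finset.card_image_of_injective _ (fun i j hij => by
    have := hinj hij
    omega), card_range] at hcard
  omega

/-- **Lemma 2 of Lang X.2** (prime degree): for `a > 1` and an odd prime `p` there are two primes
`ℓ₁ ≠ ℓ₂` outside any given finite set and an integer `b` prime to `ℓ₁ ℓ₂` such that `a` and `b`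
are "independent modulo `p`" in `(ℤ/ℓ₁ℓ₂)ˣ`: `a^i b^j = 1` forces `p ∣ i` and `p ∣ j`. -/
theorem exists_modulus_independent {p : ℕ} (hp : p.Prime) (hp2 : p ≠ 2) {a : ℕ}
    (ha : 1 < a) (B : Finset ℕ) :
    ∃ ℓ₁ ℓ₂ b : ℕ, ℓ₁.Prime ∧ ℓ₂.Prime ∧ ℓ₁ ≠ ℓ₂ ∧ ℓ₁ ∉ B ∧ ℓ₂ ∉ B ∧ ℓ₁ ≠ p ∧ ℓ₂ ≠ p ∧
      a.Coprime (ℓ₁ * ℓ₂) ∧ b.Coprime (ℓ₁ * ℓ₂) ∧
      ∀ i j : ℕ, (a : ZMod (ℓ₁ * ℓ₂)) ^ i * (b : ZMod (ℓ₁ * ℓ₂)) ^ j = 1 → p ∣ i ∧ p ∣ j := by
  classical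
  obtain ⟨ℓ₁, s₁, hℓ₁, hℓ₁p, hℓ₁B, -, ho₁⟩ :=
    exists_prime_orderOf_eq_prime_pow_not_mem hp hp2 ha B 0
  obtain ⟨ℓ₂, s₂, hℓ₂, hℓ₂p, hℓ₂B, hs, ho₂⟩ :=
    exists_prime_orderOf_eq_prime_pow_not_mem hp hp2 ha (insert ℓ₁ B) (s₁ + 1)
  have hne : ℓ₁ ≠ ℓ₂ := by
    rintro rfl
    exact hℓ₂B (mem_insert_self _ _)
  have hℓ₂B' : ℓ₂ ∉ B := fun h => hℓ₂B (mem_insert_of_mem h)
  have hcop : ℓ₁.Coprime ℓ₂ := (Nat.coprime_primes hℓ₁ hℓ₂).mpr hne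
  obtain ⟨b, hb1, hb2⟩ := Nat.chineseRemainder hcop a 1
  have hf₁ : Fact ℓ₁.Prime := ⟨hℓ₁⟩
  have hf₂ : Fact ℓ₂.Prime := ⟨hℓ₂⟩
  -- `a` is a unit modulo both primes
  have ha₁ : (a : ZMod ℓ₁) ≠ 0 := by
    intro h0
    rw [h0, orderOf_eq_zero_iff.mpr] at ho₁
    · exact (pow_ne_zero _ hp.ne_zero) ho₁.symm
    · rw [isOfFinOrder_iff_pow_eq_one]
      rintro ⟨n, hn, hn1⟩
      rw [zero_pow hn.ne'] at hn1
      exact zero_ne_one hn1
  have ha₂ : (a : ZMod ℓ₂) ≠ 0 := by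
    intro h0
    rw [h0, orderOf_eq_zero_iff.mpr] at ho₂
    · exact (pow_ne_zero _ hp.ne_zero) ho₂.symm
    · rw [isOfFinOrder_iff_pow_eq_one]
      rintro ⟨n, hn, hn1⟩
      rw [zero_pow hn.ne'] at hn1
      exact zero_ne_one hn1
  have hac₁ : a.Coprime ℓ₁ := by
    rw [Nat.coprime_comm, Nat.Prime.coprime_iff_not_dvd hℓ₁]
    intro h
    exact ha₁ ((ZMod.natCast_eq_zero_iff a ℓ₁).mpr h)
  have hac₂ : a.Coprime ℓ₂ := by
    rw [Nat.coprime_comm, Nat.Prime.coprime_iff_not_dvd hℓ₂]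
    intro h
    exact ha₂ ((ZMod.natCast_eq_zero_iff a ℓ₂).mpr h)
  have hb₁ : (b : ZMod ℓ₁) = a := (ZMod.natCast_eq_natCast_iff b a ℓ₁).mpr hb1
  have hb₂ : (b : ZMod ℓ₂) = 1 := by
    have := (ZMod.natCast_eq_natCast_iff b 1 ℓ₂).mpr hb2
    simpa using this
  have hbc₁ : b.Coprime ℓ₁ := by
    rw [Nat.coprime_comm, Nat.Prime.coprime_iff_not_dvd hℓ₁]
    intro h
    have := (ZMod.natCast_eq_zero_iff b ℓ₁).mpr h
    rw [hb₁] at this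
    exact ha₁ this
  have hbc₂ : b.Coprime ℓ₂ := by
    rw [Nat.coprime_comm, Nat.Prime.coprime_iff_not_dvd hℓ₂]
    intro h
    have := (ZMod.natCast_eq_zero_iff b ℓ₂).mpr h
    rw [hb₂] at this
    exact one_ne_zero this
  refine ⟨ℓ₁, ℓ₂, b, hℓ₁, hℓ₂, hne, hℓ₁B, hℓ₂B', hℓ₁p, hℓ₂p,
    Nat.Coprime.mul_right hac₁ hac₂, Nat.Coprime.mul_right hbc₁ hbc₂, ?_⟩
  intro i j hij
  have h1 := congrArg (ZMod.castHom (Dvd.intro ℓ₂ rfl : ℓ₁ ∣ ℓ₁ * ℓ₂) (ZMod ℓ₁)) hij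
  have h2 := congrArg (ZMod.castHom (Dvd.intro_left ℓ₁ rfl : ℓ₂ ∣ ℓ₁ * ℓ₂) (ZMod ℓ₂)) hij
  simp only [map_mul, map_pow, map_natCast, map_one] at h1 h2
  rw [hb₁, ← pow_add] at h1
  rw [hb₂, one_pow, mul_one] at h2
  have hd1 : p ^ (s₁ + 1) ∣ i + j := ho₁ ▸ orderOf_dvd_of_pow_eq_one h1
  have hd2 : p ^ (s₂ + 1) ∣ i := ho₂ ▸ orderOf_dvd_of_pow_eq_one h2
  have hd3 : p ^ (s₁ + 1) ∣ i := dvd_trans (pow_dvd_pow p (by omega)) hd2
  have hd4 : p ^ (s₁ + 1) ∣ j := (Nat.dvd_add_right hd3).mp hd1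
  have hpp : p ∣ p ^ (s₁ + 1) := dvd_pow_self p (by omega)
  exact ⟨dvd_trans hpp hd3, dvd_trans hpp hd4⟩

end Fermat.Agent.CFT
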