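import Fermat.Agent.CFT.Global.NonSplit
import Fermat.Agent.CFT.Global.ArtinFunctorial
import Fermat.Agent.CFT.Global.KummerRes

set_option autoImplicit false
set_option linter.style.haveILetI false

/-!
# CFT [C] (G1) (helper15): analytic existence of primes

* `(R3)`: an abelian extension `L/K` of degree `≥ 2` has, outside any thin set of primes
  containing the ramified ones, a prime with non-trivial Frobenius element.
* Kummer form: if `M = F(α)`, `α ^ p = a`, is a Kummer extension of degree `≥ 2`, then outside any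
  thin set of primes there is a prime `v ∤ p a` such that `a` is not a `p`-th power modulo `v`.
-/

namespace Fermat.Agent.CFT

open NumberField Ideal IsDedekindDomain

section R3

variable (K L : Type*) [Field K] [NumberField K] [Field L] [NumberField L] [Algebra K L]
  [IsGalois K L] [IsMulCommutative Gal(L/K)]

/-- An unramified prime with trivial Frobenius element splits completely. -/
theorem ncard_primesOver_eq_of_frobOf_eq_one (𝔮 : Ideal (𝓞 K)) [𝔮.IsMaximal]
    (hur : IsUnramifiedAtPrime K L 𝔮) (h1 : frobOf K L 𝔮 = 1) :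
    (𝔮.primesOver (𝓞 L)).ncard = Module.finrank K L := by
  have : IsGaloisGroup Gal(L/K) (𝓞 K) (𝓞 L) :=
    IsGaloisGroup.of_isFractionRing Gal(L/K) (𝓞 K) (𝓞 L) K L
  have hmain := Ideal.ncard_primesOver_mul_ramificationIdxIn_mul_inertiaDegIn 𝔮 (𝓞 L) Gal(L/K)
  have hQ := primeOver_liesOver K L 𝔮
  have he : 𝔮.ramificationIdxIn (𝓞 L) = 1 := by
    rw [← Ideal.card_inertia_eq_ramificationIdxIn (G := Gal(L/K)) 𝔮 (primeOver K L 𝔮),
      hur (primeOver K L 𝔮) inferInstance inferInstance]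
    exact Nat.card_unique
  have hf : 𝔮.inertiaDegIn (𝓞 L) = 1 := by
    rw [Ideal.inertiaDegIn_eq_inertiaDeg 𝔮 (primeOver K L 𝔮) Gal(L/K)]
    exact inertiaDeg_eq_one_of_frobOf_eq_one K L 𝔮 h1 (primeOver K L 𝔮)
  rw [he, hf, mul_one, mul_one, IsGalois.card_aut_eq_finrank] at hmain
  exact hmain

/-- **(R3), thin form.** Outside any thin set of primes containing the ramified primes there is a
prime with non-trivial Frobenius element. -/
theorem exists_frobOf_ne_one_of_thin (h2 : 2 ≤ Module.finrank K L)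
    (T : Set (HeightOneSpectrum (𝓞 K))) (hT : IsThinSet K T)
    (hur : ∀ v : HeightOneSpectrum (𝓞 K), v ∉ T → IsUnramifiedAtPrime K L v.asIdeal) :
    ∃ v : HeightOneSpectrum (𝓞 K), v ∉ T ∧ frobOf K L v.asIdeal ≠ 1 := by
  obtain ⟨v, hvT, hlt⟩ := exists_ncard_primesOver_lt_of_thin K L h2 T hT
  refine ⟨v, hvT, fun h1 ↦ ?_⟩
  rw [ncard_primesOver_eq_of_frobOf_eq_one K L v.asIdeal (hur v hvT) h1] at hlt
  exact lt_irrefl _ hlt

/-- **(R3)** for an everywhere unramified abelian extension of degree `≥ 2`: outside any thin set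
of primes there is a prime with non-trivial Frobenius element. -/
theorem exists_frobOf_ne_one_of_isUnramifiedEverywhere (h2 : 2 ≤ Module.finrank K L)
    (hur : IsUnramifiedEverywhere K L)
    (T : Set (HeightOneSpectrum (𝓞 K))) (hT : IsThinSet K T) :
    ∃ v : HeightOneSpectrum (𝓞 K), v ∉ T ∧ frobOf K L v.asIdeal ≠ 1 :=
  exists_frobOf_ne_one_of_thin K L h2 T hT fun v _ ↦ hur.isUnramifiedAtPrime v.asIdeal

/-- **(R3)** in the vocabulary of `ArtinFunctorial`. -/
theorem existsNontrivialFrob_of_isUnramifiedEverywhere (h2 : 2 ≤ Module.finrank K L)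
    (hur : IsUnramifiedEverywhere K L) : ExistsNontrivialFrob K L := by
  obtain ⟨v, -, hv⟩ := exists_frobOf_ne_one_of_isUnramifiedEverywhere K L h2 hur ∅
    (isThinSet_of_finite Set.finite_empty)
  exact ⟨v.asIdeal, inferInstance, hv⟩

/-- **(R3)** in the shape of `HCFStar`. -/
theorem exists_artinIdeal_ne_one_of_unramified (h2 : 2 ≤ Nat.card Gal(L/K))
    (hU : ∀ (Q : Ideal (𝓞 L)) [Q.IsPrime], Q ≠ ⊥ → Ideal.inertia Gal(L/K) Q = ⊥) :
    ∃ q : Ideal (𝓞 K), q.IsPrime ∧ q ≠ ⊥ ∧ artinIdeal K L q ≠ 1 := by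
  rw [IsGalois.card_aut_eq_finrank] at h2
  obtain ⟨v, -, hv⟩ := exists_frobOf_ne_one_of_isUnramifiedEverywhere K L h2
    (fun Q hQ hQ0 ↦ @hU Q hQ hQ0) ∅ (isThinSet_of_finite Set.finite_empty)
  refine ⟨v.asIdeal, v.isPrime, v.ne_bot, ?_⟩
  rwa [artinIdeal_of_isMaximal]

end R3

section Kummer

variable {F M : Type*} [Field F] [NumberField F] [Field M] [NumberField M] [Algebra F M]
  [IsGalois F M]

/-- the primes containing a given nonzero element form a finite set. -/
theorem finite_setOf_mem_asIdeal (x : 𝓞 F) (hx : x ≠ 0) :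
    {v : HeightOneSpectrum (𝓞 F) | x ∈ v.asIdeal}.Finite := by
  have h := Ideal.finite_factors (I := Ideal.span {x}) (by
    rwa [Ne, Ideal.zero_eq_bot, Ideal.span_singleton_eq_bot])
  refine h.subset fun v hv ↦ ?_
  show v.asIdeal ∣ Ideal.span {x}
  rw [Ideal.dvd_span_singleton]
  exact hv

/-- **(G1), Kummer form.** Let `M = F(α)`, `α ^ p = a ≠ 0`, be a Kummer extension of degree `≥ 2`.
Outside any thin set `T` of primes of `F` there is a prime `v ∤ p a` such that `a` is not a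
`p`-th power modulo `v`. -/
theorem IsKummerGen.exists_prime_not_pow_of_thin {p : ℕ} {ζ a : 𝓞 F} {α : 𝓞 M}
    (h : IsKummerGen p ζ a α) (hp : p.Prime) (ha : a ≠ 0) (h2 : 2 ≤ Module.finrank F M)
    (T : Set (HeightOneSpectrum (𝓞 F))) (hT : IsThinSet F T) :
    ∃ v : HeightOneSpectrum (𝓞 F), v ∉ T ∧ (p : 𝓞 F) ∉ v.asIdeal ∧ a ∉ v.asIdeal ∧
      ¬ ∃ c : 𝓞 F, a - c ^ p ∈ v.asIdeal := by
  have hp0 : (p : 𝓞 F) ≠ 0 := Nat.cast_ne_zero.mpr hp.ne_zero
  set T' : Set (HeightOneSpectrum (𝓞 F)) :=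
    (T ∪ {v | (p : 𝓞 F) ∈ v.asIdeal}) ∪ {v | a ∈ v.asIdeal} with hT'
  have hT'thin : IsThinSet F T' :=
    (hT.union (isThinSet_of_finite (finite_setOf_mem_asIdeal _ hp0))).union
      (isThinSet_of_finite (finite_setOf_mem_asIdeal _ ha))
  obtain ⟨v, hvT', hlt⟩ := exists_ncard_primesOver_lt_of_thin F M h2 T' hT'thin
  have hvT : v ∉ T := fun hv ↦ hvT' (Or.inl (Or.inl hv))
  have hvp : (p : 𝓞 F) ∉ v.asIdeal := fun hv ↦ hvT' (Or.inl (Or.inr hv))
  have hva : a ∉ v.asIdeal := fun hv ↦ hvT' (Or.inr hv)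
  refine ⟨v, hvT, hvp, hva, ?_⟩
  rintro ⟨c, hc⟩
  rw [h.ncard_primesOver_eq hp v.asIdeal hvp hva hc] at hlt
  exact lt_irrefl _ hlt

end Kummer

end Fermat.Agent.CFT
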