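import Mathlib
import Fermat.Agent.CFT.Global.ArtinFunctorial

set_option autoImplicit false

/-!
# CFT, stream [C], chunk (G7): the crossing square

`CrossSq p t K L E M` packages the field-theoretic and arithmetic facts about a square of number
fields `K ⊆ L ⊆ M`, `K ⊆ E ⊆ M` (in the application `K = ℚ(ζ_p)`, `L/K` cyclic of degree `p`
unramified everywhere and split above `p`, `E = K(ζ_{p^(t+1)})`, `M = L E`) used by the crossing
argument `(X)`.
-/

open NumberField
open scoped Pointwise IsMulCommutative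

namespace Fermat.Agent.CFT

/-- `x : 𝓞 F` lies in no prime ideal containing `p`. -/
def IsPrimeToNat {F : Type*} [Field F] (p : ℕ) (x : 𝓞 F) : Prop :=
  ∀ Q : Ideal (𝓞 F), Q.IsPrime → (p : 𝓞 F) ∈ Q → x ∉ Q

/-- The crossing square. -/
structure CrossSq (p t : ℕ) (K L E M : Type) [Field K] [NumberField K] [Field L] [NumberField L]
    [Field E] [NumberField E] [Field M] [NumberField M]
    [Algebra K L] [Algebra K E] [Algebra L M] [Algebra E M] [Algebra K M]
    [IsScalarTower K L M] [IsScalarTower K E M]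
    [IsGalois K L] [IsGalois K E] [IsGalois K M] [IsGalois E M] [IsGalois L M] where
  /-- generator of `Gal(M/E)` -/
  σ : Gal(M/E)
  /-- generator of `Gal(M/L)` -/
  τ : Gal(M/L)
  hσ : ∀ g : Gal(M/E), g ∈ Subgroup.zpowers σ
  hτ : ∀ g : Gal(M/L), g ∈ Subgroup.zpowers τ
  card_σ : Nat.card Gal(M/E) = p
  card_τ : Nat.card Gal(M/L) = p ^ t
  /-- `Gal(M/K)` is generated by the images of `σ` and `τ` -/
  gen : ∀ γ : Gal(M/K), ∃ a c : ℕ, γ = (σ.restrictScalars K) ^ a * (τ.restrictScalars K) ^ c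
  /-- restriction `Gal(M/E) → Gal(L/K)` is injective (`M = L E`) -/
  resGal_inj : Function.Injective (resGal K E L M)
  /-- the restriction of `τ` to `E` has order `p ^ t` (`Gal(M/L) ≃ Gal(E/K)`) -/
  orderOf_resτ : orderOf (AlgEquiv.restrictNormalHom E (τ.restrictScalars K)) = p ^ t
  /-- `M/K` is unramified outside `p` -/
  unram_MK : ∀ Q : Ideal (𝓞 M), Q.IsPrime → (p : 𝓞 M) ∉ Q → Q.inertia Gal(M/K) = ⊥
  /-- `M/E` is unramified everywhere -/
  unram_ME : IsUnramifiedEverywhere E M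
  /-- `K` has a unique prime above `p` -/
  unique_p : ∀ 𝔭 𝔭' : Ideal (𝓞 K), 𝔭.IsPrime → 𝔭'.IsPrime → (p : 𝓞 K) ∈ 𝔭 → (p : 𝓞 K) ∈ 𝔭' → 𝔭 = 𝔭'
  /-- `τ` fixes every prime of `M` above `p` (`E/K` is totally ramified above `p`) -/
  τ_fix : ∀ Q : Ideal (𝓞 M), Q.IsPrime → (p : 𝓞 M) ∈ Q → τ • Q = Q
  /-- the primes of `M` above `p` have trivial decomposition group in `Gal(M/E)`
  (the primes of `K` above `p` split completely in `L`) -/
  stab_σ : ∀ Q : Ideal (𝓞 M), Q.IsPrime → (p : 𝓞 M) ∈ Q → MulAction.stabilizer Gal(M/E) Q = ⊥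

end Fermat.Agent.CFT
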