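import Mathlib

set_option autoImplicit false

/-!
# The combinatorial core of the local identity in Artin's crossing argument

`d e : ℕ → ℕ → ℤ` are two doubly periodic functions (periods `(p,0)`, `(0,P)` and `(a,c)`)
satisfying the closedness relation `d x (y+1) - d x y = e (x+1) y - e x y`.  Then the discrete
`1`-form `d dx + e dy` has a potential `crossPot d e`, whose period constants are additive; as
`p P (a,c) = a P (p,0) + c p (0,P)` this yields
`p P m = a P (∑_{i<p} d i 0) + c p (∑_{j<P} e 0 j)` with `m = crossPot d e a c`.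

In the crossing argument: `M / K` abelian with group `⟨σ⟩ × ⟨τ⟩`, `σ ^ p = 1`, `τ ^ P = 1`,
`Q₀` a prime of `M` fixed by `σ ^ a τ ^ c`, `d x y = v_{Q₀}(σ^x τ^y δ)`,
`e x y = v_{Q₀}(σ^x τ^y ε)` where `τ δ / δ = σ ε / ε`.
-/

namespace Fermat.Agent.CFT

open Finset

/-- The potential of the closed discrete `1`-form `d dx + e dy` on `ℕ × ℕ`. -/
def crossPot (d e : ℕ → ℕ → ℤ) (x y : ℕ) : ℤ :=
  (∑ i ∈ range x, d i 0) + ∑ j ∈ range y, e x j

theorem crossPot_zero_zero (d e : ℕ → ℕ → ℤ) : crossPot d e 0 0 = 0 := by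
  simp [crossPot]

theorem crossPot_succ_right (d e : ℕ → ℕ → ℤ) (x y : ℕ) :
    crossPot d e x (y + 1) = crossPot d e x y + e x y := by
  simp only [crossPot, sum_range_succ]; ring

theorem crossPot_succ_left (d e : ℕ → ℕ → ℤ)
    (h2 : ∀ x y, d x (y + 1) - d x y = e (x + 1) y - e x y) (x y : ℕ) :
    crossPot d e (x + 1) y = crossPot d e x y + d x y := by
  have h3 : ∑ j ∈ range y, e (x + 1) j = (∑ j ∈ range y, e x j) + (d x y - d x 0) := by
    rw [← sum_range_sub (fun j => d x j) y, ← sum_add_distrib]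
    refine sum_congr rfl fun j _ => ?_
    have := h2 x j
    linarith
  simp only [crossPot, sum_range_succ, h3]; ring

theorem crossPot_row (d e : ℕ → ℕ → ℤ) (x : ℕ) :
    crossPot d e x 0 = ∑ i ∈ range x, d i 0 := by
  simp [crossPot]

theorem crossPot_col (d e : ℕ → ℕ → ℤ) (y : ℕ) :
    crossPot d e 0 y = ∑ j ∈ range y, e 0 j := by
  simp [crossPot]

/-- A function on `ℕ × ℕ` with vanishing differences is constant. -/
theorem crossPot_const_aux (g : ℕ → ℕ → ℤ) (hx : ∀ x y, g (x + 1) y = g x y)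
    (hy : ∀ x y, g x (y + 1) = g x y) (x y : ℕ) : g x y = g 0 0 := by
  have h1 : ∀ y, g 0 y = g 0 0 := by
    intro y
    induction y with
    | zero => rfl
    | succ n ih => rw [hy, ih]
  have h2 : ∀ x y, g x y = g 0 y := by
    intro x
    induction x with
    | zero => intro y; rfl
    | succ n ih => intro y; rw [hx, ih]
  rw [h2, h1]

/-- A common period `(u,w)` of `d` and `e` shifts the potential by a constant. -/
theorem crossPot_shift (d e : ℕ → ℕ → ℤ)
    (h2 : ∀ x y, d x (y + 1) - d x y = e (x + 1) y - e x y) (u w : ℕ)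
    (hd : ∀ x y, d (x + u) (y + w) = d x y) (he : ∀ x y, e (x + u) (y + w) = e x y)
    (x y : ℕ) : crossPot d e (x + u) (y + w) = crossPot d e x y + crossPot d e u w := by
  have key := crossPot_const_aux
    (fun x y => crossPot d e (x + u) (y + w) - crossPot d e x y) ?_ ?_ x y
  · simp only [zero_add, crossPot_zero_zero, sub_zero] at key
    linarith
  · intro x y
    rw [show x + 1 + u = (x + u) + 1 by ring, crossPot_succ_left d e h2, crossPot_succ_left d e h2,
      hd]
    ring
  · intro x y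
    rw [show y + 1 + w = (y + w) + 1 by ring, crossPot_succ_right, crossPot_succ_right, he]
    ring

theorem crossPot_shift_mul (d e : ℕ → ℕ → ℤ)
    (h2 : ∀ x y, d x (y + 1) - d x y = e (x + 1) y - e x y) (u w : ℕ)
    (hd : ∀ x y, d (x + u) (y + w) = d x y) (he : ∀ x y, e (x + u) (y + w) = e x y)
    (n x y : ℕ) :
    crossPot d e (x + n * u) (y + n * w) = crossPot d e x y + n * crossPot d e u w := by
  induction n with
  | zero => simp
  | succ n ih =>
    rw [show x + (n + 1) * u = (x + n * u) + u by ring,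
      show y + (n + 1) * w = (y + n * w) + w by ring, crossPot_shift d e h2 u w hd he, ih]
    push_cast
    ring

/-- **The crossing identity** (combinatorial core). -/
theorem cross_identity (p P a c : ℕ) (d e : ℕ → ℕ → ℤ)
    (h2 : ∀ x y, d x (y + 1) - d x y = e (x + 1) y - e x y)
    (hdp : ∀ x y, d (x + p) y = d x y) (hep : ∀ x y, e (x + p) y = e x y)
    (hdP : ∀ x y, d x (y + P) = d x y) (heP : ∀ x y, e x (y + P) = e x y)
    (hda : ∀ x y, d (x + a) (y + c) = d x y) (hea : ∀ x y, e (x + a) (y + c) = e x y) :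
    ∃ m : ℤ, ((p * P : ℕ) : ℤ) * m =
      ((a * P : ℕ) : ℤ) * (∑ i ∈ range p, d i 0) + ((c * p : ℕ) : ℤ) * (∑ j ∈ range P, e 0 j) := by
  refine ⟨crossPot d e a c, ?_⟩
  have w1 := crossPot_shift_mul d e h2 a c hda hea (p * P) 0 0
  have w2 := crossPot_shift_mul d e h2 p 0 (fun x y => by simpa using hdp x y)
    (fun x y => by simpa using hep x y) (a * P) 0 0
  have w3 := crossPot_shift_mul d e h2 0 P (fun x y => by simpa using hdP x y)
    (fun x y => by simpa using heP x y) (c * p) (a * P * p) 0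
  simp only [zero_add, crossPot_zero_zero, mul_zero, add_zero] at w1 w2 w3
  have e1 : crossPot d e p 0 = ∑ i ∈ range p, d i 0 := crossPot_row d e p
  have e2 : crossPot d e 0 P = ∑ j ∈ range P, e 0 j := crossPot_col d e P
  rw [show p * P * a = a * P * p by ring, show p * P * c = c * p * P by ring] at w1
  rw [w1, w2, e1, e2] at w3
  exact w3

/-- The crossing identity in the form used for `P = p ^ t`, `t ≥ 1`:
`p ^ t ∣ p ^ (t-1) * a * vβ + c * vb`. -/
theorem cross_identity_prime_pow (p t a c : ℕ) (hp : p ≠ 0) (ht : 1 ≤ t) (d e : ℕ → ℕ → ℤ)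
    (vβ vb : ℤ)
    (h2 : ∀ x y, d x (y + 1) - d x y = e (x + 1) y - e x y)
    (hdp : ∀ x y, d (x + p) y = d x y) (hep : ∀ x y, e (x + p) y = e x y)
    (hdP : ∀ x y, d x (y + p ^ t) = d x y) (heP : ∀ x y, e x (y + p ^ t) = e x y)
    (hda : ∀ x y, d (x + a) (y + c) = d x y) (hea : ∀ x y, e (x + a) (y + c) = e x y)
    (hβ : ∑ i ∈ range p, d i 0 = vβ) (hb : ∑ j ∈ range (p ^ t), e 0 j = vb) :
    ((p : ℤ) ^ t) ∣ (p : ℤ) ^ (t - 1) * a * vβ + c * vb := by
  obtain ⟨m, hm⟩ := cross_identity p (p ^ t) a c d e h2 hdp hep hdP heP hda hea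
  rw [hβ, hb] at hm
  refine ⟨m, ?_⟩
  have hp' : (p : ℤ) ≠ 0 := by exact_mod_cast hp
  apply mul_left_cancel₀ hp'
  obtain ⟨s, rfl⟩ : ∃ s, t = s + 1 := ⟨t - 1, by omega⟩
  simp only [Nat.add_sub_cancel]
  push_cast at hm
  rw [pow_succ] at hm ⊢
  linarith

end Fermat.Agent.CFT
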