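import Mathlib

set_option autoImplicit false

/-!
# CFT stream [C], package (CP) for the crossing argument (X)

* `prod_sub_prod_mem` (F3): congruent factors give congruent products;
* `exists_pow_le_of_forall_mem` (F2): an ideal `J ≠ ⊥` of a Dedekind domain contains every element
  lying in `Q ^ k` for all primes `Q ⊇ J` (`k` = number of prime factors of `J`);
* `exists_sub_mem_pow_of_stabilizer_eq_bot` (F1): if the prime `Q` of `𝓞 M` has trivial
  decomposition group in `Gal(M/K)`, then `𝓞 K` is dense in `𝓞 M` for the `Q`-adic topology.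
-/

open NumberField UniqueFactorizationMonoid
open scoped Pointwise

namespace Fermat.Agent.CFT

section Generic

variable {R : Type*} [CommRing R]

/-- (F3) -/
theorem prod_sub_prod_mem {ι : Type*} (s : Finset ι) (I : Ideal R) (f g : ι → R)
    (h : ∀ i ∈ s, f i - g i ∈ I) : ∏ i ∈ s, f i - ∏ i ∈ s, g i ∈ I := by
  rw [← Ideal.Quotient.eq, map_prod, map_prod]
  exact Finset.prod_congr rfl fun i hi => Ideal.Quotient.eq.mpr (h i hi)

/-- (F2), for any Dedekind domain. -/
theorem exists_pow_le_of_forall_mem_of_isDedekindDomain [IsDedekindDomain R] (J : Ideal R)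
    (hJ : J ≠ ⊥) :
    ∃ k : ℕ, ∀ x : R, (∀ Q : Ideal R, Q.IsPrime → J ≤ Q → x ∈ Q ^ k) → x ∈ J := by
  classical
  refine ⟨Multiset.card (normalizedFactors J), fun x hx => ?_⟩
  have hprod : ∏ P ∈ (normalizedFactors J).toFinset, P ^ (normalizedFactors J).count P = J := by
    rw [← Finset.prod_multiset_count, Ideal.prod_normalizedFactors_eq_self hJ]
  have hprime : ∀ P ∈ (normalizedFactors J).toFinset, Prime P := fun P hP =>
    prime_of_normalized_factor P (Multiset.mem_toFinset.mp hP)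
  have hinf := IsDedekindDomain.inf_pow_eq_prod_of_prime (normalizedFactors J).toFinset
    (fun P => P) (fun P => (normalizedFactors J).count P) hprime (fun _ _ _ _ h => h)
  rw [← hprod, ← hinf, Submodule.mem_finsetInf]
  intro P hP
  have hP' := Multiset.mem_toFinset.mp hP
  have hPprime : P.IsPrime := Ideal.isPrime_of_prime (hprime P hP)
  have hle : J ≤ P := Ideal.le_of_dvd (dvd_of_mem_normalizedFactors hP')
  exact Ideal.pow_le_pow_right (Multiset.count_le_card P _) (hx P hPprime hle)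

end Generic

section NumberField

variable {K M : Type*} [Field K] [NumberField K] [Field M] [NumberField M] [Algebra K M]
  [IsGalois K M]

/-- (F2) -/
theorem exists_pow_le_of_forall_mem (J : Ideal (𝓞 M)) (hJ : J ≠ ⊥) :
    ∃ k : ℕ, ∀ x : 𝓞 M, (∀ Q : Ideal (𝓞 M), Q.IsPrime → J ≤ Q → x ∈ Q ^ k) → x ∈ J :=
  exists_pow_le_of_forall_mem_of_isDedekindDomain J hJ

/-- `g • a ∈ (g • I) ^ k` for `a ∈ I ^ k`. -/
theorem smul_mem_smul_pow {G S : Type*} [Group G] [CommRing S] [MulSemiringAction G S]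
    (g : G) (I : Ideal S) (k : ℕ) {a : S} (ha : a ∈ I ^ k) : g • a ∈ (g • I) ^ k := by
  rw [Ideal.pointwise_smul_def, ← Ideal.map_pow]
  exact Ideal.mem_map_of_mem _ ha

/-- (F1) -/
theorem exists_sub_mem_pow_of_stabilizer_eq_bot (Q : Ideal (𝓞 M)) [Q.IsPrime] (hQ0 : Q ≠ ⊥)
    (hQ : MulAction.stabilizer Gal(M/K) Q = ⊥) (x : 𝓞 M) (k : ℕ) :
    ∃ y : 𝓞 K, x - algebraMap (𝓞 K) (𝓞 M) y ∈ Q ^ k := by
  classical
  -- the conjugates of `Q` are pairwise distinct primes
  have hprime : ∀ g ∈ (Finset.univ : Finset Gal(M/K)), Prime (g • Q) := by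
    intro g _
    have h1 : (g • Q).IsPrime := by
      rw [Ideal.pointwise_smul_def]
      exact Ideal.map_isPrime_of_equiv (MulSemiringAction.toRingEquiv Gal(M/K) (𝓞 M) g)
    refine Ideal.prime_of_isPrime ?_ h1
    intro h0
    apply hQ0
    have : g⁻¹ • (g • Q) = g⁻¹ • (⊥ : Ideal (𝓞 M)) := by rw [h0]
    rwa [inv_smul_smul, Ideal.pointwise_smul_def, Ideal.map_bot] at this
  have hne : ∀ g ∈ (Finset.univ : Finset Gal(M/K)), ∀ h ∈ (Finset.univ : Finset Gal(M/K)),
      g ≠ h → g • Q ≠ h • Q := by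
    intro g _ h _ hgh heq
    apply hgh
    have h1 : (h⁻¹ * g) • Q = Q := by rw [mul_smul, heq, inv_smul_smul]
    have h2 : h⁻¹ * g ∈ MulAction.stabilizer Gal(M/K) Q := h1
    rw [hQ, Subgroup.mem_bot] at h2
    exact (inv_mul_eq_one.mp h2).symm
  obtain ⟨x', hx'⟩ := IsDedekindDomain.exists_forall_sub_mem_ideal
    (s := (Finset.univ : Finset Gal(M/K))) (fun g => g • Q) (fun _ => k) hprime hne
    (fun g => if (g : Gal(M/K)) = 1 then x else 0)
  have hx1 : x' - x ∈ Q ^ k := by
    have := hx' 1 (Finset.mem_univ _)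
    simpa using this
  have hxg : ∀ g : Gal(M/K), g ≠ 1 → x' ∈ (g • Q) ^ k := by
    intro g hg
    have := hx' g (Finset.mem_univ _)
    simpa [hg] using this
  -- the trace of `x'` comes from `𝓞 K`
  obtain ⟨y, hy⟩ := Algebra.IsInvariant.isInvariant (A := 𝓞 K) (B := 𝓞 M) (G := Gal(M/K))
    (∑ g : Gal(M/K), g • x') (by
      intro h
      rw [Finset.smul_sum]
      exact Fintype.sum_equiv (Equiv.mulLeft h) (fun g : Gal(M/K) => h • g • x')
        (fun g : Gal(M/K) => g • x') (fun g => (mul_smul h g x').symm))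
  refine ⟨y, ?_⟩
  rw [hy, ← Finset.add_sum_erase Finset.univ _ (Finset.mem_univ (1 : Gal(M/K))), one_smul]
  have hrest : ∑ g ∈ (Finset.univ : Finset Gal(M/K)).erase 1, g • x' ∈ Q ^ k := by
    refine Ideal.sum_mem _ fun g hg => ?_
    have hg1 : g ≠ 1 := (Finset.mem_erase.mp hg).1
    have hginv : g⁻¹ ≠ 1 := fun h => hg1 (inv_eq_one.mp h)
    have := smul_mem_smul_pow g (g⁻¹ • Q) k (hxg g⁻¹ hginv)
    rwa [smul_inv_smul] at this
  have : x - (x' + ∑ g ∈ (Finset.univ : Finset Gal(M/K)).erase 1, g • x') =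
      -(x' - x) - ∑ g ∈ (Finset.univ : Finset Gal(M/K)).erase 1, g • x' := by ring
  rw [this]
  exact (Q ^ k).sub_mem ((Q ^ k).neg_mem hx1) hrest

end NumberField

end Fermat.Agent.CFT
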