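import Mathlib
import Fermat.Agent.CFT.Global.ArtinFunctorial
import Fermat.Agent.CFT.Global.CrossDefs
import Fermat.Agent.CFT.Global.CrossIdentity
import Fermat.Agent.CFT.Global.Contracts
import Fermat.Agent.CFT.Global.WeakApprox
import Fermat.Agent.CFT.Global.CrossVal
import Fermat.Agent.CFT.Global.CrossLocalP

set_option autoImplicit false
set_option linter.unusedSectionVars false
set_option linter.unusedTactic false

/-!
# CFT, stream [C], chunk (G7): the crossing argument `(X)`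
-/

open NumberField UniqueFactorizationMonoid IsDedekindDomain
open scoped Pointwise IsMulCommutative

namespace Fermat.Agent.CFT

section CyclicEnum

/-- Enumeration of a finite cyclic group by the powers of a generator. -/
theorem prod_univ_eq_prod_range_pow {G β : Type*} [Group G] [Fintype G] [CommMonoid β] (g : G)
    (hg : ∀ x : G, x ∈ Subgroup.zpowers g) (f : G → β) :
    ∏ x : G, f x = ∏ i ∈ Finset.range (Nat.card G), f (g ^ i) := by
  classical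
  have hcard : orderOf g = Nat.card G := orderOf_eq_card_of_forall_mem_zpowers hg
  have himg : Finset.image (fun i => g ^ i) (Finset.range (Nat.card G)) = Finset.univ := by
    rw [← hcard]
    exact IsCyclic.image_range_orderOf hg
  rw [← himg, Finset.prod_image]
  intro i hi j hj hij
  rw [Finset.coe_range, Set.mem_Iio, ← hcard] at hi hj
  exact pow_injOn_Iio_orderOf hi hj hij

end CyclicEnum

section Norms

variable (F N : Type*) [Field F] [NumberField F] [Field N] [NumberField N] [Algebra F N]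
  [IsGalois F N] [IsMulCommutative Gal(N/F)]

/-- An ideal all of whose prime factors have trivial Frobenius is a norm. -/
theorem exists_relNorm_eq_of_forall_le_frobOf_eq_one (I : Ideal (𝓞 F)) (hI : I ≠ ⊥)
    (h1 : ∀ (𝔮 : Ideal (𝓞 F)) [𝔮.IsMaximal], I ≤ 𝔮 → frobOf F N 𝔮 = 1) :
    ∃ J : Ideal (𝓞 N), J ≠ ⊥ ∧ Ideal.relNorm (𝓞 F) J = I := by
  have key : ∀ 𝔮 ∈ normalizedFactors I,
      ∃ J : Ideal (𝓞 N), J ≠ ⊥ ∧ Ideal.relNorm (𝓞 F) J = 𝔮 := by
    intro 𝔮 h𝔮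
    have h0 : 𝔮 ≠ ⊥ := ne_zero_of_mem_normalizedFactors h𝔮
    have hp : 𝔮.IsPrime := ((Ideal.mem_normalizedFactors_iff hI).mp h𝔮).1
    have hm : 𝔮.IsMaximal := Ring.DimensionLEOne.maximalOfPrime h0 hp
    have hle : I ≤ 𝔮 := ((Ideal.mem_normalizedFactors_iff hI).mp h𝔮).2
    refine ⟨primeOver F N 𝔮, ?_, relNorm_eq_of_frobOf_eq_one F N 𝔮 (h1 𝔮 hle) _⟩
    intro hbot
    apply h0
    rw [(primeOver_liesOver F N 𝔮).over, hbot]
    exact Ideal.under_bot _ _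
  rw [← Ideal.prod_normalizedFactors_eq_self hI]
  refine Multiset.prod_induction
    (fun I : Ideal (𝓞 F) => ∃ J : Ideal (𝓞 N), J ≠ ⊥ ∧ Ideal.relNorm (𝓞 F) J = I) _ ?_ ?_ key
  · rintro _ _ ⟨J, hJ, rfl⟩ ⟨J', hJ', rfl⟩
    exact ⟨J * J', mul_ne_zero hJ hJ', map_mul _ _ _⟩
  · exact ⟨1, one_ne_zero, map_one _⟩

end Norms

section PowSum

variable (K L : Type*) [Field K] [NumberField K] [Field L] [NumberField L] [Algebra K L]
  [IsGalois K L] [IsMulCommutative Gal(L/K)]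

theorem multiset_prod_map_pow {G ι : Type*} [CommMonoid G] (g : G) (A : ι → ℕ) (m : Multiset ι) :
    (m.map fun q => g ^ A q).prod = g ^ (m.map A).sum := by
  induction m using Multiset.induction_on with
  | empty => simp
  | cons a m ih => rw [Multiset.map_cons, Multiset.prod_cons, ih, Multiset.map_cons,
      Multiset.sum_cons, pow_add]

/-- If the Frobenius elements of the prime factors of `I` are powers of `g`, so is the Artin
symbol of `I`. -/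
theorem artinIdeal_eq_pow_sum (g : Gal(L/K)) (A : Ideal (𝓞 K) → ℕ) (I : Ideal (𝓞 K))
    (h : ∀ 𝔮 ∈ normalizedFactors I, frobIdeal K L 𝔮 = g ^ A 𝔮) :
    artinIdeal K L I = g ^ ((normalizedFactors I).map A).sum := by
  rw [artinIdeal, Multiset.map_congr rfl h, multiset_prod_map_pow]

theorem multiset_sum_map_eq_sum_count {ι : Type*} [DecidableEq ι] (A : ι → ℕ) (m : Multiset ι)
    (T : Finset ι) (hT : m.toFinset ⊆ T) :
    (m.map A).sum = ∑ q ∈ T, m.count q * A q := by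
  rw [Finset.sum_multiset_map_count]
  simp only [smul_eq_mul]
  refine Finset.sum_subset hT fun q _ hq => ?_
  rw [Multiset.count_eq_zero_of_notMem (fun h => hq (Multiset.mem_toFinset.mpr h)), zero_mul]

end PowSum

section Under

variable (F : Type*) {N : Type*} [Field F] [NumberField F] [Field N] [NumberField N] [Algebra F N]

/-- The prime of `F` below a prime of `N`. -/
noncomputable def underHOS (P : HeightOneSpectrum (𝓞 N)) : HeightOneSpectrum (𝓞 F) :=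
  ⟨P.asIdeal.under (𝓞 F), inferInstance, Ideal.under_ne_bot (𝓞 F) P.ne_bot⟩

instance liesOver_underHOS (P : HeightOneSpectrum (𝓞 N)) :
    P.asIdeal.LiesOver (underHOS F P).asIdeal := ⟨rfl⟩

theorem natCast_mem_underHOS_iff (P : HeightOneSpectrum (𝓞 N)) (n : ℕ) :
    (n : 𝓞 F) ∈ (underHOS F P).asIdeal ↔ (n : 𝓞 N) ∈ P.asIdeal := by
  change (n : 𝓞 F) ∈ P.asIdeal.under (𝓞 F) ↔ _
  rw [Ideal.under_def, Ideal.mem_comap, map_natCast]

end Under

/-- Cyclotomic reciprocity for `E = K(ζ_{p^(t+1)})` over `K`, in fraction form: if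
`b₁ / b₂ ≡ N_{E/K}(y₁ / y₂)` modulo `p^(t+1)` (all four prime to `p`), then `(b₁)` and `(b₂)` have
the same Artin symbol in `E/K`. -/
def CycloRecipFrac (p t : ℕ) (K E : Type*) [Field K] [NumberField K] [Field E] [NumberField E]
    [Algebra K E] [IsGalois K E] [IsMulCommutative Gal(E/K)] : Prop :=
  ∀ (b1 b2 : 𝓞 K) (y1 y2 : 𝓞 E), IsPrimeToNat p b1 → IsPrimeToNat p b2 → IsPrimeToNat p y1 →
    IsPrimeToNat p y2 →
    b1 * RingOfIntegers.norm K y2 - b2 * RingOfIntegers.norm K y1 ∈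
      Ideal.span {((p ^ (t + 1) : ℕ) : 𝓞 K)} →
    artinIdeal K E (Ideal.span {b1}) = artinIdeal K E (Ideal.span {b2})

section Main

variable {p t : ℕ} {K L E M : Type} [Field K] [NumberField K] [Field L] [NumberField L]
  [Field E] [NumberField E] [Field M] [NumberField M]
  [Algebra K L] [Algebra K E] [Algebra L M] [Algebra E M] [Algebra K M]
  [IsScalarTower K L M] [IsScalarTower K E M]
  [IsGalois K L] [IsGalois K E] [IsGalois K M] [IsGalois E M] [IsGalois L M]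
  (S : CrossSq p t K L E M)

namespace CrossSq

/-- `σ` as an element of `Gal(M/K)`. -/
noncomputable def σK : Gal(M/K) := AlgEquiv.restrictScalarsHom K S.σ

/-- `τ` as an element of `Gal(M/K)`. -/
noncomputable def τK : Gal(M/K) := AlgEquiv.restrictScalarsHom K S.τ

theorem σK_apply (x : M) : S.σK x = S.σ x := rfl

theorem τK_apply (x : M) : S.τK x = S.τ x := rfl

theorem σK_pow_apply (n : ℕ) (x : M) : (S.σK ^ n) x = (S.σ ^ n) x := by
  rw [σK, ← map_pow]; rfl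

theorem τK_pow_apply (n : ℕ) (x : M) : (S.τK ^ n) x = (S.τ ^ n) x := by
  rw [τK, ← map_pow]; rfl

theorem σK_pow : S.σK ^ p = 1 := by
  have h : S.σ ^ p = 1 := by
    have := pow_card_eq_one' (G := Gal(M/E)) (x := S.σ)
    rwa [S.card_σ] at this
  rw [σK, ← map_pow, h, map_one]

theorem τK_pow : S.τK ^ (p ^ t) = 1 := by
  have h : S.τ ^ (p ^ t) = 1 := by
    have := pow_card_eq_one' (G := Gal(M/L)) (x := S.τ)
    rwa [S.card_τ] at this
  rw [τK, ← map_pow, h, map_one]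

theorem σK_algebraMap (e : E) : S.σK (algebraMap E M e) = algebraMap E M e := S.σ.commutes e

theorem τK_algebraMap (l : L) : S.τK (algebraMap L M l) = algebraMap L M l := S.τ.commutes l

theorem σK_pow_algebraMap (n : ℕ) (e : E) : (S.σK ^ n) (algebraMap E M e) = algebraMap E M e := by
  rw [σK_pow_apply]; exact (S.σ ^ n).commutes e

theorem τK_pow_algebraMap (n : ℕ) (l : L) : (S.τK ^ n) (algebraMap L M l) = algebraMap L M l := by
  rw [τK_pow_apply]; exact (S.τ ^ n).commutes l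

theorem restrictNormalHom_τK : AlgEquiv.restrictNormalHom L S.τK = 1 := by
  ext x
  apply (algebraMap L M).injective
  exact (AlgEquiv.restrictNormal_commutes S.τK L x).trans (S.τK_algebraMap x)

theorem restrictNormalHom_σK : AlgEquiv.restrictNormalHom E S.σK = 1 := by
  ext x
  apply (algebraMap E M).injective
  exact (AlgEquiv.restrictNormal_commutes S.σK E x).trans (S.σK_algebraMap x)

/-- elements of `M` fixed by `σ` come from `E` -/
theorem mem_range_of_σK_fixed {x : M} (hx : S.σK x = x) : x ∈ Set.range (algebraMap E M) := by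
  rw [← IntermediateField.mem_bot, IsGalois.mem_bot_iff_fixed]
  intro g
  obtain ⟨n, rfl⟩ := Subgroup.mem_zpowers_iff.mp (S.hσ g)
  have h1 : S.σ x = x := hx
  have : ∀ m : ℕ, (S.σ ^ m) x = x := by
    intro m
    induction m with
    | zero => rfl
    | succ m ih => rw [pow_succ, AlgEquiv.mul_apply, h1, ih]
  obtain ⟨m, rfl | rfl⟩ := Int.eq_nat_or_neg n
  · rw [zpow_natCast]; exact this m
  · rw [zpow_neg, zpow_natCast, AlgEquiv.aut_inv, AlgEquiv.symm_apply_eq, this m]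

/-- elements of `M` fixed by `σ` and `τ` come from `K` -/
theorem mem_range_of_fixed {x : M} (hσ : S.σK x = x) (hτ : S.τK x = x) :
    x ∈ Set.range (algebraMap K M) := by
  rw [← IntermediateField.mem_bot, IsGalois.mem_bot_iff_fixed]
  intro g
  obtain ⟨a, c, rfl⟩ := S.gen g
  have h1 : ∀ m : ℕ, (S.σK ^ m) x = x := by
    intro m
    induction m with
    | zero => rfl
    | succ m ih => rw [pow_succ, AlgEquiv.mul_apply, hσ, ih]
  have h2 : ∀ m : ℕ, (S.τK ^ m) x = x := by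
    intro m
    induction m with
    | zero => rfl
    | succ m ih => rw [pow_succ, AlgEquiv.mul_apply, hτ, ih]
  change ((S.σK ^ a) * (S.τK ^ c)) x = x
  rw [AlgEquiv.mul_apply, h2, h1]

/-- `σ` restricted to `L`. -/
noncomputable def σL : Gal(L/K) := AlgEquiv.restrictNormalHom L S.σK

/-- `τ` restricted to `E`. -/
noncomputable def τE : Gal(E/K) := AlgEquiv.restrictNormalHom E S.τK

theorem σL_pow : S.σL ^ p = 1 := by
  rw [σL, ← map_pow, σK_pow, map_one]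

theorem orderOf_τE : orderOf S.τE = p ^ t := S.orderOf_resτ

theorem restrictNormalHom_L_gen (a c : ℕ) :
    AlgEquiv.restrictNormalHom L (S.σK ^ a * S.τK ^ c) = S.σL ^ a := by
  rw [map_mul, map_pow, map_pow, restrictNormalHom_τK, one_pow, mul_one, σL]

theorem restrictNormalHom_E_gen (a c : ℕ) :
    AlgEquiv.restrictNormalHom E (S.σK ^ a * S.τK ^ c) = S.τE ^ c := by
  rw [map_mul, map_pow, map_pow, restrictNormalHom_σK, one_pow, one_mul, τE]

theorem exists_eq_σL_pow (g : Gal(L/K)) : ∃ a : ℕ, g = S.σL ^ a := by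
  obtain ⟨γ, rfl⟩ := AlgEquiv.restrictNormalHom_surjective (F := K) (K₁ := L) M g
  obtain ⟨a, c, rfl⟩ := S.gen γ
  exact ⟨a, S.restrictNormalHom_L_gen a c⟩

theorem exists_eq_τE_pow (g : Gal(E/K)) : ∃ c : ℕ, g = S.τE ^ c := by
  obtain ⟨γ, rfl⟩ := AlgEquiv.restrictNormalHom_surjective (F := K) (K₁ := E) M g
  obtain ⟨a, c, rfl⟩ := S.gen γ
  exact ⟨c, S.restrictNormalHom_E_gen a c⟩

include S in
theorem pow_eq_one_L (g : Gal(L/K)) : g ^ p = 1 := by
  obtain ⟨a, rfl⟩ := S.exists_eq_σL_pow g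
  rw [← pow_mul, mul_comm, pow_mul, σL_pow, one_pow]

include S in
theorem pow_eq_one_E (g : Gal(E/K)) : g ^ (p ^ t) = 1 := by
  obtain ⟨c, rfl⟩ := S.exists_eq_τE_pow g
  rw [← pow_mul, mul_comm, pow_mul, ← S.orderOf_τE, pow_orderOf_eq_one, one_pow]

theorem mem_zpowers_τE (g : Gal(E/K)) : g ∈ Subgroup.zpowers S.τE := by
  obtain ⟨c, rfl⟩ := S.exists_eq_τE_pow g
  exact Subgroup.npow_mem_zpowers _ _

include S in
theorem card_gal_E : Nat.card Gal(E/K) = p ^ t := by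
  rw [← orderOf_eq_card_of_forall_mem_zpowers S.mem_zpowers_τE, S.orderOf_τE]

/-- the norm of `M/E` as a product over the powers of `σ` -/
theorem algebraMap_norm_E (x : M) :
    algebraMap E M (Algebra.norm E x) = ∏ i ∈ Finset.range p, (S.σK ^ i) x := by
  rw [Algebra.norm_eq_prod_automorphisms]
  have := prod_univ_eq_prod_range_pow S.σ S.hσ (fun g => g x)
  rw [S.card_σ] at this
  rw [Finset.prod_congr rfl fun i _ => S.σK_pow_apply i x]
  convert this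

/-- the norm of `E/K` as a product over the powers of `τ|_E` -/
theorem algebraMap_norm_K (y : E) :
    algebraMap K E (Algebra.norm K y) = ∏ j ∈ Finset.range (p ^ t), (S.τE ^ j) y := by
  rw [Algebra.norm_eq_prod_automorphisms]
  have := prod_univ_eq_prod_range_pow S.τE S.mem_zpowers_τE (fun g => g y)
  rw [S.card_gal_E] at this
  convert this

theorem τK_pow_algebraMap_E (j : ℕ) (y : E) :
    (S.τK ^ j) (algebraMap E M y) = algebraMap E M ((S.τE ^ j) y) := by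
  rw [τE, ← map_pow]
  exact (AlgEquiv.restrictNormal_commutes (S.τK ^ j) E y).symm

section Step1

variable [Fact p.Prime] [IsMulCommutative Gal(M/E)] [IsMulCommutative Gal(L/K)]
  [IsMulCommutative Gal(E/K)]

include S

/-- **Step 1**: the primes of `E` dividing `β` split completely in `M`. -/
theorem frobOf_EM_eq_one (hUL : IsUnramifiedEverywhere K L)
    (hUE : ∀ Q : Ideal (𝓞 E), Q.IsPrime → (p : 𝓞 E) ∉ Q → Q.inertia Gal(E/K) = ⊥) (β : 𝓞 K)
    (hβp : IsPrimeToNat p β)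
    (hsmall : ∀ (𝔮 : Ideal (𝓞 K)) [𝔮.IsMaximal], β ∈ 𝔮 → frobOf K E 𝔮 ≠ 1)
    (𝔔 : Ideal (𝓞 E)) [𝔔.IsMaximal] (h𝔔 : algebraMap (𝓞 K) (𝓞 E) β ∈ 𝔔) :
    frobOf E M 𝔔 = 1 := by
  have hp : p.Prime := Fact.out
  set 𝔮 : Ideal (𝓞 K) := 𝔔.under (𝓞 K) with h𝔮
  have h𝔮m : 𝔮.IsMaximal := Ideal.IsMaximal.under (𝓞 K) 𝔔
  have hlo : 𝔔.LiesOver 𝔮 := Ideal.over_under 𝔔
  have hβ𝔮 : β ∈ 𝔮 := h𝔔
  have hp𝔮 : (p : 𝓞 K) ∉ 𝔮 := fun h => hβp 𝔮 h𝔮m.isPrime h hβ𝔮
  have hurE : IsUnramifiedAtPrime K E 𝔮 := by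
    intro Q hQ hQ𝔮
    refine hUE Q hQ fun h => hp𝔮 ?_
    rw [hQ𝔮.over, Ideal.under_def, Ideal.mem_comap, map_natCast]
    exact h
  have h1 : frobOf K E 𝔮 ^ 𝔔.inertiaDeg (𝓞 K) = 1 :=
    frobOf_pow_inertiaDeg K E 𝔮 𝔔 (hurE 𝔔 inferInstance hlo)
  have h2 : frobOf K E 𝔮 ^ (p ^ t) = 1 := S.pow_eq_one_E _
  have hdvd : p ∣ 𝔔.inertiaDeg (𝓞 K) := by
    by_contra hnd
    have hcop : Nat.gcd (𝔔.inertiaDeg (𝓞 K)) (p ^ t) = 1 :=
      Nat.Coprime.pow_right t ((Nat.Prime.coprime_iff_not_dvd hp).mpr hnd).symm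
    have := pow_gcd_eq_one.mpr ⟨h1, h2⟩
    rw [hcop, pow_one] at this
    exact hsmall 𝔮 hβ𝔮 this
  have h3 : frobOf K L 𝔮 ^ 𝔔.inertiaDeg (𝓞 K) = 1 := by
    obtain ⟨m, hm⟩ := hdvd
    rw [hm, pow_mul, S.pow_eq_one_L, one_pow]
  apply S.resGal_inj
  rw [resGal_frobOf K E L M 𝔔 𝔮 (hUL.isUnramifiedAtPrime 𝔮), h3, map_one]

/-- **Step 1'**: `β 𝓞_E` is the norm of an ideal of `M`. -/
theorem exists_relNorm_eq_span (hUL : IsUnramifiedEverywhere K L)
    (hUE : ∀ Q : Ideal (𝓞 E), Q.IsPrime → (p : 𝓞 E) ∉ Q → Q.inertia Gal(E/K) = ⊥) (β : 𝓞 K) (hβ0 : β ≠ 0)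
    (hβp : IsPrimeToNat p β)
    (hsmall : ∀ (𝔮 : Ideal (𝓞 K)) [𝔮.IsMaximal], β ∈ 𝔮 → frobOf K E 𝔮 ≠ 1) :
    ∃ J : Ideal (𝓞 M),
      Ideal.relNorm (𝓞 E) J = Ideal.span {algebraMap (𝓞 K) (𝓞 E) β} := by
  have hne : Ideal.span {algebraMap (𝓞 K) (𝓞 E) β} ≠ ⊥ := by
    rw [Ne, Ideal.span_singleton_eq_bot]
    exact (map_ne_zero_iff _ (FaithfulSMul.algebraMap_injective (𝓞 K) (𝓞 E))).mpr hβ0
  obtain ⟨J, _, hJ⟩ := exists_relNorm_eq_of_forall_le_frobOf_eq_one E M _ hne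
    (fun 𝔔 _ hle => S.frobOf_EM_eq_one hUL hUE β hβp hsmall 𝔔
      (hle (Ideal.mem_span_singleton_self _)))
  exact ⟨J, hJ⟩

end Step1

section Comm

variable [IsMulCommutative Gal(M/K)]

theorem σK_τK_comm (i j : ℕ) (x : M) : (S.σK ^ i) ((S.τK ^ j) x) = (S.τK ^ j) ((S.σK ^ i) x) := by
  rw [← AlgEquiv.mul_apply, ← AlgEquiv.mul_apply, mul_comm' (S.σK ^ i) (S.τK ^ j)]

end Comm

/-- telescoping product in a field -/
theorem prod_range_div_field {F : Type*} [Field F] (f : ℕ → F) (hf : ∀ i, f i ≠ 0) (n : ℕ) :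
    ∏ i ∈ Finset.range n, f (i + 1) / f i = f n / f 0 := by
  induction n with
  | zero => rw [Finset.prod_range_zero, div_self (hf 0)]
  | succ n ih =>
    rw [Finset.prod_range_succ, ih, div_mul_div_comm, mul_comm (f n), mul_div_mul_right _ _ (hf n)]

section Step2

variable [Fact p.Prime] [IsMulCommutative Gal(M/K)]

theorem coe_algebraMap_E (β : 𝓞 K) :
    algebraMap E M ((algebraMap (𝓞 K) (𝓞 E) β : 𝓞 E) : E) = algebraMap K M (β : K) := by
  rw [IsScalarTower.algebraMap_apply K E M]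
  rfl

/-- **Steps 2-3**: Hasse's norm theorem and Hilbert 90 produce `δ` and `ε`. -/
theorem exists_delta_eps (hp2 : p ≠ 2) (hroot : ∃ ζ : E, IsPrimitiveRoot ζ p)
    (hH : HasseNorm p E M) (β : 𝓞 K) (hβ0 : β ≠ 0)
    (hJ : ∃ J : Ideal (𝓞 M),
      Ideal.relNorm (𝓞 E) J = Ideal.span {algebraMap (𝓞 K) (𝓞 E) β}) :
    ∃ δ ε : M, δ ≠ 0 ∧ ε ≠ 0 ∧
      ∏ i ∈ Finset.range p, (S.σK ^ i) δ = algebraMap K M (β : K) ∧
      S.τK δ / δ = S.σK ε / ε := by
  have hp : p.Prime := Fact.out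
  have hβE : algebraMap (𝓞 K) (𝓞 E) β ≠ 0 :=
    (map_ne_zero_iff _ (FaithfulSMul.algebraMap_injective (𝓞 K) (𝓞 E))).mpr hβ0
  obtain ⟨δ, hδ⟩ := hH ⟨hp, hp2, hroot, S.card_σ, S.unram_ME⟩ _ hβE hJ
  have hβM : algebraMap K M (β : K) ≠ 0 := by
    rw [Ne, map_eq_zero]
    exact RingOfIntegers.coe_ne_zero_iff.mpr hβ0
  have hprod : ∏ i ∈ Finset.range p, (S.σK ^ i) δ = algebraMap K M (β : K) := by
    rw [← S.algebraMap_norm_E, hδ, coe_algebraMap_E]
  have hδ0 : δ ≠ 0 := by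
    rintro rfl
    rw [Finset.prod_eq_zero (Finset.mem_range.mpr hp.pos) (by simp)] at hprod
    exact hβM hprod.symm
  have hnorm : Algebra.norm E (S.τK δ / δ) = 1 := by
    apply (algebraMap E M).injective
    rw [S.algebraMap_norm_E, map_one]
    simp only [map_div₀]
    rw [Finset.prod_div_distrib, hprod]
    have : ∏ i ∈ Finset.range p, (S.σK ^ i) (S.τK δ) = S.τK (algebraMap K M (β : K)) := by
      rw [← hprod, map_prod]
      refine Finset.prod_congr rfl fun i _ => ?_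
      have := S.σK_τK_comm i 1 δ
      rwa [pow_one] at this
    rw [this, AlgEquiv.commutes, div_self hβM]
  have : IsCyclic Gal(M/E) := ⟨⟨S.σ, S.hσ⟩⟩
  obtain ⟨y, hy⟩ := groupCohomology.exists_div_of_norm_eq_one (K := E) (L := M) S.hσ hnorm
  refine ⟨δ, ((y⁻¹ : Mˣ) : M), hδ0, Units.ne_zero _, hprod, ?_⟩
  rw [← hy, S.σK_apply, Units.val_inv_eq_inv_val, map_inv₀, inv_div_inv]

end Step2

section Step4

include S

/-- **Step 4**: `ε` can be scaled by an element of `E` to become a unit at a given prime of `M`. -/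
theorem exists_scale_unit (P : HeightOneSpectrum (𝓞 M)) (ε : M) (hε : ε ≠ 0) :
    ∃ π : E, π ≠ 0 ∧ P.valuation M (ε / algebraMap E M π) = 1 := by
  classical
  have hin : P.asIdeal.inertia Gal(M/E) = ⊥ := S.unram_ME P.asIdeal P.isPrime P.ne_bot
  obtain ⟨c, hc⟩ := exists_units_forall_valuation_eq E {underHOS E P} (fun _ => ordAt P ε)
  have hc' := hc (underHOS E P) (Finset.mem_singleton_self _)
  refine ⟨(c : E), c.ne_zero, ?_⟩
  rw [map_div₀, valuation_algebraMap_eq_of_inertia_eq_bot P (underHOS E P) hin, hc',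
    exp_neg_ordAt P hε, div_self]
  exact (Valuation.ne_zero_iff _).mpr hε

end Step4

section Step5

variable [IsMulCommutative Gal(M/K)]

/-- **Step 5**: `b = N_τ(ε)` lies in `K`. -/
theorem exists_bK (δ ε : M) (hδ : δ ≠ 0) (hε : ε ≠ 0) (hrel : S.τK δ / δ = S.σK ε / ε) :
    ∃ bK : K, bK ≠ 0 ∧ algebraMap K M bK = ∏ j ∈ Finset.range (p ^ t), (S.τK ^ j) ε := by
  set n := p ^ t with hn
  set b : M := ∏ j ∈ Finset.range n, (S.τK ^ j) ε with hb
  have hb0 : b ≠ 0 := by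
    rw [hb, Finset.prod_ne_zero_iff]
    intro j _
    exact (map_ne_zero_iff _ (S.τK ^ j).injective).mpr hε
  have hτn : ∀ x : M, (S.τK ^ n) x = x := fun x => by rw [hn, S.τK_pow]; rfl
  have hτb : S.τK b = b := by
    have h1 : S.τK b = ∏ j ∈ Finset.range n, (S.τK ^ (j + 1)) ε := by
      rw [hb, map_prod]
      refine Finset.prod_congr rfl fun j _ => ?_
      rw [pow_succ', AlgEquiv.mul_apply]
    have h2 := Finset.prod_range_succ' (fun j => (S.τK ^ j) ε) n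
    have h3 := Finset.prod_range_succ (fun j => (S.τK ^ j) ε) n
    rw [h3] at h2
    simp only [hτn, pow_zero, AlgEquiv.one_apply] at h2
    rw [h1]
    exact (mul_right_cancel₀ hε h2).symm
  have hσb : S.σK b = b := by
    have h1 : S.σK b / b = ∏ j ∈ Finset.range n, (S.τK ^ (j + 1)) δ / (S.τK ^ j) δ := by
      rw [hb, map_prod, ← Finset.prod_div_distrib]
      refine Finset.prod_congr rfl fun j _ => ?_
      have hc := S.σK_τK_comm 1 j ε
      rw [pow_one] at hc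
      rw [hc, ← map_div₀, ← hrel, map_div₀, pow_succ, AlgEquiv.mul_apply]
    rw [prod_range_div_field (fun j => (S.τK ^ j) δ)
      (fun j => (map_ne_zero_iff _ (S.τK ^ j).injective).mpr hδ) n, hτn, pow_zero,
      AlgEquiv.one_apply, div_self hδ] at h1
    exact (div_eq_one_iff_eq hb0).mp h1
  obtain ⟨bK, hbK⟩ := S.mem_range_of_fixed hσb hτb
  refine ⟨bK, ?_, hbK⟩
  rintro rfl
  rw [map_zero] at hbK
  exact hb0 hbK.symm

end Step5

section Step6

variable [IsMulCommutative Gal(M/K)]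

/-- the prime of `M` above `q` chosen by `primeOver`, as a height one prime -/
noncomputable def primeOverHOS (q : HeightOneSpectrum (𝓞 K)) : HeightOneSpectrum (𝓞 M) :=
  ⟨primeOver K M q.asIdeal, inferInstance, Ideal.ne_bot_of_liesOver_of_ne_bot q.ne_bot _⟩

instance liesOver_primeOverHOS (q : HeightOneSpectrum (𝓞 K)) :
    (primeOverHOS (M := M) q).asIdeal.LiesOver q.asIdeal :=
  primeOver_liesOver K M q.asIdeal

/-- **Step 6**: the local identity at a prime `q` of `K` not above `p`. -/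
theorem local_identity (hp0 : p ≠ 0) (ht : 1 ≤ t) (δ ε : M) (hδ : δ ≠ 0) (hε : ε ≠ 0) (β bK : K)
    (hprod : ∏ i ∈ Finset.range p, (S.σK ^ i) δ = algebraMap K M β)
    (hrel : S.τK δ / δ = S.σK ε / ε)
    (hbK : algebraMap K M bK = ∏ j ∈ Finset.range (p ^ t), (S.τK ^ j) ε)
    (q : HeightOneSpectrum (𝓞 K)) (hq : (p : 𝓞 K) ∉ q.asIdeal) (a c : ℕ)
    (hac : frobOf K M q.asIdeal = S.σK ^ a * S.τK ^ c) :
    ((p : ℤ) ^ t) ∣ (p : ℤ) ^ (t - 1) * a * ordAt q β + c * ordAt q bK := by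
  set Q : HeightOneSpectrum (𝓞 M) := primeOverHOS q with hQ
  have hpQ : (p : 𝓞 M) ∉ Q.asIdeal := by
    intro h
    apply hq
    have hlo : Q.asIdeal.LiesOver q.asIdeal := inferInstance
    rw [hlo.over, Ideal.under_def, Ideal.mem_comap, map_natCast]
    exact h
  have hin : Q.asIdeal.inertia Gal(M/K) = ⊥ := S.unram_MK Q.asIdeal Q.isPrime hpQ
  have hφ : frobOf K M q.asIdeal • Q.asIdeal = Q.asIdeal :=
    MulAction.mem_stabilizer_iff.mp (isArithFrobAt_frobOf K M q.asIdeal).mem_stabilizer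
  set g : ℕ → ℕ → Gal(M/K) := fun x y => S.σK ^ x * S.τK ^ y with hg
  have hg0 : ∀ x y (z : M), z ≠ 0 → g x y z ≠ 0 := fun x y z hz =>
    (map_ne_zero_iff _ (g x y).injective).mpr hz
  have hgτ : ∀ x y (z : M), g x (y + 1) z = g x y (S.τK z) := by
    intro x y z
    simp only [hg, pow_succ, ← mul_assoc, AlgEquiv.mul_apply]
  have hgσ : ∀ x y (z : M), g (x + 1) y z = g x y (S.σK z) := by
    intro x y z
    simp only [hg]
    rw [pow_succ, mul_assoc, mul_comm' S.σK (S.τK ^ y), ← mul_assoc, AlgEquiv.mul_apply]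
  have hτδ : S.τK δ ≠ 0 := (map_ne_zero_iff _ S.τK.injective).mpr hδ
  have hσε : S.σK ε ≠ 0 := (map_ne_zero_iff _ S.σK.injective).mpr hε
  refine cross_identity_prime_pow p t a c hp0 ht (fun x y => ordAt Q (g x y δ))
    (fun x y => ordAt Q (g x y ε)) (ordAt q β) (ordAt q bK) ?_ ?_ ?_ ?_ ?_ ?_ ?_ ?_ ?_
  · intro x y
    change ordAt Q (g x (y + 1) δ) - ordAt Q (g x y δ) = ordAt Q (g (x + 1) y ε) - ordAt Q (g x y ε)
    rw [hgτ, hgσ, ← ordAt_div Q (hg0 x y _ hτδ) (hg0 x y _ hδ),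
      ← ordAt_div Q (hg0 x y _ hσε) (hg0 x y _ hε), ← map_div₀, ← map_div₀, hrel]
  · intro x y
    change ordAt Q (g (x + p) y δ) = ordAt Q (g x y δ)
    simp only [hg, pow_add, S.σK_pow, mul_one]
  · intro x y
    change ordAt Q (g (x + p) y ε) = ordAt Q (g x y ε)
    simp only [hg, pow_add, S.σK_pow, mul_one]
  · intro x y
    change ordAt Q (g x (y + p ^ t) δ) = ordAt Q (g x y δ)
    simp only [hg, pow_add, S.τK_pow, mul_one]
  · intro x y
    change ordAt Q (g x (y + p ^ t) ε) = ordAt Q (g x y ε)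
    simp only [hg, pow_add, S.τK_pow, mul_one]
  · intro x y
    change ordAt Q (g (x + a) (y + c) δ) = ordAt Q (g x y δ)
    have : g (x + a) (y + c) = frobOf K M q.asIdeal * g x y := by
      rw [hac]
      simp only [hg, pow_add]
      rw [mul_mul_mul_comm, mul_comm' (S.σK ^ x * S.τK ^ y)]
    rw [this, AlgEquiv.mul_apply, ordAt_smul_eq Q _ hφ]
  · intro x y
    change ordAt Q (g (x + a) (y + c) ε) = ordAt Q (g x y ε)
    have : g (x + a) (y + c) = frobOf K M q.asIdeal * g x y := by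
      rw [hac]
      simp only [hg, pow_add]
      rw [mul_mul_mul_comm, mul_comm' (S.σK ^ x * S.τK ^ y)]
    rw [this, AlgEquiv.mul_apply, ordAt_smul_eq Q _ hφ]
  · change ∑ i ∈ Finset.range p, ordAt Q (g i 0 δ) = ordAt q β
    simp only [hg, pow_zero, mul_one]
    rw [← ordAt_prod Q _ _ (fun i _ => (map_ne_zero_iff _ (S.σK ^ i).injective).mpr hδ), hprod,
      ordAt_algebraMap_eq_of_inertia_eq_bot Q q hin]
  · change ∑ j ∈ Finset.range (p ^ t), ordAt Q (g 0 j ε) = ordAt q bK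
    simp only [hg, pow_zero, one_mul]
    rw [← ordAt_prod Q _ _ (fun i _ => (map_ne_zero_iff _ (S.τK ^ i).injective).mpr hε), ← hbK,
      ordAt_algebraMap_eq_of_inertia_eq_bot Q q hin]

end Step6

section Step7

variable [IsMulCommutative Gal(M/K)] [IsMulCommutative Gal(L/K)] [IsMulCommutative Gal(E/K)]

/-- exponent of `σ` in the Frobenius of `𝔮` in `M/K` -/
noncomputable def expA (𝔮 : Ideal (𝓞 K)) : ℕ := (S.gen (frobIdeal K M 𝔮)).choose

/-- exponent of `τ` in the Frobenius of `𝔮` in `M/K` -/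
noncomputable def expC (𝔮 : Ideal (𝓞 K)) : ℕ := (S.gen (frobIdeal K M 𝔮)).choose_spec.choose

theorem frobIdeal_eq (𝔮 : Ideal (𝓞 K)) :
    frobIdeal K M 𝔮 = S.σK ^ S.expA 𝔮 * S.τK ^ S.expC 𝔮 :=
  (S.gen (frobIdeal K M 𝔮)).choose_spec.choose_spec

theorem isUnramifiedAtPrime_E
    (hUE : ∀ Q : Ideal (𝓞 E), Q.IsPrime → (p : 𝓞 E) ∉ Q → Q.inertia Gal(E/K) = ⊥)
    (𝔮 : Ideal (𝓞 K)) (hp𝔮 : (p : 𝓞 K) ∉ 𝔮) : IsUnramifiedAtPrime K E 𝔮 := by
  intro Q hQ hQ𝔮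
  refine hUE Q hQ fun h => hp𝔮 ?_
  rw [hQ𝔮.over, Ideal.under_def, Ideal.mem_comap, map_natCast]
  exact h

theorem frobIdeal_L_eq (hUL : IsUnramifiedEverywhere K L) (𝔮 : Ideal (𝓞 K)) [𝔮.IsMaximal] :
    frobIdeal K L 𝔮 = S.σL ^ S.expA 𝔮 := by
  rw [frobIdeal_of_isMaximal, ← restrictNormalHom_frobOf K L M 𝔮 (hUL.isUnramifiedAtPrime 𝔮),
    ← frobIdeal_of_isMaximal, S.frobIdeal_eq, S.restrictNormalHom_L_gen]

theorem frobIdeal_E_eq
    (hUE : ∀ Q : Ideal (𝓞 E), Q.IsPrime → (p : 𝓞 E) ∉ Q → Q.inertia Gal(E/K) = ⊥)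
    (𝔮 : Ideal (𝓞 K)) [𝔮.IsMaximal] (hp𝔮 : (p : 𝓞 K) ∉ 𝔮) :
    frobIdeal K E 𝔮 = S.τE ^ S.expC 𝔮 := by
  rw [frobIdeal_of_isMaximal, ← restrictNormalHom_frobOf K E M 𝔮 (isUnramifiedAtPrime_E hUE 𝔮 hp𝔮),
    ← frobIdeal_of_isMaximal, S.frobIdeal_eq, S.restrictNormalHom_E_gen]

theorem isPrimeToNat_factor {β : 𝓞 K} (hβ0 : β ≠ 0) (hβp : IsPrimeToNat p β) {𝔮 : Ideal (𝓞 K)}
    (h𝔮 : 𝔮 ∈ normalizedFactors (Ideal.span {β})) : 𝔮.IsMaximal ∧ (p : 𝓞 K) ∉ 𝔮 := by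
  have hI : Ideal.span {β} ≠ (⊥ : Ideal (𝓞 K)) := by rwa [Ne, Ideal.span_singleton_eq_bot]
  have h0 : 𝔮 ≠ ⊥ := ne_zero_of_mem_normalizedFactors h𝔮
  obtain ⟨hp, hle⟩ := (Ideal.mem_normalizedFactors_iff hI).mp h𝔮
  exact ⟨Ring.DimensionLEOne.maximalOfPrime h0 hp,
    fun h => hβp 𝔮 hp h (hle (Ideal.mem_span_singleton_self β))⟩

/-- **Step 7**: the local identities and the triviality of the Artin symbol of `b` in `E/K`
imply the triviality of the Artin symbol of `β` in `L/K`. -/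
theorem artinIdeal_eq_one_of_local (hp : p.Prime) (ht : 1 ≤ t) (hUL : IsUnramifiedEverywhere K L)
    (hUE : ∀ Q : Ideal (𝓞 E), Q.IsPrime → (p : 𝓞 E) ∉ Q → Q.inertia Gal(E/K) = ⊥)
    (β b1 b2 : 𝓞 K) (hβ0 : β ≠ 0) (hb10 : b1 ≠ 0) (hb20 : b2 ≠ 0)
    (hβp : IsPrimeToNat p β) (hb1p : IsPrimeToNat p b1) (hb2p : IsPrimeToNat p b2)
    (hloc : ∀ 𝔮 : Ideal (𝓞 K), 𝔮.IsMaximal → (p : 𝓞 K) ∉ 𝔮 →
      ((p : ℤ) ^ t) ∣ (p : ℤ) ^ (t - 1) * S.expA 𝔮 * (normalizedFactors (Ideal.span {β})).count 𝔮 +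
        S.expC 𝔮 * (((normalizedFactors (Ideal.span {b1})).count 𝔮 : ℤ) -
          (normalizedFactors (Ideal.span {b2})).count 𝔮))
    (hE : artinIdeal K E (Ideal.span {b1}) = artinIdeal K E (Ideal.span {b2})) :
    artinIdeal K L (Ideal.span {β}) = 1 := by
  classical
  set mβ := normalizedFactors (Ideal.span {β}) with hmβ
  set m1 := normalizedFactors (Ideal.span {b1}) with hm1
  set m2 := normalizedFactors (Ideal.span {b2}) with hm2
  set T : Finset (Ideal (𝓞 K)) := mβ.toFinset ∪ m1.toFinset ∪ m2.toFinset with hT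
  have hTβ : mβ.toFinset ⊆ T := fun x hx => by
    rw [hT]; exact Finset.mem_union_left _ (Finset.mem_union_left _ hx)
  have hT1 : m1.toFinset ⊆ T := fun x hx => by
    rw [hT]; exact Finset.mem_union_left _ (Finset.mem_union_right _ hx)
  have hT2 : m2.toFinset ⊆ T := fun x hx => by
    rw [hT]; exact Finset.mem_union_right _ hx
  have hTmem : ∀ 𝔮 ∈ T, 𝔮.IsMaximal ∧ (p : 𝓞 K) ∉ 𝔮 := by
    intro 𝔮 h𝔮
    rw [hT, Finset.mem_union, Finset.mem_union, Multiset.mem_toFinset, Multiset.mem_toFinset,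
      Multiset.mem_toFinset] at h𝔮
    rcases h𝔮 with (h | h) | h
    · exact isPrimeToNat_factor hβ0 hβp h
    · exact isPrimeToNat_factor hb10 hb1p h
    · exact isPrimeToNat_factor hb20 hb2p h
  -- the three Artin symbols as powers
  have hL : artinIdeal K L (Ideal.span {β}) = S.σL ^ (mβ.map S.expA).sum := by
    refine artinIdeal_eq_pow_sum K L _ _ _ fun 𝔮 h𝔮 => ?_
    have := (isPrimeToNat_factor hβ0 hβp h𝔮).1
    exact S.frobIdeal_L_eq hUL 𝔮
  have hE1 : artinIdeal K E (Ideal.span {b1}) = S.τE ^ (m1.map S.expC).sum := by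
    refine artinIdeal_eq_pow_sum K E _ _ _ fun 𝔮 h𝔮 => ?_
    obtain ⟨hm, hp𝔮⟩ := isPrimeToNat_factor hb10 hb1p h𝔮
    exact S.frobIdeal_E_eq hUE 𝔮 hp𝔮
  have hE2 : artinIdeal K E (Ideal.span {b2}) = S.τE ^ (m2.map S.expC).sum := by
    refine artinIdeal_eq_pow_sum K E _ _ _ fun 𝔮 h𝔮 => ?_
    obtain ⟨hm, hp𝔮⟩ := isPrimeToNat_factor hb20 hb2p h𝔮
    exact S.frobIdeal_E_eq hUE 𝔮 hp𝔮
  rw [hE1, hE2, pow_eq_pow_iff_modEq, S.orderOf_τE] at hE
  -- sum the local identities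
  have hsum : ((p : ℤ) ^ t) ∣ ∑ 𝔮 ∈ T, ((p : ℤ) ^ (t - 1) * S.expA 𝔮 * mβ.count 𝔮 +
      S.expC 𝔮 * ((m1.count 𝔮 : ℤ) - m2.count 𝔮)) :=
    Finset.dvd_sum fun 𝔮 h𝔮 => hloc 𝔮 (hTmem 𝔮 h𝔮).1 (hTmem 𝔮 h𝔮).2
  have e1 : ((mβ.map S.expA).sum : ℤ) = ∑ 𝔮 ∈ T, (mβ.count 𝔮 : ℤ) * S.expA 𝔮 := by
    rw [multiset_sum_map_eq_sum_count S.expA mβ T hTβ]; push_cast; rfl
  have e2 : ((m1.map S.expC).sum : ℤ) = ∑ 𝔮 ∈ T, (m1.count 𝔮 : ℤ) * S.expC 𝔮 := by
    rw [multiset_sum_map_eq_sum_count S.expC m1 T hT1]; push_cast; rfl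
  have e3 : ((m2.map S.expC).sum : ℤ) = ∑ 𝔮 ∈ T, (m2.count 𝔮 : ℤ) * S.expC 𝔮 := by
    rw [multiset_sum_map_eq_sum_count S.expC m2 T hT2]; push_cast; rfl
  have hsum' : ∑ 𝔮 ∈ T, ((p : ℤ) ^ (t - 1) * S.expA 𝔮 * mβ.count 𝔮 +
      S.expC 𝔮 * ((m1.count 𝔮 : ℤ) - m2.count 𝔮)) =
      (p : ℤ) ^ (t - 1) * ((mβ.map S.expA).sum : ℤ) +
        (((m1.map S.expC).sum : ℤ) - ((m2.map S.expC).sum : ℤ)) := by
    rw [e1, e2, e3, Finset.mul_sum, ← Finset.sum_sub_distrib, ← Finset.sum_add_distrib]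
    refine Finset.sum_congr rfl fun 𝔮 _ => ?_
    ring
  rw [hsum'] at hsum
  have hE' : ((p : ℤ) ^ t) ∣ ((m1.map S.expC).sum : ℤ) - ((m2.map S.expC).sum : ℤ) := by
    have := (Nat.modEq_iff_dvd.mp hE.symm)
    rwa [Nat.cast_pow] at this
  have h3 : ((p : ℤ) ^ t) ∣ (p : ℤ) ^ (t - 1) * ((mβ.map S.expA).sum : ℤ) :=
    (Int.dvd_add_left hE').mp hsum
  have h4 : (p : ℤ) ∣ ((mβ.map S.expA).sum : ℤ) := by
    obtain ⟨s, rfl⟩ : ∃ s, t = s + 1 := ⟨t - 1, by omega⟩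
    rw [Nat.add_sub_cancel, pow_succ] at h3
    have hp0 : (p : ℤ) ^ s ≠ 0 := pow_ne_zero _ (by exact_mod_cast hp.ne_zero)
    exact (mul_dvd_mul_iff_left hp0).mp h3
  obtain ⟨m, hm⟩ := Int.natCast_dvd_natCast.mp h4
  rw [hL, hm, pow_mul, S.σL_pow, one_pow]

end Step7

section AboveP

variable [IsMulCommutative Gal(M/K)]

theorem τK_smul_eq (Q : Ideal (𝓞 M)) : S.τK • Q = S.τ • Q := by
  ext x
  rw [Ideal.mem_pointwise_smul_iff_inv_smul_mem, Ideal.mem_pointwise_smul_iff_inv_smul_mem]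
  have : S.τK⁻¹ • x = S.τ⁻¹ • x := by
    apply RingOfIntegers.ext
    rw [τK, ← map_inv]
    rfl
  rw [this]

theorem τK_pow_smul_eq (Q : Ideal (𝓞 M)) (hQ : Q.IsPrime) (hpQ : (p : 𝓞 M) ∈ Q) (j : ℕ) :
    (S.τK ^ j) • Q = Q := by
  induction j with
  | zero => rw [pow_zero, one_smul]
  | succ j ih => rw [pow_succ, mul_smul, S.τK_smul_eq, S.τ_fix Q hQ hpQ, ih]

theorem τK_pow_smul_pow_eq (Q : Ideal (𝓞 M)) (hQ : Q.IsPrime) (hpQ : (p : 𝓞 M) ∈ Q) (j k : ℕ) :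
    (S.τK ^ j) • (Q ^ k) = Q ^ k := by
  rw [Ideal.pointwise_smul_def, Ideal.map_pow, ← Ideal.pointwise_smul_def,
    S.τK_pow_smul_eq Q hQ hpQ]

/-- the valuation of `b = N_τ(ε)` at the prime of `K` below `P` is trivial if `ε` is a unit
at `P` -/
theorem valuation_bK_eq_one (P : HeightOneSpectrum (𝓞 M)) (hP : (p : 𝓞 M) ∈ P.asIdeal) (ε : M)
    (hεP : P.valuation M ε = 1) (bK : K)
    (hbK : algebraMap K M bK = ∏ j ∈ Finset.range (p ^ t), (S.τK ^ j) ε) :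
    (underHOS K P).valuation K bK = 1 := by
  have h1 : P.valuation M (algebraMap K M bK) = 1 := by
    rw [hbK, map_prod]
    refine Finset.prod_eq_one fun j _ => ?_
    rw [valuation_smul_eq P (S.τK ^ j) (S.τK_pow_smul_eq P.asIdeal P.isPrime hP j), hεP]
  have h2 := HeightOneSpectrum.valuation_liesOver M (underHOS K P) P bK
  rw [h1] at h2
  refine (pow_eq_one_iff_left ?_).mp h2
  exact Ideal.IsDedekindDomain.ramificationIdx'_ne_zero_of_liesOver P.asIdeal (underHOS K P).ne_bot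

include S in
theorem isPrimeToNat_of_not_mem_under (P : HeightOneSpectrum (𝓞 M)) (hP : (p : 𝓞 M) ∈ P.asIdeal)
    {x : 𝓞 K} (hx : x ∉ (underHOS K P).asIdeal) : IsPrimeToNat p x := by
  intro Q hQ hpQ hxQ
  apply hx
  rw [S.unique_p (underHOS K P).asIdeal Q (underHOS K P).isPrime hQ
    ((natCast_mem_underHOS_iff K P p).mpr hP) hpQ]
  exact hxQ

/-- every prime of `M` above `p` is conjugate to `P` under a power of `σ` -/
theorem exists_σK_pow_smul_eq (P : HeightOneSpectrum (𝓞 M)) (hP : (p : 𝓞 M) ∈ P.asIdeal)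
    (Q : Ideal (𝓞 M)) (hQ : Q.IsPrime) (hpQ : (p : 𝓞 M) ∈ Q) :
    ∃ a : ℕ, Q = (S.σK ^ a) • P.asIdeal := by
  have hunder : P.asIdeal.under (𝓞 K) = Q.under (𝓞 K) := by
    refine S.unique_p _ _ inferInstance inferInstance ?_ ?_
    · rw [Ideal.under_def, Ideal.mem_comap, map_natCast]; exact hP
    · rw [Ideal.under_def, Ideal.mem_comap, map_natCast]; exact hpQ
  obtain ⟨γ, hγ⟩ := Algebra.IsInvariant.exists_smul_of_under_eq (𝓞 K) (𝓞 M) Gal(M/K)
    P.asIdeal Q hunder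
  obtain ⟨a, c, rfl⟩ := S.gen γ
  refine ⟨a, ?_⟩
  rw [hγ]
  change (S.σK ^ a * S.τK ^ c) • P.asIdeal = _
  rw [mul_smul, S.τK_pow_smul_eq P.asIdeal P.isPrime hP c]

theorem smul_algebraMap_K (γ : Gal(M/K)) (x : 𝓞 K) :
    γ • algebraMap (𝓞 K) (𝓞 M) x = algebraMap (𝓞 K) (𝓞 M) x := by
  apply RingOfIntegers.ext
  exact γ.commutes (x : K)

theorem σK_pow_smul_algebraMap_E (a : ℕ) (y : 𝓞 E) :
    (S.σK ^ a) • algebraMap (𝓞 E) (𝓞 M) y = algebraMap (𝓞 E) (𝓞 M) y := by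
  apply RingOfIntegers.ext
  exact S.σK_pow_algebraMap a (y : E)

/-- the norm from `E` to `K` of `y`, mapped to `M`, is the product of the `τ`-conjugates -/
theorem algebraMap_norm_eq_prod (y : 𝓞 E) :
    algebraMap (𝓞 K) (𝓞 M) (RingOfIntegers.norm K y) =
      ∏ j ∈ Finset.range (p ^ t), (S.τK ^ j) • algebraMap (𝓞 E) (𝓞 M) y := by
  apply RingOfIntegers.ext
  have h1 : ((algebraMap (𝓞 K) (𝓞 M) (RingOfIntegers.norm K y) : 𝓞 M) : M) =
      algebraMap E M (algebraMap K E (Algebra.norm K (y : E))) := by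
    rw [← IsScalarTower.algebraMap_apply K E M, ← RingOfIntegers.coe_norm]
    rfl
  rw [h1, S.algebraMap_norm_K, map_prod]
  change _ = algebraMap (𝓞 M) M (∏ j ∈ Finset.range (p ^ t),
    (S.τK ^ j) • algebraMap (𝓞 E) (𝓞 M) y)
  rw [map_prod]
  refine Finset.prod_congr rfl fun j _ => ?_
  rw [← S.τK_pow_algebraMap_E]
  rfl

variable [IsMulCommutative Gal(E/K)]

/-- **Step 5'** (above `p`): `b = N_τ(ε)` is a fraction `b₁ / b₂` of integers prime to `p` whose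
principal ideals have the same Artin symbol in `E/K`. -/
theorem exists_frac_artin_eq (hp : p.Prime) (hCF : CycloRecipFrac p t K E)
    (P : HeightOneSpectrum (𝓞 M)) (hP : (p : 𝓞 M) ∈ P.asIdeal) (ε : M)
    (hεP : P.valuation M ε = 1) (bK : K)
    (hbK : algebraMap K M bK = ∏ j ∈ Finset.range (p ^ t), (S.τK ^ j) ε) :
    ∃ b1 b2 : 𝓞 K, b1 ≠ 0 ∧ b2 ≠ 0 ∧ IsPrimeToNat p b1 ∧ IsPrimeToNat p b2 ∧
      bK * (b2 : K) = (b1 : K) ∧
      artinIdeal K E (Ideal.span {b1}) = artinIdeal K E (Ideal.span {b2}) := by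
  -- fractions
  obtain ⟨b1, b2, hb1, hb2, hb⟩ :=
    exists_eq_div_of_valuation_eq_one (underHOS K P) (S.valuation_bK_eq_one P hP ε hεP bK hbK)
  obtain ⟨ε1, ε2, hε1, hε2, hεe⟩ := exists_eq_div_of_valuation_eq_one P hεP
  have hb10 : b1 ≠ 0 := fun h => hb1 (h ▸ Ideal.zero_mem _)
  have hb20 : b2 ≠ 0 := fun h => hb2 (h ▸ Ideal.zero_mem _)
  -- the precision
  have hJ : Ideal.span {((p ^ (t + 1) : ℕ) : 𝓞 M)} ≠ ⊥ := by
    rw [Ne, Ideal.span_singleton_eq_bot, Nat.cast_eq_zero]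
    exact pow_ne_zero _ hp.ne_zero
  obtain ⟨k, hk⟩ := exists_pow_le_of_forall_mem (Ideal.span {((p ^ (t + 1) : ℕ) : 𝓞 M)}) hJ
  -- approximations
  have hstab := S.stab_σ P.asIdeal P.isPrime hP
  obtain ⟨y1, hy1⟩ := exists_sub_mem_pow_of_stabilizer_eq_bot (K := E) P.asIdeal P.ne_bot hstab ε1
    (k + 1)
  obtain ⟨y2, hy2⟩ := exists_sub_mem_pow_of_stabilizer_eq_bot (K := E) P.asIdeal P.ne_bot hstab ε2
    (k + 1)
  have hPk : P.asIdeal ^ (k + 1) ≤ P.asIdeal := Ideal.pow_le_self (Nat.succ_ne_zero k)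
  -- y_i are prime to p
  have hyprime : ∀ (εi : 𝓞 M) (yi : 𝓞 E), εi ∉ P.asIdeal →
      εi - algebraMap (𝓞 E) (𝓞 M) yi ∈ P.asIdeal ^ (k + 1) → IsPrimeToNat p yi := by
    intro εi yi hεi hyi QE hQE hpQE hyQE
    obtain ⟨QM, -, hQM, hQMover⟩ := Ideal.exists_ideal_over_prime_of_isIntegral QE
      (⊥ : Ideal (𝓞 M)) (by simp)
    have hpQM : (p : 𝓞 M) ∈ QM := by
      have : algebraMap (𝓞 E) (𝓞 M) (p : 𝓞 E) ∈ QM := by
        rw [← Ideal.mem_comap, hQMover]; exact hpQE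
      rwa [map_natCast] at this
    obtain ⟨a, ha⟩ := S.exists_σK_pow_smul_eq P hP QM hQM hpQM
    have hyQM : algebraMap (𝓞 E) (𝓞 M) yi ∈ QM := by
      rw [← Ideal.mem_comap, hQMover]; exact hyQE
    rw [ha, Ideal.mem_pointwise_smul_iff_inv_smul_mem] at hyQM
    have hfix : (S.σK ^ a)⁻¹ • algebraMap (𝓞 E) (𝓞 M) yi = algebraMap (𝓞 E) (𝓞 M) yi := by
      rw [inv_smul_eq_iff, S.σK_pow_smul_algebraMap_E]
    rw [hfix] at hyQM
    apply hεi
    have := add_mem (hPk hyi) hyQM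
    rwa [sub_add_cancel] at this
  have hy1p := hyprime ε1 y1 hε1 hy1
  have hy2p := hyprime ε2 y2 hε2 hy2
  -- the τ-norms of ε_i
  set N1 : 𝓞 M := ∏ j ∈ Finset.range (p ^ t), (S.τK ^ j) • ε1 with hN1
  set N2 : 𝓞 M := ∏ j ∈ Finset.range (p ^ t), (S.τK ^ j) • ε2 with hN2
  have hcongr : ∀ (εi : 𝓞 M) (yi : 𝓞 E),
      εi - algebraMap (𝓞 E) (𝓞 M) yi ∈ P.asIdeal ^ (k + 1) →
      (∏ j ∈ Finset.range (p ^ t), (S.τK ^ j) • εi) -
        algebraMap (𝓞 K) (𝓞 M) (RingOfIntegers.norm K yi) ∈ P.asIdeal ^ (k + 1) := by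
    intro εi yi hyi
    rw [S.algebraMap_norm_eq_prod]
    refine prod_sub_prod_mem _ _ _ _ fun j _ => ?_
    rw [← smul_sub, ← S.τK_pow_smul_pow_eq P.asIdeal P.isPrime hP j (k + 1)]
    exact Ideal.smul_mem_pointwise_smul _ _ _ hyi
  have hc1 := hcongr ε1 y1 hy1
  have hc2 := hcongr ε2 y2 hy2
  -- the relation b1 * N2 = b2 * N1
  have hrel : algebraMap (𝓞 K) (𝓞 M) b1 * N2 = algebraMap (𝓞 K) (𝓞 M) b2 * N1 := by
    apply RingOfIntegers.ext
    change algebraMap (𝓞 M) M _ = algebraMap (𝓞 M) M _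
    rw [map_mul, map_mul, hN1, hN2, map_prod, map_prod]
    have e1 : ∀ j, algebraMap (𝓞 M) M ((S.τK ^ j) • ε1) =
        (S.τK ^ j) ε * algebraMap (𝓞 M) M ((S.τK ^ j) • ε2) := by
      intro j
      change (S.τK ^ j) (algebraMap (𝓞 M) M ε1) = _ * (S.τK ^ j) (algebraMap (𝓞 M) M ε2)
      rw [← hεe, map_mul]
    simp only [e1, Finset.prod_mul_distrib, ← hbK]
    have e2 : algebraMap (𝓞 M) M (algebraMap (𝓞 K) (𝓞 M) b1) = algebraMap K M (b1 : K) := rfl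
    have e3 : algebraMap (𝓞 M) M (algebraMap (𝓞 K) (𝓞 M) b2) = algebraMap K M (b2 : K) := rfl
    have hb' : (b1 : K) = bK * (b2 : K) := hb.symm
    rw [e2, e3, hb', map_mul]
    ring
  -- the congruence in 𝓞 M
  set x : 𝓞 K := b1 * RingOfIntegers.norm K y2 - b2 * RingOfIntegers.norm K y1 with hx
  have hxP : algebraMap (𝓞 K) (𝓞 M) x ∈ P.asIdeal ^ (k + 1) := by
    have : algebraMap (𝓞 K) (𝓞 M) x =
        algebraMap (𝓞 K) (𝓞 M) b2 * (N1 - algebraMap (𝓞 K) (𝓞 M) (RingOfIntegers.norm K y1)) -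
        algebraMap (𝓞 K) (𝓞 M) b1 * (N2 - algebraMap (𝓞 K) (𝓞 M) (RingOfIntegers.norm K y2)) := by
      rw [hx, map_sub, map_mul, map_mul, mul_sub, mul_sub, ← hrel]
      ring
    rw [this]
    exact sub_mem (Ideal.mul_mem_left _ _ hc1) (Ideal.mul_mem_left _ _ hc2)
  have hxJ : algebraMap (𝓞 K) (𝓞 M) x ∈ Ideal.span {((p ^ (t + 1) : ℕ) : 𝓞 M)} := by
    apply hk
    intro Q hQ hJQ
    have hpQ : (p : 𝓞 M) ∈ Q := by
      have : ((p ^ (t + 1) : ℕ) : 𝓞 M) ∈ Q := hJQ (Ideal.mem_span_singleton_self _)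
      rw [Nat.cast_pow] at this
      exact hQ.mem_of_pow_mem _ this
    obtain ⟨a, ha⟩ := S.exists_σK_pow_smul_eq P hP Q hQ hpQ
    have h1 : (S.σK ^ a) • algebraMap (𝓞 K) (𝓞 M) x ∈ (S.σK ^ a) • (P.asIdeal ^ (k + 1)) :=
      Ideal.smul_mem_pointwise_smul _ _ _ hxP
    rw [smul_algebraMap_K, Ideal.pointwise_smul_def, Ideal.map_pow, ← Ideal.pointwise_smul_def,
      ← ha] at h1
    exact Ideal.pow_le_pow_right (Nat.le_succ k) h1
  -- descend to 𝓞 K
  have hxK : x ∈ Ideal.span {((p ^ (t + 1) : ℕ) : 𝓞 K)} := by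
    obtain ⟨z, hz⟩ := Ideal.mem_span_singleton'.mp hxJ
    have hpne : ((p ^ (t + 1) : ℕ) : K) ≠ 0 := by
      rw [Nat.cast_ne_zero]; exact pow_ne_zero _ hp.ne_zero
    have hzM : algebraMap K M ((x : K) / ((p ^ (t + 1) : ℕ) : K)) = (z : M) := by
      have h2 : (z : M) * ((p ^ (t + 1) : ℕ) : M) = algebraMap K M (x : K) := by
        have := congrArg (algebraMap (𝓞 M) M) hz
        rw [map_mul, map_natCast] at this
        exact this
      rw [map_div₀, map_natCast, ← h2, mul_div_assoc, div_self, mul_one]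
      rw [Nat.cast_ne_zero]; exact pow_ne_zero _ hp.ne_zero
    have hint : IsIntegral ℤ ((x : K) / ((p ^ (t + 1) : ℕ) : K)) := by
      have : IsIntegral ℤ (algebraMap K M ((x : K) / ((p ^ (t + 1) : ℕ) : K))) := by
        rw [hzM]; exact RingOfIntegers.isIntegral_coe z
      exact (isIntegral_algebraMap_iff (algebraMap K M).injective).mp this
    rw [Ideal.mem_span_singleton']
    refine ⟨⟨_, hint⟩, ?_⟩
    apply RingOfIntegers.ext
    change ((x : K) / ((p ^ (t + 1) : ℕ) : K)) * (((p ^ (t + 1) : ℕ) : 𝓞 K) : K) = (x : K)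
    have hcast : (((p ^ (t + 1) : ℕ) : 𝓞 K) : K) = ((p ^ (t + 1) : ℕ) : K) :=
      map_natCast (algebraMap (𝓞 K) K) _
    rw [hcast, div_mul_cancel₀ _ hpne]
  refine ⟨b1, b2, hb10, hb20, S.isPrimeToNat_of_not_mem_under P hP hb1,
    S.isPrimeToNat_of_not_mem_under P hP hb2, hb, ?_⟩
  exact hCF b1 b2 y1 y2 (S.isPrimeToNat_of_not_mem_under P hP hb1)
    (S.isPrimeToNat_of_not_mem_under P hP hb2) hy1p hy2p hxK

end AboveP

section Final

/-- a prime of `𝓞 M` above the rational prime `p` -/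
theorem exists_heightOneSpectrum_natCast_mem (hp : p.Prime) :
    ∃ P : HeightOneSpectrum (𝓞 M), (p : 𝓞 M) ∈ P.asIdeal := by
  have hpZ : (Ideal.span {(p : ℤ)}).IsPrime := by
    rw [Ideal.span_singleton_prime (by exact_mod_cast hp.ne_zero)]
    exact Nat.prime_iff_prime_int.mp hp
  obtain ⟨Q, -, hQ, hQover⟩ := Ideal.exists_ideal_over_prime_of_isIntegral
    (Ideal.span {(p : ℤ)}) (⊥ : Ideal (𝓞 M)) (by
      rw [Ideal.comap_bot_of_injective _ (FaithfulSMul.algebraMap_injective ℤ (𝓞 M))]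
      exact bot_le)
  have hpQ : (p : 𝓞 M) ∈ Q := by
    have : algebraMap ℤ (𝓞 M) (p : ℤ) ∈ Q := by
      rw [← Ideal.mem_comap, hQover]; exact Ideal.mem_span_singleton_self _
    rwa [map_natCast] at this
  refine ⟨⟨Q, hQ, ?_⟩, hpQ⟩
  rintro rfl
  rw [Ideal.mem_bot, Nat.cast_eq_zero] at hpQ
  exact hp.ne_zero hpQ

variable [Fact p.Prime] [IsMulCommutative Gal(M/K)] [IsMulCommutative Gal(L/K)]
  [IsMulCommutative Gal(E/K)] [IsMulCommutative Gal(M/E)]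

include S in
/-- **The crossing theorem `(X)`.** -/
theorem artinIdeal_span_eq_one (hp2 : p ≠ 2) (ht : 1 ≤ t) (hUL : IsUnramifiedEverywhere K L)
    (hUE : ∀ Q : Ideal (𝓞 E), Q.IsPrime → (p : 𝓞 E) ∉ Q → Q.inertia Gal(E/K) = ⊥)
    (hroot : ∃ ζ : E, IsPrimitiveRoot ζ p) (hH : HasseNorm p E M) (hCF : CycloRecipFrac p t K E) (β : 𝓞 K) (hβ0 : β ≠ 0)
    (hβp : IsPrimeToNat p β)
    (hsmall : ∀ (𝔮 : Ideal (𝓞 K)) [𝔮.IsMaximal], β ∈ 𝔮 → frobOf K E 𝔮 ≠ 1) :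
    artinIdeal K L (Ideal.span {β}) = 1 := by
  have hp : p.Prime := Fact.out
  obtain ⟨δ, ε₀, hδ, hε₀, hprod, hrel₀⟩ := S.exists_delta_eps hp2 hroot hH β hβ0
    (S.exists_relNorm_eq_span hUL hUE β hβ0 hβp hsmall)
  obtain ⟨P, hP⟩ := exists_heightOneSpectrum_natCast_mem (M := M) hp
  obtain ⟨π, hπ, hεP⟩ := S.exists_scale_unit P ε₀ hε₀
  set ε : M := ε₀ / algebraMap E M π with hεdef
  have hπM : algebraMap E M π ≠ 0 := (map_ne_zero_iff _ (algebraMap E M).injective).mpr hπ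
  have hε : ε ≠ 0 := div_ne_zero hε₀ hπM
  have hrel : S.τK δ / δ = S.σK ε / ε := by
    rw [hrel₀, hεdef, map_div₀, S.σK_algebraMap, div_div_div_cancel_right₀ hπM]
  obtain ⟨bK, hbK0, hbK⟩ := S.exists_bK δ ε hδ hε hrel
  obtain ⟨b1, b2, hb10, hb20, hb1p, hb2p, hb, hE⟩ :=
    S.exists_frac_artin_eq hp hCF P hP ε hεP bK hbK
  refine S.artinIdeal_eq_one_of_local hp ht hUL hUE β b1 b2 hβ0 hb10 hb20 hβp hb1p hb2p ?_ hE
  intro 𝔮 h𝔮 hp𝔮
  have h0 : 𝔮 ≠ ⊥ := Ring.ne_bot_of_isMaximal_of_not_isField h𝔮 (RingOfIntegers.not_isField K)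
  set q : HeightOneSpectrum (𝓞 K) := ⟨𝔮, h𝔮.isPrime, h0⟩ with hq
  have hac : frobOf K M q.asIdeal = S.σK ^ S.expA 𝔮 * S.τK ^ S.expC 𝔮 := by
    rw [← S.frobIdeal_eq 𝔮, frobIdeal_of_isMaximal]
  have hloc := S.local_identity hp.ne_zero ht δ ε hδ hε (β : K) bK hprod hrel hbK q hp𝔮
    (S.expA 𝔮) (S.expC 𝔮) hac
  have hb1K : (b1 : K) ≠ 0 := RingOfIntegers.coe_ne_zero_iff.mpr hb10
  have hb2K : (b2 : K) ≠ 0 := RingOfIntegers.coe_ne_zero_iff.mpr hb20
  have e1 : ordAt q (β : K) = ((normalizedFactors (Ideal.span {β})).count 𝔮 : ℤ) :=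
    ordAt_algebraMap q hβ0
  have e2 : ordAt q bK = ((normalizedFactors (Ideal.span {b1})).count 𝔮 : ℤ) -
      (normalizedFactors (Ideal.span {b2})).count 𝔮 := by
    have : bK = (b1 : K) / (b2 : K) := by rw [eq_div_iff hb2K, hb]
    rw [this, ordAt_div q hb1K hb2K]
    exact congrArg₂ _ (ordAt_algebraMap q hb10) (ordAt_algebraMap q hb20)
  rw [e1, e2] at hloc
  exact hloc

end Final

end CrossSq

end Main

end Fermat.Agent.CFT
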