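import Mathlib
import Fermat.Agent.CFT.Global.CrossMain
import Fermat.Agent.CFT.Global.CycloRecip

set_option autoImplicit false
set_option linter.unusedSectionVars false

/-!
# CFT, stream [C], chunk (G7): the crossing theorem `(X)` for `E = K(ζ_{p^(t+1)})`

Specialisation of `CrossSq.artinIdeal_span_eq_one` to a cyclotomic `E`: all the cyclotomic inputs
(`hUE`, `hroot`, `hCF`, `hsmall`) are discharged from `IsCyclotomicExtension {p ^ (t + 1)} K E`.
-/

open NumberField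
open scoped Pointwise IsMulCommutative

namespace Fermat.Agent.CFT

section Generic

variable {R : Type*} [CommRing R]

theorem natCast_pow_mem_iff_of_isPrime {p k : ℕ} (Q : Ideal R) [Q.IsPrime] (hk : k ≠ 0) :
    ((p ^ k : ℕ) : R) ∈ Q ↔ (p : R) ∈ Q := by
  rw [Nat.cast_pow]
  exact ⟨fun h => Ideal.IsPrime.mem_of_pow_mem inferInstance k h,
    fun h => Ideal.pow_mem_of_mem Q h k (Nat.pos_of_ne_zero hk)⟩

end Generic

section Recip

variable (p t : ℕ) (K E : Type*) [Field K] [NumberField K] [Field E] [NumberField E] [Algebra K E]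
  [IsGalois K E] [IsMulCommutative Gal(E/K)]

/-- helper19's cyclotomic reciprocity, in the shape consumed by the crossing theorem. -/
theorem cycloRecipFrac_of_isCyclotomicExtension [Fact p.Prime]
    [IsCyclotomicExtension {p ^ (t + 1)} K E] (hodd : ∀ g : Gal(E/K), g ^ 2 = 1 → g = 1) :
    CycloRecipFrac p t K E := by
  have hp : p.Prime := Fact.out
  have : NeZero (p ^ (t + 1)) := ⟨pow_ne_zero _ hp.ne_zero⟩
  intro b1 b2 y1 y2 hb1 hb2 hy1 hy2 hcong
  refine artinIdeal_span_singleton_eq_of_norm_congr_of_isCyclotomicExtension K E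
    (n := p ^ (t + 1)) hodd ?_ ?_ ?_ ?_ hcong
  · intro 𝔮 h𝔮 hn
    have := h𝔮.isPrime
    exact hb1 𝔮 inferInstance ((natCast_pow_mem_iff_of_isPrime 𝔮 (Nat.succ_ne_zero t)).mp hn)
  · intro 𝔮 h𝔮 hn
    have := h𝔮.isPrime
    exact hb2 𝔮 inferInstance ((natCast_pow_mem_iff_of_isPrime 𝔮 (Nat.succ_ne_zero t)).mp hn)
  · intro 𝔮 h𝔮 hn
    have := h𝔮.isPrime
    exact hy1 𝔮 inferInstance ((natCast_pow_mem_iff_of_isPrime 𝔮 (Nat.succ_ne_zero t)).mp hn)
  · intro 𝔮 h𝔮 hn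
    have := h𝔮.isPrime
    exact hy2 𝔮 inferInstance ((natCast_pow_mem_iff_of_isPrime 𝔮 (Nat.succ_ne_zero t)).mp hn)

end Recip

section Main

variable {p t : ℕ} {K L E M : Type} [Field K] [NumberField K] [Field L] [NumberField L]
  [Field E] [NumberField E] [Field M] [NumberField M]
  [Algebra K L] [Algebra K E] [Algebra L M] [Algebra E M] [Algebra K M]
  [IsScalarTower K L M] [IsScalarTower K E M]
  [IsGalois K L] [IsGalois K E] [IsGalois K M] [IsGalois E M] [IsGalois L M]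
  [Fact p.Prime] [IsMulCommutative Gal(M/E)] [IsMulCommutative Gal(L/K)]
  [IsMulCommutative Gal(E/K)] [IsMulCommutative Gal(M/K)]

/-- **The crossing theorem `(X)`** for `E = K(ζ_{p^(t+1)})`. -/
theorem CrossSq.artinIdeal_span_eq_one_of_isCyclotomicExtension (S : CrossSq p t K L E M)
    [IsCyclotomicExtension {p ^ (t + 1)} K E]
    (hp2 : p ≠ 2) (ht : 1 ≤ t) (hUL : IsUnramifiedEverywhere K L) (hH : HasseNorm p E M)
    (β : 𝓞 K) (hβ0 : β ≠ 0) (hβp : IsPrimeToNat p β)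
    (hbig : ∀ 𝔮 : Ideal (𝓞 K), 𝔮.IsMaximal → β ∈ 𝔮 → Ideal.absNorm 𝔮 < p ^ (t + 1)) :
    artinIdeal K L (Ideal.span {β}) = 1 := by
  have hp : p.Prime := Fact.out
  have : NeZero (p ^ (t + 1)) := ⟨pow_ne_zero _ hp.ne_zero⟩
  have hζ0 := IsCyclotomicExtension.zeta_spec (p ^ (t + 1)) K E
  have hζ : IsPrimitiveRoot hζ0.toInteger (p ^ (t + 1)) := hζ0.toInteger_isPrimitiveRoot
  -- `Gal(E/K)` has odd order
  have hodd : ∀ g : Gal(E/K), g ^ 2 = 1 → g = 1 := by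
    refine eq_one_of_sq_eq_one_of_odd_card ?_
    rw [S.card_gal_E]
    exact (hp.odd_of_ne_two hp2).pow
  refine S.artinIdeal_span_eq_one hp2 ht hUL ?_ ?_ hH
    (cycloRecipFrac_of_isCyclotomicExtension p t K E hodd) β hβ0 hβp ?_
  · intro Q hQ hpQ
    have := hQ
    exact inertia_eq_bot_of_natCast_not_mem K E (n := p ^ (t + 1)) Q
      (fun h => hpQ ((natCast_pow_mem_iff_of_isPrime Q (Nat.succ_ne_zero t)).mp h))
  · exact ⟨_, hζ0.pow (pow_pos hp.pos _) (pow_succ p t)⟩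
  · intro 𝔮 h𝔮 hβ𝔮
    have h𝔮bot : 𝔮 ≠ ⊥ := by
      rintro rfl
      exact hβ0 (by simpa using hβ𝔮)
    have hn : ((p ^ (t + 1) : ℕ) : 𝓞 K) ∉ 𝔮 := fun h =>
      hβp 𝔮 inferInstance ((natCast_pow_mem_iff_of_isPrime 𝔮 (Nat.succ_ne_zero t)).mp h) hβ𝔮
    have h1 : 1 < Ideal.absNorm 𝔮 := by
      have h0 : Ideal.absNorm 𝔮 ≠ 0 := by
        rw [Ne, Ideal.absNorm_eq_zero_iff]
        exact h𝔮bot
      have h1' : Ideal.absNorm 𝔮 ≠ 1 := by
        rw [Ne, Ideal.absNorm_eq_one_iff]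
        exact h𝔮.ne_top
      omega
    exact frobOf_ne_one_of_absNorm_lt K E hζ 𝔮 hn h1 (hbig 𝔮 h𝔮 hβ𝔮)

end Main

end Fermat.Agent.CFT
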