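/-
`Fermat/Agent/CFT/Global/CrossSqCyclo.lean` (helper7, stream [C], set-up of the crossing (X),
part 4): construction of helper23's `CrossSq p t K L E M` for `K = ℚ(ζ_p)`, `L/K` Galois of
degree `p`, unramified everywhere, primes above `p` split completely, `E = K(ζ_{p^(t+1)})`,
`M = L(ζ_{p^(t+1)})`.
-/
import Mathlib
import Fermat.Agent.CFT.Global.CrossFields
import Fermat.Agent.CFT.Global.CrossFieldsGalois
import Fermat.Agent.CFT.Global.CrossFieldsCyclo
import Fermat.Agent.CFT.Global.CrossDefs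
import Fermat.Agent.CFT.Global.CycloRecip

set_option autoImplicit false
set_option linter.unusedSectionVars false

open NumberField IntermediateField
open scoped Pointwise IsMulCommutative

namespace Fermat.Agent.CFT

section Inertia

variable {K F L M : Type*} [Field K] [NumberField K] [Field F] [NumberField F] [Field L]
  [NumberField L] [Field M] [NumberField M] [Algebra K F] [Algebra K L] [Algebra F M] [Algebra L M]
  [Algebra K M] [IsScalarTower K F M] [IsScalarTower K L M] [IsGalois K L] [IsGalois K F]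
  [IsGalois K M]

/-- Restriction maps inertia groups into inertia groups. -/
theorem restrictNormalHom_mem_inertia (Q : Ideal (𝓞 M)) {γ : Gal(M/K)}
    (hγ : γ ∈ Q.inertia Gal(M/K)) :
    AlgEquiv.restrictNormalHom L γ ∈ (Q.under (𝓞 L)).inertia Gal(L/K) := by
  intro x
  change _ ∈ Ideal.comap (algebraMap (𝓞 L) (𝓞 M)) Q
  rw [Ideal.mem_comap, map_sub, coe_restrictNormalHom_smul]
  exact hγ _

/-- The inertia group of the zero ideal is trivial. -/
theorem inertia_bot_eq_bot : (⊥ : Ideal (𝓞 M)).inertia Gal(M/K) = ⊥ := by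
  rw [eq_bot_iff]
  intro γ hγ
  rw [Subgroup.mem_bot]
  have hfix : ∀ a : 𝓞 M, γ (algebraMap (𝓞 M) M a) = algebraMap (𝓞 M) M a := by
    intro a
    have h1 : γ • a = a := sub_eq_zero.mp (by simpa using hγ a)
    exact congrArg (algebraMap (𝓞 M) M) h1
  ext y
  obtain ⟨a, b, hb, rfl⟩ := IsFractionRing.div_surjective (A := 𝓞 M) y
  rw [map_div₀, hfix, hfix]
  rfl

/-- In a compositum `M = F·L`, a prime at which both `L/K` and `F/K` are unramified is
unramified in `M/K`. -/
theorem inertia_eq_bot_of_isCompositum (hgen : IsCompositum F L M) (Q : Ideal (𝓞 M))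
    (hL : (Q.under (𝓞 L)).inertia Gal(L/K) = ⊥) (hF : (Q.under (𝓞 F)).inertia Gal(F/K) = ⊥) :
    Q.inertia Gal(M/K) = ⊥ := by
  rw [eq_bot_iff]
  intro γ hγ
  rw [Subgroup.mem_bot]
  apply galProd_injective (K := K) (F := F) (L := L) hgen
  rw [galProd_apply, map_one]
  have h1 := restrictNormalHom_mem_inertia (L := L) Q hγ
  have h2 := restrictNormalHom_mem_inertia (L := F) Q hγ
  rw [hL, Subgroup.mem_bot] at h1
  rw [hF, Subgroup.mem_bot] at h2
  rw [h1, h2]; rfl

end Inertia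

section Build

variable (p t : ℕ) [hp : Fact p.Prime] (K L : Type) [Field K] [NumberField K] [Field L]
  [NumberField L] [Algebra K L] [IsGalois K L] [IsCyclotomicExtension {p} ℚ K]

instance crossM_isGalois_L : IsGalois L (CrossM (p ^ (t + 1)) L) :=
  IsCyclotomicExtension.isGalois {p ^ (t + 1)} L _

/-- `M = L·E` (the compositum condition with the roles of `L` and `E` exchanged). -/
theorem isCompositum_cross_symm :
    IsCompositum L (crossE (p ^ (t + 1)) K L) (CrossM (p ^ (t + 1)) L) :=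
  (isCompositum_cross (p ^ (t + 1)) K L).symm K

variable {p K L}

/-- `[M : L] = p ^ t`. -/
theorem card_gal_crossM_L (hcard : Nat.card Gal(L/K) = p)
    (hS : ∀ (Q : Ideal (𝓞 L)) [Q.IsPrime], (p : 𝓞 L) ∈ Q →
      MulAction.stabilizer Gal(L/K) Q = ⊥) :
    Nat.card Gal(CrossM (p ^ (t + 1)) L/L) = p ^ t := by
  have h1 := card_gal_crossM_E p t K L hcard hS
  have h2 := card_gal_crossE p t K L
  rw [IsGalois.card_aut_eq_finrank] at h1 h2 hcard ⊢
  have h3 := Module.finrank_mul_finrank K (crossE (p ^ (t + 1)) K L) (CrossM (p ^ (t + 1)) L)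
  have h4 := Module.finrank_mul_finrank K L (CrossM (p ^ (t + 1)) L)
  rw [h1, h2] at h3
  rw [hcard, ← h3] at h4
  have hp0 : 0 < p := hp.out.pos
  have : p * Module.finrank L (CrossM (p ^ (t + 1)) L) = p * p ^ t := by rw [h4, mul_comm]
  exact Nat.eq_of_mul_eq_mul_left hp0 this

/-- restriction `Gal(M/L) → Gal(E/K)` is bijective. -/
theorem resGal_cross_symm_bijective (hcard : Nat.card Gal(L/K) = p)
    (hS : ∀ (Q : Ideal (𝓞 L)) [Q.IsPrime], (p : 𝓞 L) ∈ Q →
      MulAction.stabilizer Gal(L/K) Q = ⊥) :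
    Function.Bijective (resGal K L (crossE (p ^ (t + 1)) K L) (CrossM (p ^ (t + 1)) L)) := by
  have hinj := resGal_injective (K := K) (isCompositum_cross_symm p t K L)
  refine hinj.bijective_of_nat_card_le ?_
  rw [card_gal_crossM_L t hcard hS, card_gal_crossE]

/-- All primes of `E = ℚ(ζ_{p^(t+1)})` containing `p` coincide. -/
theorem crossE_unique_prime (P P' : Ideal (𝓞 (crossE (p ^ (t + 1)) K L))) [P.IsPrime] [P'.IsPrime]
    (hP : (p : 𝓞 (crossE (p ^ (t + 1)) K L)) ∈ P)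
    (hP' : (p : 𝓞 (crossE (p ^ (t + 1)) K L)) ∈ P') : P = P' := by
  haveI := liesOver_span_of_natCast_mem p P hP
  haveI := liesOver_span_of_natCast_mem p P' hP'
  rw [IsCyclotomicExtension.Rat.eq_span_zeta_sub_one_of_liesOver p t _
      (IsCyclotomicExtension.zeta_spec (p ^ (t + 1)) ℚ (crossE (p ^ (t + 1)) K L)) P,
    IsCyclotomicExtension.Rat.eq_span_zeta_sub_one_of_liesOver p t _
      (IsCyclotomicExtension.zeta_spec (p ^ (t + 1)) ℚ (crossE (p ^ (t + 1)) K L)) P']

/-- All primes of `K = ℚ(ζ_p)` containing `p` coincide. -/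
theorem cyclo_unique_prime (𝔭 𝔭' : Ideal (𝓞 K)) [𝔭.IsPrime] [𝔭'.IsPrime]
    (h𝔭 : (p : 𝓞 K) ∈ 𝔭) (h𝔭' : (p : 𝓞 K) ∈ 𝔭') : 𝔭 = 𝔭' := by
  haveI := liesOver_span_of_natCast_mem p 𝔭 h𝔭
  haveI := liesOver_span_of_natCast_mem p 𝔭' h𝔭'
  rw [IsCyclotomicExtension.Rat.eq_span_zeta_sub_one_of_liesOver' p K
      (IsCyclotomicExtension.zeta_spec p ℚ K) 𝔭,
    IsCyclotomicExtension.Rat.eq_span_zeta_sub_one_of_liesOver' p K
      (IsCyclotomicExtension.zeta_spec p ℚ K) 𝔭']

theorem natCast_mem_smul_iff {G S : Type*} [Group G] [CommRing S] [MulSemiringAction G S]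
    (g : G) (Q : Ideal S) (m : ℕ) : (m : S) ∈ g • Q ↔ (m : S) ∈ Q := by
  rw [Ideal.pointwise_smul_eq_comap, Ideal.mem_comap]
  simp

/-- Every element of `Gal(M/L)` fixes every prime of `M` above `p`. -/
theorem crossM_smul_eq_of_natCast_mem
    (hS : ∀ (Q : Ideal (𝓞 L)) [Q.IsPrime], (p : 𝓞 L) ∈ Q →
      MulAction.stabilizer Gal(L/K) Q = ⊥)
    (Q : Ideal (𝓞 (CrossM (p ^ (t + 1)) L))) [Q.IsPrime]
    (hpQ : (p : 𝓞 (CrossM (p ^ (t + 1)) L)) ∈ Q) (h : Gal(CrossM (p ^ (t + 1)) L/L)) :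
    h • Q = Q := by
  have hpQ' : (p : 𝓞 (CrossM (p ^ (t + 1)) L)) ∈ h • Q := (natCast_mem_smul_iff h Q p).mpr hpQ
  -- both lie over the unique prime of `E` above `p`
  have hunder : Q.under (𝓞 (crossE (p ^ (t + 1)) K L)) =
      (h • Q).under (𝓞 (crossE (p ^ (t + 1)) K L)) := by
    apply crossE_unique_prime t
    · rw [Ideal.under_def, Ideal.mem_comap]; simpa using hpQ
    · rw [Ideal.under_def, Ideal.mem_comap]; simpa using hpQ'
  obtain ⟨g, hg⟩ := Algebra.IsInvariant.exists_smul_of_under_eq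
    (𝓞 (crossE (p ^ (t + 1)) K L)) (𝓞 (CrossM (p ^ (t + 1)) L))
    Gal(CrossM (p ^ (t + 1)) L/crossE (p ^ (t + 1)) K L) Q (h • Q) hunder
  -- `g` restricted to `L` stabilises `Q ∩ L`
  have hunderL : (h • Q).under (𝓞 L) = Q.under (𝓞 L) := by
    ext x
    rw [Ideal.under_def, Ideal.mem_comap, Ideal.mem_comap,
      Ideal.mem_pointwise_smul_iff_inv_smul_mem]
    have : h⁻¹ • (algebraMap (𝓞 L) (𝓞 (CrossM (p ^ (t + 1)) L)) x) =
        algebraMap (𝓞 L) (𝓞 (CrossM (p ^ (t + 1)) L)) x := by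
      apply RingOfIntegers.ext
      exact h⁻¹.commutes (x : L)
    rw [this]
  have hstab : resGal K (crossE (p ^ (t + 1)) K L) L (CrossM (p ^ (t + 1)) L) g ∈
      MulAction.stabilizer Gal(L/K) (Q.under (𝓞 L)) := by
    rw [MulAction.mem_stabilizer_iff]
    ext x
    rw [Ideal.mem_pointwise_smul_iff_inv_smul_mem, ← map_inv]
    conv_rhs => rw [← hunderL, hg]
    rw [Ideal.under_def, Ideal.mem_comap, Ideal.mem_comap, coe_resGal_smul,
      Ideal.mem_pointwise_smul_iff_inv_smul_mem]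
  have hpQL : (p : 𝓞 L) ∈ Q.under (𝓞 L) := by
    rw [Ideal.under_def, Ideal.mem_comap]; simpa using hpQ
  rw [hS _ hpQL, Subgroup.mem_bot] at hstab
  have hg1 : g = 1 := eq_one_of_resGal_eq_one (K := K) (isCompositum_cross _ K L) g hstab
  rw [hg, hg1, one_smul]

theorem exists_pow_eq_of_mem_zpowers {G : Type*} [Group G] [Finite G] {σ g : G}
    (h : g ∈ Subgroup.zpowers σ) : ∃ a : ℕ, g = σ ^ a := by
  rw [← mem_powers_iff_mem_zpowers] at h
  obtain ⟨a, ha⟩ := (Submonoid.mem_powers_iff _ _).mp h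
  exact ⟨a, ha.symm⟩

/-- `Gal(M/K)` is generated by `Gal(M/E)` and `Gal(M/L)`. -/
theorem crossM_gal_eq_mul (hcard : Nat.card Gal(L/K) = p)
    (hS : ∀ (Q : Ideal (𝓞 L)) [Q.IsPrime], (p : 𝓞 L) ∈ Q →
      MulAction.stabilizer Gal(L/K) Q = ⊥) (γ : Gal(CrossM (p ^ (t + 1)) L/K)) :
    ∃ (g : Gal(CrossM (p ^ (t + 1)) L/crossE (p ^ (t + 1)) K L))
      (h : Gal(CrossM (p ^ (t + 1)) L/L)),
      γ = g.restrictScalars K * h.restrictScalars K := by
  obtain ⟨g, hg⟩ := resGal_cross_surjective p t K L hcard hS (AlgEquiv.restrictNormalHom L γ)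
  obtain ⟨h, hh⟩ := (resGal_cross_symm_bijective t hcard hS).2
    (AlgEquiv.restrictNormalHom (crossE (p ^ (t + 1)) K L) γ)
  refine ⟨g, h, ?_⟩
  apply galProd_injective (K := K) (F := crossE (p ^ (t + 1)) K L) (L := L)
    (isCompositum_cross _ K L)
  have h1 : galProd (K := K) (F := crossE (p ^ (t + 1)) K L) (L := L)
      (g.restrictScalars K) = (AlgEquiv.restrictNormalHom L γ, 1) := by
    rw [← hg]; exact galProd_restrictScalars g
  have h2 : galProd (K := K) (F := crossE (p ^ (t + 1)) K L) (L := L)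
      (h.restrictScalars K) =
      (1, AlgEquiv.restrictNormalHom (crossE (p ^ (t + 1)) K L) γ) := by
    rw [galProd_apply, ← hh]
    have := restrictNormalHom_restrictScalars_eq_one (K := K) (F := L) h
    rw [AlgEquiv.restrictScalarsHom_apply] at this
    rw [this]
    rfl
  rw [map_mul, h1, h2, galProd_apply]
  ext1
  · simp
  · simp

/-- **The crossing square** for `K = ℚ(ζ_p)`, `L/K` cyclic of degree `p` unramified everywhere
with the primes above `p` split completely, `E = K(ζ_{p^(t+1)})`, `M = L(ζ_{p^(t+1)})`. -/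
theorem nonempty_crossSq (hp2 : p ≠ 2) (hcard : Nat.card Gal(L/K) = p)
    (hU : IsUnramifiedEverywhere K L)
    (hS : ∀ (Q : Ideal (𝓞 L)) [Q.IsPrime], (p : 𝓞 L) ∈ Q →
      MulAction.stabilizer Gal(L/K) Q = ⊥) :
    Nonempty (CrossSq p t K L (crossE (p ^ (t + 1)) K L) (CrossM (p ^ (t + 1)) L)) := by
  have hgen := isCompositum_cross (p ^ (t + 1)) K L
  -- generators
  have hcσ := card_gal_crossM_E p t K L hcard hS
  haveI : IsCyclic Gal(CrossM (p ^ (t + 1)) L/crossE (p ^ (t + 1)) K L) :=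
    isCyclic_of_prime_card hcσ
  obtain ⟨σ, hσ⟩ := IsCyclic.exists_generator
    (α := Gal(CrossM (p ^ (t + 1)) L/crossE (p ^ (t + 1)) K L))
  haveI : IsCyclic Gal(crossE (p ^ (t + 1)) K L/K) := isCyclic_gal_crossE p t K L hp2
  haveI : IsCyclic Gal(CrossM (p ^ (t + 1)) L/L) :=
    isCyclic_of_injective _ (resGal_cross_symm_bijective t hcard hS).1
  obtain ⟨τ, hτ⟩ := IsCyclic.exists_generator (α := Gal(CrossM (p ^ (t + 1)) L/L))
  have hcτ := card_gal_crossM_L t hcard hS
  refine ⟨{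
    σ := σ
    τ := τ
    hσ := hσ
    hτ := hτ
    card_σ := hcσ
    card_τ := hcτ
    gen := ?_
    resGal_inj := resGal_injective hgen
    orderOf_resτ := ?_
    unram_MK := ?_
    unram_ME := hU.baseChange hgen
    unique_p := fun 𝔭 𝔭' h1 h2 h3 h4 => by
      haveI := h1; haveI := h2; exact cyclo_unique_prime 𝔭 𝔭' h3 h4
    τ_fix := fun Q hQ hpQ => by
      haveI := hQ; exact crossM_smul_eq_of_natCast_mem t hS Q hpQ τ
    stab_σ := fun Q hQ hpQ => by
      haveI := hQ
      apply stabilizer_eq_bot_baseChange (K := K) hgen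
      apply hS
      rw [Ideal.under_def, Ideal.mem_comap]; simpa using hpQ }⟩
  · intro γ
    obtain ⟨g, h, rfl⟩ := crossM_gal_eq_mul t hcard hS γ
    obtain ⟨a, rfl⟩ := exists_pow_eq_of_mem_zpowers (hσ g)
    obtain ⟨c, rfl⟩ := exists_pow_eq_of_mem_zpowers (hτ h)
    exact ⟨a, c, by
      rw [← AlgEquiv.restrictScalarsHom_apply, ← AlgEquiv.restrictScalarsHom_apply, map_pow,
        map_pow]; rfl⟩
  · have h1 : AlgEquiv.restrictNormalHom (crossE (p ^ (t + 1)) K L) (τ.restrictScalars K) =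
        resGal K L (crossE (p ^ (t + 1)) K L) (CrossM (p ^ (t + 1)) L) τ := rfl
    rw [h1, orderOf_injective _ (resGal_cross_symm_bijective t hcard hS).1,
      orderOf_eq_card_of_forall_mem_zpowers hτ, hcτ]
  · intro Q hQ hpQ
    haveI := hQ
    by_cases hQ0 : Q = ⊥
    · rw [hQ0]; exact inertia_bot_eq_bot
    apply inertia_eq_bot_of_isCompositum (K := K) hgen Q
    · apply hU
      · infer_instance
      · exact Ideal.under_ne_bot (𝓞 L) hQ0
    · apply inertia_eq_bot_of_natCast_not_mem K (crossE (p ^ (t + 1)) K L)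
        (n := p ^ (t + 1))
      intro hmem
      apply hpQ
      have h2 : ((p ^ (t + 1) : ℕ) : 𝓞 (CrossM (p ^ (t + 1)) L)) ∈ Q := by
        rw [Ideal.under_def, Ideal.mem_comap] at hmem
        simpa using hmem
      rw [Nat.cast_pow] at h2
      exact hQ.mem_of_pow_mem _ h2

end Build

end Fermat.Agent.CFT
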