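/-
`Fermat/Agent/CFT/Global/HCFDry.lean` (helper7, stream [C]): integration dry run.

`HCFStar p` from: the crossing theorem (as a hypothesis `CrossMainShape`), the Hasse norm theorem
(contract `HasseNorm`, as a hypothesis), and the landed pieces: `nonempty_crossSq`, (R3).
-/
import Mathlib
import Fermat.Agent.CFT.Global.Contracts
import Fermat.Agent.CFT.Global.CrossDefs
import Fermat.Agent.CFT.Global.CrossSqCyclo
import Fermat.Agent.CFT.Global.AnalyticPrimes
import Fermat.Agent.CFT.S14.HCFShape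

set_option autoImplicit false
set_option linter.unusedSectionVars false

open NumberField
open scoped Pointwise IsMulCommutative

namespace Fermat.Agent.CFT

/-- The expected shape of the crossing theorem (X) (helper23's `CrossMain`), for the cyclotomic
square. -/
def CrossMainShape (p : ℕ) [Fact p.Prime] : Prop :=
  ∀ (t : ℕ) (K L : Type) [Field K] [NumberField K] [Field L] [NumberField L] [Algebra K L]
    [IsGalois K L] [IsCyclotomicExtension {p} ℚ K] [IsMulCommutative Gal(L/K)],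
    1 ≤ t → p ≠ 2 → Nat.card Gal(L/K) = p → IsUnramifiedEverywhere K L →
    CrossSq p t K L (crossE (p ^ (t + 1)) K L) (CrossM (p ^ (t + 1)) L) →
    HasseNorm p (crossE (p ^ (t + 1)) K L) (CrossM (p ^ (t + 1)) L) →
    ∀ β : 𝓞 K, β ≠ 0 → IsPrimeToNat p β →
      (∀ 𝔮 : Ideal (𝓞 K), 𝔮.IsMaximal → β ∈ 𝔮 → Ideal.absNorm 𝔮 < p ^ (t + 1)) →
      artinIdeal K L (Ideal.span {β}) = 1

/-- The Hasse norm theorem for all unramified cyclic extensions of degree `p` (Type-0 fields). -/
def HasseNormAll (p : ℕ) : Prop :=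
  ∀ (F M : Type) [Field F] [NumberField F] [Field M] [NumberField M] [Algebra F M]
    [IsGalois F M], HasseNorm p F M

theorem absNorm_le_of_mem {K : Type*} [Field K] [NumberField K] {β : 𝓞 K} (hβ : β ≠ 0)
    (𝔮 : Ideal (𝓞 K)) (h : β ∈ 𝔮) : Ideal.absNorm 𝔮 ≤ Ideal.absNorm (Ideal.span {β}) := by
  have hdvd : 𝔮 ∣ Ideal.span {β} := by
    rw [Ideal.dvd_span_singleton]; exact h
  have h2 := Ideal.absNorm_dvd_absNorm_of_le (Ideal.le_of_dvd hdvd)
  refine Nat.le_of_dvd (Nat.pos_of_ne_zero ?_) h2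
  rw [Ne, Ideal.absNorm_eq_zero_iff, Ideal.span_singleton_eq_bot]
  exact hβ

/-- **Integration dry run**: `HCFStar p` from the crossing theorem and the Hasse norm theorem. -/
theorem hcfStar_of_shapes (p : ℕ) [hp : Fact p.Prime] (h3 : 3 ≤ p)
    (hX : CrossMainShape p) (hH : HasseNormAll p) : S14.HCFStar p := by
  intro K L _ _ _ _ _ _ _ _ hcard hU hS
  have hp2 : p ≠ 2 := by omega
  have hU' : IsUnramifiedEverywhere K L := fun Q hQ hQ0 => @hU Q hQ hQ0
  refine ⟨?_, ?_⟩
  · intro β hβ0 hβp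
    set t : ℕ := Ideal.absNorm (Ideal.span {β}) + 1 with ht
    obtain ⟨sq⟩ := nonempty_crossSq t hp2 hcard hU' hS
    refine hX t K L (by omega) hp2 hcard hU' sq (hH _ _) β hβ0
      (fun Q hQ hpQ => @hβp Q hQ hpQ) ?_
    intro 𝔮 _ hβ𝔮
    have h1 := absNorm_le_of_mem hβ0 𝔮 hβ𝔮
    have h2 : t + 1 < p ^ (t + 1) := Nat.lt_pow_self hp.out.one_lt
    omega
  · exact exists_artinIdeal_ne_one_of_unramified K L (by rw [hcard]; omega) hU

end Fermat.Agent.CFT
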