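import Mathlib
import Fermat.Agent.CFT.Global.CrossAdapter
import Fermat.Agent.CFT.Global.HCFDry

set_option autoImplicit false
set_option linter.unusedSectionVars false

/-!
# CFT, stream [C], chunk (G7): the crossing theorem in helper7's `CrossMainShape`

`CrossMainShape p` (the hypothesis `hX` of `hcfStar_of_shapes` in `HCFDry.lean`) holds: it is the
crossing theorem `CrossSq.artinIdeal_span_eq_one_of_isCyclotomicExtension` for
`E = crossE (p ^ (t + 1)) K L`, `M = CrossM (p ^ (t + 1)) L`.  Hence `HCFStar p` follows from the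
Hasse norm theorem alone.
-/

open NumberField
open scoped Pointwise IsMulCommutative

namespace Fermat.Agent.CFT

theorem isMulCommutative_of_injective_monoidHom {G H : Type*} [Group G] [Group H]
    [IsMulCommutative H] (f : G →* H) (hf : Function.Injective f) : IsMulCommutative G := by
  refine ⟨⟨fun a b => hf ?_⟩⟩
  rw [map_mul, map_mul, mul_comm' (f a) (f b)]

/-- The crossing theorem `(X)`, in the shape consumed by `hcfStar_of_shapes`. -/
theorem crossMainShape_proved (p : ℕ) [hp : Fact p.Prime] : CrossMainShape p := by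
  intro t K L _ _ _ _ _ _ _ _ ht hp2 hcard hU sq hH β hβ0 hβp hbig
  have : NeZero (p ^ (t + 1)) := ⟨pow_ne_zero _ hp.out.ne_zero⟩
  have hcycE : IsCyclic Gal(crossE (p ^ (t + 1)) K L/K) :=
    isCyclic_gal_crossE (p := p) (t := t) (K := K) (L := L) hp2
  have : IsMulCommutative Gal(crossE (p ^ (t + 1)) K L/K) :=
    ⟨⟨fun a b => (IsCyclic.commGroup).mul_comm a b⟩⟩
  have : IsMulCommutative (Gal(L/K) × Gal(crossE (p ^ (t + 1)) K L/K)) :=
    ⟨⟨fun a b => by ext <;> simp [mul_comm']⟩⟩
  have : IsMulCommutative Gal(CrossM (p ^ (t + 1)) L/K) :=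
    isMulCommutative_of_injective_monoidHom _
      (galProd_injective (K := K) (F := crossE (p ^ (t + 1)) K L) (L := L)
        (isCompositum_cross (p ^ (t + 1)) K L))
  have : IsMulCommutative Gal(CrossM (p ^ (t + 1)) L/crossE (p ^ (t + 1)) K L) :=
    isMulCommutative_of_isCompositum (K := K) (isCompositum_cross (p ^ (t + 1)) K L)
  exact sq.artinIdeal_span_eq_one_of_isCyclotomicExtension hp2 ht hU hH β hβ0 hβp hbig

/-- **`HCFStar p` from the Hasse norm theorem alone.** -/
theorem hcfStar_of_hasseNormAll (p : ℕ) [Fact p.Prime] (h3 : 3 ≤ p) (hH : HasseNormAll p) :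
    S14.HCFStar p :=
  hcfStar_of_shapes p h3 (crossMainShape_proved p) hH

end Fermat.Agent.CFT
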