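import Mathlib

set_option autoImplicit false

/-!
# Inertia degrees in `K(ζ_{p^(t+1)}) / K` for `K ∋ ζ_p`

* `cycloInertia_dvd_absNorm_sub_one` : if `𝓞 F` contains a primitive `n`-th root of unity
  and `P` is a nonzero prime of `𝓞 F` of norm prime to `n`, then `n ∣ N P - 1`.
* `p_dvd_inertiaDeg_of_not_modEq` : `K ∋ ζ_p`, `E ∋ ζ_{p^(t+1)}`, `𝔮` a prime of `K` not
  containing `p` with `N 𝔮 ≢ 1 mod p^(t+1)`, `𝔔` a prime of `E` over `𝔮`; then `p ∣ f(𝔔 | 𝔮)`.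
-/

open scoped NumberField

namespace Fermat.Agent.CFT

open Ideal

/-- Elementary: `a ≡ 1 mod p`, `a ^ f ≡ 1 mod p ^ k`, `p ∤ f` imply `a ≡ 1 mod p ^ k`. -/
theorem cycloInertia_int_modEq_one_of_pow {p : ℕ} (hp : p.Prime) {a : ℤ} {f k : ℕ}
    (ha : (p : ℤ) ∣ a - 1) (haf : (p : ℤ) ^ k ∣ a ^ f - 1) (hf : ¬ p ∣ f) :
    (p : ℤ) ^ k ∣ a - 1 := by
  set S : ℤ := ∑ i ∈ Finset.range f, a ^ i with hS
  have h1 : S * (a - 1) = a ^ f - 1 := geom_sum_mul a f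
  have h2 : (p : ℤ) ∣ S - f := by
    have : S - f = ∑ i ∈ Finset.range f, (a ^ i - 1) := by
      rw [Finset.sum_sub_distrib, hS]
      simp
    rw [this]
    refine Finset.dvd_sum fun i _ => ?_
    have h3 : a - 1 ∣ a ^ i - 1 := by
      simpa using sub_dvd_pow_sub_pow a 1 i
    exact ha.trans h3
  have hpP : Prime (p : ℤ) := Nat.prime_iff_prime_int.mp hp
  have h4 : ¬ (p : ℤ) ∣ S := by
    intro h
    have h5 : (p : ℤ) ∣ (f : ℤ) := by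
      have := dvd_sub h h2
      simpa using this
    exact hf (Int.natCast_dvd_natCast.mp h5)
  have hcop : IsCoprime ((p : ℤ) ^ k) S :=
    IsCoprime.pow_left ((Prime.coprime_iff_not_dvd hpP).mpr h4)
  rw [← h1] at haf
  exact hcop.dvd_of_dvd_mul_left haf

theorem cycloInertia_nat_modEq_one_of_pow {p : ℕ} (hp : p.Prime) {a f k : ℕ}
    (ha : a ≡ 1 [MOD p]) (haf : a ^ f ≡ 1 [MOD p ^ k]) (hf : ¬ p ∣ f) :
    a ≡ 1 [MOD p ^ k] := by
  have h1 : (p : ℤ) ∣ (a : ℤ) - 1 := by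
    have := (Nat.modEq_iff_dvd.mp ha.symm)
    simpa using this
  have h2 : (p : ℤ) ^ k ∣ (a : ℤ) ^ f - 1 := by
    have := (Nat.modEq_iff_dvd.mp haf.symm)
    simpa using this
  have h3 := cycloInertia_int_modEq_one_of_pow hp h1 h2 hf
  apply Nat.ModEq.symm
  rw [Nat.modEq_iff_dvd]
  simpa using h3

section NF

variable {F : Type*} [Field F] [NumberField F]

/-- A rational prime not in the maximal ideal `P` is prime to the norm of `P`. -/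
theorem cycloInertia_coprime_absNorm {p : ℕ} (hp : p.Prime) (P : Ideal (𝓞 F)) [P.IsMaximal]
    (hpP : (p : 𝓞 F) ∉ P) : (absNorm P).Coprime p := by
  rw [Nat.coprime_comm, Nat.Prime.coprime_iff_not_dvd hp]
  intro hdvd
  have : Fact p.Prime := ⟨hp⟩
  let _ := Ideal.Quotient.field P
  have hcard : Nat.card (𝓞 F ⧸ P) = absNorm P := by
    rw [Ideal.absNorm_apply, Submodule.cardQuot_apply]
  rw [← hcard] at hdvd
  obtain ⟨x, hx⟩ := exists_prime_addOrderOf_dvd_card' p hdvd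
  have h1 : p • x = 0 := by
    rw [← hx]; exact addOrderOf_nsmul_eq_zero x
  have h2 : x ≠ 0 := by
    intro h0
    rw [h0, addOrderOf_zero] at hx
    exact hp.one_lt.ne hx
  rw [nsmul_eq_mul] at h1
  have h3 : ((p : ℕ) : 𝓞 F ⧸ P) ≠ 0 := by
    intro h
    apply hpP
    rw [← Ideal.Quotient.eq_zero_iff_mem]
    simpa using h
  exact (mul_ne_zero h3 h2) h1

/-- If `𝓞 F` contains a primitive `n`-th root of unity and the nonzero prime `P` has norm prime to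
`n`, then `N P ≡ 1 mod n`. -/
theorem cycloInertia_dvd_absNorm_sub_one {n : ℕ} [NeZero n] {ζ : 𝓞 F}
    (hζ : IsPrimitiveRoot ζ n) {P : Ideal (𝓞 F)} [hPm : P.IsMaximal]
    (hP₂ : (absNorm P).Coprime n) : n ∣ absNorm P - 1 := by
  let _ := Ideal.Quotient.field P
  have hP₃ : absNorm P ≠ 1 := absNorm_eq_one_iff.not.mpr <| IsPrime.ne_top hPm.isPrime
  have h := Subgroup.card_dvd_of_injective _ (rootsOfUnityMapQuot_injective n hP₃ hP₂)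
  rw [Nat.card_units] at h
  have hcard : Nat.card (rootsOfUnity n (𝓞 F)) = n := hζ.card_rootsOfUnity
  rw [hcard] at h
  have hcard' : Nat.card (𝓞 F ⧸ P) = absNorm P := by
    rw [Ideal.absNorm_apply, Submodule.cardQuot_apply]
  rwa [hcard'] at h

theorem cycloInertia_absNorm_modEq_one {n : ℕ} [NeZero n] {ζ : 𝓞 F}
    (hζ : IsPrimitiveRoot ζ n) {P : Ideal (𝓞 F)} [hPm : P.IsMaximal]
    (hP₂ : (absNorm P).Coprime n) : absNorm P ≡ 1 [MOD n] := by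
  have h := cycloInertia_dvd_absNorm_sub_one hζ hP₂
  have hpos : 1 ≤ absNorm P := by
    have : absNorm P ≠ 0 := by
      rw [Ne, Ideal.absNorm_eq_zero_iff]
      exact (Ideal.bot_lt_of_maximal P (NumberField.RingOfIntegers.not_isField F)).ne'
    omega
  exact ((Nat.modEq_iff_dvd' hpos).mpr h).symm

end NF

section Main

variable {K E : Type*} [Field K] [NumberField K] [Field E] [NumberField E] [Algebra K E]

/-- **Inertia degrees in the `p`-power cyclotomic tower.**  If `K ∋ ζ_p`, `E ∋ ζ_{p^(t+1)}`,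
`𝔮` is a prime of `K` not containing `p` with `N 𝔮 ≢ 1 mod p^(t+1)` and `𝔔` is a prime of `E`
above `𝔮`, then `p` divides the inertia degree of `𝔔` over `K`. -/
theorem p_dvd_inertiaDeg_of_not_modEq (p t : ℕ) (hp : p.Prime)
    {ζ : 𝓞 E} (hζ : IsPrimitiveRoot ζ (p ^ (t + 1))) {ζp : 𝓞 K} (hζp : IsPrimitiveRoot ζp p)
    (𝔮 : Ideal (𝓞 K)) [𝔮.IsMaximal] (𝔔 : Ideal (𝓞 E)) [𝔔.IsPrime] [𝔔.LiesOver 𝔮]
    (hp𝔮 : (p : 𝓞 K) ∉ 𝔮) (hN : ¬ absNorm 𝔮 ≡ 1 [MOD p ^ (t + 1)]) :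
    p ∣ 𝔔.inertiaDeg (𝓞 K) := by
  have : 𝔔.IsMaximal := .of_liesOver_isMaximal 𝔔 𝔮
  have : NeZero p := ⟨hp.ne_zero⟩
  have : NeZero (p ^ (t + 1)) := ⟨pow_ne_zero _ hp.ne_zero⟩
  by_contra hf
  have hcop : (absNorm 𝔮).Coprime p := cycloInertia_coprime_absNorm hp 𝔮 hp𝔮
  have h1 : absNorm 𝔮 ≡ 1 [MOD p] := cycloInertia_absNorm_modEq_one hζp hcop
  have hpow : absNorm 𝔮 ^ 𝔔.inertiaDeg (𝓞 K) = absNorm 𝔔 := Ideal.absNorm_pow_inertiaDeg 𝔮 𝔔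
  have hcop2 : (absNorm 𝔔).Coprime (p ^ (t + 1)) := by
    rw [← hpow]
    exact Nat.Coprime.pow _ _ hcop
  have h2 : absNorm 𝔔 ≡ 1 [MOD p ^ (t + 1)] := cycloInertia_absNorm_modEq_one hζ hcop2
  rw [← hpow] at h2
  exact hN (cycloInertia_nat_modEq_one_of_pow hp h1 h2 hf)

/-- Variant: `1 < N 𝔮 < p^(t+1)`. -/
theorem p_dvd_inertiaDeg_of_absNorm_lt (p t : ℕ) (hp : p.Prime)
    {ζ : 𝓞 E} (hζ : IsPrimitiveRoot ζ (p ^ (t + 1))) {ζp : 𝓞 K} (hζp : IsPrimitiveRoot ζp p)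
    (𝔮 : Ideal (𝓞 K)) [𝔮.IsMaximal] (𝔔 : Ideal (𝓞 E)) [𝔔.IsPrime] [𝔔.LiesOver 𝔮]
    (hp𝔮 : (p : 𝓞 K) ∉ 𝔮) (hlt : absNorm 𝔮 < p ^ (t + 1)) :
    p ∣ 𝔔.inertiaDeg (𝓞 K) := by
  apply p_dvd_inertiaDeg_of_not_modEq p t hp hζ hζp 𝔮 𝔔 hp𝔮
  intro h
  have hmax : 𝔮.IsMaximal := inferInstance
  have h1 : absNorm 𝔮 ≠ 1 := absNorm_eq_one_iff.not.mpr <| IsPrime.ne_top hmax.isPrime
  have h3 : absNorm 𝔮 % p ^ (t + 1) = 1 % p ^ (t + 1) := h
  rw [Nat.mod_eq_of_lt hlt, Nat.mod_eq_of_lt (Nat.one_lt_pow (by omega) hp.one_lt)] at h3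
  exact h1 h3

end Main

end Fermat.Agent.CFT
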