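import Mathlib

set_option autoImplicit false

/-!
# CFT, stream [C] (G7a): the `p`-cyclotomic tower `E = K(ζ_{p^(t+1)})` over `K = ℚ(ζ_p)`

* `isCyclotomicExtension_rat_of_tower`: `E` is the `p^(t+1)`-th cyclotomic field over `ℚ`;
* `finrank_cyclo_tower`, `card_gal_cyclo_tower`: `[E : K] = |Gal(E/K)| = p^t`;
* `odd_card_gal_cyclo_tower`, `isCyclic_gal_cyclo_tower` (`p` odd);
* the unique prime of `E` above `p`: `eq_span_zeta_sub_one_of_natCast_mem`,
  `span_natCast_eq_span_zeta_sub_one_pow`, `smul_span_zeta_sub_one`.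
-/

open NumberField
open scoped Pointwise

namespace Fermat.Agent.CFT

section Tower

/-- `K(ζ_{p^(t+1)})` is the `p^(t+1)`-th cyclotomic field over `ℚ` when `K = ℚ(ζ_p)`. -/
theorem isCyclotomicExtension_rat_of_tower (p : ℕ) [hp : Fact p.Prime] (t : ℕ)
    (K E : Type*) [Field K] [NumberField K] [Field E] [NumberField E] [Algebra K E]
    [hK : IsCyclotomicExtension {p} ℚ K] [hE : IsCyclotomicExtension {p ^ (t + 1)} K E] :
    IsCyclotomicExtension {p ^ (t + 1)} ℚ E := by
  have h1 : IsCyclotomicExtension ({p} ∪ {p ^ (t + 1)}) ℚ E :=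
    IsCyclotomicExtension.trans {p} {p ^ (t + 1)} ℚ K E
      (FaithfulSMul.algebraMap_injective K E)
  rw [Set.union_comm] at h1
  exact (IsCyclotomicExtension.iff_union_of_dvd ℚ E
    ⟨p ^ (t + 1), Set.mem_singleton _, pow_ne_zero _ hp.out.ne_zero,
      dvd_pow_self p (Nat.succ_ne_zero t)⟩).mpr h1

variable (p : ℕ) [hp : Fact p.Prime] (t : ℕ)
  (K E : Type*) [Field K] [NumberField K] [Field E] [NumberField E] [Algebra K E]
  [hK : IsCyclotomicExtension {p} ℚ K] [hE : IsCyclotomicExtension {p ^ (t + 1)} K E]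

include hK hE in
theorem finrank_cyclo_tower : Module.finrank K E = p ^ t := by
  have hE' := isCyclotomicExtension_rat_of_tower p t K E
  have h1 : Module.finrank ℚ E = (p ^ (t + 1)).totient :=
    IsCyclotomicExtension.Rat.finrank (p ^ (t + 1)) E
  have h2 : Module.finrank ℚ K = p.totient := IsCyclotomicExtension.Rat.finrank p K
  have h3 := Module.finrank_mul_finrank ℚ K E
  rw [h1, h2, Nat.totient_prime hp.out, Nat.totient_prime_pow hp.out (Nat.succ_pos t),
    Nat.succ_sub_one] at h3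
  have hp1 : 0 < p - 1 := by have := hp.out.two_le; omega
  rw [mul_comm (p ^ t)] at h3
  exact Nat.eq_of_mul_eq_mul_left hp1 h3

include hK hE in
theorem card_gal_cyclo_tower : Nat.card Gal(E/K) = p ^ t := by
  have : IsGalois K E := IsCyclotomicExtension.isGalois {p ^ (t + 1)} K E
  rw [IsGalois.card_aut_eq_finrank, finrank_cyclo_tower p t K E]

include hK hE in
theorem odd_card_gal_cyclo_tower (hp2 : p ≠ 2) : Odd (Nat.card Gal(E/K)) := by
  rw [card_gal_cyclo_tower p t K E]
  exact (hp.out.odd_of_ne_two hp2).pow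

omit [NumberField K] [NumberField E] hK in
include hE in
theorem isCyclic_gal_cyclo_tower (hp2 : p ≠ 2) : IsCyclic Gal(E/K) := by
  have hζ := IsCyclotomicExtension.zeta_spec (p ^ (t + 1)) K E
  have : NeZero (p ^ (t + 1)) := ⟨pow_ne_zero _ hp.out.ne_zero⟩
  have hcyc : IsCyclic (ZMod (p ^ (t + 1)))ˣ := ZMod.isCyclic_units_of_prime_pow p hp.out hp2 (t + 1)
  exact isCyclic_of_injective (hζ.autToPow K) (hζ.autToPow_injective K)

end Tower

section PrimeOverP

variable (p : ℕ) [hp : Fact p.Prime] (t : ℕ) {E : Type*} [Field E] [NumberField E]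
  [hE : IsCyclotomicExtension {p ^ (t + 1)} ℚ E] {ζ : E} (hζ : IsPrimitiveRoot ζ (p ^ (t + 1)))

/-- a prime of `ℚ(ζ_{p^(t+1)})` containing `p` lies over `p`. -/
theorem liesOver_of_natCast_mem {F : Type*} [Field F] [NumberField F] (P : Ideal (𝓞 F))
    [hP : P.IsPrime] (hmem : (p : 𝓞 F) ∈ P) : P.LiesOver (Ideal.span {(p : ℤ)}) := by
  rw [Ideal.liesOver_iff]
  refine Ideal.IsMaximal.eq_of_le (Int.ideal_span_isMaximal_of_prime p) Ideal.IsPrime.ne_top' ?_
  rw [Ideal.span_singleton_le_iff_mem, Ideal.under_def, Ideal.mem_comap, algebraMap_int_eq,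
    map_natCast]
  exact hmem

include hE in
/-- the unique prime of `ℚ(ζ_{p^(t+1)})` containing `p` is `(ζ - 1)`. -/
theorem eq_span_zeta_sub_one_of_natCast_mem (P : Ideal (𝓞 E)) [hP : P.IsPrime]
    (hmem : (p : 𝓞 E) ∈ P) : P = Ideal.span {hζ.toInteger - 1} := by
  have := liesOver_of_natCast_mem p P hmem
  exact IsCyclotomicExtension.Rat.eq_span_zeta_sub_one_of_liesOver p t E hζ P

include hE in
/-- `(p) = (ζ - 1)^(p^t (p-1))` in `ℚ(ζ_{p^(t+1)})`. -/
theorem span_natCast_eq_span_zeta_sub_one_pow :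
    Ideal.span {(p : 𝓞 E)} = Ideal.span {hζ.toInteger - 1} ^ (p ^ t * (p - 1)) := by
  have h := IsCyclotomicExtension.Rat.map_eq_span_zeta_sub_one_pow p t hζ
  rw [Ideal.map_span, Set.image_singleton, algebraMap_int_eq, map_natCast,
    IsCyclotomicExtension.Rat.finrank (p ^ (t + 1)) E,
    Nat.totient_prime_pow_succ hp.out] at h
  exact h

include hE in
/-- every automorphism fixes the prime above `p`. -/
theorem smul_span_zeta_sub_one {G : Type*} [Group G] [MulSemiringAction G (𝓞 E)] (g : G) :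
    g • Ideal.span {hζ.toInteger - 1} = Ideal.span {hζ.toInteger - 1} := by
  have hprime : (Ideal.span {hζ.toInteger - 1}).IsPrime :=
    IsCyclotomicExtension.Rat.isPrime_span_zeta_sub_one p t hζ
  have h1 : (g • Ideal.span {hζ.toInteger - 1}).IsPrime := by
    rw [Ideal.pointwise_smul_eq_comap]
    exact Ideal.comap_isPrime _ _
  refine eq_span_zeta_sub_one_of_natCast_mem p t hζ _ ?_
  have hmem := IsCyclotomicExtension.Rat.p_mem_span_zeta_sub_one p t hζ
  have : g • (p : 𝓞 E) ∈ g • Ideal.span {hζ.toInteger - 1} :=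
    Ideal.smul_mem_pointwise_smul _ _ _ hmem
  have h2 : g • (p : 𝓞 E) = (p : 𝓞 E) := map_natCast (MulSemiringAction.toRingHom G (𝓞 E) g) p
  rwa [h2] at this

end PrimeOverP

end Fermat.Agent.CFT
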