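import Mathlib
import Fermat.Agent.CFT.Global.PrimeDivisor

set_option autoImplicit false
set_option linter.unusedSectionVars false

/-!
# Stream C (Global) : divisors and the class group (helper11)

`R` Dedekind with fraction field `K`: `fracIdealDiv` is an isomorphism (`fracIdealDivEquiv`),
`divisorClass R K : Multiplicative (HeightOneSpectrum R →₀ ℤ) →* ClassGroup R` is onto with kernel the
principal divisors (`divisorClass_surjective`, `ker_divisorClass`), `divisorClass_mk0` (class of the divisor of
an integral ideal), `fracIdealDiv_prime_pow`.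
-/

namespace Fermat.Agent.CFT

open IsDedekindDomain IsDedekindDomain.HeightOneSpectrum
open scoped Pointwise nonZeroDivisors WithZero

section ClassGroupBridge

variable (R : Type*) [CommRing R] [IsDedekindDomain R] (K : Type*) [Field K] [Algebra R K]
  [IsFractionRing R K]

open FractionalIdeal in
theorem fracIdealDiv_injective : Function.Injective (fracIdealDiv R K) := by
  intro I J h
  have hc : ∀ v : HeightOneSpectrum R, count K v (I : FractionalIdeal R⁰ K) =
      count K v (J : FractionalIdeal R⁰ K) := fun v => by
    rw [← fracIdealDiv_apply, ← fracIdealDiv_apply, h]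
  apply Units.ext
  rw [← finprod_heightOneSpectrum_factorization' (K := K) I.ne_zero,
    ← finprod_heightOneSpectrum_factorization' (K := K) J.ne_zero]
  exact finprod_congr fun v => by rw [hc v]

/-- `fracIdealDiv` as an isomorphism. -/
noncomputable def fracIdealDivEquiv :
    (FractionalIdeal R⁰ K)ˣ ≃* Multiplicative (HeightOneSpectrum R →₀ ℤ) :=
  MulEquiv.ofBijective (fracIdealDiv R K) ⟨fracIdealDiv_injective R K, fracIdealDiv_surjective R K⟩

theorem fracIdealDivEquiv_apply (I : (FractionalIdeal R⁰ K)ˣ) :
    fracIdealDivEquiv R K I = fracIdealDiv R K I := rfl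

theorem classGroup_mk_eq_one_iff_mem_range {I : (FractionalIdeal R⁰ K)ˣ} :
    ClassGroup.mk K I = 1 ↔ I ∈ (toPrincipalIdeal R K).range := by
  rw [← (ClassGroup.equiv K).injective.eq_iff]
  simp only [ClassGroup.equiv_mk, FractionalIdeal.canonicalEquiv_self,
    RingEquiv.coe_mulEquiv_refl, QuotientGroup.mk'_apply, map_one, QuotientGroup.eq_one_iff]
  simp

theorem classGroup_mk_surjective : Function.Surjective (ClassGroup.mk (R := R) K) := by
  intro x
  exact ClassGroup.induction (K := K) (P := fun x => ∃ I, ClassGroup.mk K I = x)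
    (fun I => ⟨I, rfl⟩) x

/-- The class of a divisor. -/
noncomputable def divisorClass : Multiplicative (HeightOneSpectrum R →₀ ℤ) →* ClassGroup R :=
  (ClassGroup.mk (R := R) K).comp (fracIdealDivEquiv R K).symm.toMonoidHom

theorem divisorClass_fracIdealDiv (I : (FractionalIdeal R⁰ K)ˣ) :
    divisorClass R K (fracIdealDiv R K I) = ClassGroup.mk K I := by
  unfold divisorClass
  rw [MonoidHom.comp_apply, ← fracIdealDivEquiv_apply]
  simp

theorem divisorClass_surjective : Function.Surjective (divisorClass R K) := by
  intro x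
  obtain ⟨I, rfl⟩ := classGroup_mk_surjective R K x
  exact ⟨fracIdealDiv R K I, divisorClass_fracIdealDiv R K I⟩

theorem ker_divisorClass :
    (divisorClass R K).ker = AddSubgroup.toSubgroup (divHom R K).range := by
  ext D
  obtain ⟨I, rfl⟩ := fracIdealDiv_surjective R K D
  rw [MonoidHom.mem_ker, divisorClass_fracIdealDiv, classGroup_mk_eq_one_iff_mem_range]
  constructor
  · rintro ⟨x, rfl⟩
    rw [fracIdealDiv_toPrincipalIdeal]
    exact ⟨Additive.ofMul x⁻¹, rfl⟩
  · rintro ⟨x, hx⟩
    refine ⟨(Additive.toMul x)⁻¹, ?_⟩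
    apply fracIdealDiv_injective R K
    rw [fracIdealDiv_toPrincipalIdeal, inv_inv]
    exact congrArg Multiplicative.ofAdd hx

/-- The class of the divisor of a nonzero integral ideal is its ideal class. -/
theorem divisorClass_mk0 (J : (Ideal R)⁰) :
    divisorClass R K (fracIdealDiv R K (FractionalIdeal.mk0 K J)) = ClassGroup.mk0 J := by
  rw [divisorClass_fracIdealDiv, ClassGroup.mk_mk0]

open FractionalIdeal in
/-- The divisor of a power of a prime. -/
theorem fracIdealDiv_prime_pow (q : HeightOneSpectrum R) (m : ℕ)
    (h : q.asIdeal ^ m ∈ (Ideal R)⁰) :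
    fracIdealDiv R K (FractionalIdeal.mk0 K ⟨q.asIdeal ^ m, h⟩) =
      Multiplicative.ofAdd (Finsupp.single q (m : ℤ)) := by
  classical
  apply Multiplicative.toAdd.injective
  ext v
  rw [fracIdealDiv_apply, toAdd_ofAdd, FractionalIdeal.coe_mk0, coeIdeal_pow, count_pow,
    count_maximal, Finsupp.single_apply]
  by_cases h1 : q = v
  · rw [if_pos h1, if_pos h1]; simp
  · rw [if_neg h1, if_neg h1]; simp

end ClassGroupBridge

end Fermat.Agent.CFT
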