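import Mathlib
import Fermat.Agent.CFT.Global.PermLattice
import Fermat.Agent.CFT.Coh.CyclicHerbrand

set_option autoImplicit false

/-!
# Stream C (Global) : finitely supported permutation modules (helper11)

`G = ⟨σ⟩` finite cyclic acting on an arbitrary set `X`; the module `X →₀ ℤ` with the local instance
`Finsupp.comapDistribMulAction` (`(τ • D) x = D (τ⁻¹ • x)`), in the vocabulary of `Coh/Interface.lean`.

* `finsupp_ker_normHom_le_range_subOneHom` : `Ĥ⁻¹(G, ℤ^(X)) = 0`;
* for `r : X → Y` whose fibres are the `G`-orbits: `pullDiv r`, `range_pullDiv`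
  (invariants = pull-backs), `normHom_single`, `range_normHom_finsupp`
  (norms = pull-backs of `dvdDiv n`, `n (r x) = |Stab x|`).
-/

namespace Fermat.Agent.CFT

open scoped BigOperators
open Finset Function MulAction

section PermFinsupp

attribute [local instance] Finsupp.comapDistribMulAction

variable {G : Type*} [Group G] [Fintype G] {X : Type*} [MulAction G X]

omit [Fintype G] in
theorem finsupp_smul_apply (τ : G) (D : X →₀ ℤ) (x : X) : (τ • D) x = D (τ⁻¹ • x) :=
  Finsupp.comapSMul_apply τ D x

omit [Fintype G] in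
theorem finsupp_subOneHom_apply (σ : G) (D : X →₀ ℤ) (x : X) :
    subOneHom (X →₀ ℤ) σ D x = permSubOne σ (⇑D) x := by
  rw [subOneHom_apply, Finsupp.sub_apply, finsupp_smul_apply, permSubOne_apply]

theorem finsupp_normHom_apply (D : X →₀ ℤ) (x : X) :
    normHom G (X →₀ ℤ) D x = permNorm G (⇑D) x := by
  rw [normHom_apply, Finsupp.finsetSum_apply, permNorm_apply]
  exact Finset.sum_congr rfl fun τ _ => finsupp_smul_apply τ D x

variable {σ : G} (hσ : ∀ τ, τ ∈ Subgroup.zpowers σ)

include hσ in
/-- `Ĥ⁻¹(G, ℤ^(X)) = 0` for finitely supported functions on an arbitrary `G`-set. -/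
theorem finsupp_ker_normHom_le_range_subOneHom :
    (normHom G (X →₀ ℤ)).ker ≤ (subOneHom (X →₀ ℤ) σ).range := by
  classical
  intro D hD
  have hD' : (⇑D : X → ℤ) ∈ (permNorm G (X := X)).ker := by
    rw [AddMonoidHom.mem_ker]
    funext x
    rw [← finsupp_normHom_apply, (show normHom G (X →₀ ℤ) D = 0 from hD)]
    rfl
  obtain ⟨g, hg⟩ := ker_permNorm_le_range_permSubOne hσ hD'
  -- truncate `g` to the `G`-saturation of the support of `D`
  let S : Set X := {x | ∃ τ : G, τ • x ∈ D.support}
  have hSfin : S.Finite := by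
    have : S ⊆ ⋃ τ : G, (fun x => τ⁻¹ • x) '' (D.support : Set X) := by
      rintro x ⟨τ, hτ⟩
      refine Set.mem_iUnion.mpr ⟨τ, τ • x, hτ, ?_⟩
      simp
    exact (Set.finite_iUnion fun τ => (D.support.finite_toSet).image _).subset this
  have hS_smul : ∀ (ρ : G) (x : X), ρ • x ∈ S ↔ x ∈ S := by
    intro ρ x
    constructor
    · rintro ⟨τ, hτ⟩
      exact ⟨τ * ρ, by rwa [mul_smul]⟩
    · rintro ⟨τ, hτ⟩
      exact ⟨τ * ρ⁻¹, by rwa [mul_smul, inv_smul_smul]⟩
  let g' : X → ℤ := fun x => if x ∈ S then g x else 0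
  have hg'fin : (Function.support g').Finite := by
    refine hSfin.subset ?_
    intro x hx
    by_contra hxS
    exact hx (if_neg hxS)
  refine ⟨Finsupp.ofSupportFinite g' hg'fin, ?_⟩
  ext x
  rw [finsupp_subOneHom_apply, permSubOne_apply]
  change g' (σ⁻¹ • x) - g' x = D x
  by_cases hx : x ∈ S
  · have hx' : σ⁻¹ • x ∈ S := (hS_smul σ⁻¹ x).mpr hx
    simp only [g', if_pos hx, if_pos hx']
    have := congrFun hg x
    rwa [permSubOne_apply] at this
  · have hx' : σ⁻¹ • x ∉ S := fun h => hx ((hS_smul σ⁻¹ x).mp h)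
    simp only [g', if_neg hx, if_neg hx', sub_self]
    have : x ∉ D.support := fun h => hx ⟨1, by rwa [one_smul]⟩
    exact (Finsupp.notMem_support_iff.mp this).symm

/-! ### Pull-back along a map whose fibres are the orbits -/

section Pullback

variable {Y : Type*} (r : X → Y)

/-- The subgroup `{D | ∀ y, n y ∣ D y}` of divisors on `Y`. -/
def dvdDiv (n : Y → ℕ) : AddSubgroup (Y →₀ ℤ) where
  carrier := {D | ∀ y, (n y : ℤ) ∣ D y}
  zero_mem' := fun y => by simp
  add_mem' := fun {a b} ha hb y => by
    rw [Finsupp.add_apply]; exact dvd_add (ha y) (hb y)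
  neg_mem' := fun {a} ha y => by
    rw [Finsupp.neg_apply]; exact (dvd_neg).mpr (ha y)

omit [Group G] [Fintype G] [MulAction G X] in
theorem mem_dvdDiv {n : Y → ℕ} {D : Y →₀ ℤ} : D ∈ dvdDiv n ↔ ∀ y, (n y : ℤ) ∣ D y := Iff.rfl

/-- Pull-back of finitely supported functions along a map with finite fibres. -/
noncomputable def pullDiv (hfib : ∀ y, (r ⁻¹' {y}).Finite) : (Y →₀ ℤ) →+ (X →₀ ℤ) where
  toFun D := Finsupp.ofSupportFinite (fun x => D (r x)) (by
    have : Function.support (fun x => D (r x)) ⊆ ⋃ y ∈ D.support, r ⁻¹' {y} := by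
      intro x hx
      simp only [Set.mem_iUnion, Set.mem_preimage, Set.mem_singleton_iff, exists_prop]
      exact ⟨r x, Finsupp.mem_support_iff.mpr hx, rfl⟩
    exact (Set.Finite.biUnion D.support.finite_toSet fun y _ => hfib y).subset this)
  map_zero' := by
    ext x; rfl
  map_add' D₁ D₂ := by
    ext x; rfl

omit [Group G] [Fintype G] [MulAction G X] in
@[simp] theorem pullDiv_apply (hfib : ∀ y, (r ⁻¹' {y}).Finite) (D : Y →₀ ℤ) (x : X) :
    pullDiv r hfib D x = D (r x) := rfl

omit [Group G] [Fintype G] [MulAction G X] in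
theorem pullDiv_injective (hfib : ∀ y, (r ⁻¹' {y}).Finite) (hsurj : Function.Surjective r) :
    Function.Injective (pullDiv r hfib) := by
  intro D₁ D₂ h
  ext y
  obtain ⟨x, rfl⟩ := hsurj y
  exact DFunLike.congr_fun h x

variable (hr : ∀ x x', r x = r x' ↔ orbitRel G X x x')

include hr in
omit [Fintype G] in
theorem fibre_finite_of_orbitRel [Finite G] (y : Y) : (r ⁻¹' {y}).Finite := by
  by_cases h : ∃ x, r x = y
  · obtain ⟨x, rfl⟩ := h
    have : r ⁻¹' {r x} ⊆ Set.range fun τ : G => τ • x := by
      intro x' hx'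
      have : orbitRel G X x' x := (hr x' x).mp hx'
      exact this
    exact (Set.finite_range _).subset this
  · have : r ⁻¹' {y} = ∅ := by
      ext x
      simp only [Set.mem_preimage, Set.mem_singleton_iff, Set.mem_empty_iff_false, iff_false]
      exact fun hx => h ⟨x, hx⟩
    rw [this]
    exact Set.finite_empty

include hr in
omit [Fintype G] in
theorem map_smul_of_orbitRel (τ : G) (x : X) : r (τ • x) = r x :=
  (hr (τ • x) x).mpr (mem_orbit x τ)

include hr hσ in
/-- The `σ`-invariant divisors are the pull-backs. -/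
theorem range_pullDiv (hfib : ∀ y, (r ⁻¹' {y}).Finite) (hsurj : Function.Surjective r) :
    (pullDiv r hfib).range = (subOneHom (X →₀ ℤ) σ).ker := by
  classical
  ext D
  constructor
  · rintro ⟨D', rfl⟩
    rw [mem_ker_subOneHom]
    ext x
    rw [finsupp_smul_apply, pullDiv_apply, pullDiv_apply, map_smul_of_orbitRel r hr]
  · intro hD
    have hinv : (⇑D : X → ℤ) ∈ (permSubOne (X := X) σ).ker := by
      rw [AddMonoidHom.mem_ker]
      funext x
      rw [← finsupp_subOneHom_apply, (show subOneHom (X →₀ ℤ) σ D = 0 from hD)]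
      rfl
    let s : Y → X := Function.surjInv hsurj
    have hs : ∀ y, r (s y) = y := Function.surjInv_eq hsurj
    have hfin : (Function.support fun y => D (s y)).Finite := by
      have : (Function.support fun y => D (s y)) ⊆ r '' (D.support : Set X) := by
        intro y hy
        exact ⟨s y, Finsupp.mem_support_iff.mpr hy, hs y⟩
      exact (D.support.finite_toSet.image r).subset this
    refine ⟨Finsupp.ofSupportFinite (fun y => D (s y)) hfin, ?_⟩
    ext x
    rw [pullDiv_apply]
    change D (s (r x)) = D x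
    have : orbitRel G X (s (r x)) x := (hr _ _).mp (hs (r x))
    exact apply_eq_of_orbitRel hσ hinv this

include hr in
/-- The norm of a point divisor. -/
theorem normHom_single (hfib : ∀ y, (r ⁻¹' {y}).Finite) (x : X) (a : ℤ) :
    normHom G (X →₀ ℤ) (Finsupp.single x a) =
      pullDiv r hfib (Finsupp.single (r x) ((Nat.card (stabilizer G x) : ℤ) * a)) := by
  classical
  ext x'
  rw [finsupp_normHom_apply, permNorm_apply, pullDiv_apply]
  simp only [Finsupp.single_apply]
  rw [← Finset.sum_filter, Finset.sum_const]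
  have hc := card_filter_inv_smul_eq (G := G) x' x
  have : (univ.filter fun τ : G => x = τ⁻¹ • x') = univ.filter fun τ : G => τ⁻¹ • x' = x := by
    ext τ; simp [eq_comm]
  rw [this, hc]
  by_cases h : r x = r x'
  · have h' : x ∈ orbit G x' := (hr x x').mp h
    rw [if_pos h', if_pos h]
    simp
  · have h' : x ∉ orbit G x' := fun hx => h ((hr x x').mpr hx)
    rw [if_neg h', if_neg h]
    simp

include hr in
/-- The norms are the pull-backs of the divisors divisible by the stabiliser orders. -/
theorem range_normHom_finsupp (hfib : ∀ y, (r ⁻¹' {y}).Finite) (hsurj : Function.Surjective r)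
    (n : Y → ℕ) (hn : ∀ x, Nat.card (stabilizer G x) = n (r x)) :
    (normHom G (X →₀ ℤ)).range = (dvdDiv n).map (pullDiv r hfib) := by
  classical
  apply le_antisymm
  · rintro _ ⟨D, rfl⟩
    induction D using Finsupp.induction_linear with
    | zero => rw [map_zero]; exact zero_mem _
    | add f g hf hg => rw [map_add]; exact add_mem hf hg
    | single x a =>
      rw [normHom_single r hr hfib]
      refine ⟨_, ?_, rfl⟩
      intro y
      rw [Finsupp.single_apply]
      split_ifs with h
      · rw [hn x, h]; exact dvd_mul_right _ _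
      · exact dvd_zero _
  · rintro _ ⟨D', hD', rfl⟩
    let s : Y → X := Function.surjInv hsurj
    have hs : ∀ y, r (s y) = y := Function.surjInv_eq hsurj
    have hdecomp : D' = D'.sum fun y a => Finsupp.single y a := (Finsupp.sum_single D').symm
    rw [hdecomp, Finsupp.sum, map_sum]
    refine sum_mem fun y _ => ?_
    obtain ⟨k, hk⟩ := hD' y
    refine ⟨Finsupp.single (s y) k, ?_⟩
    rw [normHom_single r hr hfib, hs, hn, hs, hk]

end Pullback

end PermFinsupp

end Fermat.Agent.CFT
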