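import Mathlib
import Fermat.Agent.CFT.Coh.TwoStep
import Fermat.Agent.CFT.Global.PermFinsupp
import Fermat.Agent.CFT.Global.PrimeDivisor
import Fermat.Agent.CFT.Global.UnitsHerbrand
import Fermat.Agent.CFT.Local.NormIndex
import Fermat.Agent.CFT.Global.Contracts

set_option autoImplicit false
set_option linter.unusedSectionVars false

/-!
# Stream C (Global), chunk (G3), part 1: the raw index formula for `(𝓞 M)ˣ → Mˣ → Div M` (helper11)

`M / F` cyclic of odd degree, `G = Gal(M/F) = ⟨σ⟩`.  The three `G`-modules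
`Additive (𝓞 M)ˣ` (`ringUnitsSubOne`, `ringUnitsNorm`, `ringUnitsIncl`), `Additive Mˣ`
(`fieldSubOne`, `fieldNorm`; Hilbert 90 `ker_fieldNorm_le`; invariants `mem_ker_fieldSubOne_iff`;
norms `mem_range_fieldNorm_iff`) and `Div M = HeightOneSpectrum (𝓞 M) →₀ ℤ`
(`divHom_galois_smul`, `divHom_fieldSubOne`, `divHom_fieldNorm`), and helper29's `twoStep_index`:
`firstIneq_raw`.
-/

namespace Fermat.Agent.CFT

open IsDedekindDomain IsDedekindDomain.HeightOneSpectrum NumberField MulAction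
open scoped Pointwise nonZeroDivisors WithZero

/-! ### The field module `Mˣ` -/

section FieldModule

attribute [local instance] additiveDistribMulAction

variable (F M : Type) [Field F] [Field M] [NumberField F] [NumberField M] [Algebra F M]
  [IsGalois F M]

/-- `σ - 1` on `Additive Mˣ`. -/
noncomputable def fieldSubOne (σ : M ≃ₐ[F] M) : Additive Mˣ →+ Additive Mˣ :=
  subOneHom (Additive Mˣ) σ

/-- The norm `∑ τ` on `Additive Mˣ`. -/
noncomputable def fieldNorm : Additive Mˣ →+ Additive Mˣ :=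
  normHom (M ≃ₐ[F] M) (Additive Mˣ)

theorem fieldSubOne_apply (σ : M ≃ₐ[F] M) (x : Additive Mˣ) :
    fieldSubOne F M σ x = Additive.ofMul (σ • Additive.toMul x / Additive.toMul x) := rfl

theorem fieldSubOne_fieldNorm (σ : M ≃ₐ[F] M) (x : Additive Mˣ) :
    fieldSubOne F M σ (fieldNorm F M x) = 0 := subOneHom_normHom σ x

theorem fieldNorm_fieldSubOne (σ : M ≃ₐ[F] M) (x : Additive Mˣ) :
    fieldNorm F M (fieldSubOne F M σ x) = 0 := normHom_subOneHom σ x

theorem toMul_fieldNorm (x : Additive Mˣ) :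
    Additive.toMul (fieldNorm F M x) = ∏ τ : M ≃ₐ[F] M, τ • Additive.toMul x := by
  unfold fieldNorm
  rw [normHom_additive]
  rfl

theorem toMul_fieldSubOne (σ : M ≃ₐ[F] M) (x : Additive Mˣ) :
    Additive.toMul (fieldSubOne F M σ x) = σ • Additive.toMul x / Additive.toMul x := rfl

theorem coe_smul_units (τ : M ≃ₐ[F] M) (u : Mˣ) : ((τ • u : Mˣ) : M) = τ (u : M) := rfl

/-- Hilbert 90. -/
theorem ker_fieldNorm_le {σ : M ≃ₐ[F] M} (hσ : ∀ τ, τ ∈ Subgroup.zpowers σ) :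
    (fieldNorm F M).ker ≤ (fieldSubOne F M σ).range := by
  have h := tateH1Card_units_field F M hσ
  exact hIndex_eq_one_iff.mp h

/-- The invariants of `Mˣ` are `Fˣ`. -/
theorem mem_ker_fieldSubOne_iff {σ : M ≃ₐ[F] M} (hσ : ∀ τ, τ ∈ Subgroup.zpowers σ)
    (x : Additive Mˣ) :
    x ∈ (fieldSubOne F M σ).ker ↔
      ∃ b : Fˣ, Units.map (algebraMap F M : F →* M) b = Additive.toMul x := by
  have h := ker_mulSubOneHom_field F M hσ
  have h1 : x ∈ (fieldSubOne F M σ).ker ↔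
      Additive.toMul x ∈ (mulSubOneHom (M ≃ₐ[F] M) Mˣ σ).ker := by
    rw [AddMonoidHom.mem_ker, MonoidHom.mem_ker]
    rfl
  rw [h1, h, MonoidHom.mem_range]

/-- The norms of `Mˣ`. -/
theorem mem_range_fieldNorm_iff (x : Additive Mˣ) :
    x ∈ (fieldNorm F M).range ↔
      ∃ y : M, y ≠ 0 ∧ algebraMap F M (Algebra.norm F y) = ((Additive.toMul x : Mˣ) : M) := by
  have h1 : x ∈ (fieldNorm F M).range ↔
      Additive.toMul x ∈ (mulNormHom (M ≃ₐ[F] M) Mˣ).range := by
    rw [AddMonoidHom.mem_range, MonoidHom.mem_range]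
    unfold fieldNorm
    rw [normHom_additive]
    rfl
  rw [h1]
  constructor
  · rintro ⟨y, hy⟩
    refine ⟨(y : M), y.ne_zero, ?_⟩
    rw [← hy, Algebra.norm_eq_prod_automorphisms, mulNormHom_apply, Units.coe_prod]
    rfl
  · rintro ⟨y, hy0, hy⟩
    refine ⟨Units.mk0 y hy0, ?_⟩
    ext
    rw [← hy, Algebra.norm_eq_prod_automorphisms, mulNormHom_apply, Units.coe_prod]
    rfl

end FieldModule

/-! ### The divisor module of `M` -/

section DivisorModule

attribute [local instance] additiveDistribMulAction heightOneSpectrumMulAction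
  Finsupp.comapDistribMulAction

variable (F M : Type) [Field F] [Field M] [NumberField F] [NumberField M] [Algebra F M]
  [IsGalois F M]

/-- Galois-equivariance of the divisor map. -/
theorem divHom_galois_smul (τ : M ≃ₐ[F] M) (x : Additive Mˣ) :
    divHom (𝓞 M) M (τ • x) = τ • divHom (𝓞 M) M x := by
  ext w
  rw [finsupp_smul_apply, divHom_apply, divHom_apply, divFun_eq_iff]
  have h := hos_smul_valuation F M τ (τ⁻¹ • w) ((Additive.toMul x : Mˣ) : M)
  rw [smul_inv_smul] at h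
  rw [← valuation_eq_exp_divFun, ← h]
  rfl

theorem divHom_fieldSubOne (σ : M ≃ₐ[F] M) (x : Additive Mˣ) :
    divHom (𝓞 M) M (fieldSubOne F M σ x) =
      subOneHom (HeightOneSpectrum (𝓞 M) →₀ ℤ) σ (divHom (𝓞 M) M x) :=
  hom_subOneHom (divHom (𝓞 M) M) (divHom_galois_smul F M) σ x

theorem divHom_fieldNorm (x : Additive Mˣ) :
    divHom (𝓞 M) M (fieldNorm F M x) =
      normHom (M ≃ₐ[F] M) (HeightOneSpectrum (𝓞 M) →₀ ℤ) (divHom (𝓞 M) M x) :=
  hom_normHom (divHom (𝓞 M) M) (divHom_galois_smul F M) x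

end DivisorModule

/-! ### The unit module `(𝓞 M)ˣ` -/

section UnitsModule

attribute [local instance] additiveDistribMulAction Units.mulDistribMulActionRight

variable (F M : Type) [Field F] [Field M] [NumberField F] [NumberField M] [Algebra F M]
  [IsGalois F M]

/-- `σ - 1` on `Additive (𝓞 M)ˣ`. -/
noncomputable def ringUnitsSubOne (σ : M ≃ₐ[F] M) : Additive (𝓞 M)ˣ →+ Additive (𝓞 M)ˣ :=
  subOneHom (Additive (𝓞 M)ˣ) σ

/-- The norm on `Additive (𝓞 M)ˣ`. -/
noncomputable def ringUnitsNorm : Additive (𝓞 M)ˣ →+ Additive (𝓞 M)ˣ :=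
  normHom (M ≃ₐ[F] M) (Additive (𝓞 M)ˣ)

/-- The inclusion `(𝓞 M)ˣ → Mˣ`, additively. -/
noncomputable def ringUnitsIncl : Additive (𝓞 M)ˣ →+ Additive Mˣ :=
  MonoidHom.toAdditive (Units.map (algebraMap (𝓞 M) M : 𝓞 M →* M))

theorem toMul_ringUnitsIncl (e : Additive (𝓞 M)ˣ) :
    ((Additive.toMul (ringUnitsIncl M e) : Mˣ) : M) = algebraMap (𝓞 M) M (Additive.toMul e : (𝓞 M)ˣ) :=
  rfl

theorem ringUnitsIncl_injective : Function.Injective (ringUnitsIncl M) := by
  intro a b h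
  have h1 : Units.map (algebraMap (𝓞 M) M : 𝓞 M →* M) (Additive.toMul a) =
      Units.map (algebraMap (𝓞 M) M : 𝓞 M →* M) (Additive.toMul b) := h
  have h2 := Units.map_injective (f := (algebraMap (𝓞 M) M : 𝓞 M →* M))
    (RingOfIntegers.coe_injective (K := M)) h1
  exact h2

theorem range_ringUnitsIncl : (ringUnitsIncl M).range = (divHom (𝓞 M) M).ker := by
  ext x
  rw [AddMonoidHom.mem_ker, divHom_eq_zero_iff, AddMonoidHom.mem_range]
  constructor
  · rintro ⟨e, rfl⟩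
    exact ⟨Additive.toMul e, rfl⟩
  · rintro ⟨u, hu⟩
    exact ⟨Additive.ofMul u, hu⟩

theorem toMul_ringUnitsNorm (e : Additive (𝓞 M)ˣ) :
    Additive.toMul (ringUnitsNorm F M e) = ∏ τ : M ≃ₐ[F] M, τ • Additive.toMul e := by
  unfold ringUnitsNorm
  rw [normHom_additive]
  rfl

theorem ringUnitsIncl_ringUnitsSubOne (σ : M ≃ₐ[F] M) (e : Additive (𝓞 M)ˣ) :
    ringUnitsIncl M (ringUnitsSubOne F M σ e) = fieldSubOne F M σ (ringUnitsIncl M e) := by
  apply Additive.toMul.injective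
  rw [toMul_fieldSubOne]
  ext
  rw [toMul_ringUnitsIncl, Units.val_div_eq_div_val, coe_smul_units, toMul_ringUnitsIncl]
  change algebraMap (𝓞 M) M ((σ • Additive.toMul e / Additive.toMul e : (𝓞 M)ˣ) : 𝓞 M) = _
  rw [div_eq_mul_inv, Units.val_mul, map_mul, map_units_inv, div_eq_mul_inv]
  rfl

theorem ringUnitsIncl_ringUnitsNorm (e : Additive (𝓞 M)ˣ) :
    ringUnitsIncl M (ringUnitsNorm F M e) = fieldNorm F M (ringUnitsIncl M e) := by
  apply Additive.toMul.injective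
  rw [toMul_fieldNorm]
  ext
  rw [toMul_ringUnitsIncl, toMul_ringUnitsNorm, Units.coe_prod, Units.coe_prod, map_prod]
  refine Finset.prod_congr rfl fun τ _ => ?_
  rw [coe_smul_units, toMul_ringUnitsIncl]
  rfl

/-- `h((𝓞 M)ˣ) = 1 / [M : F]` for a cyclic extension of odd degree (helper27). -/
theorem herbrand_ringUnits {σ : M ≃ₐ[F] M} (hσ : ∀ τ, τ ∈ Subgroup.zpowers σ)
    (hodd : Odd (Module.finrank F M)) :
    HerbrandDefined (ringUnitsSubOne F M σ) (ringUnitsNorm F M) ∧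
      hIndexQ (ringUnitsSubOne F M σ) (ringUnitsNorm F M) =
        1 / (Fintype.card (M ≃ₐ[F] M) : ℚ) :=
  herbrand_units_of_odd F M hodd hσ

end UnitsModule

/-! ### The abstract index formula for `Mˣ → Div M` -/

section IndexFormula

attribute [local instance] heightOneSpectrumMulAction Finsupp.comapDistribMulAction

variable (F M : Type) [Field F] [Field M] [NumberField F] [NumberField M] [Algebra F M]
  [IsGalois F M]

/-- `[Div(M)^G : div(Fˣ) + N Div(M)] = [M : F] * [Nloc : N Mˣ]`, `Nloc ≠ 0`, in raw form. -/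
theorem firstIneq_raw {σ : M ≃ₐ[F] M} (hσ : ∀ τ, τ ∈ Subgroup.zpowers σ)
    (hodd : Odd (Module.finrank F M)) :
    ((fieldSubOne F M σ).ker.map (divHom (𝓞 M) M) ⊔
        (normHom (M ≃ₐ[F] M) (HeightOneSpectrum (𝓞 M) →₀ ℤ)).range).relIndex
          (subOneHom (HeightOneSpectrum (𝓞 M) →₀ ℤ) σ).ker =
      Fintype.card (M ≃ₐ[F] M) *
        (fieldNorm F M).range.relIndex ((fieldSubOne F M σ).ker ⊓
          (normHom (M ≃ₐ[F] M) (HeightOneSpectrum (𝓞 M) →₀ ℤ)).range.comap (divHom (𝓞 M) M)) ∧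
    (fieldNorm F M).range.relIndex ((fieldSubOne F M σ).ker ⊓
          (normHom (M ≃ₐ[F] M) (HeightOneSpectrum (𝓞 M) →₀ ℤ)).range.comap (divHom (𝓞 M) M)) ≠ 0 := by
  obtain ⟨hdef, hval⟩ := herbrand_ringUnits F M hσ hodd
  have : (divHom (𝓞 M) M).range.FiniteIndex := divHom_range_finiteIndex (𝓞 M) M
  obtain ⟨h1, h2, h3⟩ := twoStep_index (ringUnitsIncl M) (divHom (𝓞 M) M)
    (fE := ringUnitsSubOne F M σ) (gE := ringUnitsNorm F M)
    (fM := fieldSubOne F M σ) (gM := fieldNorm F M)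
    (fI := subOneHom (HeightOneSpectrum (𝓞 M) →₀ ℤ) σ)
    (gI := normHom (M ≃ₐ[F] M) (HeightOneSpectrum (𝓞 M) →₀ ℤ))
    (ringUnitsIncl_injective M) (range_ringUnitsIncl M)
    (ringUnitsIncl_ringUnitsSubOne F M σ) (ringUnitsIncl_ringUnitsNorm F M)
    (divHom_fieldSubOne F M σ) (divHom_fieldNorm F M)
    (fieldSubOne_fieldNorm F M σ) (fieldNorm_fieldSubOne F M σ)
    (subOneHom_normHom σ) (normHom_subOneHom σ)
    (ker_fieldNorm_le F M hσ) (finsupp_ker_normHom_le_range_subOneHom hσ) hdef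
  refine ⟨?_, h2⟩
  set Λ := ((fieldSubOne F M σ).ker.map (divHom (𝓞 M) M) ⊔
        (normHom (M ≃ₐ[F] M) (HeightOneSpectrum (𝓞 M) →₀ ℤ)).range).relIndex
          (subOneHom (HeightOneSpectrum (𝓞 M) →₀ ℤ) σ).ker with hΛ
  set κ := (fieldNorm F M).range.relIndex ((fieldSubOne F M σ).ker ⊓
          (normHom (M ≃ₐ[F] M) (HeightOneSpectrum (𝓞 M) →₀ ℤ)).range.comap (divHom (𝓞 M) M))
    with hκ
  set h0 := hIndex (ringUnitsSubOne F M σ) (ringUnitsNorm F M) with hh0
  set h1' := hIndex (ringUnitsNorm F M) (ringUnitsSubOne F M σ) with hh1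
  have hn : (Fintype.card (M ≃ₐ[F] M) : ℚ) ≠ 0 := by exact_mod_cast Fintype.card_ne_zero
  have h0ne : (h0 : ℚ) ≠ 0 := by exact_mod_cast hdef.1
  have h1ne : (h1' : ℚ) ≠ 0 := by exact_mod_cast hdef.2
  -- h0 / h1' = 1 / n
  have e1 : (h1' : ℚ) = Fintype.card (M ≃ₐ[F] M) * h0 := by
    unfold hIndexQ at hval
    rw [div_eq_div_iff h1ne hn] at hval
    linarith
  have e2 : (Λ : ℚ) * h0 = h1' * κ := by exact_mod_cast h3
  have e3 : (Λ : ℚ) = Fintype.card (M ≃ₐ[F] M) * κ := by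
    rw [e1] at e2
    have : (Λ : ℚ) * h0 = (Fintype.card (M ≃ₐ[F] M) * κ) * h0 := by rw [e2]; ring
    exact mul_right_cancel₀ h0ne this
  exact_mod_cast e3

end IndexFormula

end Fermat.Agent.CFT
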