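import Mathlib
import Fermat.Agent.CFT.Global.FirstIneqRaw
import Fermat.Agent.CFT.Global.DivisorClass

set_option autoImplicit false
set_option linter.unusedSectionVars false

/-!
# Stream C (Global), chunk (G3): the first inequality for unramified cyclic extensions (helper11)

`M / F` a cyclic extension of number fields of odd prime degree `p`, unramified at all finite
primes (`UnramCyclicSetting p F M` of `Global/Contracts.lean`).  Main results:

* `firstIneq_div` : divisor model, `[Div F : PDiv F + N] = [M : F] * [Nloc : N(Mˣ)]`, `[Nloc : N(Mˣ)] ≠ 0`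
  (`N = dvdDiv (decompOrder F M)` = divisors divisible by the decomposition orders,
  `Nloc = nlocM F M σ`);
* `index_normClasses_eq` : `(normClasses F M).index = [Div F : PDiv F + N]`;
* `firstIneqWeak_holds : FirstIneqWeak p F M`, `firstIneqExact_holds : FirstIneqExact p F M`
  (contracts of `Global/Contracts.lean`), for `F M : Type` (Mathlib's cyclic Hilbert 90 lives in
  universe `0`).

Route: helper29's `twoStep_index` applied to `(𝓞 M)ˣ → Mˣ → Div M` (`Global/FirstIneqRaw.lean`),
`h((𝓞 M)ˣ) = 1/p` (helper27), Hilbert 90 (helper8), `Ĥ⁻¹(Div M) = 0` and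
`N(Div M) = pull-back of N` (`Global/PermFinsupp.lean`), `Div F / PDiv F ≅ Cl_F`
(`Global/DivisorClass.lean`).
-/

namespace Fermat.Agent.CFT

open IsDedekindDomain IsDedekindDomain.HeightOneSpectrum NumberField MulAction
open scoped Pointwise nonZeroDivisors WithZero

section Transfer

attribute [local instance] heightOneSpectrumMulAction Finsupp.comapDistribMulAction

variable (F M : Type) [Field F] [Field M] [NumberField F] [NumberField M] [Algebra F M]
  [IsGalois F M]

theorem primeBelow_fibre_finite (q : HeightOneSpectrum (𝓞 F)) :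
    (primeBelow F M ⁻¹' {q}).Finite :=
  fibre_finite_of_orbitRel (G := M ≃ₐ[F] M) (primeBelow F M) (primeBelow_eq_iff_orbitRel F M) q

/-- Pull-back of divisors from `F` to `M` (as functions on primes: `D ↦ D ∘ primeBelow`). -/
noncomputable def divPullback : (HeightOneSpectrum (𝓞 F) →₀ ℤ) →+ (HeightOneSpectrum (𝓞 M) →₀ ℤ) :=
  pullDiv (primeBelow F M) (primeBelow_fibre_finite F M)

theorem divPullback_apply (D : HeightOneSpectrum (𝓞 F) →₀ ℤ) (w : HeightOneSpectrum (𝓞 M)) :
    divPullback F M D w = D (primeBelow F M w) := rfl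

theorem divPullback_injective : Function.Injective (divPullback F M) :=
  pullDiv_injective _ _ (primeBelow_surjective F M)

/-- The order of the decomposition group of (any) prime above `q`. -/
noncomputable def decompOrder (q : HeightOneSpectrum (𝓞 F)) : ℕ :=
  Nat.card (stabilizer (M ≃ₐ[F] M) (Function.surjInv (primeBelow_surjective F M) q))

theorem card_stabilizer_eq_decompOrder (w : HeightOneSpectrum (𝓞 M)) :
    Nat.card (stabilizer (M ≃ₐ[F] M) w) = decompOrder F M (primeBelow F M w) := by
  unfold decompOrder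
  apply card_stabilizer_eq_of_orbitRel
  rw [← primeBelow_eq_iff_orbitRel]
  exact (Function.surjInv_eq (primeBelow_surjective F M) _).symm

theorem ker_subOneHom_div {σ : M ≃ₐ[F] M} (hσ : ∀ τ, τ ∈ Subgroup.zpowers σ) :
    (subOneHom (HeightOneSpectrum (𝓞 M) →₀ ℤ) σ).ker = (divPullback F M).range :=
  (range_pullDiv hσ (primeBelow F M) (primeBelow_eq_iff_orbitRel F M)
    (primeBelow_fibre_finite F M) (primeBelow_surjective F M)).symm

theorem range_normHom_div :
    (normHom (M ≃ₐ[F] M) (HeightOneSpectrum (𝓞 M) →₀ ℤ)).range =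
      (dvdDiv (decompOrder F M)).map (divPullback F M) :=
  range_normHom_finsupp (primeBelow F M) (primeBelow_eq_iff_orbitRel F M)
    (primeBelow_fibre_finite F M) (primeBelow_surjective F M) (decompOrder F M)
    (card_stabilizer_eq_decompOrder F M)

instance liesOver_primeBelow (w : HeightOneSpectrum (𝓞 M)) :
    w.asIdeal.LiesOver (primeBelow F M w).asIdeal := by
  change w.asIdeal.LiesOver (w.asIdeal.under (𝓞 F))
  infer_instance

variable {F M} in
/-- Unramified: the ramification index of every prime is one. -/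
theorem ramificationIdx'_eq_one_of_unram (hur : IsUnramifiedEverywhere F M)
    (w : HeightOneSpectrum (𝓞 M)) :
    (primeBelow F M w).asIdeal.ramificationIdx' w.asIdeal = 1 := by
  have h1 := Ideal.card_inertia_eq_ramificationIdxIn (G := Gal(M/F))
    (primeBelow F M w).asIdeal w.asIdeal
  rw [hur w.asIdeal w.isPrime w.ne_bot] at h1
  have h2 := Ideal.ramificationIdxIn_eq_ramificationIdx (primeBelow F M w).asIdeal w.asIdeal
    Gal(M/F)
  have h3 := Ideal.ramificationIdx'_eq_ramificationIdx (primeBelow F M w).asIdeal w.asIdeal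
    (primeBelow F M w).ne_bot
  rw [h3, ← h2, ← h1]
  exact Nat.card_unique

variable {F M} in
/-- Unramified: the divisor of an element of `F`, computed in `M`, is the pull-back. -/
theorem divHom_algebraMap_of_unram (hur : IsUnramifiedEverywhere F M) (b : Fˣ) :
    divHom (𝓞 M) M (Additive.ofMul (Units.map (algebraMap F M : F →* M) b)) =
      divPullback F M (divHom (𝓞 F) F (Additive.ofMul b)) := by
  ext w
  rw [divPullback_apply, divHom_apply, divHom_apply, divFun_eq_iff, toMul_ofMul, toMul_ofMul]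
  have h := valuation_liesOver M (primeBelow F M w) w (b : F)
  rw [ramificationIdx'_eq_one_of_unram hur w, pow_one] at h
  rw [← valuation_eq_exp_divFun, h]
  rfl

omit [IsGalois F M] in
theorem stabilizer_hos_eq (w : HeightOneSpectrum (𝓞 M)) :
    stabilizer (M ≃ₐ[F] M) w = stabilizer (M ≃ₐ[F] M) w.asIdeal := by
  ext g
  rw [mem_stabilizer_iff, mem_stabilizer_iff]
  constructor
  · intro h
    exact congrArg HeightOneSpectrum.asIdeal h
  · intro h
    exact HeightOneSpectrum.ext h

variable {F M} in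
/-- Unramified: the order of the decomposition group is the inertia degree. -/
theorem decompOrder_eq_inertiaDeg (hur : IsUnramifiedEverywhere F M)
    (w : HeightOneSpectrum (𝓞 M)) :
    decompOrder F M (primeBelow F M w) = w.asIdeal.inertiaDeg (𝓞 F) := by
  rw [← card_stabilizer_eq_decompOrder, stabilizer_hos_eq,
    Ideal.card_stabilizer_eq (G := Gal(M/F)) (primeBelow F M w).asIdeal w.asIdeal,
    Ideal.inertiaDegIn_eq_inertiaDeg (primeBelow F M w).asIdeal w.asIdeal Gal(M/F)]
  have h1 := Ideal.card_inertia_eq_ramificationIdxIn (G := Gal(M/F))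
    (primeBelow F M w).asIdeal w.asIdeal
  rw [hur w.asIdeal w.isPrime w.ne_bot] at h1
  rw [← h1]
  simp

variable {F M} in
/-- Unramified: the relative norm of a prime `w` is `q ^ n_q`. -/
theorem relNorm_prime_of_unram (hur : IsUnramifiedEverywhere F M) (w : HeightOneSpectrum (𝓞 M)) :
    Ideal.relNorm (𝓞 F) w.asIdeal =
      (primeBelow F M w).asIdeal ^ decompOrder F M (primeBelow F M w) := by
  have : w.asIdeal.IsMaximal := w.isMaximal
  have : (primeBelow F M w).asIdeal.IsMaximal := (primeBelow F M w).isMaximal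
  rw [decompOrder_eq_inertiaDeg hur w]
  exact Ideal.relNorm_eq_pow_of_isMaximal w.asIdeal (primeBelow F M w).asIdeal

variable {F M} in
open FractionalIdeal in
/-- Unramified: every `count` of a relative norm is divisible by the decomposition order. -/
theorem decompOrder_dvd_count_relNorm (hur : IsUnramifiedEverywhere F M) (J : Ideal (𝓞 M))
    (hJ : J ≠ ⊥) (q : HeightOneSpectrum (𝓞 F)) :
    (decompOrder F M q : ℤ) ∣
      count F q ((Ideal.relNorm (𝓞 F) J : Ideal (𝓞 F)) : FractionalIdeal (𝓞 F)⁰ F) := by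
  classical
  induction J using UniqueFactorizationMonoid.induction_on_prime with
  | h₁ => exact absurd rfl hJ
  | h₂ x hx =>
    have : x = ⊤ := by rwa [Ideal.isUnit_iff] at hx
    rw [this, Ideal.relNorm_top, coeIdeal_top, count_one]
    exact dvd_zero _
  | h₃ a P ha hP ih =>
    have hP0 : P ≠ ⊥ := hP.ne_zero
    have hPprime : P.IsPrime := (Ideal.prime_iff_isPrime hP0).mp hP
    let w : HeightOneSpectrum (𝓞 M) := ⟨P, hPprime, hP0⟩
    have ha' : a ≠ ⊥ := ha
    have h1 : Ideal.relNorm (𝓞 F) (P * a) =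
        (primeBelow F M w).asIdeal ^ decompOrder F M (primeBelow F M w) *
          Ideal.relNorm (𝓞 F) a := by
      rw [map_mul, ← relNorm_prime_of_unram hur w]
    have hne1 : (((primeBelow F M w).asIdeal ^ decompOrder F M (primeBelow F M w) :
        Ideal (𝓞 F)) : FractionalIdeal (𝓞 F)⁰ F) ≠ 0 := by
      rw [coeIdeal_ne_zero]
      exact pow_ne_zero _ (primeBelow F M w).ne_bot
    have hne2 : ((Ideal.relNorm (𝓞 F) a : Ideal (𝓞 F)) : FractionalIdeal (𝓞 F)⁰ F) ≠ 0 := by
      rw [coeIdeal_ne_zero, ne_eq, Ideal.relNorm_eq_bot_iff]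
      exact ha'
    rw [h1, coeIdeal_mul, count_mul F q hne1 hne2]
    refine dvd_add ?_ (ih ha')
    rw [coeIdeal_pow, count_pow, count_maximal]
    split_ifs with h
    · rw [h, mul_one]
    · rw [mul_zero]
      exact dvd_zero _

/-- The subgroup `Nloc` of `Additive Mˣ`: invariant elements whose divisor is a norm. -/
noncomputable def nlocM (σ : M ≃ₐ[F] M) : AddSubgroup (Additive Mˣ) :=
  (fieldSubOne F M σ).ker ⊓
    (normHom (M ≃ₐ[F] M) (HeightOneSpectrum (𝓞 M) →₀ ℤ)).range.comap (divHom (𝓞 M) M)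

variable {F M} in
theorem map_ker_fieldSubOne_of_unram (hur : IsUnramifiedEverywhere F M) {σ : M ≃ₐ[F] M}
    (hσ : ∀ τ, τ ∈ Subgroup.zpowers σ) :
    (fieldSubOne F M σ).ker.map (divHom (𝓞 M) M) =
      (divHom (𝓞 F) F).range.map (divPullback F M) := by
  ext D
  constructor
  · rintro ⟨x, hx, rfl⟩
    obtain ⟨b, hb⟩ := (mem_ker_fieldSubOne_iff F M hσ x).mp hx
    refine ⟨divHom (𝓞 F) F (Additive.ofMul b), ⟨_, rfl⟩, ?_⟩
    rw [← divHom_algebraMap_of_unram hur b, hb]
    rfl
  · rintro ⟨_, ⟨b, rfl⟩, rfl⟩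
    refine ⟨Additive.ofMul (Units.map (algebraMap F M : F →* M) (Additive.toMul b)),
      (mem_ker_fieldSubOne_iff F M hσ _).mpr ⟨Additive.toMul b, rfl⟩, ?_⟩
    exact divHom_algebraMap_of_unram hur (Additive.toMul b)

variable {F M} in
/-- **First inequality, exact form, divisor model**:
`[Div F : PDiv F + N] = [M : F] * [Nloc : N(Mˣ)]` and `[Nloc : N(Mˣ)] ≠ 0`. -/
theorem firstIneq_div (hur : IsUnramifiedEverywhere F M) {σ : M ≃ₐ[F] M}
    (hσ : ∀ τ, τ ∈ Subgroup.zpowers σ) (hodd : Odd (Module.finrank F M)) :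
    ((divHom (𝓞 F) F).range ⊔ dvdDiv (decompOrder F M)).index =
      Fintype.card (M ≃ₐ[F] M) * (fieldNorm F M).range.relIndex (nlocM F M σ) ∧
    (fieldNorm F M).range.relIndex (nlocM F M σ) ≠ 0 := by
  obtain ⟨h1, h2⟩ := firstIneq_raw F M hσ hodd
  refine ⟨?_, h2⟩
  have hL : ((fieldSubOne F M σ).ker.map (divHom (𝓞 M) M) ⊔
        (normHom (M ≃ₐ[F] M) (HeightOneSpectrum (𝓞 M) →₀ ℤ)).range).relIndex
          (subOneHom (HeightOneSpectrum (𝓞 M) →₀ ℤ) σ).ker =
      ((divHom (𝓞 F) F).range ⊔ dvdDiv (decompOrder F M)).index := by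
    rw [map_ker_fieldSubOne_of_unram hur hσ, range_normHom_div, ← AddSubgroup.map_sup,
      ker_subOneHom_div F M hσ,
      show (divPullback F M).range = (⊤ : AddSubgroup _).map (divPullback F M) from
        AddMonoidHom.range_eq_map _,
      AddSubgroup.relIndex_map_map_of_injective _ _ (divPullback_injective F M),
      AddSubgroup.relIndex_top_right]
  rw [hL] at h1
  exact h1

variable {F M} in
/-- Elements of `Fˣ` whose divisor is divisible by the decomposition orders lie in `Nloc`. -/
theorem mem_nlocM_of_dvd (hur : IsUnramifiedEverywhere F M) {σ : M ≃ₐ[F] M}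
    (hσ : ∀ τ, τ ∈ Subgroup.zpowers σ) (b : Fˣ)
    (hb : divHom (𝓞 F) F (Additive.ofMul b) ∈ dvdDiv (decompOrder F M)) :
    Additive.ofMul (Units.map (algebraMap F M : F →* M) b) ∈ nlocM F M σ := by
  refine AddSubgroup.mem_inf.mpr ⟨(mem_ker_fieldSubOne_iff F M hσ _).mpr ⟨b, rfl⟩, ?_⟩
  rw [AddSubgroup.mem_comap, divHom_algebraMap_of_unram hur b, range_normHom_div]
  exact ⟨_, hb, rfl⟩

/-! ### Bridge to the class group formulation of `Contracts.lean` -/

variable {F M} in
/-- divisors divisible by the decomposition orders have their class in `normClasses`. -/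
theorem divisorClass_mem_normClasses_of_dvd (hur : IsUnramifiedEverywhere F M)
    (z : HeightOneSpectrum (𝓞 F) →₀ ℤ) (hz : z ∈ dvdDiv (decompOrder F M)) :
    divisorClass (𝓞 F) F (Multiplicative.ofAdd z) ∈ normClasses F M := by
  classical
  have hdecomp : z = z.sum fun q a => Finsupp.single q a := (Finsupp.sum_single z).symm
  rw [hdecomp, Finsupp.sum, ofAdd_sum, map_prod]
  refine Subgroup.prod_mem _ fun q _ => ?_
  obtain ⟨k, hk⟩ := hz q
  have h1 : Finsupp.single q (z q) = k • Finsupp.single q (decompOrder F M q : ℤ) := by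
    rw [Finsupp.smul_single, smul_eq_mul, hk, mul_comm]
  rw [h1, ofAdd_zsmul, map_zpow]
  refine Subgroup.zpow_mem _ ?_ k
  -- a prime above `q`
  obtain ⟨w, hw⟩ := primeBelow_surjective F M q
  have hne : q.asIdeal ^ decompOrder F M q ∈ (Ideal (𝓞 F))⁰ :=
    mem_nonZeroDivisors_iff_ne_zero.mpr (pow_ne_zero _ q.ne_bot)
  rw [← fracIdealDiv_prime_pow (𝓞 F) F q (decompOrder F M q) hne, divisorClass_mk0]
  apply Subgroup.subset_closure
  refine ⟨w.asIdeal, w.ne_bot, ?_⟩
  congr 1
  apply Subtype.ext
  change q.asIdeal ^ decompOrder F M q = Ideal.relNorm (𝓞 F) w.asIdeal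
  rw [relNorm_prime_of_unram hur w, hw]

variable {F M} in
/-- `[Cl_F : normClasses] = [Div F : PDiv F + N]`. -/
theorem index_normClasses_eq (hur : IsUnramifiedEverywhere F M) :
    (normClasses F M).index =
      ((divHom (𝓞 F) F).range ⊔ dvdDiv (decompOrder F M)).index := by
  classical
  set Hd := (divHom (𝓞 F) F).range ⊔ dvdDiv (decompOrder F M) with hHd
  have hker : (divisorClass (𝓞 F) F).ker ≤ AddSubgroup.toSubgroup Hd := by
    rw [ker_divisorClass]
    intro x hx
    exact (le_sup_left : (divHom (𝓞 F) F).range ≤ Hd) hx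
  have hcomap : (normClasses F M).comap (divisorClass (𝓞 F) F) = AddSubgroup.toSubgroup Hd := by
    apply le_antisymm
    · -- normClasses ≤ map c Hd'
      have hle : normClasses F M ≤ (AddSubgroup.toSubgroup Hd).map (divisorClass (𝓞 F) F) := by
        unfold normClasses
        rw [Subgroup.closure_le]
        rintro _ ⟨J, hJ, rfl⟩
        refine ⟨fracIdealDiv (𝓞 F) F (FractionalIdeal.mk0 F ⟨Ideal.relNorm (𝓞 F) J, _⟩), ?_,
          divisorClass_mk0 (𝓞 F) F _⟩
        apply (le_sup_right : dvdDiv (decompOrder F M) ≤ Hd)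
        intro q
        exact decompOrder_dvd_count_relNorm hur J hJ q
      calc (normClasses F M).comap (divisorClass (𝓞 F) F)
          ≤ ((AddSubgroup.toSubgroup Hd).map (divisorClass (𝓞 F) F)).comap (divisorClass (𝓞 F) F) :=
            Subgroup.comap_mono hle
        _ = AddSubgroup.toSubgroup Hd ⊔ (divisorClass (𝓞 F) F).ker := Subgroup.comap_map_eq _ _
        _ = AddSubgroup.toSubgroup Hd := sup_eq_left.mpr hker
    · intro x hx
      obtain ⟨y, hy, z, hz, hyz⟩ := AddSubgroup.mem_sup.mp (show Multiplicative.toAdd x ∈ Hd from hx)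
      have hx' : x = Multiplicative.ofAdd y * Multiplicative.ofAdd z := by
        rw [← ofAdd_add, hyz]; rfl
      rw [Subgroup.mem_comap, hx', map_mul]
      refine Subgroup.mul_mem _ ?_ (divisorClass_mem_normClasses_of_dvd hur z hz)
      have : Multiplicative.ofAdd y ∈ (divisorClass (𝓞 F) F).ker := by
        rw [ker_divisorClass]; exact hy
      rw [MonoidHom.mem_ker.mp this]
      exact Subgroup.one_mem _
  rw [← Subgroup.index_comap_of_surjective (normClasses F M) (divisorClass_surjective (𝓞 F) F),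
    hcomap, AddSubgroup.index_toSubgroup]

end Transfer

/-! ### The contracts `FirstIneqWeak`, `FirstIneqExact` of `Contracts.lean` -/

section Holds

variable (p : ℕ) (F M : Type) [Field F] [Field M] [NumberField F] [NumberField M] [Algebra F M]
  [IsGalois F M]

variable {p F M} in
theorem exists_generator_of_setting (hs : UnramCyclicSetting p F M) :
    ∃ σ : M ≃ₐ[F] M, (∀ τ, τ ∈ Subgroup.zpowers σ) ∧ Odd (Module.finrank F M) ∧
      Fintype.card (M ≃ₐ[F] M) = p := by
  have : Fact p.Prime := ⟨hs.prime⟩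
  have hcard : Nat.card (M ≃ₐ[F] M) = p := hs.card
  have : IsCyclic (M ≃ₐ[F] M) := isCyclic_of_prime_card hcard
  obtain ⟨σ, hσ⟩ := IsCyclic.exists_generator (α := M ≃ₐ[F] M)
  have hfin : Module.finrank F M = p := by
    rw [← IsGalois.card_aut_eq_finrank, hcard]
  refine ⟨σ, hσ, ?_, ?_⟩
  · rw [hfin]
    exact hs.prime.odd_of_ne_two hs.odd
  · rw [← Nat.card_eq_fintype_card, hcard]

/-- **First inequality, weak form** (contract `FirstIneqWeak`): `p ∣ [I_F : P_F N(I_M)]`. -/
theorem firstIneqWeak_holds : FirstIneqWeak p F M := by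
  intro hs
  obtain ⟨σ, hσ, hodd, hcard⟩ := exists_generator_of_setting hs
  obtain ⟨h1, _⟩ := firstIneq_div hs.unram hσ hodd
  rw [index_normClasses_eq hs.unram, h1, hcard]
  exact dvd_mul_right _ _

/-- **First inequality, exact form** (contract `FirstIneqExact`): if `[I_F : P_F N(I_M)] ≤ p` then
every `β ∈ 𝓞 F` whose principal ideal is the norm of an ideal is the norm of an element. -/
theorem firstIneqExact_holds : FirstIneqExact p F M := by
  intro hs hle β hβ hJ
  obtain ⟨J, hJ⟩ := hJ
  obtain ⟨σ, hσ, hodd, hcard⟩ := exists_generator_of_setting hs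
  obtain ⟨h1, h2⟩ := firstIneq_div hs.unram hσ hodd
  rw [index_normClasses_eq hs.unram, h1, hcard] at hle
  have hp : 0 < p := hs.prime.pos
  have hκ : (fieldNorm F M).range.relIndex (nlocM F M σ) = 1 := by
    have h3 : (fieldNorm F M).range.relIndex (nlocM F M σ) ≤ 1 := by
      by_contra hcon
      have hcon' : 2 ≤ (fieldNorm F M).range.relIndex (nlocM F M σ) := by omega
      have : p * 2 ≤ p * (fieldNorm F M).range.relIndex (nlocM F M σ) :=
        Nat.mul_le_mul_left p hcon'
      omega
    omega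
  have hsub : nlocM F M σ ≤ (fieldNorm F M).range := AddSubgroup.relIndex_eq_one.mp hκ
  -- the element `β`
  have hβF : (β : F) ≠ 0 := by
    intro h
    exact hβ (RingOfIntegers.coe_injective (by simpa using h))
  have hJ0 : J ≠ ⊥ := by
    rintro rfl
    rw [Ideal.relNorm_bot] at hJ
    exact hβ (Ideal.span_singleton_eq_bot.mp hJ.symm)
  let b : Fˣ := Units.mk0 (β : F) hβF
  have hb : divHom (𝓞 F) F (Additive.ofMul b) ∈ dvdDiv (decompOrder F M) := by
    intro q
    rw [divHom_apply, toMul_ofMul]
    have h4 := count_spanSingleton_eq (𝓞 F) F b q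
    have h5 : FractionalIdeal.spanSingleton (𝓞 F)⁰ ((b : Fˣ) : F) =
        ((Ideal.relNorm (𝓞 F) J : Ideal (𝓞 F)) : FractionalIdeal (𝓞 F)⁰ F) := by
      rw [hJ, FractionalIdeal.coeIdeal_span_singleton]
      rfl
    rw [h5] at h4
    have h6 := decompOrder_dvd_count_relNorm hs.unram J hJ0 q
    rw [h4] at h6
    exact (dvd_neg).mp h6
  have hmem := hsub (mem_nlocM_of_dvd hs.unram hσ b hb)
  obtain ⟨y, _, hy⟩ := (mem_range_fieldNorm_iff F M _).mp hmem
  refine ⟨y, ?_⟩
  apply (algebraMap F M).injective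
  rw [hy]
  rfl

end Holds

end Fermat.Agent.CFT
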