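import Fermat.Agent.CFT.Global.CrossShape
import Fermat.Agent.CFT.Global.FirstIneq
import Fermat.Agent.CFT.Global.LemmaBHolds

set_option autoImplicit false

/-!
# CFT, stream [C]: (HCF*) from the tame first inequality

`hcfStar_of_tame` : `HCFStar p` for `p ≥ 3`, from the contract `TameFirstIneq` (F3) for all
cyclic extensions of number fields in `Type`.  Everything else is proved:
crossing (`CrossShape`), first inequality (`FirstIneq`), second inequality (`LemmaBHolds`).
-/

open NumberField

namespace Fermat.Agent.CFT

/-- The Hasse norm theorem for all unramified cyclic extensions of degree `p`, from (F3). -/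
theorem hasseNormAll_of_tame (p : ℕ)
    (hF3 : ∀ (F N : Type) [Field F] [NumberField F] [Field N] [NumberField N] [Algebra F N]
      [IsGalois F N], TameFirstIneq p F N) : HasseNormAll p :=
  fun F M _ _ _ _ _ _ =>
    hasseNorm_of_ineq (firstIneqExact_holds p F M) (secondIneq_of_tame (fun N _ _ _ _ => hF3 F N))

/-- (HCF*) from (F3). -/
theorem hcfStar_of_tame (p : ℕ) [Fact p.Prime] (h3 : 3 ≤ p)
    (hF3 : ∀ (F N : Type) [Field F] [NumberField F] [Field N] [NumberField N] [Algebra F N]
      [IsGalois F N], TameFirstIneq p F N) : S14.HCFStar p :=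
  hcfStar_of_hasseNormAll p h3 (hasseNormAll_of_tame p hF3)

end Fermat.Agent.CFT
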