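import Mathlib
import Fermat.Agent.CFT.Global.HCF
import Fermat.Agent.CFT.S14.AssemblyFinal

/-!
# CFT: S14 from the tame first inequality (F3)

The whole chain: (F3) `TameFirstIneq` ⟹ second inequality ⟹ (with the exact first inequality)
Hasse norm theorem for unramified cyclic extensions of degree `p` ⟹ (crossing) `HCFStar p`
⟹ `ExtVanishingCts p`.  The middle steps are `hasseNormAll_of_tame`, `hcfStar_of_tame` of
`Global/HCF.lean`; this file only adds the last step.
-/

set_option autoImplicit false

namespace Fermat.Agent.CFT

/-- the tame first inequality for all Galois extensions of number fields (in `Type`). -/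
def TameFirstIneqAll (p : ℕ) : Prop :=
  ∀ (F N : Type) [Field F] [NumberField F] [Field N] [NumberField N] [Algebra F N]
    [IsGalois F N], TameFirstIneq p F N

theorem extVanishingCts_of_tame {p : ℕ} [Fact p.Prime] (h3 : 3 ≤ p) (hF3 : TameFirstIneqAll p) :
    ExtCitation.ExtVanishingCts p :=
  S14.extVanishingCts_of_HCFStar_only h3 (hcfStar_of_tame p h3 hF3)

end Fermat.Agent.CFT
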