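import Mathlib

set_option autoImplicit false
set_option linter.unusedSectionVars false
set_option linter.style.haveILetI false

/-!
# CFT, stream [C], (G4d): total ramification in `F(θ)`, `θ ^ p = u`, at primes with `p ∤ ord_v u`

`F ⊆ M` number fields, `M / F` Galois of prime degree `p`, `θ ∈ M` with `θ ^ p = u ∈ F`.  If
`v(u) = exp m` with `p ∤ m` then `v` is totally ramified in `M`: ramification index `p`, residue
degree `1`, exactly one prime above `v`.
-/

namespace Fermat.Agent.CFT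

open NumberField Ideal Pointwise IsDedekindDomain

variable {F M : Type*} [Field F] [NumberField F] [Field M] [NumberField M] [Algebra F M]
  [IsGalois F M] {p : ℕ}

/-- `p` divides the ramification index of every prime `w` above `v` when `p ∤ ord_v (θ ^ p)`. -/
theorem kummer_dvd_ramificationIdx (hp : p.Prime) {θ : M} {u : F}
    (hθ : θ ^ p = algebraMap F M u) (v : HeightOneSpectrum (𝓞 F)) (w : HeightOneSpectrum (𝓞 M))
    [w.asIdeal.LiesOver v.asIdeal] {m : ℤ} (hm : v.valuation F u = WithZero.exp m)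
    (hpm : ¬ (p : ℤ) ∣ m) : p ∣ w.asIdeal.ramificationIdx (𝓞 F) := by
  rw [← Ideal.ramificationIdx'_eq_ramificationIdx v.asIdeal w.asIdeal v.ne_bot]
  set e := v.asIdeal.ramificationIdx' w.asIdeal with he
  have h1 := HeightOneSpectrum.valuation_liesOver (K := F) M v w u
  rw [← hθ, map_pow, hm, ← he] at h1
  -- `w(θ) = exp k`
  have hθ0 : w.valuation M θ ≠ 0 := by
    intro h0
    rw [h0, zero_pow hp.ne_zero] at h1
    exact (pow_ne_zero _ WithZero.exp_ne_zero) h1
  obtain ⟨k, hk⟩ : ∃ k : ℤ, w.valuation M θ = WithZero.exp k :=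
    ⟨WithZero.log (w.valuation M θ), (WithZero.exp_log hθ0).symm⟩
  rw [hk, ← WithZero.exp_nsmul, ← WithZero.exp_nsmul, WithZero.exp_inj] at h1
  simp only [nsmul_eq_mul] at h1
  -- `e * m = p * k`
  have h2 : (p : ℤ) ∣ (e : ℤ) * m := ⟨k, h1⟩
  have hp' : Prime (p : ℤ) := Nat.prime_iff_prime_int.mp hp
  rcases hp'.dvd_or_dvd h2 with h3 | h3
  · exact Int.natCast_dvd_natCast.mp h3
  · exact absurd h3 hpm

/-- (G4d) total ramification. -/
theorem kummer_totally_ramified (hp : p.Prime) (hdeg : Module.finrank F M = p) {θ : M} {u : F}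
    (hθ : θ ^ p = algebraMap F M u) (v : HeightOneSpectrum (𝓞 F)) {m : ℤ}
    (hm : v.valuation F u = WithZero.exp m) (hpm : ¬ (p : ℤ) ∣ m) :
    v.asIdeal.ramificationIdxIn (𝓞 M) = p ∧ v.asIdeal.inertiaDegIn (𝓞 M) = 1 ∧
      (v.asIdeal.primesOver (𝓞 M)).ncard = 1 := by
  obtain ⟨Q, hQ1, hQ2⟩ := Ideal.exists_ideal_over_prime_of_isIntegral_of_isDomain
    (S := 𝓞 M) v.asIdeal (by
      rw [(RingHom.injective_iff_ker_eq_bot _).mp
        (FaithfulSMul.algebraMap_injective (𝓞 F) (𝓞 M))]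
      exact bot_le)
  haveI : Q.IsPrime := hQ1
  haveI : Q.LiesOver v.asIdeal := ⟨hQ2.symm⟩
  have hQ0 : Q ≠ ⊥ := Ideal.ne_bot_of_liesOver_of_ne_bot v.ne_bot Q
  let w : HeightOneSpectrum (𝓞 M) := ⟨Q, hQ1, hQ0⟩
  haveI : w.asIdeal.LiesOver v.asIdeal := ⟨hQ2.symm⟩
  have h1 : p ∣ Q.ramificationIdx (𝓞 F) := kummer_dvd_ramificationIdx hp hθ v w hm hpm
  rw [← Ideal.ramificationIdxIn_eq_ramificationIdx v.asIdeal Q Gal(M/F)] at h1
  have h2 := Ideal.ncard_primesOver_mul_ramificationIdxIn_mul_inertiaDegIn v.asIdeal (𝓞 M)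
    Gal(M/F)
  rw [IsGalois.card_aut_eq_finrank, hdeg] at h2
  obtain ⟨c, hc⟩ := h1
  rw [hc] at h2
  -- `g * (p * c * f) = p`
  have h3 : (v.asIdeal.primesOver (𝓞 M)).ncard * c * v.asIdeal.inertiaDegIn (𝓞 M) = 1 := by
    have : p * ((v.asIdeal.primesOver (𝓞 M)).ncard * c * v.asIdeal.inertiaDegIn (𝓞 M)) =
        p * 1 := by
      rw [mul_one]
      calc _ = (v.asIdeal.primesOver (𝓞 M)).ncard * (p * c * v.asIdeal.inertiaDegIn (𝓞 M)) := by
            ring
        _ = p := h2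
    exact Nat.eq_of_mul_eq_mul_left hp.pos this
  have h4 := Nat.eq_one_of_mul_eq_one_left h3
  have h5 := Nat.eq_one_of_mul_eq_one_right h3
  have h6 := Nat.eq_one_of_mul_eq_one_left h5
  have h7 := Nat.eq_one_of_mul_eq_one_right h5
  refine ⟨by rw [hc, h6, mul_one], h4, h7⟩

end Fermat.Agent.CFT
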