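import Mathlib
import Fermat.Agent.CFT.Global.ResiduePower
import Fermat.Agent.CFT.Global.WeakApprox

set_option autoImplicit false
set_option linter.unusedSectionVars false

/-!
# CFT, stream [C], (G6) Lemma B: arithmetic glue

`lemmaB_exists_frac`: an element `x ∈ Fˣ` which is a unit and a `p`-th power residue at every prime
of a finite set `T` can be written `x = z / y` with `y z ∈ 𝓞 F` prime to `T` and
`z ≡ y w ^ p mod q` for `q ∈ T` (the shape of the first block of conjuncts in
`Contracts.TameFirstIneq`).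
-/

namespace Fermat.Agent.CFT

open NumberField IsDedekindDomain HeightOneSpectrum WithZero

variable {F : Type*} [Field F] [NumberField F]

/-- a `p`-th power residue (valuation form) has an integral `p`-th root modulo `v`. -/
theorem lemmaB_exists_int_root (v : HeightOneSpectrum (𝓞 F)) {p : ℕ} (hp : p ≠ 0) {x : F}
    (hx : v.valuation F x ≤ 1) (hpow : ∃ t : F, v.valuation F (x - t ^ p) < 1) :
    ∃ w : 𝓞 F, v.valuation F (x - (algebraMap (𝓞 F) F w) ^ p) < 1 := by
  obtain ⟨t, ht⟩ := hpow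
  have htp : v.valuation F (t ^ p) ≤ 1 := by
    have h1 : t ^ p = x - (x - t ^ p) := by ring
    rw [h1]
    exact le_trans (Valuation.map_sub _ _ _) (max_le hx ht.le)
  have ht1 : v.valuation F t ≤ 1 := by
    rw [map_pow] at htp
    exact (pow_le_one_iff hp).mp htp
  set Y : valRing v := ⟨t, (mem_valRing_iff v t).mpr ht1⟩ with hY
  set X : valRing v := ⟨x, (mem_valRing_iff v x).mpr hx⟩ with hX
  have h0 : redHom v (X - Y ^ p) = 0 := by
    rw [redHom_eq_zero_iff]
    exact ht
  obtain ⟨w, hw⟩ := Ideal.Quotient.mk_surjective (redHom v Y)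
  refine ⟨w, ?_⟩
  set W : valRing v :=
    ⟨algebraMap (𝓞 F) F w, (mem_valRing_iff v _).mpr (valuation_int_le_one v w)⟩ with hW
  have h1 : redHom v (X - W ^ p) = 0 := by
    rw [map_sub, map_pow, redHom_int v w, hw, ← map_pow, ← map_sub]
    exact h0
  rw [redHom_eq_zero_iff] at h1
  exact h1

/-- **fraction form of a `T`-unit which is a `p`-th power residue at `T`**. -/
theorem lemmaB_exists_frac (T : Finset (HeightOneSpectrum (𝓞 F))) {p : ℕ} (hp : p ≠ 0) (x : Fˣ)
    (hx : ∀ v ∈ T, v.valuation F (x : F) = 1)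
    (hpow : ∀ v ∈ T, ∃ t : F, v.valuation F ((x : F) - t ^ p) < 1) :
    ∃ y z : 𝓞 F, y ≠ 0 ∧ z ≠ 0 ∧ (x : F) * (y : F) = (z : F) ∧
      ∀ q ∈ T, y ∉ q.asIdeal ∧ z ∉ q.asIdeal ∧ ∃ w : 𝓞 F, z - y * w ^ p ∈ q.asIdeal := by
  classical
  obtain ⟨n, d, hd, hnd⟩ := IsFractionRing.div_surjective (A := 𝓞 F) (x : F)
  have hd0 : d ≠ 0 := nonZeroDivisors.ne_zero hd
  have hdF : algebraMap (𝓞 F) F d ≠ 0 := by
    rw [Ne, map_eq_zero_iff _ (FaithfulSMul.algebraMap_injective (𝓞 F) F)]; exact hd0
  have hxd : (x : F) * algebraMap (𝓞 F) F d = algebraMap (𝓞 F) F n := by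
    rw [← hnd, div_mul_cancel₀ _ hdF]
  -- the primes dividing `d`
  set B : Finset (HeightOneSpectrum (𝓞 F)) :=
    (finite_setOf_valuation_ne_one (R := 𝓞 F) F hdF).toFinset with hB
  have hBmem : ∀ v : HeightOneSpectrum (𝓞 F), v ∉ B → v.valuation F (algebraMap (𝓞 F) F d) = 1 := by
    intro v hv
    by_contra hne
    exact hv ((Set.Finite.mem_toFinset _).mpr hne)
  -- weak approximation
  obtain ⟨y0, hy0S, hy0out⟩ := exists_forall_valuation_sub_le (R := 𝓞 F) F (T ∪ B)
    (fun v => if v ∈ T then 1 else 0)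
    (fun v => if v ∈ T then 1 else -log (v.valuation F (algebraMap (𝓞 F) F d)))
  have hy0T : ∀ v ∈ T, v.valuation F y0 = 1 := by
    intro v hv
    have h1 := hy0S v (Finset.mem_union_left _ hv)
    simp only [hv, if_true] at h1
    have h2 : v.valuation F (y0 - 1) < 1 := lt_of_le_of_lt h1 (by
      rw [← exp_zero, exp_lt_exp]; norm_num)
    have h3 : y0 = 1 + (y0 - 1) := by ring
    rw [h3]
    exact (v.valuation F).map_one_add_of_lt h2
  have hy0nT : ∀ v, v ∉ T → v.valuation F y0 ≤ v.valuation F (algebraMap (𝓞 F) F d) := by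
    intro v hv
    by_cases hvB : v ∈ B
    · have h1 := hy0S v (Finset.mem_union_right _ hvB)
      simp only [hv, if_false, sub_zero, neg_neg] at h1
      rwa [exp_log ((Valuation.ne_zero_iff _).mpr hdF)] at h1
    · rw [hBmem v hvB]
      exact hy0out v (by
        rw [Finset.mem_union, not_or]; exact ⟨hv, hvB⟩)
  have hy0int : ∀ v : HeightOneSpectrum (𝓞 F), v.valuation F y0 ≤ 1 := by
    intro v
    by_cases hv : v ∈ T
    · exact (hy0T v hv).le
    · exact le_trans (hy0nT v hv) (valuation_int_le_one v d)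
  have hz0int : ∀ v : HeightOneSpectrum (𝓞 F), v.valuation F ((x : F) * y0) ≤ 1 := by
    intro v
    rw [map_mul]
    by_cases hv : v ∈ T
    · rw [hx v hv, hy0T v hv, one_mul]
    · calc v.valuation F (x : F) * v.valuation F y0
          ≤ v.valuation F (x : F) * v.valuation F (algebraMap (𝓞 F) F d) :=
            mul_le_mul' le_rfl (hy0nT v hv)
        _ = v.valuation F (algebraMap (𝓞 F) F n) := by rw [← map_mul, hxd]
        _ ≤ 1 := valuation_int_le_one v n
  obtain ⟨y, hy⟩ := HeightOneSpectrum.mem_integers_of_valuation_le_one F y0 hy0int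
  obtain ⟨z, hz⟩ := HeightOneSpectrum.mem_integers_of_valuation_le_one F _ hz0int
  by_cases hT : T.Nonempty
  · obtain ⟨v0, hv0⟩ := hT
    have hy0ne : y0 ≠ 0 := by
      intro h0
      have := hy0T v0 hv0
      rw [h0, map_zero] at this
      exact zero_ne_one this
    have hyne : y ≠ 0 := by
      rintro rfl
      rw [map_zero] at hy
      exact hy0ne hy.symm
    have hzne : z ≠ 0 := by
      rintro rfl
      rw [map_zero] at hz
      exact (mul_ne_zero x.ne_zero hy0ne) hz.symm
    refine ⟨y, z, hyne, hzne, ?_, ?_⟩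
    · show (x : F) * algebraMap (𝓞 F) F y = algebraMap (𝓞 F) F z
      rw [hy, hz]
    · intro q hq
      refine ⟨?_, ?_, ?_⟩
      · rw [mem_asIdeal_iff_lt_one, hy, hy0T q hq]; exact lt_irrefl _
      · rw [mem_asIdeal_iff_lt_one, hz, map_mul, hx q hq, hy0T q hq, one_mul]; exact lt_irrefl _
      · obtain ⟨w, hw⟩ := lemmaB_exists_int_root q hp (hx q hq).le (hpow q hq)
        refine ⟨w, ?_⟩
        rw [mem_asIdeal_iff_lt_one, map_sub, map_mul, map_pow, hz, hy]
        have h1 : (x : F) * y0 - y0 * (algebraMap (𝓞 F) F w) ^ p =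
            y0 * ((x : F) - (algebraMap (𝓞 F) F w) ^ p) := by ring
        rw [h1, map_mul, hy0T q hq, one_mul]
        exact hw
  · rw [Finset.not_nonempty_iff_eq_empty] at hT
    have hnne : n ≠ 0 := by
      rintro rfl
      rw [map_zero] at hxd
      exact (mul_ne_zero x.ne_zero hdF) hxd
    refine ⟨d, n, hd0, hnne, hxd, ?_⟩
    intro q hq
    rw [hT] at hq
    exact absurd hq (Finset.notMem_empty q)

end Fermat.Agent.CFT
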