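import Mathlib

set_option autoImplicit false

/-!
# CFT stream [C] Global, chunk (G5) : local `p`-th powers at finite level

`R` a Dedekind domain containing a primitive `p`-th root of unity `ζ`, `P` a prime of `R`.
* `exists_intValuation_sub_pow_mul_le` : for `x : R` there is `j < p` with
  `v_P (x - ζ^j) * v_P (p) ≤ v_P (x^p - 1)` (multiplicative valuations);
-/

namespace Fermat.Agent.CFT

open IsDedekindDomain IsDedekindDomain.HeightOneSpectrum WithZero Finset

section Valuation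

variable {R : Type*} [CommRing R] [IsDedekindDomain R] (P : HeightOneSpectrum R)

theorem intValuation_of_isUnit {u : R} (hu : IsUnit u) : P.intValuation u = 1 := by
  obtain ⟨w, hw⟩ := hu.exists_right_inv
  have h1 : P.intValuation u * P.intValuation w = 1 := by rw [← map_mul, hw, map_one]
  have hu1 : P.intValuation u ≤ 1 := P.intValuation_le_one u
  have hw1 : P.intValuation w ≤ 1 := P.intValuation_le_one w
  by_contra hne
  have hlt : P.intValuation u < 1 := lt_of_le_of_ne hu1 hne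
  have : P.intValuation u * P.intValuation w < 1 := by
    calc P.intValuation u * P.intValuation w ≤ P.intValuation u * 1 := by gcongr
      _ = P.intValuation u := mul_one _
      _ < 1 := hlt
  exact absurd h1 (ne_of_lt this)

theorem intValuation_eq_of_associated {a b : R} (h : Associated a b) :
    P.intValuation a = P.intValuation b := by
  obtain ⟨u, rfl⟩ := h
  rw [map_mul, intValuation_of_isUnit P u.isUnit, mul_one]

variable {p : ℕ} {ζ : R}

theorem intValuation_pow_sub_one (hp : p.Prime) (hζ : IsPrimitiveRoot ζ p) {j : ℕ}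
    (hj : ¬ p ∣ j) : P.intValuation (ζ ^ j - 1) = P.intValuation (ζ - 1) :=
  (intValuation_eq_of_associated P (hζ.associated_sub_one_pow_sub_one_of_coprime
    ((Nat.Prime.coprime_iff_not_dvd hp).2 hj).symm)).symm

theorem intValuation_root_pow (hp : p.Prime) (hζ : IsPrimitiveRoot ζ p) (j : ℕ) :
    P.intValuation (ζ ^ j) = 1 :=
  intValuation_of_isUnit P ((hζ.isUnit hp.ne_zero).pow j)

/-- `v(ζ - 1)^(p-1) = v(p)`. -/
theorem intValuation_sub_one_pow (hp : p.Prime) (hζ : IsPrimitiveRoot ζ p) :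
    P.intValuation (ζ - 1) ^ (p - 1) = P.intValuation (p : R) := by
  obtain ⟨n, rfl⟩ : ∃ n, p = n + 1 := ⟨p - 1, (Nat.succ_pred_eq_of_pos hp.pos).symm⟩
  have h := hζ.prod_one_sub_pow_eq_order
  have h2 : P.intValuation ((n + 1 : ℕ) : R) = ∏ k ∈ range n, P.intValuation (1 - ζ ^ (k + 1)) := by
    rw [← map_prod, h]; push_cast; rfl
  rw [h2, Nat.add_sub_cancel]
  have h3 : ∀ k ∈ range n, P.intValuation (1 - ζ ^ (k + 1)) = P.intValuation (ζ - 1) := by
    intro k hk
    rw [← neg_sub, Valuation.map_neg]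
    apply intValuation_pow_sub_one P hp hζ
    intro hdvd
    have := Nat.le_of_dvd (Nat.succ_pos k) hdvd
    rw [mem_range] at hk
    omega
  rw [prod_congr rfl h3, prod_const, card_range]

/-- `v(ζ^i - ζ^j) = v(ζ - 1)` for `i ≠ j`, `i, j < p`. -/
theorem intValuation_root_pow_sub_root_pow (hp : p.Prime) (hζ : IsPrimitiveRoot ζ p) {i j : ℕ}
    (hi : i < p) (hj : j < p) (hij : i ≠ j) :
    P.intValuation (ζ ^ i - ζ ^ j) = P.intValuation (ζ - 1) := by
  wlog h : j < i generalizing i j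
  · have hlt : i < j := lt_of_le_of_ne (not_lt.1 h) hij
    rw [← neg_sub, Valuation.map_neg]
    exact this hj hi hij.symm hlt
  have e1 : ζ ^ i - ζ ^ j = ζ ^ j * (ζ ^ (i - j) - 1) := by
    rw [mul_sub, mul_one, ← pow_add, Nat.add_sub_cancel' h.le]
  rw [e1, map_mul, intValuation_root_pow P hp hζ, one_mul]
  apply intValuation_pow_sub_one P hp hζ
  intro hdvd
  have := Nat.le_of_dvd (Nat.sub_pos_of_lt h) hdvd
  omega

/-- **Key valuation estimate.** For `x : R` there is `j < p` with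
`v(x - ζ^j) * v(p) ≤ v(x^p - 1)`. -/
theorem exists_intValuation_sub_pow_mul_le (hp : p.Prime) (hζ : IsPrimitiveRoot ζ p) (x : R) :
    ∃ j < p, P.intValuation (x - ζ ^ j) * P.intValuation (p : R) ≤ P.intValuation (x ^ p - 1) := by
  have hprod : x ^ p - 1 = ∏ i ∈ range p, (x - ζ ^ i) := by
    have h := _root_.X_pow_sub_C_eq_prod (R := R) hζ hp.pos (one_pow p)
    have h2 := congrArg (Polynomial.eval x) h
    simpa [Polynomial.eval_prod] using h2
  obtain ⟨j₀, hj₀, hmin⟩ := exists_min_image (range p) (fun j => P.intValuation (x - ζ ^ j))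
    ⟨0, mem_range.2 hp.pos⟩
  refine ⟨j₀, mem_range.1 hj₀, ?_⟩
  rw [hprod, map_prod, ← mul_prod_erase _ _ hj₀, ← intValuation_sub_one_pow P hp hζ]
  gcongr
  have hcard : ((range p).erase j₀).card = p - 1 := by
    rw [card_erase_of_mem hj₀, card_range]
  rw [← hcard, ← prod_const]
  apply prod_le_prod'
  intro j hj
  obtain ⟨hne, hjr⟩ := mem_erase.1 hj
  have hjp := mem_range.1 hjr
  have e1 : ζ ^ j - ζ ^ j₀ = (x - ζ ^ j₀) - (x - ζ ^ j) := by ring
  have h1 := intValuation_root_pow_sub_root_pow P hp hζ hjp (mem_range.1 hj₀) hne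
  rw [← h1, e1]
  calc P.intValuation ((x - ζ ^ j₀) - (x - ζ ^ j))
      ≤ max (P.intValuation (x - ζ ^ j₀)) (P.intValuation (x - ζ ^ j)) := Valuation.map_sub _ _ _
    _ = P.intValuation (x - ζ ^ j) := max_eq_right (hmin j hjr)

end Valuation

section Count

variable {R : Type*} [CommRing R] [IsDedekindDomain R] (P : HeightOneSpectrum R)
  [Finite (R ⧸ P.asIdeal)]

instance finite_quotient_pow (k : ℕ) : Finite (R ⧸ P.asIdeal ^ k) := by
  have h : Submodule.cardQuot (P.asIdeal ^ k) = Submodule.cardQuot P.asIdeal ^ k :=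
    cardQuot_pow_of_prime P.ne_bot
  rw [Submodule.cardQuot_apply, Submodule.cardQuot_apply] at h
  apply Nat.finite_of_card_ne_zero
  rw [h]
  exact pow_ne_zero _ Nat.card_pos.ne'

omit [Finite (R ⧸ P.asIdeal)] in
theorem natCard_quotient_pow (k : ℕ) :
    Nat.card (R ⧸ P.asIdeal ^ k) = Nat.card (R ⧸ P.asIdeal) ^ k := by
  have h : Submodule.cardQuot (P.asIdeal ^ k) = Submodule.cardQuot P.asIdeal ^ k :=
    cardQuot_pow_of_prime P.ne_bot
  rwa [Submodule.cardQuot_apply, Submodule.cardQuot_apply] at h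

/-- The kernel of `R/P^k → R/P^(k-e)` has `N(P)^e` elements. -/
theorem natCard_ker_factor {e k : ℕ} (hek : e ≤ k) :
    Nat.card (RingHom.ker (Ideal.Quotient.factor
      (Ideal.pow_le_pow_right (Nat.sub_le k e) : P.asIdeal ^ k ≤ P.asIdeal ^ (k - e)))) =
      Nat.card (R ⧸ P.asIdeal) ^ e := by
  set π := Ideal.Quotient.factor
      (Ideal.pow_le_pow_right (Nat.sub_le k e) : P.asIdeal ^ k ≤ P.asIdeal ^ (k - e)) with hπ
  have hsurj : Function.Surjective π := Ideal.Quotient.factor_surjective _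
  have h1 := (π.toAddMonoidHom.ker).card_mul_index
  rw [AddSubgroup.index_ker] at h1
  have hr : π.toAddMonoidHom.range = ⊤ := AddMonoidHom.range_eq_top.2 hsurj
  have h2 : Nat.card π.toAddMonoidHom.range = Nat.card (R ⧸ P.asIdeal ^ (k - e)) := by
    rw [hr]
    exact Nat.card_congr (Equiv.Set.univ _)
  rw [h2, natCard_quotient_pow, natCard_quotient_pow] at h1
  have hN : 0 < Nat.card (R ⧸ P.asIdeal) := Nat.card_pos
  have h3 : Nat.card (R ⧸ P.asIdeal) ^ k =
      Nat.card (R ⧸ P.asIdeal) ^ e * Nat.card (R ⧸ P.asIdeal) ^ (k - e) := by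
    rw [← pow_add, Nat.add_sub_cancel' hek]
  rw [h3] at h1
  exact Nat.eq_of_mul_eq_mul_right (pow_pos hN _) h1

omit [Finite (R ⧸ P.asIdeal)] in
/-- A `p`-th root of unity mod `P^k` is congruent to some `ζ^j` mod `P^(k-e)`, `e = v_P(p)`. -/
theorem exists_sub_root_pow_mem_ker {p : ℕ} {ζ : R} (hp : p.Prime) (hζ : IsPrimitiveRoot ζ p)
    {e k : ℕ} (he : P.intValuation (p : R) = exp (-(e : ℤ))) (hek : e ≤ k)
    (x : R ⧸ P.asIdeal ^ k) (hx : x ^ p = 1) :
    ∃ j < p, x - Ideal.Quotient.mk (P.asIdeal ^ k) (ζ ^ j) ∈ RingHom.ker (Ideal.Quotient.factor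
      (Ideal.pow_le_pow_right (Nat.sub_le k e) : P.asIdeal ^ k ≤ P.asIdeal ^ (k - e))) := by
  obtain ⟨y, rfl⟩ := Ideal.Quotient.mk_surjective x
  have hy : y ^ p - 1 ∈ P.asIdeal ^ k := by
    rw [← Ideal.Quotient.eq_zero_iff_mem, map_sub, map_pow, map_one, hx, sub_self]
  rw [← intValuation_le_pow_iff_mem] at hy
  obtain ⟨j, hj, hle⟩ := exists_intValuation_sub_pow_mul_le P hp hζ y
  refine ⟨j, hj, ?_⟩
  rw [RingHom.mem_ker, ← map_sub, Ideal.Quotient.factor_mk, Ideal.Quotient.eq_zero_iff_mem,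
    ← intValuation_le_pow_iff_mem]
  have h1 : P.intValuation (y - ζ ^ j) * exp (-(e : ℤ)) ≤ exp (-(k : ℤ)) := by
    rw [← he]; exact hle.trans hy
  have h2 : exp (-(k : ℤ)) = exp (-((k - e : ℕ) : ℤ)) * exp (-(e : ℤ)) := by
    rw [← exp_add]
    congr 1
    rw [Nat.cast_sub hek]
    ring
  rw [h2] at h1
  exact le_of_mul_le_mul_right h1 (by simp)

/-- **(G5)(a)** The number of `p`-th roots of unity in `R / P^k` is at most `p * N(P)^e`,
`e = v_P(p)`, when `R` contains a primitive `p`-th root of unity. -/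
theorem natCard_pow_eq_one_le {p : ℕ} {ζ : R} (hp : p.Prime) (hζ : IsPrimitiveRoot ζ p)
    {e k : ℕ} (he : P.intValuation (p : R) = exp (-(e : ℤ))) (hek : e ≤ k) :
    Nat.card {x : R ⧸ P.asIdeal ^ k // x ^ p = 1} ≤ p * Nat.card (R ⧸ P.asIdeal) ^ e := by
  classical
  set π := Ideal.Quotient.factor
      (Ideal.pow_le_pow_right (Nat.sub_le k e) : P.asIdeal ^ k ≤ P.asIdeal ^ (k - e)) with hπ
  choose j hj hmem using fun x : {x : R ⧸ P.asIdeal ^ k // x ^ p = 1} =>
    exists_sub_root_pow_mem_ker P hp hζ he hek x.1 x.2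
  let g : {x : R ⧸ P.asIdeal ^ k // x ^ p = 1} → Fin p × RingHom.ker π :=
    fun x => (⟨j x, hj x⟩, ⟨x.1 - Ideal.Quotient.mk (P.asIdeal ^ k) (ζ ^ j x), hmem x⟩)
  have hg : Function.Injective g := by
    intro x y hxy
    have h1 : j x = j y := congrArg (fun t => (t.1 : ℕ)) hxy
    have h2 : x.1 - Ideal.Quotient.mk (P.asIdeal ^ k) (ζ ^ j x) =
        y.1 - Ideal.Quotient.mk (P.asIdeal ^ k) (ζ ^ j y) :=
      congrArg (fun t => (t.2 : R ⧸ P.asIdeal ^ k)) hxy
    rw [h1] at h2
    exact Subtype.ext (sub_left_injective h2)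
  have hfin : Finite (RingHom.ker π) := Finite.of_injective _ Subtype.val_injective
  calc Nat.card {x : R ⧸ P.asIdeal ^ k // x ^ p = 1}
      ≤ Nat.card (Fin p × RingHom.ker π) := Nat.card_le_card_of_injective g hg
    _ = p * Nat.card (R ⧸ P.asIdeal) ^ e := by
      rw [Nat.card_prod, Nat.card_fin, natCard_ker_factor P hek]

end Count

end Fermat.Agent.CFT
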