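import Fermat.Agent.CFT.Global.ZetaEuler

set_option autoImplicit false
set_option linter.style.haveILetI false

/-!
# CFT [C] (helper15): analytic non-splitting

It is impossible that almost every prime of a number field `K` has `n ≥ 2` primes of the same
norm above it in a number field `L`.  Consequently, in a Galois extension `L/K` of degree `≥ 2`,
outside any finite (more generally: thin) set of primes of `K` there is a prime that does not
split completely.
-/

namespace Fermat.Agent.CFT

open NumberField Ideal IsDedekindDomain Filter Topology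

noncomputable section

variable (K L : Type*) [Field K] [NumberField K] [Field L] [NumberField L]

/-- `-log (s - 1) → +∞` as `s → 1⁺`. -/
lemma tendsto_neg_log_sub_one :
    Tendsto (fun s : ℝ ↦ -Real.log (s - 1)) (𝓝[>] 1) atTop := by
  have h1 : Tendsto (fun s : ℝ ↦ s - 1) (𝓝[>] 1) (𝓝[>] 0) := by
    refine tendsto_nhdsWithin_of_tendsto_nhds_of_eventually_within _ ?_ ?_
    · have : Tendsto (fun s : ℝ ↦ s - 1) (𝓝 1) (𝓝 (1 - 1)) :=
        (continuous_id.sub continuous_const).tendsto 1
      simpa using this.mono_left nhdsWithin_le_nhds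
    · filter_upwards [self_mem_nhdsWithin] with s hs
      exact sub_pos.mpr (Set.mem_Ioi.mp hs)
  exact tendsto_neg_atBot_atTop.comp (Real.tendsto_log_nhdsGT_zero.comp h1)

/-- Eventually as `s → 1⁺`: `log ζ_F(s) = -log(s-1) + O(1)`, lower bound. -/
lemma eventually_log_zetaR_ge (F : Type*) [Field F] [NumberField F] :
    ∀ᶠ s in 𝓝[>] (1 : ℝ),
      Real.log (dedekindZeta_residue F / 2) - Real.log (s - 1) ≤ Real.log (zetaR F s) := by
  have hρ := dedekindZeta_residue_pos F
  have h := (tendsto_sub_one_mul_zetaR F).eventually (lt_mem_nhds (half_lt_self hρ))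
  filter_upwards [h, self_mem_nhdsWithin] with s hs hs1
  have hs1' : 0 < s - 1 := sub_pos.mpr hs1
  have hZ := zetaR_pos F hs1
  have : Real.log (dedekindZeta_residue F / 2) ≤ Real.log ((s - 1) * zetaR F s) :=
    Real.log_le_log (by positivity) hs.le
  rw [Real.log_mul hs1'.ne' hZ.ne'] at this
  linarith

/-- Eventually as `s → 1⁺`: `log ζ_F(s) = -log(s-1) + O(1)`, upper bound. -/
lemma eventually_log_zetaR_le (F : Type*) [Field F] [NumberField F] :
    ∀ᶠ s in 𝓝[>] (1 : ℝ),
      Real.log (zetaR F s) ≤ Real.log (2 * dedekindZeta_residue F) - Real.log (s - 1) := by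
  have hρ := dedekindZeta_residue_pos F
  have h := (tendsto_sub_one_mul_zetaR F).eventually
    (gt_mem_nhds (show dedekindZeta_residue F < 2 * dedekindZeta_residue F by linarith))
  filter_upwards [h, self_mem_nhdsWithin] with s hs hs1
  have hs1' : 0 < s - 1 := sub_pos.mpr hs1
  have hZ := zetaR_pos F hs1
  have : Real.log ((s - 1) * zetaR F s) ≤ Real.log (2 * dedekindZeta_residue F) :=
    Real.log_le_log (by positivity) hs.le
  rw [Real.log_mul hs1'.ne' hZ.ne'] at this
  linarith

/-! ### Thin sets of primes -/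

/-- A set `T` of primes of `K` is *thin* if `∑_{v ∈ T} N(v)^{-s}` stays bounded as `s → 1⁺`.
Finite sets are thin, and so is the set of primes of absolute degree `≥ 2`. -/
def IsThinSet (T : Set (HeightOneSpectrum (𝓞 K))) : Prop :=
  ∃ C : ℝ, ∀ s : ℝ, 1 < s → ∑' v : T, idealWt K s v.1.asIdeal ≤ C

variable {K} in
lemma IsThinSet.mono {T T' : Set (HeightOneSpectrum (𝓞 K))} (h : IsThinSet K T') (hT : T ⊆ T') :
    IsThinSet K T := by
  obtain ⟨C, hC⟩ := h
  refine ⟨C, fun s hs ↦ le_trans ?_ (hC s hs)⟩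
  have hsum : Summable fun v : T' ↦ idealWt K s v.1.asIdeal :=
    (summable_primeWt K hs).subtype T'
  exact tsum_comp_le_tsum_of_inj (f := fun v : T' ↦ idealWt K s v.1.asIdeal) hsum
    (fun _ ↦ idealWt_nonneg K s _) (i := Set.inclusion hT) (Set.inclusion_injective hT)

variable {K} in
lemma IsThinSet.union {T T' : Set (HeightOneSpectrum (𝓞 K))} (h : IsThinSet K T)
    (h' : IsThinSet K T') : IsThinSet K (T ∪ T') := by
  obtain ⟨C, hC⟩ := h
  obtain ⟨C', hC'⟩ := h'
  refine ⟨C + C', fun s hs ↦ ?_⟩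
  have hK := summable_primeWt K hs
  set f : HeightOneSpectrum (𝓞 K) → ℝ := fun v ↦ idealWt K s v.asIdeal with hf
  have h1 := hC s hs
  have h2 := hC' s hs
  rw [tsum_subtype T f] at h1
  rw [tsum_subtype T' f] at h2
  rw [tsum_subtype (T ∪ T') f]
  have hle : ∀ v, (T ∪ T').indicator f v ≤ T.indicator f v + T'.indicator f v := by
    intro v
    have hfv : 0 ≤ f v := idealWt_nonneg K s _
    by_cases hv : v ∈ T <;> by_cases hv' : v ∈ T' <;>
      simp [Set.indicator, hv, hv', hfv]
  calc ∑' v, (T ∪ T').indicator f v ≤ ∑' v, (T.indicator f v + T'.indicator f v) :=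
        (hK.indicator _).tsum_le_tsum hle ((hK.indicator _).add (hK.indicator _))
    _ = ∑' v, T.indicator f v + ∑' v, T'.indicator f v :=
        (hK.indicator _).tsum_add (hK.indicator _)
    _ ≤ C + C' := add_le_add h1 h2

variable {K} in
lemma isThinSet_of_finite {T : Set (HeightOneSpectrum (𝓞 K))} (hT : T.Finite) :
    IsThinSet K T := by
  letI := hT.fintype
  refine ⟨Fintype.card T, fun s hs ↦ ?_⟩
  rw [tsum_fintype]
  calc ∑ v : T, idealWt K s v.1.asIdeal ≤ ∑ _v : T, (1 : ℝ) :=
        Finset.sum_le_sum fun v _ ↦ (idealWt_prime_lt_one hs.le v.1).le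
    _ = Fintype.card T := by simp

/-- Key inequality: if every prime of `K` outside the set `T` (whose prime sum is bounded by `C`)
has `n` primes of `L` of the same norm attached to it (injectively), then
`n (P_K(s) - C) ≤ P_L(s)`. -/
lemma mul_primeZeta_le (n : ℕ) (T : Set (HeightOneSpectrum (𝓞 K)))
    (g : ↥Tᶜ × Fin n → HeightOneSpectrum (𝓞 L))
    (hg : Function.Injective g)
    (hnorm : ∀ p, absNorm (g p).asIdeal = absNorm p.1.1.asIdeal) {s : ℝ} (hs : 1 < s)
    {C : ℝ} (hC : ∑' v : T, idealWt K s v.1.asIdeal ≤ C) :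
    (n : ℝ) * (primeZeta K s - C) ≤ primeZeta L s := by
  have hL := summable_primeWt L hs
  have hK := summable_primeWt K hs
  have h1 : ∑' p, idealWt L s (g p).asIdeal ≤ primeZeta L s :=
    tsum_comp_le_tsum_of_inj hL (fun _ ↦ idealWt_nonneg L s _) hg
  have h2 : ∀ p, idealWt L s (g p).asIdeal = idealWt K s p.1.1.asIdeal := fun p ↦ by
    simp only [idealWt, hnorm p]
  have hsum : Summable fun p : ↥Tᶜ × Fin n ↦ idealWt K s p.1.1.asIdeal := by
    have := hL.comp_injective hg
    refine this.congr fun p ↦ ?_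
    simp only [Function.comp_apply, h2 p]
  have h3 : ∑' p : ↥Tᶜ × Fin n, idealWt L s (g p).asIdeal =
      n * ∑' a : ↥Tᶜ, idealWt K s a.1.asIdeal := by
    simp_rw [h2]
    rw [hsum.tsum_prod]
    simp only [tsum_fintype, Finset.sum_const, Finset.card_univ, Fintype.card_fin, nsmul_eq_mul]
    rw [tsum_mul_left]
  have h4 : ∑' v : T, idealWt K s v.1.asIdeal +
      ∑' a : ↥Tᶜ, idealWt K s a.1.asIdeal = primeZeta K s :=
    hK.tsum_subtype_add_tsum_subtype_compl T
  rw [h3] at h1
  have hn0 : (0 : ℝ) ≤ n := Nat.cast_nonneg n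
  nlinarith [mul_le_mul_of_nonneg_left (show primeZeta K s - C ≤
    ∑' a : ↥Tᶜ, idealWt K s a.1.asIdeal by linarith) hn0]

/-- **Analytic non-splitting, abstract form.** It is impossible that every prime of `K` outside a
thin set `T` has `n ≥ 2` distinct primes of `L` of the same absolute norm attached to it in an
injective way.  (No relation between `K` and `L` is needed.) -/
theorem false_of_primes_above_of_thin (n : ℕ) (hn : 2 ≤ n)
    (T : Set (HeightOneSpectrum (𝓞 K))) (hT : IsThinSet K T)
    (g : ↥Tᶜ × Fin n → HeightOneSpectrum (𝓞 L))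
    (hg : Function.Injective g)
    (hnorm : ∀ p, absNorm (g p).asIdeal = absNorm p.1.1.asIdeal) : False := by
  obtain ⟨C, hC⟩ := hT
  -- constants
  set cK := Real.log (dedekindZeta_residue K / 2) with hcK
  set cL := Real.log (2 * dedekindZeta_residue L) with hcL
  set D : ℝ := cL + n * (2 * primeZeta K 2 + C - cK) with hD
  have hev : ∀ᶠ s in 𝓝[>] (1 : ℝ), -Real.log (s - 1) ≤ D := by
    filter_upwards [eventually_log_zetaR_ge K, eventually_log_zetaR_le L, self_mem_nhdsWithin,
      tendsto_neg_log_sub_one.eventually_ge_atTop 0] with s hK hL hs ht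
    have hs1 : 1 < s := hs
    have h1 := mul_primeZeta_le K L n T g hg hnorm hs1 (hC s hs1)
    have h2 := primeZeta_le_log_zetaR L hs1
    have h3 := log_zetaR_le K hs1
    have hn0 : (0 : ℝ) ≤ n := Nat.cast_nonneg n
    have hn2 : (2 : ℝ) ≤ n := by exact_mod_cast hn
    set t := -Real.log (s - 1) with ht_def
    have h4 : (n : ℝ) * (cK + t - 2 * primeZeta K 2 - C) ≤ cL + t := by
      have : cK + t - 2 * primeZeta K 2 - C ≤ primeZeta K s - C := by linarith
      have := mul_le_mul_of_nonneg_left this hn0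
      linarith
    nlinarith [mul_nonneg (show (0 : ℝ) ≤ n - 2 by linarith) ht]
  have hcontra := tendsto_neg_log_sub_one.eventually_gt_atTop D
  obtain ⟨s, h1, h2⟩ := (hev.and hcontra).exists
  linarith

/-- Finite exceptional set version of `false_of_primes_above_of_thin`. -/
theorem false_of_primes_above (n : ℕ) (hn : 2 ≤ n) (T : Finset (HeightOneSpectrum (𝓞 K)))
    (g : ↥((T : Set (HeightOneSpectrum (𝓞 K)))ᶜ) × Fin n → HeightOneSpectrum (𝓞 L))
    (hg : Function.Injective g)
    (hnorm : ∀ p, absNorm (g p).asIdeal = absNorm p.1.1.asIdeal) : False :=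
  false_of_primes_above_of_thin K L n hn (T : Set (HeightOneSpectrum (𝓞 K)))
    (isThinSet_of_finite T.finite_toSet) g hg hnorm

/-! ### Galois extensions -/

section Galois

variable [Algebra K L] [IsGalois K L]

/-- **Analytic non-splitting for Galois extensions.** In a Galois extension `L/K` of number
fields of degree `≥ 2`, outside any thin set `T` of primes of `K` there is a prime with fewer than
`[L : K]` primes of `L` above it (i.e. a prime that does not split completely). -/
theorem exists_ncard_primesOver_lt_of_thin (h2 : 2 ≤ Module.finrank K L)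
    (T : Set (HeightOneSpectrum (𝓞 K))) (hT : IsThinSet K T) :
    ∃ v : HeightOneSpectrum (𝓞 K), v ∉ T ∧
      (v.asIdeal.primesOver (𝓞 L)).ncard < Module.finrank K L := by
  by_contra hcon
  push Not at hcon
  set n := Module.finrank K L with hn
  have : IsGaloisGroup Gal(L/K) (𝓞 K) (𝓞 L) :=
    IsGaloisGroup.of_isFractionRing Gal(L/K) (𝓞 K) (𝓞 L) K L
  have hcard : Nat.card Gal(L/K) = n := IsGalois.card_aut_eq_finrank K L
  -- for `v ∉ T`: exactly `n` primes above, each of residue degree one
  have key : ∀ v : HeightOneSpectrum (𝓞 K), v ∉ T →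
      (v.asIdeal.primesOver (𝓞 L)).ncard = n ∧ v.asIdeal.inertiaDegIn (𝓞 L) = 1 := by
    intro v hv
    have h1 := Ideal.ncard_primesOver_mul_ramificationIdxIn_mul_inertiaDegIn v.asIdeal (𝓞 L)
      Gal(L/K)
    rw [hcard] at h1
    have h3 := hcon v hv
    have hnpos : 0 < n := by omega
    have hef : v.asIdeal.ramificationIdxIn (𝓞 L) * v.asIdeal.inertiaDegIn (𝓞 L) = 1 := by
      by_contra hne
      have hpos : 0 < v.asIdeal.ramificationIdxIn (𝓞 L) * v.asIdeal.inertiaDegIn (𝓞 L) := by
        rcases Nat.eq_zero_or_pos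
          (v.asIdeal.ramificationIdxIn (𝓞 L) * v.asIdeal.inertiaDegIn (𝓞 L)) with h0 | h0
        · rw [h0, mul_zero] at h1; omega
        · exact h0
      have : 2 ≤ v.asIdeal.ramificationIdxIn (𝓞 L) * v.asIdeal.inertiaDegIn (𝓞 L) := by omega
      nlinarith
    rw [hef, mul_one] at h1
    exact ⟨h1, Nat.eq_one_of_mul_eq_one_left hef⟩
  -- choose enumerations
  have hequiv : ∀ v : ↥Tᶜ, Nonempty (Fin n ≃ ↥(v.1.asIdeal.primesOver (𝓞 L))) := by
    intro v
    have hc : Nat.card ↥(v.1.asIdeal.primesOver (𝓞 L)) = n := by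
      rw [Nat.card_coe_set_eq]
      exact (key v.1 v.2).1
    exact ⟨(Finite.equivFinOfCardEq hc).symm⟩
  have e : ∀ v : ↥Tᶜ, Fin n ≃ ↥(v.1.asIdeal.primesOver (𝓞 L)) := fun v ↦ (hequiv v).some
  let g : ↥Tᶜ × Fin n → HeightOneSpectrum (𝓞 L) := fun p ↦
    ⟨(e p.1 p.2).1, (e p.1 p.2).2.1,
      Ideal.ne_bot_of_mem_primesOver p.1.1.ne_bot (e p.1 p.2).2⟩
  refine false_of_primes_above_of_thin K L n h2 T hT g ?_ ?_
  · rintro ⟨v, i⟩ ⟨v', i'⟩ hgg
    have hP : (e v i).1 = (e v' i').1 := congrArg HeightOneSpectrum.asIdeal hgg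
    have hvv' : v = v' := by
      apply Subtype.ext
      apply HeightOneSpectrum.ext
      have h1 : ((e v i).1).LiesOver v.1.asIdeal := (e v i).2.2
      have h2 : ((e v' i').1).LiesOver v'.1.asIdeal := (e v' i').2.2
      rw [h1.over, h2.over, hP]
    subst hvv'
    have : e v i = e v i' := Subtype.ext hP
    rw [(e v).injective this]
  · rintro ⟨v, i⟩
    haveI : ((e v i).1).IsPrime := (e v i).2.1
    haveI : ((e v i).1).LiesOver v.1.asIdeal := (e v i).2.2
    haveI : v.1.asIdeal.IsMaximal := v.1.isMaximal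
    have hf : ((e v i).1).inertiaDeg (𝓞 K) = 1 := by
      rw [← Ideal.inertiaDegIn_eq_inertiaDeg v.1.asIdeal (e v i).1 Gal(L/K)]
      exact (key v.1 v.2).2
    have := Ideal.cardQuot_pow_inertiaDeg v.1.asIdeal (e v i).1
    rw [hf, pow_one] at this
    show absNorm (e v i).1 = absNorm v.1.asIdeal
    rw [Ideal.absNorm_apply, Ideal.absNorm_apply]
    exact this.symm

/-- Finite exceptional set version. -/
theorem exists_ncard_primesOver_lt (h2 : 2 ≤ Module.finrank K L)
    (T : Finset (HeightOneSpectrum (𝓞 K))) :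
    ∃ v : HeightOneSpectrum (𝓞 K), v ∉ T ∧
      (v.asIdeal.primesOver (𝓞 L)).ncard < Module.finrank K L := by
  obtain ⟨v, hv, h⟩ := exists_ncard_primesOver_lt_of_thin K L h2
    (T : Set (HeightOneSpectrum (𝓞 K))) (isThinSet_of_finite T.finite_toSet)
  exact ⟨v, by simpa using hv, h⟩

end Galois

end

end Fermat.Agent.CFT
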