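import Mathlib
import Fermat.Agent.S20.DedekindCount
import Fermat.Agent.CFT.Global.WeakApprox

set_option autoImplicit false

/-!
# CFT stream [C] Global: a finite set of primes generating the class group (divisor form)

`R` a Dedekind domain with finite class group, `F = Frac R`.

* `exists_finset_generating_classGroup` : there is a finite set `S0` of primes such that every
  divisor `D : HeightOneSpectrum R →₀ ℤ` is principal up to an `S0`-part:
  `∃ c : Fˣ, ∀ v ∉ S0, v (c) = exp (-(D v))`.
-/

namespace Fermat.Agent.CFT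

open IsDedekindDomain HeightOneSpectrum WithZero FractionalIdeal nonZeroDivisors

variable {R : Type*} [CommRing R] [IsDedekindDomain R]
variable (F : Type*) [Field F] [Algebra R F] [IsFractionRing R F]

/-- the fractional ideal attached to a divisor -/
noncomputable def divIdeal (D : HeightOneSpectrum R →₀ ℤ) : FractionalIdeal R⁰ F :=
  D.prod fun v n => (v.asIdeal : FractionalIdeal R⁰ F) ^ n

theorem divIdeal_ne_zero (D : HeightOneSpectrum R →₀ ℤ) : divIdeal F D ≠ 0 := by
  rw [divIdeal, Finsupp.prod, Finset.prod_ne_zero_iff]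
  intro v _
  exact zpow_ne_zero _ (coeIdeal_ne_zero.mpr v.ne_bot)

theorem count_divIdeal (D : HeightOneSpectrum R →₀ ℤ) (v : HeightOneSpectrum R) :
    count F v (divIdeal F D) = D v :=
  count_finsuppProd F v D

/-- the valuation of a generator of a principal fractional ideal -/
theorem valuation_eq_exp_neg_count (v : HeightOneSpectrum R) {x : F} (hx : x ≠ 0) :
    v.valuation F x = exp (-(count F v (spanSingleton R⁰ x))) := by
  rw [Fermat.Agent.S20.count_spanSingleton v hx, neg_neg,
    exp_log ((Valuation.ne_zero_iff _).mpr hx)]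

/-- **A finite set of primes generating the class group**, divisor form: every divisor is
principal outside `S0`. -/
theorem exists_finset_generating_classGroup [Finite (ClassGroup R)] :
    ∃ S0 : Finset (HeightOneSpectrum R), ∀ D : HeightOneSpectrum R →₀ ℤ,
      ∃ c : Fˣ, ∀ v ∉ S0, v.valuation F (c : F) = exp (-(D v)) := by
  classical
  have := Fintype.ofFinite (ClassGroup R)
  -- integral representatives
  choose rep hrep using (ClassGroup.mk0_surjective (R := R))
  have hrep0 : ∀ C : ClassGroup R, ((rep C : (Ideal R)⁰) : Ideal R) ≠ 0 := fun C =>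
    nonZeroDivisors.ne_zero (rep C).2
  let S0 : Finset (HeightOneSpectrum R) :=
    Finset.univ.biUnion fun C : ClassGroup R => (Ideal.finite_factors (hrep0 C)).toFinset
  refine ⟨S0, fun D => ?_⟩
  -- the unit fractional ideal attached to `D`
  let J : (FractionalIdeal R⁰ F)ˣ := Units.mk0 (divIdeal F D) (divIdeal_ne_zero F D)
  let C := ClassGroup.mk F J
  let I : (FractionalIdeal R⁰ F)ˣ := FractionalIdeal.mk0 F (rep C)
  have hI : ClassGroup.mk F I = C := by
    rw [ClassGroup.mk_mk0, hrep]
  have h1 : ClassGroup.mk F (J * I⁻¹) = 1 := by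
    rw [map_mul, map_inv, hI, mul_inv_cancel]
  rw [ClassGroup.mk_eq_one_iff] at h1
  obtain ⟨x, hx⟩ := h1.principal
  have hx' : ((J * I⁻¹ : (FractionalIdeal R⁰ F)ˣ) : FractionalIdeal R⁰ F) = spanSingleton R⁰ x := by
    apply Subtype.coe_injective
    simp only [val_eq_coe, hx, coe_spanSingleton]
  have hx0 : x ≠ 0 := by
    intro h0
    apply Units.ne_zero (J * I⁻¹)
    rw [hx', h0, spanSingleton_zero]
  refine ⟨Units.mk0 x hx0, fun v hv => ?_⟩
  rw [Units.val_mk0, valuation_eq_exp_neg_count F v hx0, ← hx', Units.val_mul, Units.val_inv_eq_inv_val,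
    count_mul F v J.ne_zero (inv_ne_zero I.ne_zero), count_inv]
  have hJ : count F v (J : FractionalIdeal R⁰ F) = D v := count_divIdeal F D v
  have hIv : count F v (I : FractionalIdeal R⁰ F) = 0 := by
    change count F v ((FractionalIdeal.mk0 F (rep C) : (FractionalIdeal R⁰ F)ˣ) :
      FractionalIdeal R⁰ F) = 0
    rw [FractionalIdeal.coe_mk0, count_coe F v (hrep0 C), Int.natCast_eq_zero]
    by_contra hne
    apply hv
    rw [Finset.mem_biUnion]
    refine ⟨C, Finset.mem_univ _, ?_⟩
    rw [Set.Finite.mem_toFinset]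
    exact (Associates.count_ne_zero_iff_dvd (hrep0 C) v.irreducible).mp hne
  rw [hJ, hIv]
  simp

end Fermat.Agent.CFT
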