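import Mathlib

set_option autoImplicit false

/-!
# CFT, stream [C]: the discrete Stokes lemma used in the crossing argument

`U V : ℕ → ℕ → ℤ` form a closed discrete 1-form (`U` on horizontal edges, `V` on vertical edges)
which is periodic under `(p, 0)`, `(0, n)` and `(a, c)`, where `p ∣ n`.  Then the period of the
potential along `(a, c)`, multiplied by `n`, equals
`(n / p) * a * (∑ i < p, U i 0) + c * (∑ j < n, V 0 j)`.
-/

namespace Fermat.Agent.CFT.Stokes

variable (U V : ℕ → ℕ → ℤ)

/-- the potential of the closed 1-form `(U, V)`. -/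
def potential (i j : ℕ) : ℤ :=
  (∑ k ∈ Finset.range i, U k 0) + ∑ l ∈ Finset.range j, V i l

/-- `(T₁, T₂)` is a period of both `U` and `V`. -/
def IsPeriod (T₁ T₂ : ℕ) : Prop :=
  (∀ i j, U (i + T₁) (j + T₂) = U i j) ∧ ∀ i j, V (i + T₁) (j + T₂) = V i j

variable {U V}

theorem potential_succ_right (i j : ℕ) :
    potential U V i (j + 1) = potential U V i j + V i j := by
  simp only [potential, Finset.sum_range_succ]
  ring

theorem potential_succ_left (hclosed : ∀ i j, U i (j + 1) - U i j = V (i + 1) j - V i j)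
    (i j : ℕ) : potential U V (i + 1) j = potential U V i j + U i j := by
  induction j with
  | zero => simp [potential, Finset.sum_range_succ]
  | succ j ih =>
    rw [potential_succ_right, potential_succ_right, ih]
    have := hclosed i j
    linarith

theorem potential_add_period (hclosed : ∀ i j, U i (j + 1) - U i j = V (i + 1) j - V i j)
    {T₁ T₂ : ℕ} (hT : IsPeriod U V T₁ T₂) (i j : ℕ) :
    potential U V (i + T₁) (j + T₂) = potential U V i j + potential U V T₁ T₂ := by
  induction i with
  | zero =>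
    induction j with
    | zero => simp [potential]
    | succ j ih =>
      have h1 : 0 + T₁ = T₁ := Nat.zero_add _
      rw [show j + 1 + T₂ = (j + T₂) + 1 by ring, potential_succ_right, ih, potential_succ_right]
      have := hT.2 0 j
      rw [this]
      ring
  | succ i ih =>
    rw [show i + 1 + T₁ = (i + T₁) + 1 by ring, potential_succ_left hclosed, ih,
      potential_succ_left hclosed, hT.1 i j]
    ring

theorem IsPeriod.add {T₁ T₂ S₁ S₂ : ℕ} (hT : IsPeriod U V T₁ T₂) (hS : IsPeriod U V S₁ S₂) :
    IsPeriod U V (T₁ + S₁) (T₂ + S₂) := by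
  refine ⟨fun i j => ?_, fun i j => ?_⟩
  · rw [← add_assoc, ← add_assoc, hS.1, hT.1]
  · rw [← add_assoc, ← add_assoc, hS.2, hT.2]

theorem isPeriod_zero : IsPeriod U V 0 0 := ⟨fun _ _ => rfl, fun _ _ => rfl⟩

theorem IsPeriod.nsmul {T₁ T₂ : ℕ} (hT : IsPeriod U V T₁ T₂) (k : ℕ) :
    IsPeriod U V (k * T₁) (k * T₂) := by
  induction k with
  | zero => simpa using isPeriod_zero
  | succ k ih =>
    rw [Nat.succ_mul, Nat.succ_mul]
    exact ih.add hT

theorem potential_nsmul (hclosed : ∀ i j, U i (j + 1) - U i j = V (i + 1) j - V i j)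
    {T₁ T₂ : ℕ} (hT : IsPeriod U V T₁ T₂) (k : ℕ) :
    potential U V (k * T₁) (k * T₂) = k * potential U V T₁ T₂ := by
  induction k with
  | zero => simp [potential]
  | succ k ih =>
    rw [Nat.succ_mul, Nat.succ_mul, potential_add_period hclosed hT, ih]
    push_cast
    ring

/-- **Discrete Stokes lemma.** -/
theorem discrete_stokes (p n a c : ℕ) (hpn : p ∣ n)
    (hclosed : ∀ i j, U i (j + 1) - U i j = V (i + 1) j - V i j)
    (hp : IsPeriod U V p 0) (hn : IsPeriod U V 0 n) (hac : IsPeriod U V a c) :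
    ∃ m : ℤ, (n : ℤ) * m = ((n / p : ℕ) : ℤ) * a * (∑ i ∈ Finset.range p, U i 0) +
      c * (∑ j ∈ Finset.range n, V 0 j) := by
  refine ⟨potential U V a c, ?_⟩
  have h1 := potential_nsmul hclosed hac n
  have h2 := potential_nsmul hclosed hp (n / p * a)
  have h3 := potential_nsmul hclosed hn c
  have h4 := potential_add_period hclosed (hn.nsmul c) (n / p * a * p) (n / p * a * 0)
  have e1 : n / p * a * p = n * a := by
    obtain ⟨k, rfl⟩ := hpn
    rcases Nat.eq_zero_or_pos p with h0 | h0
    · subst h0; simp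
    · rw [Nat.mul_div_cancel_left _ h0]; ring
  have hP : potential U V p 0 = ∑ i ∈ Finset.range p, U i 0 := by simp [potential]
  have hN : potential U V 0 n = ∑ j ∈ Finset.range n, V 0 j := by simp [potential]
  rw [Nat.mul_zero, Nat.mul_zero, Nat.zero_add] at h4
  rw [Nat.mul_zero] at h3 h2
  rw [e1] at h2 h4
  rw [Nat.add_zero, Nat.mul_comm c n, h2, hP] at h4
  rw [Nat.mul_comm c n] at h3
  rw [h3, hN] at h4
  rw [← h1, h4]
  push_cast
  ring

end Fermat.Agent.CFT.Stokes
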