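import Mathlib
import Fermat.Agent.CFT.Global.PrimeDivisor
import Fermat.Agent.CFT.Global.ResiduePower
import Fermat.Agent.CFT.Local.UnitsCoh

set_option autoImplicit false
set_option linter.unusedSectionVars false

/-!
# CFT stream [C], chunk (F3): the tame first inequality -- shared definitions

`M / F` Galois (cyclic of odd prime degree `p`), `σ` a generator of `G = Gal(M/F)`,
`ζ ∈ F` a primitive `p`-th root of unity, `α ∈ Mˣ` with `σ α = ζ α` (Hilbert 90),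
`𝓡` the finite set of primes of `M` which are (totally, tamely) ramified over `F`.

The middle term of the `TwoStep` diagram is `tameI 𝓡 = Div M × ∏_{Q ∈ 𝓡} k(Q)ˣ` (additively), with
`tamePhi 𝓡 α : Mˣ → tameI 𝓡`, `x ↦ (div x, (tameRes Q α x)_Q)`, where
`tameRes Q α x = (x ^ a * α ^ (-d x) mod Q)`, `d = divFun · Q` (`= - ord_Q`), `a = d α`.
It carries NO group action, only the two endomorphisms `tameFI` ("`σ - 1`") and `tameGI`
("norm"), twisted by `tameTheta`.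
-/

namespace Fermat.Agent.CFT

open IsDedekindDomain IsDedekindDomain.HeightOneSpectrum NumberField
open scoped Pointwise

section TameDefs

variable {M : Type*} [Field M] [NumberField M]

/-- `d_Q x = divFun x Q = - ord_Q x`. -/
noncomputable abbrev tameD (Q : HeightOneSpectrum (𝓞 M)) (x : Mˣ) : ℤ := divFun (𝓞 M) M x Q

theorem tameUnit_mem (Q : HeightOneSpectrum (𝓞 M)) (α x : Mˣ) :
    x ^ (tameD Q α) * α ^ (-(tameD Q x)) ∈ vUnits Q := by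
  rw [mem_vUnits_iff, Units.val_mul, map_mul, Units.val_zpow_eq_zpow_val,
    Units.val_zpow_eq_zpow_val, map_zpow₀, map_zpow₀, valuation_eq_exp_divFun,
    valuation_eq_exp_divFun, ← WithZero.exp_zsmul, ← WithZero.exp_zsmul, ← WithZero.exp_add,
    ← WithZero.exp_zero, WithZero.exp_inj]
  simp only [smul_eq_mul]
  ring

/-- the `Q`-unit `x ^ a * α ^ (-d x)` attached to `x` (`a = d α`), as a homomorphism. -/
noncomputable def tameUnit (Q : HeightOneSpectrum (𝓞 M)) (α : Mˣ) : Mˣ →* vUnits Q where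
  toFun x := ⟨x ^ (tameD Q α) * α ^ (-(tameD Q x)), tameUnit_mem Q α x⟩
  map_one' := by
    apply Subtype.ext
    simp [tameD, divFun_one]
  map_mul' x y := by
    apply Subtype.ext
    simp only [tameD, divFun_mul, Subgroup.coe_mul, mul_zpow, neg_add, zpow_add]
    exact mul_mul_mul_comm _ _ _ _

theorem coe_tameUnit (Q : HeightOneSpectrum (𝓞 M)) (α x : Mˣ) :
    ((tameUnit Q α x : vUnits Q) : Mˣ) = x ^ (tameD Q α) * α ^ (-(tameD Q x)) := rfl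

/-- the tame residue symbol at `Q` relative to `α`, additively. -/
noncomputable def tameRes (Q : HeightOneSpectrum (𝓞 M)) (α : Mˣ) :
    Additive Mˣ →+ Additive (𝓞 M ⧸ Q.asIdeal)ˣ :=
  MonoidHom.toAdditive ((redUnits Q).comp (tameUnit Q α))

theorem tameRes_apply (Q : HeightOneSpectrum (𝓞 M)) (α : Mˣ) (x : Additive Mˣ) :
    tameRes Q α x = Additive.ofMul (redUnits Q (tameUnit Q α x.toMul)) := rfl

variable (𝓡 : Finset (HeightOneSpectrum (𝓞 M)))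

/-- `∏_{Q ∈ 𝓡} k(Q)ˣ`, additively. -/
abbrev tameK : Type _ := ∀ Q : 𝓡, Additive (𝓞 M ⧸ Q.1.asIdeal)ˣ

/-- the middle term `Div M × ∏_{Q ∈ 𝓡} k(Q)ˣ`. -/
abbrev tameI : Type _ := (HeightOneSpectrum (𝓞 M) →₀ ℤ) × tameK 𝓡

/-- `x ↦ (tameRes Q α x)_Q`. -/
noncomputable def tameResAll (α : Mˣ) : Additive Mˣ →+ tameK 𝓡 :=
  AddMonoidHom.pi fun Q => tameRes Q.1 α

/-- `φ : Mˣ → Div M × ∏ k(Q)ˣ`, `x ↦ (div x, (tameRes Q α x)_Q)`. -/
noncomputable def tamePhi (α : Mˣ) : Additive Mˣ →+ tameI 𝓡 :=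
  (divHom (𝓞 M) M).prod (tameResAll 𝓡 α)

theorem tamePhi_fst (α : Mˣ) (x : Additive Mˣ) : (tamePhi 𝓡 α x).1 = divHom (𝓞 M) M x := rfl

theorem tamePhi_snd (α : Mˣ) (x : Additive Mˣ) (Q : 𝓡) :
    (tamePhi 𝓡 α x).2 Q = tameRes Q.1 α x := rfl

/-- the twisting map `θ : Div M → ∏ k(Q)ˣ`, `D ↦ (D(Q) • z_Q)_Q` (`z_Q = ζ mod Q`). -/
noncomputable def tameTheta (z : tameK 𝓡) : (HeightOneSpectrum (𝓞 M) →₀ ℤ) →+ tameK 𝓡 :=
  AddMonoidHom.pi fun Q =>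
    ((smulAddHom ℤ (Additive (𝓞 M ⧸ Q.1.asIdeal)ˣ)).flip (z Q)).comp (Finsupp.applyAddHom Q.1)

theorem tameTheta_apply (z : tameK 𝓡) (D : HeightOneSpectrum (𝓞 M) →₀ ℤ) (Q : 𝓡) :
    tameTheta 𝓡 z D Q = D Q.1 • z Q := rfl

/-- "`σ - 1`" on the middle term: `(D, c) ↦ (fD D, θ D)`. -/
noncomputable def tameFI (fD : (HeightOneSpectrum (𝓞 M) →₀ ℤ) →+ (HeightOneSpectrum (𝓞 M) →₀ ℤ))
    (z : tameK 𝓡) : tameI 𝓡 →+ tameI 𝓡 :=
  (fD.prod (tameTheta 𝓡 z)).comp (AddMonoidHom.fst _ _)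

/-- "norm" on the middle term: `(D, c) ↦ (gD D, p • c)`. -/
noncomputable def tameGI (gD : (HeightOneSpectrum (𝓞 M) →₀ ℤ) →+ (HeightOneSpectrum (𝓞 M) →₀ ℤ))
    (p : ℕ) : tameI 𝓡 →+ tameI 𝓡 :=
  gD.prodMap (nsmulAddMonoidHom p)

theorem tameFI_apply (fD) (z : tameK 𝓡) (x : tameI 𝓡) :
    tameFI 𝓡 fD z x = (fD x.1, tameTheta 𝓡 z x.1) := rfl

theorem tameGI_apply (gD) (p : ℕ) (x : tameI 𝓡) :
    tameGI 𝓡 gD p x = (gD x.1, p • x.2) := rfl

/-- the inclusion `𝓞_Mˣ → Mˣ`, additively. -/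
noncomputable def unitsIncl : Additive (𝓞 M)ˣ →+ Additive Mˣ :=
  MonoidHom.toAdditive (Units.map (algebraMap (𝓞 M) M : 𝓞 M →* M))

/-- `E₁ = ker (φ restricted to the units)`: the units `u` with `tameRes Q α u = 0` for `Q ∈ 𝓡`. -/
noncomputable def tameE (α : Mˣ) : AddSubgroup (Additive (𝓞 M)ˣ) :=
  ((tamePhi 𝓡 α).comp unitsIncl).ker

/-- `z_Q = ζ mod Q` for `Q ∈ 𝓡` (`ζ` a unit of `𝓞 F`, in practice a primitive `p`-th root of unity). -/
noncomputable def tameZ {F : Type*} [Field F] [NumberField F] [Algebra F M] (ζ : (𝓞 F)ˣ) : tameK 𝓡 :=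
  fun Q => Additive.ofMul (Units.map
    ((Ideal.Quotient.mk Q.1.asIdeal).comp (algebraMap (𝓞 F) (𝓞 M)) : 𝓞 F →* 𝓞 M ⧸ Q.1.asIdeal) ζ)

theorem tameZ_apply {F : Type*} [Field F] [NumberField F] [Algebra F M] (ζ : (𝓞 F)ˣ) (Q : 𝓡) :
    ((tameZ 𝓡 ζ Q).toMul : 𝓞 M ⧸ Q.1.asIdeal) =
      Ideal.Quotient.mk Q.1.asIdeal (algebraMap (𝓞 F) (𝓞 M) (ζ : 𝓞 F)) := rfl

end TameDefs

end Fermat.Agent.CFT
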