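import Mathlib
import Fermat.Agent.CFT.Global.Contracts
import Fermat.Agent.CFT.Global.TameDefs
import Fermat.Agent.CFT.Global.DivInvariants
import Fermat.Agent.CFT.Global.UnitsHerbrand
import Fermat.Agent.CFT.Local.NormIndex
import Fermat.Agent.CFT.Coh.TwoStep

set_option autoImplicit false
set_option linter.unusedSectionVars false

namespace Fermat.Agent.CFT

open IsDedekindDomain IsDedekindDomain.HeightOneSpectrum NumberField
open scoped Pointwise

section AbstractTwist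

variable {Mod D K : Type*} [AddCommGroup Mod] [AddCommGroup D] [AddCommGroup K]
variable (fM gM : Mod →+ Mod) (fD gD : D →+ D) (θ : D →+ K) (n : ℕ) (d : Mod →+ D) (r : Mod →+ K)

/-- "`σ - 1`" on the twisted product `D × K`. -/
def twistF : D × K →+ D × K := (fD.prod θ).comp (AddMonoidHom.fst D K)

/-- "norm" on the twisted product `D × K`. -/
def twistG : D × K →+ D × K := gD.prodMap (nsmulAddMonoidHom n)

variable {fD gD θ n}

theorem twistF_apply (x : D × K) : twistF fD θ x = (fD x.1, θ x.1) := rfl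

theorem twistG_apply (x : D × K) : twistG gD n x = (gD x.1, n • x.2) := rfl

theorem twistF_twistG (h1 : ∀ x, fD (gD x) = 0) (h3 : ∀ x, θ (gD x) = 0) (x : D × K) :
    twistF fD θ (twistG gD n x) = 0 := by
  rw [twistF_apply, twistG_apply]
  simp only [h1, h3]
  rfl

theorem twistG_twistF (h2 : ∀ x, gD (fD x) = 0) (h4 : ∀ x, n • θ x = 0) (x : D × K) :
    twistG gD n (twistF fD θ x) = 0 := by
  rw [twistG_apply, twistF_apply]
  simp only [h2, h4]
  rfl

theorem twist_ker_le_range (h5 : gD.ker ≤ fD.range)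
    (h6 : ∀ c : K, n • c = 0 → ∃ D₀ : D, fD D₀ = 0 ∧ θ D₀ = c) (h4 : ∀ x, n • θ x = 0) :
    (twistG gD n).ker ≤ (twistF fD θ).range := by
  rintro ⟨x, c⟩ hx
  rw [AddMonoidHom.mem_ker, twistG_apply, Prod.mk_eq_zero] at hx
  obtain ⟨x', hx'⟩ := h5 (show x ∈ gD.ker from hx.1)
  obtain ⟨x₀, h0, h0'⟩ := h6 (c - θ x') (by rw [smul_sub, hx.2, h4, sub_zero])
  refine ⟨(x' + x₀, 0), ?_⟩
  rw [twistF_apply]
  simp only [map_add, h0, h0', hx', add_zero]
  congr 1
  abel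

variable {fM gM d r}

theorem twist_comm_f (hd : ∀ m, d (fM m) = fD (d m)) (hr : ∀ m, r (fM m) = θ (d m)) (m : Mod) :
    (d.prod r) (fM m) = twistF fD θ ((d.prod r) m) := by
  rw [twistF_apply]
  simp only [AddMonoidHom.prod_apply, hd, hr]

theorem twist_comm_g (hd : ∀ m, d (gM m) = gD (d m)) (hr : ∀ m, r (gM m) = n • r m) (m : Mod) :
    (d.prod r) (gM m) = twistG gD n ((d.prod r) m) := by
  rw [twistG_apply]
  simp only [AddMonoidHom.prod_apply, hd, hr]

end AbstractTwist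

end Fermat.Agent.CFT

namespace Fermat.Agent.CFT

open IsDedekindDomain IsDedekindDomain.HeightOneSpectrum NumberField
open scoped Pointwise

attribute [local instance] heightOneSpectrumMulAction
attribute [local instance] Finsupp.comapSMul Finsupp.comapMulAction Finsupp.comapDistribMulAction
attribute [local instance] additiveDistribMulAction Units.mulDistribMulActionRight

section Setup

variable {F M : Type} [Field F] [NumberField F] [Field M] [NumberField M] [Algebra F M]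
  [IsGalois F M]

/-- Hilbert 90: a Kummer generator `α` with `σ α = ζ α`. -/
theorem exists_kummer_unit {p : ℕ} (hcard : Nat.card Gal(M/F) = p) {σ : Gal(M/F)}
    (hσ : ∀ τ, τ ∈ Subgroup.zpowers σ) (ζ : (𝓞 F)ˣ) (hζ : ζ ^ p = 1) :
    ∃ α : Mˣ, σ (α : M) = algebraMap (𝓞 F) M ζ * α := by
  have hfin : Module.finrank F M = p := by
    rw [← hcard, IsGalois.card_aut_eq_finrank]
  have hz : ((ζ : 𝓞 F) : F) ^ p = 1 := by
    have := congrArg (fun u : (𝓞 F)ˣ => ((u : 𝓞 F) : F)) hζ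
    simpa using this
  have hN : Algebra.norm F (algebraMap F M ((ζ : 𝓞 F) : F))⁻¹ = 1 := by
    rw [Algebra.norm_inv, Algebra.norm_algebraMap, hfin, hz, inv_one]
  have : IsCyclic Gal(M/F) := ⟨σ, hσ⟩
  obtain ⟨y, hy⟩ := groupCohomology.exists_div_of_norm_eq_one (K := F) (L := M) hσ hN
  refine ⟨y, ?_⟩
  have hy0 : (y : M) ≠ 0 := y.ne_zero
  have hσy0 : σ (y : M) ≠ 0 := by simpa using hy0
  have hz0 : algebraMap F M ((ζ : 𝓞 F) : F) ≠ 0 := by
    intro h
    have h2 : ((ζ : 𝓞 F) : F) = 0 := (algebraMap F M).injective (by rw [h, map_zero])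
    rw [h2, zero_pow (by rw [← hfin]; exact Module.finrank_pos.ne')] at hz
    exact zero_ne_one hz
  have h3 : algebraMap (𝓞 F) M ζ = algebraMap F M ((ζ : 𝓞 F) : F) := rfl
  rw [h3]
  rw [div_eq_iff hσy0] at hy
  conv_rhs => rw [hy, ← mul_assoc, mul_inv_cancel₀ hz0, one_mul]

end Setup

/-- sums over a cyclic group of order `p` generated by `σ`. -/
theorem sum_eq_sum_range_pow {G A : Type*} [Group G] [Fintype G] [AddCommMonoid A] {σ : G}
    (hσ : ∀ τ, τ ∈ Subgroup.zpowers σ) (f : G → A) :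
    ∑ τ : G, f τ = ∑ i ∈ Finset.range (Nat.card G), f (σ ^ i) := by
  classical
  rw [← IsCyclic.image_range_card hσ, Finset.sum_image]
  intro i hi j hj hij
  have ho : orderOf σ = Nat.card G := orderOf_eq_card_of_forall_mem_zpowers hσ
  rw [Finset.coe_range, Set.mem_Iio, ← ho] at hi hj
  exact pow_injOn_Iio_orderOf hi hj hij

section Core

variable {F M : Type*} [Field F] [NumberField F] [Field M] [NumberField M] [Algebra F M]
  [IsGalois F M]

theorem additive_units_smul_def (τ : Gal(M/F)) (x : Additive Mˣ) :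
    τ • x = Additive.ofMul (Units.map (τ : M →* M) x.toMul) := by
  rfl

theorem divHom_smul' (τ : Gal(M/F)) (x : Additive Mˣ) :
    divHom (𝓞 M) M (τ • x) = τ • divHom (𝓞 M) M x := by
  rw [additive_units_smul_def]
  exact divHom_units_map_smul F M τ x.toMul

theorem tameD_smul (Q : HeightOneSpectrum (𝓞 M)) (τ : Gal(M/F)) (hQ : τ • Q = Q) (x : Additive Mˣ) :
    tameD Q (τ • x).toMul = tameD Q x.toMul := by
  have h := DFunLike.congr_fun (divHom_smul' (F := F) τ x) Q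
  rw [divHom_apply, Finsupp.comapSMul_apply, divHom_apply] at h
  rw [tameD, h]
  have : τ⁻¹ • Q = Q := by
    rw [inv_smul_eq_iff, hQ]
  rw [this]

theorem tameRes_pow_smul (Q : HeightOneSpectrum (𝓞 M)) (α : Mˣ) (σ : Gal(M/F))
    (z : Additive (𝓞 M ⧸ Q.asIdeal)ˣ) (hfix : σ • Q = Q)
    (hres : ∀ x : Additive Mˣ, tameRes Q α (σ • x) = tameD Q x.toMul • z + tameRes Q α x)
    (i : ℕ) (x : Additive Mˣ) :
    tameRes Q α (σ ^ i • x) = i • (tameD Q x.toMul • z) + tameRes Q α x := by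
  induction i with
  | zero => simp
  | succ i ih =>
    have hfixi : σ ^ i • Q = Q := by
      have : σ ∈ MulAction.stabilizer Gal(M/F) Q := hfix
      exact (MulAction.stabilizer Gal(M/F) Q).pow_mem this i
    rw [pow_succ', mul_smul, hres, ih, tameD_smul Q (σ ^ i) hfixi, succ_nsmul]
    abel

theorem tameRes_normHom [Fintype Gal(M/F)] {p : ℕ} (hp2 : Odd p) (hcard : Nat.card Gal(M/F) = p)
    (Q : HeightOneSpectrum (𝓞 M)) (α : Mˣ) {σ : Gal(M/F)}
    (hσ : ∀ τ, τ ∈ Subgroup.zpowers σ)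
    (z : Additive (𝓞 M ⧸ Q.asIdeal)ˣ) (hz : p • z = 0) (hfix : σ • Q = Q)
    (hres : ∀ x : Additive Mˣ, tameRes Q α (σ • x) = tameD Q x.toMul • z + tameRes Q α x)
    (x : Additive Mˣ) :
    tameRes Q α (normHom Gal(M/F) (Additive Mˣ) x) = p • tameRes Q α x := by
  rw [normHom_apply, map_sum, sum_eq_sum_range_pow hσ, hcard]
  simp only [tameRes_pow_smul Q α σ z hfix hres]
  rw [Finset.sum_add_distrib, Finset.sum_const, Finset.card_range, ← Finset.sum_smul]
  obtain ⟨k, hk⟩ := hp2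
  have hsum : (∑ i ∈ Finset.range p, i) = p * k := by
    have h2 := Finset.sum_range_id_mul_two p
    have : p - 1 = 2 * k := by omega
    rw [this] at h2
    have : (∑ i ∈ Finset.range p, i) * 2 = (p * k) * 2 := by rw [h2]; ring
    exact Nat.eq_of_mul_eq_mul_right (by norm_num) this
  have h0 : p • (tameD Q x.toMul • z) = 0 := by
    rw [← natCast_zsmul, smul_comm, natCast_zsmul, hz, smul_zero]
  rw [hsum, mul_comm, mul_smul, h0, smul_zero, zero_add]

/-- **Core of (F3)**: the `TwoStep` index theorem applied to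
`tameE → Mˣ → Div M × ∏ k(Q)ˣ`; the index `[I^σ : φ(F^×) + N I]` is a nonzero multiple of `p`,
in particular `I^σ ⊄ φ(Fˣ) + N I`. -/
theorem tame_index_core [Fintype Gal(M/F)] {p : ℕ} (hp : p.Prime) (hp2 : p ≠ 2)
    (hcard : Nat.card Gal(M/F) = p) {σ : Gal(M/F)} (hσ : ∀ τ, τ ∈ Subgroup.zpowers σ)
    (ζ : (𝓞 F)ˣ) (hζ : ζ ^ p = 1) (α : Mˣ)
    (𝓡 : Finset (HeightOneSpectrum (𝓞 M)))
    (hfix : ∀ Q ∈ 𝓡, ∀ τ : Gal(M/F), τ • Q = Q)
    (hres : ∀ (Q : 𝓡) (x : Additive Mˣ),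
      tameRes Q.1 α (σ • x) = tameD Q.1 x.toMul • tameZ 𝓡 ζ Q + tameRes Q.1 α x)
    (htors : ∀ (Q : 𝓡) (c : Additive (𝓞 M ⧸ Q.1.asIdeal)ˣ), p • c = 0 →
      ∃ j : ℤ, c = j • tameZ 𝓡 ζ Q)
    (hM : (normHom Gal(M/F) (Additive Mˣ)).ker ≤ (subOneHom (Additive Mˣ) σ).range)
    (hstab : ∀ (τ : Gal(M/F)), ∀ u ∈ tameE 𝓡 α, τ • u ∈ tameE 𝓡 α)
    (hherb : letI := stableSubgroupAction (tameE 𝓡 α) hstab
      HerbrandDefinedCyclic Gal(M/F) (tameE 𝓡 α) σ ∧ herbrand Gal(M/F) (tameE 𝓡 α) σ * p = 1)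
    (hcoker : (tamePhi 𝓡 α).range.FiniteIndex) :
    ¬ (tameFI 𝓡 (subOneHom (HeightOneSpectrum (𝓞 M) →₀ ℤ) σ) (tameZ 𝓡 ζ)).ker ≤
      (subOneHom (Additive Mˣ) σ).ker.map (tamePhi 𝓡 α) ⊔
        (tameGI 𝓡 (normHom Gal(M/F) (HeightOneSpectrum (𝓞 M) →₀ ℤ)) p).range := by
  classical
  intro hle
  letI := stableSubgroupAction (tameE 𝓡 α) hstab
  obtain ⟨hE, hval⟩ := hherb
  have hodd : Odd p := hp.odd_of_ne_two hp2
  -- `p • z = 0`
  have hzp : ∀ Q : 𝓡, p • tameZ 𝓡 ζ Q = 0 := by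
    intro Q
    have : (tameZ 𝓡 ζ Q) = Additive.ofMul (Units.map
      ((Ideal.Quotient.mk Q.1.asIdeal).comp (algebraMap (𝓞 F) (𝓞 M)) :
        𝓞 F →* 𝓞 M ⧸ Q.1.asIdeal) ζ) := rfl
    rw [this, ← ofMul_pow, ← map_pow, hζ, map_one, ofMul_one]
  -- the maps
  let Dv := HeightOneSpectrum (𝓞 M) →₀ ℤ
  let fD : Dv →+ Dv := subOneHom Dv σ
  let gD : Dv →+ Dv := normHom Gal(M/F) Dv
  let θ := tameTheta 𝓡 (tameZ 𝓡 ζ)
  have h1 : ∀ x, fD (gD x) = 0 := subOneHom_normHom σ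
  have h2 : ∀ x, gD (fD x) = 0 := normHom_subOneHom σ
  have h4 : ∀ x, p • θ x = 0 := by
    intro x
    funext Q
    rw [Pi.smul_apply, tameTheta_apply, ← natCast_zsmul, smul_comm, natCast_zsmul, hzp, smul_zero]
    rfl
  have h3 : ∀ x, θ (gD x) = 0 := by
    intro x
    funext Q
    rw [tameTheta_apply]
    have : gD x Q.1 = (p : ℤ) * x Q.1 := by
      show normHom Gal(M/F) Dv x Q.1 = _
      rw [normHom_finsupp_apply]
      have : ∀ g : Gal(M/F), x (g⁻¹ • Q.1) = x Q.1 := by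
        intro g
        rw [hfix Q.1 Q.2 g⁻¹]
      simp only [this, Finset.sum_const, Finset.card_univ, nsmul_eq_mul]
      rw [← Nat.card_eq_fintype_card, hcard]
    rw [this, mul_comm, mul_smul, natCast_zsmul, hzp, smul_zero]
    rfl
  have h5 : gD.ker ≤ fD.range := by
    intro x hx
    obtain ⟨x', -, hx'⟩ := exists_subOneHom_eq_of_normHom_eq_zero hσ x hx
    exact ⟨x', hx'⟩
  have h6 : ∀ c : tameK 𝓡, p • c = 0 → ∃ D₀ : Dv, fD D₀ = 0 ∧ θ D₀ = c := by
    intro c hc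
    have hj : ∀ Q : 𝓡, ∃ j : ℤ, c Q = j • tameZ 𝓡 ζ Q := fun Q =>
      htors Q (c Q) (by have := congrFun hc Q; simpa using this)
    choose j hj using hj
    refine ⟨∑ Q : 𝓡, Finsupp.single Q.1 (j Q), ?_, ?_⟩
    · rw [map_sum]
      refine Finset.sum_eq_zero fun Q _ => ?_
      show subOneHom Dv σ _ = 0
      rw [subOneHom_apply, Finsupp.comapSMul_single, hfix Q.1 Q.2 σ, sub_self]
    · funext Q
      rw [tameTheta_apply, hj Q, Finsupp.finset_sum_apply]
      congr 1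
      rw [Finset.sum_eq_single Q]
      · rw [Finsupp.single_eq_same]
      · intro Q' _ hne
        rw [Finsupp.single_apply, if_neg]
        intro h
        exact hne (Subtype.ext h)
      · intro h
        exact absurd (Finset.mem_univ Q) h
  -- the commutation relations
  have hdG : ∀ (τ : Gal(M/F)) (x : Additive Mˣ),
      divHom (𝓞 M) M (τ • x) = τ • divHom (𝓞 M) M x := divHom_smul'
  have hrf : ∀ m, tameResAll 𝓡 α (subOneHom (Additive Mˣ) σ m) = θ (divHom (𝓞 M) M m) := by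
    intro m
    funext Q
    rw [tameTheta_apply, subOneHom_apply, map_sub]
    show tameRes Q.1 α (σ • m) - tameRes Q.1 α m = _
    rw [hres Q m, add_sub_cancel_right, divHom_apply]
  have hrg : ∀ m, tameResAll 𝓡 α (normHom Gal(M/F) (Additive Mˣ) m) = p • tameResAll 𝓡 α m := by
    intro m
    funext Q
    show tameRes Q.1 α _ = p • tameRes Q.1 α m
    exact tameRes_normHom hodd hcard Q.1 α hσ _ (hzp Q) (hfix Q.1 Q.2 σ) (hres Q) m
  have hfφ : ∀ m, tamePhi 𝓡 α (subOneHom (Additive Mˣ) σ m) =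
      tameFI 𝓡 fD (tameZ 𝓡 ζ) (tamePhi 𝓡 α m) :=
    twist_comm_f (fun m => hom_subOneHom _ hdG σ m) hrf
  have hgφ : ∀ m, tamePhi 𝓡 α (normHom Gal(M/F) (Additive Mˣ) m) =
      tameGI 𝓡 gD p (tamePhi 𝓡 α m) :=
    twist_comm_g (fun m => hom_normHom _ hdG m) hrg
  have hfgI : ∀ x, tameFI 𝓡 fD (tameZ 𝓡 ζ) (tameGI 𝓡 gD p x) = 0 := twistF_twistG h1 h3
  have hgfI : ∀ x, tameGI 𝓡 gD p (tameFI 𝓡 fD (tameZ 𝓡 ζ) x) = 0 := twistG_twistF h2 h4
  have hI : (tameGI 𝓡 gD p).ker ≤ (tameFI 𝓡 fD (tameZ 𝓡 ζ)).range :=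
    twist_ker_le_range h5 h6 h4
  -- the left map
  let ι : tameE 𝓡 α →+ Additive Mˣ := unitsIncl.comp (tameE 𝓡 α).subtype
  have hιinj : Function.Injective ι := by
    intro a b hab
    apply Subtype.ext
    have h := congrArg Additive.toMul hab
    have hinj : Function.Injective (Units.map (algebraMap (𝓞 M) M : 𝓞 M →* M)) :=
      Units.map_injective (FaithfulSMul.algebraMap_injective (𝓞 M) M)
    exact congrArg Additive.ofMul (hinj h)
  have hιG : ∀ (τ : Gal(M/F)) (e : tameE 𝓡 α), ι (τ • e) = τ • ι e := by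
    intro τ e
    rfl
  have hex : ι.range = (tamePhi 𝓡 α).ker := by
    ext x
    constructor
    · rintro ⟨e, rfl⟩
      exact e.2
    · intro hx
      rw [AddMonoidHom.mem_ker] at hx
      have hx1 : divHom (𝓞 M) M x = 0 := congrArg Prod.fst hx
      obtain ⟨u, hu⟩ := (divHom_eq_zero_iff (𝓞 M) M x).mp hx1
      have hxu : unitsIncl (Additive.ofMul u) = x := congrArg Additive.ofMul hu
      refine ⟨⟨Additive.ofMul u, ?_⟩, hxu⟩
      show (tamePhi 𝓡 α).comp unitsIncl (Additive.ofMul u) = 0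
      rw [AddMonoidHom.comp_apply, hxu, hx]
  have key := twoStep_index (fE := subOneHom (tameE 𝓡 α) σ) (gE := normHom Gal(M/F) (tameE 𝓡 α))
    (fM := subOneHom (Additive Mˣ) σ) (gM := normHom Gal(M/F) (Additive Mˣ))
    (fI := tameFI 𝓡 fD (tameZ 𝓡 ζ)) (gI := tameGI 𝓡 gD p) ι (tamePhi 𝓡 α) hιinj hex
    (fun e => hom_subOneHom ι hιG σ e) (fun e => hom_normHom ι hιG e) hfφ hgφ
    (subOneHom_normHom σ) (normHom_subOneHom σ) hfgI hgfI hM hI hE
  obtain ⟨k1, k2, k3⟩ := key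
  rw [AddSubgroup.relIndex_eq_one.mpr hle, one_mul] at k3
  -- `h(E) * p = 1` means `H0 * p = H1`
  have h0 : (tateH0Card Gal(M/F) (tameE 𝓡 α) σ : ℚ) ≠ 0 := Nat.cast_ne_zero.mpr hE.1
  have h1' : (tateH1Card Gal(M/F) (tameE 𝓡 α) σ : ℚ) ≠ 0 := Nat.cast_ne_zero.mpr hE.2
  rw [herbrand_eq, div_mul_eq_mul_div, div_eq_one_iff_eq h1'] at hval
  have hn' : tateH0Card Gal(M/F) (tameE 𝓡 α) σ * p = tateH1Card Gal(M/F) (tameE 𝓡 α) σ := by
    exact_mod_cast hval
  have k3' : tateH0Card Gal(M/F) (tameE 𝓡 α) σ = tateH1Card Gal(M/F) (tameE 𝓡 α) σ *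
      (normHom Gal(M/F) (Additive Mˣ)).range.relIndex
        ((subOneHom (Additive Mˣ) σ).ker ⊓ (tameGI 𝓡 gD p).range.comap (tamePhi 𝓡 α)) := k3
  rw [← hn'] at k3'
  have hpos : 0 < tateH0Card Gal(M/F) (tameE 𝓡 α) σ := Nat.pos_of_ne_zero hE.1
  have : p * (normHom Gal(M/F) (Additive Mˣ)).range.relIndex
        ((subOneHom (Additive Mˣ) σ).ker ⊓ (tameGI 𝓡 gD p).range.comap (tamePhi 𝓡 α)) = 1 := by
    apply Nat.eq_of_mul_eq_mul_left hpos
    rw [mul_one, ← mul_assoc]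
    exact k3'.symm
  have hp1 : p = 1 := Nat.eq_one_of_mul_eq_one_right this
  exact hp.one_lt.ne' hp1

end Core

section Final

variable {F M : Type} [Field F] [NumberField F] [Field M] [NumberField M] [Algebra F M]
  [IsGalois F M]

/-- Hilbert 90 in the `ker ≤ range` form. -/
theorem units_ker_normHom_le {σ : Gal(M/F)} (hσ : ∀ τ, τ ∈ Subgroup.zpowers σ) :
    (normHom Gal(M/F) (Additive Mˣ)).ker ≤ (subOneHom (Additive Mˣ) σ).range := by
  have h := tateH1Card_units_field F M hσ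
  unfold tateH1Card hIndex at h
  exact AddSubgroup.relIndex_eq_one.mp h

/-- the set of ramified primes of `M / F` is finite as soon as they all lie over a finite set. -/
theorem finite_ramified_of_forall (T : Finset (HeightOneSpectrum (𝓞 F)))
    (hunr : ∀ Q : Ideal (𝓞 M), Q.IsPrime → Q ≠ ⊥ →
      (∀ q ∈ T, Q.under (𝓞 F) ≠ q.asIdeal) → Q.inertia Gal(M/F) = ⊥) :
    {Q : HeightOneSpectrum (𝓞 M) | Q.asIdeal.inertia Gal(M/F) ≠ ⊥}.Finite := by
  refine (Set.Finite.biUnion T.finite_toSet fun q _ => finite_primeBelow_fiber F M q).subset ?_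
  intro Q hQ
  rw [Set.mem_setOf_eq] at hQ
  by_contra hcon
  apply hQ
  refine hunr Q.asIdeal Q.isPrime Q.ne_bot fun q hq hqQ => hcon ?_
  rw [Set.mem_iUnion₂]
  refine ⟨q, hq, ?_⟩
  rw [Set.mem_setOf_eq]
  exact HeightOneSpectrum.ext hqQ



end Final

end Fermat.Agent.CFT
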