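import Fermat.Agent.CFT.Global.PermLattice
import Fermat.Agent.CFT.Global.PrimeDivisor

set_option autoImplicit false

/-!
# CFT, stream [C], (F3)(d1)/(U3): `Ĥ⁻¹` of the divisor group vanishes (finitely supported version)

`G = ⟨σ⟩` finite cyclic acting on a set `X`; `X →₀ ℤ` the permutation module with
`(τ • D) x = D (τ⁻¹ • x)`.  If the norm `∑ τ, τ • D` vanishes then `D = σ • D' - D'` with `D'`
supported on the `G`-saturation of the support of `D`.  Application: divisors of a number field `M`
supported outside the primes above a set `R` of primes of `F`.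
-/

namespace Fermat.Agent.CFT

open scoped BigOperators
open Finset Function IsDedekindDomain NumberField

section Abstract

variable {G : Type*} [Group G] [Fintype G] {X : Type*} [MulAction G X]

/-- **(U3), pointwise form.** -/
theorem finsupp_exists_subOne_of_norm_eq_zero {σ : G} (hσ : ∀ τ, τ ∈ Subgroup.zpowers σ)
    (D : X →₀ ℤ) (hN : ∀ x, ∑ τ : G, D (τ⁻¹ • x) = 0) :
    ∃ D' : X →₀ ℤ, (∀ x, D x = D' (σ⁻¹ • x) - D' x) ∧
      ∀ x, (∀ τ : G, D (τ • x) = 0) → D' x = 0 := by
  classical
  have hker : (⇑D : X → ℤ) ∈ (permNorm G (X := X)).ker := by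
    rw [AddMonoidHom.mem_ker]
    funext x
    rw [permNorm_apply]
    exact hN x
  obtain ⟨g, hg⟩ := ker_permNorm_le_range_permSubOne hσ hker
  have hg' : ∀ x, g (σ⁻¹ • x) - g x = D x := fun x => by
    have := congrFun hg x
    rwa [permSubOne_apply] at this
  -- cut `g` down to the saturation of the support of `D`
  let P : X → Prop := fun x => ∃ τ : G, D (τ • x) ≠ 0
  have hPinv : ∀ x, P (σ⁻¹ • x) ↔ P x := by
    intro x
    constructor
    · rintro ⟨τ, hτ⟩
      exact ⟨τ * σ⁻¹, by rwa [mul_smul]⟩
    · rintro ⟨τ, hτ⟩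
      exact ⟨τ * σ, by rwa [mul_smul, smul_inv_smul]⟩
  let g' : X → ℤ := fun x => if P x then g x else 0
  have hfin : (Function.support g').Finite := by
    have hsub : Function.support g' ⊆
        ⋃ τ : G, (fun x => τ⁻¹ • x) '' (D.support : Set X) := by
      intro x hx
      have hPx : P x := by
        by_contra h
        exact hx (if_neg h)
      obtain ⟨τ, hτ⟩ := hPx
      exact Set.mem_iUnion.mpr ⟨τ, τ • x, Finsupp.mem_support_iff.mpr hτ, inv_smul_smul τ x⟩
    exact (Set.finite_iUnion fun τ => (D.support.finite_toSet).image _).subset hsub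
  refine ⟨Finsupp.ofSupportFinite g' hfin, ?_, ?_⟩
  · intro x
    rw [Finsupp.ofSupportFinite_coe]
    by_cases hx : P x
    · have hx' : P (σ⁻¹ • x) := (hPinv x).mpr hx
      simp only [g', if_pos hx, if_pos hx']
      exact (hg' x).symm
    · have hx' : ¬ P (σ⁻¹ • x) := fun h => hx ((hPinv x).mp h)
      simp only [g', if_neg hx, if_neg hx', sub_zero]
      by_contra hne
      exact hx ⟨1, by rwa [one_smul]⟩
  · intro x hx
    rw [Finsupp.ofSupportFinite_coe]
    have : ¬ P x := by
      rintro ⟨τ, hτ⟩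
      exact hτ (hx τ)
    simp only [g', if_neg this]

end Abstract

section Smul

variable {G : Type*} [Group G] [Fintype G] {X : Type*} [MulAction G X]

attribute [local instance] Finsupp.comapDistribMulAction

/-- **(U3), module form**: with the permutation action `(τ • D) x = D (τ⁻¹ • x)` on `X →₀ ℤ`,
the kernel of the norm is contained in the image of `σ - 1`; the primitive is supported on the
`G`-saturation of the support. -/
theorem finsupp_exists_smul_sub_of_sum_smul_eq_zero {σ : G} (hσ : ∀ τ, τ ∈ Subgroup.zpowers σ)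
    (D : X →₀ ℤ) (hN : ∑ τ : G, τ • D = 0) :
    ∃ D' : X →₀ ℤ, D = σ • D' - D' ∧ ∀ x, (∀ τ : G, D (τ • x) = 0) → D' x = 0 := by
  have hN' : ∀ x, ∑ τ : G, D (τ⁻¹ • x) = 0 := by
    intro x
    have := DFunLike.congr_fun hN x
    rw [Finsupp.finsetSum_apply] at this
    simpa [Finsupp.comapSMul_apply] using this
  obtain ⟨D', h1, h2⟩ := finsupp_exists_subOne_of_norm_eq_zero hσ D hN'
  refine ⟨D', ?_, h2⟩
  ext x
  rw [Finsupp.sub_apply, Finsupp.comapSMul_apply]
  exact h1 x

end Smul

section NumberFieldDiv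

attribute [local instance] heightOneSpectrumMulAction Finsupp.comapDistribMulAction

variable (F M : Type*) [Field F] [Field M] [NumberField F] [NumberField M] [Algebra F M]

/-- **(F3)(d1)**: for divisors of `M` supported outside the primes above a set `R` of primes of
`F`: the kernel of the Galois norm is the image of `σ - 1` (inside the same group of divisors). -/
theorem div_exists_smul_sub_of_sum_smul_eq_zero {σ : M ≃ₐ[F] M}
    (hσ : ∀ τ, τ ∈ Subgroup.zpowers σ) (R : Set (HeightOneSpectrum (𝓞 F)))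
    (D : HeightOneSpectrum (𝓞 M) →₀ ℤ) (hDR : ∀ w, primeBelow F M w ∈ R → D w = 0)
    (hN : ∑ τ : (M ≃ₐ[F] M), τ • D = 0) :
    ∃ D' : HeightOneSpectrum (𝓞 M) →₀ ℤ, D = σ • D' - D' ∧
      ∀ w, primeBelow F M w ∈ R → D' w = 0 := by
  obtain ⟨D', h1, h2⟩ := finsupp_exists_smul_sub_of_sum_smul_eq_zero hσ D hN
  refine ⟨D', h1, fun w hw => h2 w fun τ => hDR _ ?_⟩
  rwa [primeBelow_smul]

end NumberFieldDiv

end Fermat.Agent.CFT
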