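import Mathlib
import Fermat.Agent.CFT.Global.TameDefs
import Fermat.Agent.CFT.Global.UnitsHerbrand

set_option autoImplicit false
set_option linter.unusedSectionVars false

/-!
# CFT stream [C], chunk (F3): the unit group `E₁ = tameE 𝓡 α` and the cokernel of `tamePhi`

In the vocabulary of `Global/TameDefs.lean` (helper29):

* `tameRes_unitsIncl` : on a global unit `u`, `tameRes Q α u = tameD Q α • (u mod Q)`;
* `mem_tameE_iff` : `u ∈ tameE 𝓡 α ↔ ∀ Q ∈ 𝓡, tameD Q α • (u mod Q) = 0`;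
* (b1) `smul_mem_tameE` : `tameE 𝓡 α` is Galois-stable as soon as the Galois group acts trivially on
  the residue fields of the `Q ∈ 𝓡` (hypothesis in the form of (TL5));
* (b2) `tameE_finiteIndex` : `tameE 𝓡 α` has finite index in the units;
* (b3) `herbrand_tameE` : `h(tameE 𝓡 α) = 1 / [M : F]`;
* (b4) `unitsIncl_injective`, `range_unitsIncl_comp_subtype_tameE` : exactness
  `0 → E₁ → Mˣ → tameI 𝓡`;
* (c) `tamePhi_range_finiteIndex` : the range of `tamePhi` has finite index.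
-/

namespace Fermat.Agent.CFT

open IsDedekindDomain IsDedekindDomain.HeightOneSpectrum NumberField

attribute [local instance] additiveDistribMulAction Units.mulDistribMulActionRight

section Generic

variable {X A B : Type*} [AddCommGroup X] [AddCommGroup A] [AddCommGroup B]

/-- a map to `A × B` with `B` finite whose first component has a range of finite index has a range
of finite index. -/
theorem finiteIndex_range_prod_of_finite [Finite B] (φ : X →+ A × B)
    [h : ((AddMonoidHom.fst A B).comp φ).range.FiniteIndex] : φ.range.FiniteIndex := by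
  set π := AddMonoidHom.fst A B with hπ
  have hsurj : Function.Surjective π := fun a => ⟨(a, 0), rfl⟩
  have hker : Finite π.ker := by
    have : Function.Injective fun x : π.ker => (x : A × B).2 := by
      intro x y hxy
      apply Subtype.ext
      apply Prod.ext
      · have hx : (x : A × B).1 = 0 := x.2
        have hy : (y : A × B).1 = 0 := y.2
        rw [hx, hy]
      · exact hxy
    exact Finite.of_injective _ this
  have h1 : (φ.range ⊔ π.ker) = (φ.range.map π).comap π := by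
    rw [AddSubgroup.comap_map_eq]
  have h2 : (φ.range ⊔ π.ker).index ≠ 0 := by
    rw [h1, AddSubgroup.index_comap_of_surjective _ hsurj, AddMonoidHom.map_range]
    exact h.index_ne_zero
  have h3 : φ.range.relIndex (φ.range ⊔ π.ker) ≠ 0 := by
    rw [AddSubgroup.relIndex_sup_left]
    have : (φ.range.addSubgroupOf π.ker).FiniteIndex := AddSubgroup.finiteIndex_of_finite
    exact this.index_ne_zero
  rw [AddSubgroup.finiteIndex_iff, ← AddSubgroup.relIndex_mul_index (le_sup_left : φ.range ≤ φ.range ⊔ π.ker)]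
  exact mul_ne_zero h3 h2

end Generic

section Units

variable {M : Type*} [Field M] [NumberField M]

/-- reduction of global units modulo `Q`, additively. -/
noncomputable def unitsRed (Q : HeightOneSpectrum (𝓞 M)) :
    Additive (𝓞 M)ˣ →+ Additive (𝓞 M ⧸ Q.asIdeal)ˣ :=
  MonoidHom.toAdditive (Units.map (Ideal.Quotient.mk Q.asIdeal : 𝓞 M →* 𝓞 M ⧸ Q.asIdeal))

theorem unitsRed_apply (Q : HeightOneSpectrum (𝓞 M)) (u : Additive (𝓞 M)ˣ) :
    (((unitsRed Q u).toMul : (𝓞 M ⧸ Q.asIdeal)ˣ) : 𝓞 M ⧸ Q.asIdeal) =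
      Ideal.Quotient.mk Q.asIdeal ((u.toMul : (𝓞 M)ˣ) : 𝓞 M) := rfl

theorem unitsIncl_apply (u : Additive (𝓞 M)ˣ) :
    (((unitsIncl u).toMul : Mˣ) : M) = algebraMap (𝓞 M) M ((u.toMul : (𝓞 M)ˣ) : 𝓞 M) := rfl

theorem unitsIncl_injective : Function.Injective (unitsIncl : Additive (𝓞 M)ˣ →+ Additive Mˣ) := by
  intro u v h
  have h1 := congrArg (fun x : Additive Mˣ => ((x.toMul : Mˣ) : M)) h
  simp only [unitsIncl_apply] at h1
  have h2 := IsFractionRing.injective (𝓞 M) M h1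
  exact congrArg Additive.ofMul (Units.ext h2)

theorem valuation_unitsIncl (Q : HeightOneSpectrum (𝓞 M)) (u : Additive (𝓞 M)ˣ) :
    Q.valuation M (((unitsIncl u).toMul : Mˣ) : M) = 1 := by
  have h := Q.valuation_of_unit_eq (K := M) u.toMul
  have h2 := valuationOfNeZero_eq Q (Units.map (algebraMap (𝓞 M) M : 𝓞 M →* M) u.toMul)
  rw [h] at h2
  exact h2.symm

theorem tameD_unitsIncl (Q : HeightOneSpectrum (𝓞 M)) (u : Additive (𝓞 M)ˣ) :
    tameD Q (unitsIncl u).toMul = 0 := by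
  rw [tameD, divFun_eq_iff (𝓞 M) M, valuation_unitsIncl, WithZero.exp_zero]

theorem unitsIncl_mem_vUnits (Q : HeightOneSpectrum (𝓞 M)) (u : Additive (𝓞 M)ˣ) :
    (unitsIncl u).toMul ∈ vUnits Q :=
  (mem_vUnits_iff Q _).mpr (valuation_unitsIncl Q u)

theorem redUnits_unitsIncl (Q : HeightOneSpectrum (𝓞 M)) (u : Additive (𝓞 M)ˣ) :
    redUnits Q ⟨(unitsIncl u).toMul, unitsIncl_mem_vUnits Q u⟩ = (unitsRed Q u).toMul := by
  apply Units.ext
  rw [coe_redUnits]
  exact redHom_int Q _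

/-- on a global unit, the tame residue symbol is `tameD Q α` times the reduction. -/
theorem tameRes_unitsIncl (Q : HeightOneSpectrum (𝓞 M)) (α : Mˣ) (u : Additive (𝓞 M)ˣ) :
    tameRes Q α (unitsIncl u) = tameD Q α • unitsRed Q u := by
  rw [tameRes_apply]
  have h : tameUnit Q α (unitsIncl u).toMul =
      (⟨(unitsIncl u).toMul, unitsIncl_mem_vUnits Q u⟩ : vUnits Q) ^ (tameD Q α) := by
    apply Subtype.ext
    rw [coe_tameUnit, tameD_unitsIncl, neg_zero, zpow_zero, mul_one, Subgroup.coe_zpow]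
  rw [h, map_zpow, redUnits_unitsIncl]
  rfl

variable (𝓡 : Finset (HeightOneSpectrum (𝓞 M))) (α : Mˣ)

theorem divHom_unitsIncl (u : Additive (𝓞 M)ˣ) : divHom (𝓞 M) M (unitsIncl u) = 0 :=
  (divHom_eq_zero_iff (𝓞 M) M _).mpr ⟨u.toMul, rfl⟩

theorem mem_tameE_iff (u : Additive (𝓞 M)ˣ) :
    u ∈ tameE 𝓡 α ↔ ∀ Q ∈ 𝓡, tameD Q α • unitsRed Q u = 0 := by
  unfold tameE
  rw [AddMonoidHom.mem_ker, AddMonoidHom.comp_apply, Prod.ext_iff]
  simp only [tamePhi_fst, divHom_unitsIncl, Prod.fst_zero, true_and, Prod.snd_zero]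
  constructor
  · intro h Q hQ
    have := congrFun h ⟨Q, hQ⟩
    rw [tamePhi_snd, tameRes_unitsIncl] at this
    exact this
  · intro h
    funext Q
    rw [tamePhi_snd, tameRes_unitsIncl]
    exact h Q.1 Q.2

theorem tameE_eq_ker : tameE 𝓡 α = ((tameResAll 𝓡 α).comp unitsIncl).ker := by
  ext u
  unfold tameE
  rw [AddMonoidHom.mem_ker, AddMonoidHom.mem_ker, AddMonoidHom.comp_apply, AddMonoidHom.comp_apply,
    Prod.ext_iff]
  simp only [tamePhi_fst, divHom_unitsIncl, Prod.fst_zero, true_and, Prod.snd_zero]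
  rfl

instance finite_tameK : Finite (tameK 𝓡) := by
  have : ∀ Q : 𝓡, Finite (Additive (𝓞 M ⧸ Q.1.asIdeal)ˣ) := by
    intro Q
    have : Finite (𝓞 M ⧸ Q.1.asIdeal) := Ideal.finiteQuotientOfFreeOfNeBot _ Q.1.ne_bot
    infer_instance
  infer_instance

/-- (b2) `E₁` has finite index in the unit group. -/
instance tameE_finiteIndex : (tameE 𝓡 α).FiniteIndex := by
  rw [tameE_eq_ker]
  exact AddSubgroup.finiteIndex_ker _

/-- (b4) exactness at `Mˣ`: the image of `E₁` is the kernel of `tamePhi`. -/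
theorem range_unitsIncl_comp_subtype_tameE :
    (unitsIncl.comp (tameE 𝓡 α).subtype).range = (tamePhi 𝓡 α).ker := by
  ext x
  constructor
  · rintro ⟨u, rfl⟩
    exact u.2
  · intro hx
    rw [AddMonoidHom.mem_ker] at hx
    have h1 : divHom (𝓞 M) M x = 0 := congrArg Prod.fst hx
    obtain ⟨u, hu⟩ := (divHom_eq_zero_iff (𝓞 M) M x).mp h1
    have hxu : unitsIncl (Additive.ofMul u) = x := congrArg Additive.ofMul hu
    refine ⟨⟨Additive.ofMul u, ?_⟩, hxu⟩
    unfold tameE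
    rw [AddMonoidHom.mem_ker, AddMonoidHom.comp_apply, hxu, hx]

theorem injective_unitsIncl_comp_subtype_tameE :
    Function.Injective (unitsIncl.comp (tameE 𝓡 α).subtype) :=
  unitsIncl_injective.comp Subtype.val_injective

/-- (c) the range of `tamePhi` has finite index (finiteness of the class group). -/
instance tamePhi_range_finiteIndex : (tamePhi 𝓡 α).range.FiniteIndex := by
  have : ((AddMonoidHom.fst _ (tameK 𝓡)).comp (tamePhi 𝓡 α)).range.FiniteIndex := by
    have h : (AddMonoidHom.fst _ (tameK 𝓡)).comp (tamePhi 𝓡 α) = divHom (𝓞 M) M := rfl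
    rw [h]
    exact divHom_range_finiteIndex (𝓞 M) M
  exact finiteIndex_range_prod_of_finite (tamePhi 𝓡 α)

end Units

section Galois

variable (F : Type*) {M : Type*} [Field F] [Field M] [NumberField F] [NumberField M] [Algebra F M]

theorem unitsIncl_smul (τ : M ≃ₐ[F] M) (u : Additive (𝓞 M)ˣ) :
    unitsIncl (τ • u) = τ • unitsIncl u := by
  apply congrArg Additive.ofMul
  apply Units.ext
  rfl

theorem algebraMap_toMul_smul (τ : M ≃ₐ[F] M) (u : Additive (𝓞 M)ˣ) :
    algebraMap (𝓞 M) M (((τ • u).toMul : (𝓞 M)ˣ) : 𝓞 M) =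
      τ (algebraMap (𝓞 M) M ((u.toMul : (𝓞 M)ˣ) : 𝓞 M)) := rfl

variable (𝓡 : Finset (HeightOneSpectrum (𝓞 M))) (α : Mˣ)

/-- if `τ` acts trivially on the residue field of `Q` (in the form of (TL5)), then it commutes with
the reduction of units. -/
theorem unitsRed_smul (Q : HeightOneSpectrum (𝓞 M)) (τ : M ≃ₐ[F] M)
    (h5 : ∀ u : M, Q.valuation M u = 1 → Q.valuation M (τ u - u) < 1) (u : Additive (𝓞 M)ˣ) :
    unitsRed Q (τ • u) = unitsRed Q u := by
  apply congrArg Additive.ofMul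
  apply Units.ext
  change Ideal.Quotient.mk Q.asIdeal (((τ • u).toMul : (𝓞 M)ˣ) : 𝓞 M) =
    Ideal.Quotient.mk Q.asIdeal ((u.toMul : (𝓞 M)ˣ) : 𝓞 M)
  rw [Ideal.Quotient.eq, mem_asIdeal_iff_lt_one, map_sub, algebraMap_toMul_smul]
  exact h5 _ (valuation_unitsIncl Q u)

/-- (b1) `E₁` is Galois-stable. -/
theorem smul_mem_tameE
    (h5 : ∀ Q ∈ 𝓡, ∀ u : M, Q.valuation M u = 1 →
      ∀ τ : M ≃ₐ[F] M, Q.valuation M (τ u - u) < 1)
    (τ : M ≃ₐ[F] M) (u : Additive (𝓞 M)ˣ) (hu : u ∈ tameE 𝓡 α) : τ • u ∈ tameE 𝓡 α := by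
  rw [mem_tameE_iff] at hu ⊢
  intro Q hQ
  rw [unitsRed_smul F Q τ (fun x hx => h5 Q hQ x hx τ)]
  exact hu Q hQ

/-- (b3) the Herbrand quotient of `E₁` is `1 / [M : F]` (extension unramified at infinity). -/
theorem herbrand_tameE [IsGalois F M] [Fintype (M ≃ₐ[F] M)] [IsUnramifiedAtInfinitePlaces F M]
    {σ : M ≃ₐ[F] M} (hσ : ∀ τ, τ ∈ Subgroup.zpowers σ)
    (hst : ∀ (τ : M ≃ₐ[F] M), ∀ u ∈ tameE 𝓡 α, τ • u ∈ tameE 𝓡 α) :
    letI := stableSubgroupAction (tameE 𝓡 α) hst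
    HerbrandDefinedCyclic (M ≃ₐ[F] M) (tameE 𝓡 α) σ ∧
      herbrand (M ≃ₐ[F] M) (tameE 𝓡 α) σ = 1 / (Fintype.card (M ≃ₐ[F] M) : ℚ) := by
  letI := stableSubgroupAction (tameE 𝓡 α) hst
  have : (tameE 𝓡 α).subtype.range.FiniteIndex := by
    rw [AddSubgroup.range_subtype]
    infer_instance
  exact herbrand_of_finiteIndex_units F M hσ (tameE 𝓡 α).subtype Subtype.val_injective
    (fun _ _ => rfl)

/-- (b3), the form used in the tame first inequality: `h(E₁) * p = 1` for `M / F` cyclic of odd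
prime degree `p`. -/
theorem herbrand_tameE_mul [IsGalois F M] [Fintype (M ≃ₐ[F] M)] {p : ℕ} (hp : p.Prime)
    (hp2 : p ≠ 2) (hcard : Nat.card (M ≃ₐ[F] M) = p)
    {σ : M ≃ₐ[F] M} (hσ : ∀ τ, τ ∈ Subgroup.zpowers σ)
    (hst : ∀ (τ : M ≃ₐ[F] M), ∀ u ∈ tameE 𝓡 α, τ • u ∈ tameE 𝓡 α) :
    letI := stableSubgroupAction (tameE 𝓡 α) hst
    HerbrandDefinedCyclic (M ≃ₐ[F] M) (tameE 𝓡 α) σ ∧
      herbrand (M ≃ₐ[F] M) (tameE 𝓡 α) σ * p = 1 := by
  have hodd : Odd (Module.finrank F M) := by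
    rw [← IsGalois.card_aut_eq_finrank, hcard]
    exact hp.odd_of_ne_two hp2
  have := IsUnramifiedAtInfinitePlaces_of_odd_finrank hodd
  obtain ⟨h1, h2⟩ := herbrand_tameE F 𝓡 α hσ hst
  refine ⟨h1, ?_⟩
  rw [h2, ← Nat.card_eq_fintype_card, hcard, one_div, inv_mul_cancel₀]
  exact_mod_cast hp.ne_zero

end Galois

end Fermat.Agent.CFT
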