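import Mathlib
import Fermat.Agent.CFT.Global.TameCore
import Fermat.Agent.CFT.Global.TameLocal
import Fermat.Agent.CFT.Global.TameUnits
import Fermat.Agent.CFT.Global.TameApprox
import Fermat.Agent.CFT.Global.IdealDivOrder

set_option autoImplicit false
set_option linter.unusedSectionVars false

/-!
# CFT stream [C], chunk (F3): the tame first inequality `TameFirstIneq p F M`
-/

namespace Fermat.Agent.CFT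

open IsDedekindDomain IsDedekindDomain.HeightOneSpectrum NumberField
open scoped Pointwise

attribute [local instance] heightOneSpectrumMulAction
attribute [local instance] Finsupp.comapSMul Finsupp.comapMulAction Finsupp.comapDistribMulAction
attribute [local instance] additiveDistribMulAction Units.mulDistribMulActionRight

section Parts

variable (p : ℕ) (F M : Type*) [Field F] [NumberField F] [Field M] [NumberField M] [Algebra F M]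
  [IsGalois F M]

/-- (TL7) as a contract. -/
def TameResSmul : Prop :=
  p.Prime → Nat.card Gal(M/F) = p → ∀ {σ : Gal(M/F)} (ζ : (𝓞 F)ˣ), IsPrimitiveRoot ζ p → ∀ (α : Mˣ),
    σ (α : M) = algebraMap (𝓞 F) M ζ * α → ∀ (𝓡 : Finset (HeightOneSpectrum (𝓞 M))),
    (∀ Q ∈ 𝓡, Q.asIdeal.inertia Gal(M/F) ≠ ⊥) → ∀ (Q : 𝓡) (x : Additive Mˣ),
      tameRes Q.1 α (σ • x) = tameD Q.1 x.toMul • tameZ 𝓡 ζ Q + tameRes Q.1 α x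

/-- (TL9) as a contract. -/
def TameTorsion : Prop :=
  p.Prime → ∀ (ζ : (𝓞 F)ˣ), IsPrimitiveRoot ζ p → ∀ (𝓡 : Finset (HeightOneSpectrum (𝓞 M))),
    (∀ Q ∈ 𝓡, (p : 𝓞 M) ∉ Q.asIdeal) → ∀ (Q : 𝓡) (c : Additive (𝓞 M ⧸ Q.1.asIdeal)ˣ),
      p • c = 0 → ∃ j : ℤ, c = j • tameZ 𝓡 ζ Q

/-- (FI-1) as a contract. -/
def TameKerReduce : Prop :=
  p.Prime → Nat.card Gal(M/F) = p → ∀ {σ : Gal(M/F)}, (∀ τ, τ ∈ Subgroup.zpowers σ) → ∀ (ζ : (𝓞 F)ˣ), IsPrimitiveRoot ζ p →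
    ∀ (α : Mˣ), σ (α : M) = algebraMap (𝓞 F) M ζ * α →
    ∀ (𝓡 : Finset (HeightOneSpectrum (𝓞 M))),
    (∀ Q ∈ 𝓡, Q.asIdeal.inertia Gal(M/F) ≠ ⊥) → (∀ Q ∈ 𝓡, (p : 𝓞 M) ∉ Q.asIdeal) →
    ∀ x : tameI 𝓡,
      x ∈ (tameFI 𝓡 (subOneHom (HeightOneSpectrum (𝓞 M) →₀ ℤ) σ) (tameZ 𝓡 ζ)).ker →
      ∃ (u : Fˣ) (D : HeightOneSpectrum (𝓞 M) →₀ ℤ) (c : tameK 𝓡),
        (∀ Q ∈ 𝓡, D Q = 0) ∧ (∀ g : Gal(M/F), g • D = D) ∧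
        x = tamePhi 𝓡 α (Additive.ofMul (Units.map (algebraMap F M : F →* M) u)) + (D, 0) +
          (0, p • c)

/-- (FI-2) as a contract. -/
def TameDivMem : Prop :=
  p.Prime → Nat.card Gal(M/F) = p → ∀ {σ : Gal(M/F)}, (∀ τ, τ ∈ Subgroup.zpowers σ) → ∀ (α : Mˣ)
    (T : Finset (HeightOneSpectrum (𝓞 F))),
    (∀ Q : Ideal (𝓞 M), Q.IsPrime → Q ≠ ⊥ →
      (∀ q ∈ T, Q.under (𝓞 F) ≠ q.asIdeal) → Q.inertia Gal(M/F) = ⊥) →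
    ∀ (𝓡 : Finset (HeightOneSpectrum (𝓞 M))),
    (∀ Q, Q ∈ 𝓡 ↔ Q.asIdeal.inertia Gal(M/F) ≠ ⊥) →
    (∀ 𝔞 : Ideal (𝓞 F), 𝔞 ≠ ⊥ → (∀ q ∈ T, ¬ 𝔞 ≤ q.asIdeal) →
      ∃ (y z : 𝓞 F) (J J' : Ideal (𝓞 M)), y ≠ 0 ∧ z ≠ 0 ∧
        (∀ q ∈ T, y ∉ q.asIdeal ∧ z ∉ q.asIdeal ∧ ∃ w : 𝓞 F, z - y * w ^ p ∈ q.asIdeal) ∧
        J ≠ ⊥ ∧ J' ≠ ⊥ ∧
        (∀ q ∈ T, ∀ Q : Ideal (𝓞 M), Q.IsPrime → Q.under (𝓞 F) = q.asIdeal →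
          ¬ J ≤ Q ∧ ¬ J' ≤ Q) ∧
        Ideal.span {y} * 𝔞 * Ideal.relNorm (𝓞 F) J' = Ideal.span {z} * Ideal.relNorm (𝓞 F) J) →
    ∀ (D : HeightOneSpectrum (𝓞 M) →₀ ℤ), (∀ Q ∈ 𝓡, D Q = 0) → (∀ g : Gal(M/F), g • D = D) →
      ((D, 0) : tameI 𝓡) ∈ (subOneHom (Additive Mˣ) σ).ker.map (tamePhi 𝓡 α) ⊔
        (tameGI 𝓡 (normHom Gal(M/F) (HeightOneSpectrum (𝓞 M) →₀ ℤ)) p).range

/-- the inclusion `I^σ ⊆ φ(Fˣ) + N I` (under the negated conclusion of `TameFirstIneq`) as a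
contract. -/
def TameKerLe : Prop :=
  p.Prime → Nat.card Gal(M/F) = p → ∀ {σ : Gal(M/F)}, (∀ τ, τ ∈ Subgroup.zpowers σ) → ∀ (ζ : (𝓞 F)ˣ), IsPrimitiveRoot ζ p →
    ∀ (α : Mˣ), σ (α : M) = algebraMap (𝓞 F) M ζ * α →
    ∀ (T : Finset (HeightOneSpectrum (𝓞 F))), (∀ q ∈ T, (p : 𝓞 F) ∉ q.asIdeal) →
    (∀ Q : Ideal (𝓞 M), Q.IsPrime → Q ≠ ⊥ →
      (∀ q ∈ T, Q.under (𝓞 F) ≠ q.asIdeal) → Q.inertia Gal(M/F) = ⊥) →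
    ∀ (𝓡 : Finset (HeightOneSpectrum (𝓞 M))),
    (∀ Q, Q ∈ 𝓡 ↔ Q.asIdeal.inertia Gal(M/F) ≠ ⊥) →
    (∀ 𝔞 : Ideal (𝓞 F), 𝔞 ≠ ⊥ → (∀ q ∈ T, ¬ 𝔞 ≤ q.asIdeal) →
      ∃ (y z : 𝓞 F) (J J' : Ideal (𝓞 M)), y ≠ 0 ∧ z ≠ 0 ∧
        (∀ q ∈ T, y ∉ q.asIdeal ∧ z ∉ q.asIdeal ∧ ∃ w : 𝓞 F, z - y * w ^ p ∈ q.asIdeal) ∧
        J ≠ ⊥ ∧ J' ≠ ⊥ ∧
        (∀ q ∈ T, ∀ Q : Ideal (𝓞 M), Q.IsPrime → Q.under (𝓞 F) = q.asIdeal →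
          ¬ J ≤ Q ∧ ¬ J' ≤ Q) ∧
        Ideal.span {y} * 𝔞 * Ideal.relNorm (𝓞 F) J' = Ideal.span {z} * Ideal.relNorm (𝓞 F) J) →
    (tameFI 𝓡 (subOneHom (HeightOneSpectrum (𝓞 M) →₀ ℤ) σ) (tameZ 𝓡 ζ)).ker ≤
      (subOneHom (Additive Mˣ) σ).ker.map (tamePhi 𝓡 α) ⊔
        (tameGI 𝓡 (normHom Gal(M/F) (HeightOneSpectrum (𝓞 M) →₀ ℤ)) p).range

variable {p F M}

/-- the primes with nontrivial inertia do not contain `p` (they lie over `T`). -/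
theorem natCast_not_mem_of_inertia_ne_bot (T : Finset (HeightOneSpectrum (𝓞 F)))
    (hT : ∀ q ∈ T, (p : 𝓞 F) ∉ q.asIdeal)
    (hunr : ∀ Q : Ideal (𝓞 M), Q.IsPrime → Q ≠ ⊥ →
      (∀ q ∈ T, Q.under (𝓞 F) ≠ q.asIdeal) → Q.inertia Gal(M/F) = ⊥)
    (Q : HeightOneSpectrum (𝓞 M)) (hQ : Q.asIdeal.inertia Gal(M/F) ≠ ⊥) :
    (p : 𝓞 M) ∉ Q.asIdeal := by
  intro hpQ
  apply hQ
  refine hunr Q.asIdeal Q.isPrime Q.ne_bot fun q hq hqQ => hT q hq ?_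
  rw [← hqQ, Ideal.under_def, Ideal.mem_comap, map_natCast]
  exact hpQ

theorem tameKerLe_of_parts (hA : TameKerReduce p F M) (hB : TameDivMem p F M) :
    TameKerLe p F M := by
  intro hp hcard σ hσ ζ hζ α hα T hT hunr 𝓡 h𝓡 Hall x hx
  have h𝓡' : ∀ Q ∈ 𝓡, Q.asIdeal.inertia Gal(M/F) ≠ ⊥ := fun Q hQ => (h𝓡 Q).mp hQ
  have hp𝓡 : ∀ Q ∈ 𝓡, (p : 𝓞 M) ∉ Q.asIdeal := fun Q hQ =>
    natCast_not_mem_of_inertia_ne_bot T hT hunr Q (h𝓡' Q hQ)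
  obtain ⟨u, D, c, hD𝓡, hDG, rfl⟩ := hA hp hcard hσ ζ hζ α hα 𝓡 h𝓡' hp𝓡 x hx
  refine add_mem (add_mem (AddSubgroup.mem_sup_left ⟨_, ?_, rfl⟩)
    (hB hp hcard hσ α T hunr 𝓡 h𝓡 Hall D hD𝓡 hDG)) (AddSubgroup.mem_sup_right ⟨(0, c), ?_⟩)
  · -- elements of `F` are fixed by `σ`
    show _ ∈ (subOneHom (Additive Mˣ) σ).ker
    rw [mem_ker_subOneHom]
    apply congrArg Additive.ofMul
    apply Units.ext
    show σ (algebraMap F M (u : F)) = algebraMap F M (u : F)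
    exact σ.commutes _
  · rw [tameGI_apply]
    simp

end Parts

section Final

variable {p : ℕ} {F M : Type} [Field F] [NumberField F] [Field M] [NumberField M] [Algebra F M]
  [IsGalois F M]

theorem tameFirstIneq_of_incl (h7 : TameResSmul p F M) (h9 : TameTorsion p F M)
    (hI : TameKerLe p F M) : TameFirstIneq p F M := by
  classical
  intro hp hp2 hζex hcard T hT hunr Hall
  obtain ⟨ζ₀, hζ₀⟩ := hζex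
  -- a generator of the Galois group
  have : Fact p.Prime := ⟨hp⟩
  have hcyc : IsCyclic Gal(M/F) := isCyclic_of_prime_card hcard
  obtain ⟨σ, hσ⟩ := hcyc.exists_generator
  -- `ζ` as a unit of `𝓞 F`
  have : NeZero p := ⟨hp.ne_zero⟩
  have hζi : IsPrimitiveRoot hζ₀.toInteger p := hζ₀.toInteger_isPrimitiveRoot
  obtain ⟨ζ, hζu⟩ : ∃ ζ : (𝓞 F)ˣ, (ζ : 𝓞 F) = hζ₀.toInteger :=
    ⟨(hζi.isUnit hp.ne_zero).unit, rfl⟩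
  have hζ : IsPrimitiveRoot ζ p := by
    rw [← IsPrimitiveRoot.coe_units_iff, hζu]
    exact hζi
  obtain ⟨α, hα⟩ := exists_kummer_unit hcard hσ ζ hζ.pow_eq_one
  -- the ramified primes
  set 𝓡 : Finset (HeightOneSpectrum (𝓞 M)) := (finite_ramified_of_forall T hunr).toFinset with h𝓡def
  have h𝓡 : ∀ Q, Q ∈ 𝓡 ↔ Q.asIdeal.inertia Gal(M/F) ≠ ⊥ := by
    intro Q
    rw [h𝓡def, Set.Finite.mem_toFinset, Set.mem_ofPred_eq]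
  have h𝓡' : ∀ Q ∈ 𝓡, Q.asIdeal.inertia Gal(M/F) ≠ ⊥ := fun Q hQ => (h𝓡 Q).mp hQ
  have hp𝓡 : ∀ Q ∈ 𝓡, (p : 𝓞 M) ∉ Q.asIdeal := fun Q hQ =>
    natCast_not_mem_of_inertia_ne_bot T hT hunr Q (h𝓡' Q hQ)
  -- local facts
  have hfix : ∀ Q ∈ 𝓡, ∀ τ : Gal(M/F), τ • Q = Q := fun Q hQ τ =>
    tame_smul_eq hp hcard Q (h𝓡' Q hQ) τ
  have h5 : ∀ Q ∈ 𝓡, ∀ u : M, Q.valuation M u = 1 →
      ∀ τ : Gal(M/F), Q.valuation M (τ u - u) < 1 := fun Q hQ u hu τ =>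
    tame_valuation_apply_sub_lt hp hcard Q (h𝓡' Q hQ) hu.le τ
  have hstab : ∀ (τ : Gal(M/F)), ∀ u ∈ tameE 𝓡 α, τ • u ∈ tameE 𝓡 α :=
    smul_mem_tameE F 𝓡 α h5
  exact tame_index_core hp hp2 hcard hσ ζ hζ.pow_eq_one α 𝓡 hfix
    (h7 hp hcard ζ hζ α hα 𝓡 h𝓡') (h9 hp ζ hζ 𝓡 hp𝓡) (units_ker_normHom_le hσ) hstab
    (herbrand_tameE_mul F 𝓡 α hp hp2 hcard hσ hstab) inferInstance
    (hI hp hcard hσ ζ hζ α hα T hT hunr 𝓡 h𝓡 Hall)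

theorem tameFirstIneq_of_parts (h7 : TameResSmul p F M) (h9 : TameTorsion p F M)
    (hA : TameKerReduce p F M) (hB : TameDivMem p F M) : TameFirstIneq p F M :=
  tameFirstIneq_of_incl h7 h9 (tameKerLe_of_parts hA hB)


end Final

end Fermat.Agent.CFT
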