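import Mathlib
import Fermat.Agent.CFT.Global.TameLocal
import Fermat.Agent.CFT.Global.TameUnits

set_option autoImplicit false
set_option linter.unusedSectionVars false

/-!
# CFT stream [C], chunk (F3), second engine on (AP): the tame residue symbol on `Q`-units and
Step B of the approximation argument

* (R1) `tameRes_of_mem_vUnits` : on a `Q`-unit `x`, `tameRes Q α x = tameD Q α • (x mod Q)`;
* (R2) `exists_tameRes_eq_nsmul_of_pow_congr` : if moreover `x ≡ w ^ p mod Q` then `tameRes Q α x`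
  is `p` times something; `exists_tameRes_eq_nsmul_of_int` : the same for `x = z / y ∈ Fˣ` with
  `y, z, w ∈ 𝓞 F`, `z ≡ y w ^ p mod q`;
* (Step B) `tame_stepB` : every `c ∈ ∏_{Q ∈ 𝓡} k(Q)ˣ` is, modulo `p`-th powers, the tame residue
  symbol of some `x ∈ Fˣ` which is a unit at all primes of a given finite set `T` and at the
  primes below `𝓡`.
-/

namespace Fermat.Agent.CFT

open NumberField IsDedekindDomain IsDedekindDomain.HeightOneSpectrum

attribute [local instance] heightOneSpectrumMulAction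

section QUnits

variable {M : Type*} [Field M] [NumberField M] (Q : HeightOneSpectrum (𝓞 M)) (α : Mˣ)

theorem tameD_eq_zero_of_mem_vUnits {x : Mˣ} (hx : x ∈ vUnits Q) : tameD Q x = 0 := by
  rw [tameD, divFun_eq_iff (𝓞 M) M, (mem_vUnits_iff Q x).mp hx, WithZero.exp_zero]

/-- (R1) on a `Q`-unit, the tame residue symbol is `tameD Q α` times the reduction. -/
theorem tameRes_of_mem_vUnits {x : Mˣ} (hx : x ∈ vUnits Q) :
    tameRes Q α (Additive.ofMul x) = tameD Q α • Additive.ofMul (redUnits Q ⟨x, hx⟩) := by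
  rw [tameRes_apply]
  have h : tameUnit Q α x = (⟨x, hx⟩ : vUnits Q) ^ (tameD Q α) := by
    apply Subtype.ext
    rw [coe_tameUnit, tameD_eq_zero_of_mem_vUnits Q hx, neg_zero, zpow_zero, mul_one,
      Subgroup.coe_zpow]
  rw [toMul_ofMul, h, map_zpow]
  rfl

/-- the reduction of a `Q`-unit congruent to an integer `r`. -/
theorem coe_redUnits_eq_of_sub_lt {x : Mˣ} (hx : x ∈ vUnits Q) {r : 𝓞 M}
    (hr : Q.valuation M ((x : M) - algebraMap (𝓞 M) M r) < 1) :
    ((redUnits Q ⟨x, hx⟩ : (𝓞 M ⧸ Q.asIdeal)ˣ) : 𝓞 M ⧸ Q.asIdeal) =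
      Ideal.Quotient.mk Q.asIdeal r := by
  rw [coe_redUnits]
  exact redHom_eq Q hr

/-- (R2) a `Q`-unit which is a `p`-th power modulo `Q` has a tame residue symbol divisible by
`p`. -/
theorem exists_tameRes_eq_nsmul_of_pow_congr {p : ℕ} (hp : p ≠ 0) {x : Mˣ} (hx : x ∈ vUnits Q)
    (w : M) (hw : Q.valuation M ((x : M) - w ^ p) < 1) :
    ∃ c : Additive (𝓞 M ⧸ Q.asIdeal)ˣ, tameRes Q α (Additive.ofMul x) = p • c := by
  have hx1 : Q.valuation M (x : M) = 1 := (mem_vUnits_iff Q x).mp hx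
  have hwp : Q.valuation M (w ^ p) = 1 := by
    have : w ^ p = (x : M) - ((x : M) - w ^ p) := by ring
    rw [this, Valuation.map_sub_eq_of_lt_left _ (by rw [hx1]; exact hw), hx1]
  have hw1 : Q.valuation M w = 1 := by
    rw [map_pow] at hwp
    exact (pow_eq_one_iff.mp hwp).resolve_right hp
  have hw0 : w ≠ 0 := by
    rintro rfl
    rw [map_zero] at hw1
    exact zero_ne_one hw1
  have hW : Units.mk0 w hw0 ∈ vUnits Q := (mem_vUnits_iff Q _).mpr hw1
  set u : Mˣ := x / (Units.mk0 w hw0) ^ p with hu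
  have huv : u ∈ vUnits Q := (vUnits Q).div_mem hx ((vUnits Q).pow_mem hW p)
  have hu1 : ((redUnits Q ⟨u, huv⟩ : (𝓞 M ⧸ Q.asIdeal)ˣ) : 𝓞 M ⧸ Q.asIdeal) =
      Ideal.Quotient.mk Q.asIdeal 1 := by
    apply coe_redUnits_eq_of_sub_lt
    have : (u : M) - algebraMap (𝓞 M) M 1 = ((x : M) - w ^ p) / w ^ p := by
      rw [hu, map_one, Units.val_div_eq_div_val, Units.val_pow_eq_pow_val, Units.val_mk0,
        sub_div, div_self (pow_ne_zero p hw0)]
    rw [this, map_div₀, hwp, div_one]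
    exact hw
  have hu1' : redUnits Q ⟨u, huv⟩ = 1 := by
    apply Units.ext
    rw [hu1, map_one, Units.val_one]
  have hxe : (⟨x, hx⟩ : vUnits Q) = ⟨Units.mk0 w hw0, hW⟩ ^ p * ⟨u, huv⟩ := by
    apply Subtype.ext
    show x = (Units.mk0 w hw0) ^ p * u
    rw [hu, mul_div_cancel]
  refine ⟨tameD Q α • Additive.ofMul (redUnits Q ⟨Units.mk0 w hw0, hW⟩), ?_⟩
  rw [tameRes_of_mem_vUnits Q α hx, hxe, map_mul, map_pow, hu1', mul_one, ofMul_pow,
    ← natCast_zsmul, ← natCast_zsmul, smul_smul, smul_smul, mul_comm]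

end QUnits

section Tower

variable {F M : Type*} [Field F] [NumberField F] [Field M] [NumberField M] [Algebra F M]

theorem algebraMap_algebraMap_int (r : 𝓞 F) :
    algebraMap F M (algebraMap (𝓞 F) F r) =
      algebraMap (𝓞 M) M (algebraMap (𝓞 F) (𝓞 M) r) := rfl

theorem valuation_algebraMap_int_lt_one_iff (Q : HeightOneSpectrum (𝓞 M)) (r : 𝓞 F) :
    Q.valuation M (algebraMap F M (algebraMap (𝓞 F) F r)) < 1 ↔
      r ∈ (primeBelow F M Q).asIdeal := by
  rw [algebraMap_algebraMap_int, Q.valuation_lt_one_iff_mem]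
  rfl

theorem valuation_algebraMap_int_eq_one (Q : HeightOneSpectrum (𝓞 M)) {r : 𝓞 F}
    (hr : r ∉ (primeBelow F M Q).asIdeal) :
    Q.valuation M (algebraMap F M (algebraMap (𝓞 F) F r)) = 1 := by
  refine le_antisymm ?_ (not_lt.mp fun h => hr ((valuation_algebraMap_int_lt_one_iff Q r).mp h))
  rw [algebraMap_algebraMap_int]
  exact Q.valuation_le_one _

/-- (R2), integral form over `F`: if `x = z / y` with `y, z ∈ 𝓞 F` prime to `q = Q ∩ 𝓞 F` and
`z ≡ y w ^ p mod q`, then the tame residue symbol of `x` at `Q` is divisible by `p`. -/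
theorem exists_tameRes_eq_nsmul_of_int {p : ℕ} (hp : p ≠ 0) (Q : HeightOneSpectrum (𝓞 M))
    (α : Mˣ) (x : Fˣ) (y z w : 𝓞 F)
    (hy : y ∉ (primeBelow F M Q).asIdeal) (hz : z ∉ (primeBelow F M Q).asIdeal)
    (hxyz : (x : F) * algebraMap (𝓞 F) F y = algebraMap (𝓞 F) F z)
    (h : z - y * w ^ p ∈ (primeBelow F M Q).asIdeal) :
    ∃ c : Additive (𝓞 M ⧸ Q.asIdeal)ˣ,
      tameRes Q α (Additive.ofMul (Units.map (algebraMap F M : F →* M) x)) = p • c := by
  have hy1 := valuation_algebraMap_int_eq_one Q hy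
  have hz1 := valuation_algebraMap_int_eq_one Q hz
  have hy0 : algebraMap F M (algebraMap (𝓞 F) F y) ≠ 0 := by
    intro h0
    rw [h0, map_zero] at hy1
    exact zero_ne_one hy1
  have hM : algebraMap F M (x : F) * algebraMap F M (algebraMap (𝓞 F) F y) =
      algebraMap F M (algebraMap (𝓞 F) F z) := by
    rw [← map_mul, hxyz]
  have hxv : Units.map (algebraMap F M : F →* M) x ∈ vUnits Q := by
    rw [mem_vUnits_iff, Units.coe_map, MonoidHom.coe_coe]
    have := congrArg (Q.valuation M) hM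
    rwa [map_mul, hy1, hz1, mul_one] at this
  refine exists_tameRes_eq_nsmul_of_pow_congr Q α hp hxv
    (algebraMap F M (algebraMap (𝓞 F) F w)) ?_
  have e : ((Units.map (algebraMap F M : F →* M) x : Mˣ) : M) -
      algebraMap F M (algebraMap (𝓞 F) F w) ^ p =
      algebraMap F M (algebraMap (𝓞 F) F (z - y * w ^ p)) /
        algebraMap F M (algebraMap (𝓞 F) F y) := by
    rw [Units.coe_map, MonoidHom.coe_coe, eq_div_iff hy0, sub_mul, hM]
    simp only [map_sub, map_mul, map_pow]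
    ring
  rw [e, map_div₀, hy1, div_one]
  exact (valuation_algebraMap_int_lt_one_iff Q _).mpr h

end Tower

section StepB

variable {F M : Type*} [Field F] [NumberField F] [Field M] [NumberField M] [Algebra F M]
  [IsGalois F M] {p : ℕ}

/-- the tame residue symbol at `Q` of (the image of) an integer `x₀ ∈ 𝓞 F` prime to
`q = Q ∩ 𝓞 F`. -/
theorem tameRes_int (Q : HeightOneSpectrum (𝓞 M)) (α : Mˣ) (x : Fˣ) (x₀ : 𝓞 F)
    (hx : (x : F) = algebraMap (𝓞 F) F x₀) (hx₀ : x₀ ∉ (primeBelow F M Q).asIdeal)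
    (e : Additive (𝓞 M ⧸ Q.asIdeal)ˣ)
    (he : ((e.toMul : (𝓞 M ⧸ Q.asIdeal)ˣ) : 𝓞 M ⧸ Q.asIdeal) =
      Ideal.Quotient.mk Q.asIdeal (algebraMap (𝓞 F) (𝓞 M) x₀)) :
    tameRes Q α (Additive.ofMul (Units.map (algebraMap F M : F →* M) x)) = tameD Q α • e := by
  have hxv : Units.map (algebraMap F M : F →* M) x ∈ vUnits Q := by
    rw [mem_vUnits_iff, Units.coe_map, MonoidHom.coe_coe, hx]
    exact valuation_algebraMap_int_eq_one Q hx₀
  rw [tameRes_of_mem_vUnits Q α hxv]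
  congr 1
  apply congrArg Additive.ofMul
  apply Units.ext
  show ((redUnits Q ⟨_, hxv⟩ : (𝓞 M ⧸ Q.asIdeal)ˣ) : 𝓞 M ⧸ Q.asIdeal) =
    ((e.toMul : (𝓞 M ⧸ Q.asIdeal)ˣ) : 𝓞 M ⧸ Q.asIdeal)
  rw [he]
  apply coe_redUnits_eq_of_sub_lt
  rw [Units.coe_map, MonoidHom.coe_coe, hx, algebraMap_algebraMap_int, sub_self, map_zero]
  exact zero_lt_one

/-- **Step B** of the approximation argument: modulo `p`-th powers, every element of
`∏_{Q ∈ 𝓡} k(Q)ˣ` is the family of tame residue symbols of some `x ∈ Fˣ` which is a unit at all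
primes of `T` and at all primes below `𝓡`. -/
theorem tame_stepB (hp : p.Prime) (hcard : Nat.card Gal(M/F) = p)
    (𝓡 : Finset (HeightOneSpectrum (𝓞 M)))
    (h𝓡 : ∀ Q ∈ 𝓡, Q.asIdeal.inertia Gal(M/F) ≠ ⊥)
    (T : Finset (HeightOneSpectrum (𝓞 F))) (α : Mˣ)
    (ha : ∀ Q ∈ 𝓡, ¬ (p : ℤ) ∣ tameD Q α) (c : tameK 𝓡) :
    ∃ x : Fˣ, (∀ q ∈ T, q.valuation F (x : F) = 1) ∧
      (∀ Q ∈ 𝓡, (primeBelow F M Q).valuation F (x : F) = 1) ∧
      ∃ c' : tameK 𝓡, ∀ Q : 𝓡,
        c Q - tameRes Q.1 α (Additive.ofMul (Units.map (algebraMap F M : F →* M) x)) =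
          p • c' Q := by
  classical
  -- Bezout
  have hcop : ∀ Q : 𝓡, ∃ s t : ℤ, s * tameD Q.1 α + t * (p : ℤ) = 1 := by
    intro Q
    have h := ((Nat.prime_iff_prime_int.mp hp).coprime_iff_not_dvd.mpr (ha Q.1 Q.2)).symm
    exact h
  choose s t hst using hcop
  -- the classes to be hit, and their lifts to `𝓞 F`
  let e : ∀ Q : 𝓡, Additive (𝓞 M ⧸ Q.1.asIdeal)ˣ := fun Q => s Q • c Q
  have hlift : ∀ Q : 𝓡, ∃ y : 𝓞 F,
      Ideal.Quotient.mk Q.1.asIdeal (algebraMap (𝓞 F) (𝓞 M) y) =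
        (((e Q).toMul : (𝓞 M ⧸ Q.1.asIdeal)ˣ) : 𝓞 M ⧸ Q.1.asIdeal) := by
    intro Q
    obtain ⟨r, hr⟩ := Ideal.Quotient.mk_surjective
      (((e Q).toMul : (𝓞 M ⧸ Q.1.asIdeal)ˣ) : 𝓞 M ⧸ Q.1.asIdeal)
    obtain ⟨y, hy⟩ := tame_exists_sub_mem hp hcard Q.1 (h𝓡 Q.1 Q.2) r
    refine ⟨y, ?_⟩
    rw [← hr]
    exact (Ideal.Quotient.eq.mpr hy).symm
  choose yF hyF using hlift
  have hyF_not : ∀ Q : 𝓡, yF Q ∉ (primeBelow F M Q.1).asIdeal := by
    intro Q hmem
    have h1 : algebraMap (𝓞 F) (𝓞 M) (yF Q) ∈ Q.1.asIdeal := hmem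
    have h2 := hyF Q
    rw [Ideal.Quotient.eq_zero_iff_mem.mpr h1] at h2
    exact (Units.ne_zero _) h2.symm
  -- CRT
  let S : Finset (HeightOneSpectrum (𝓞 F)) := T ∪ 𝓡.image (primeBelow F M)
  let a : HeightOneSpectrum (𝓞 F) → 𝓞 F := fun q =>
    if h : ∃ Q : 𝓡, primeBelow F M Q.1 = q then yF h.choose else 1
  have ha_eq : ∀ Q : 𝓡, a (primeBelow F M Q.1) = yF Q := by
    intro Q
    have h : ∃ Q' : 𝓡, primeBelow F M Q'.1 = primeBelow F M Q.1 := ⟨Q, rfl⟩
    have h2 : h.choose = Q :=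
      Subtype.ext (tame_eq_of_primeBelow_eq hp hcard Q.1 (h𝓡 Q.1 Q.2) h.choose_spec)
    simp only [a, dif_pos h, h2]
  have ha_not : ∀ q : HeightOneSpectrum (𝓞 F), a q ∉ q.asIdeal := by
    intro q
    by_cases h : ∃ Q : 𝓡, primeBelow F M Q.1 = q
    · obtain ⟨Q, rfl⟩ := h
      rw [ha_eq]
      exact hyF_not Q
    · simp only [a, dif_neg h]
      exact fun h1 => q.isPrime.ne_top ((Ideal.eq_top_iff_one _).mpr h1)
  obtain ⟨x₀, hx₀⟩ := IsDedekindDomain.exists_forall_sub_mem_ideal (s := S)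
    (fun v : HeightOneSpectrum (𝓞 F) => v.asIdeal) (fun _ => 1) (fun v _ => v.prime)
    (fun v _ w _ hvw h => hvw (HeightOneSpectrum.ext h)) (fun v => a v.1)
  have hx₀' : ∀ q ∈ S, x₀ - a q ∈ q.asIdeal := by
    intro q hq
    have := hx₀ q hq
    rwa [pow_one] at this
  have hx₀_not : ∀ q ∈ S, x₀ ∉ q.asIdeal := by
    intro q hq hmem
    apply ha_not q
    have := q.asIdeal.sub_mem hmem (hx₀' q hq)
    rwa [sub_sub_cancel] at this
  have hval : ∀ q ∈ S, q.valuation F (algebraMap (𝓞 F) F x₀) = 1 := by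
    intro q hq
    refine le_antisymm (q.valuation_le_one _) (not_lt.mp fun h => hx₀_not q hq ?_)
    exact (q.valuation_lt_one_iff_mem _).mp h
  rcases eq_or_ne x₀ 0 with h0 | h0
  · -- then `S` is empty
    have hS : ∀ q, q ∉ S := fun q hq => hx₀_not q hq (by rw [h0]; exact q.asIdeal.zero_mem)
    refine ⟨1, fun q hq => absurd (Finset.mem_union_left _ hq) (hS q),
      fun Q hQ => absurd (Finset.mem_union_right _ (Finset.mem_image_of_mem _ hQ)) (hS _),
      fun _ => 0, fun Q => absurd (Finset.mem_union_right _ (Finset.mem_image_of_mem _ Q.2))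
        (hS _)⟩
  · have hx0F : algebraMap (𝓞 F) F x₀ ≠ 0 := by
      intro h
      exact h0 (IsFractionRing.injective (𝓞 F) F (by rw [h, map_zero]))
    refine ⟨Units.mk0 _ hx0F, fun q hq => hval q (Finset.mem_union_left _ hq),
      fun Q hQ => hval _ (Finset.mem_union_right _ (Finset.mem_image_of_mem _ hQ)),
      fun Q => t Q • c Q, fun Q => ?_⟩
    have hQS : primeBelow F M Q.1 ∈ S :=
      Finset.mem_union_right _ (Finset.mem_image_of_mem _ Q.2)
    have hcong : Ideal.Quotient.mk Q.1.asIdeal (algebraMap (𝓞 F) (𝓞 M) x₀) =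
        Ideal.Quotient.mk Q.1.asIdeal (algebraMap (𝓞 F) (𝓞 M) (yF Q)) := by
      rw [Ideal.Quotient.eq, ← map_sub]
      have := hx₀' _ hQS
      rw [ha_eq] at this
      exact this
    rw [tameRes_int Q.1 α (Units.mk0 _ hx0F) x₀ rfl (hx₀_not _ hQS) (e Q)
      (by rw [hcong, hyF])]
    show c Q - tameD Q.1 α • (s Q • c Q) = p • (t Q • c Q)
    rw [smul_smul, ← natCast_zsmul, smul_smul]
    have key : (1 : ℤ) - tameD Q.1 α * s Q = (p : ℤ) * t Q := by linarith [hst Q]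
    rw [← key, sub_smul, one_smul]

end StepB

end Fermat.Agent.CFT
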