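import Mathlib
import Fermat.Agent.CFT.Global.TameFirstIneq
import Fermat.Agent.CFT.Global.TameStepB

set_option autoImplicit false
set_option linter.unusedSectionVars false

/-!
# CFT stream [C], chunk (F3), piece (FI-2) (helper15): `tame_div_mem`, `TameDivMem p F M`

`M / F` cyclic of prime degree `p`, `𝓡` the set of ramified primes of `M`.  Under the negated
conclusion `Hall` of `Contracts.TameFirstIneq`, every Galois-invariant divisor `D` of `M` which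
vanishes at the ramified primes satisfies `(D, 0) ∈ φ(Fˣ) + range (tameGI)` in the middle term
`tameI 𝓡` of the `TwoStep` diagram (Steps C + D of the arithmetic end (AP)).

PROOF. `D = divExt D₀` (U1), `D₀ = idealDiv 𝔞₁ - idealDiv 𝔞₂` with `𝔞ᵢ` prime to the set `R` of
primes of `F` below `𝓡`; `tame_reduce` gives `y z J J'` with
`(y) 𝔞₁ N(J') = (z) 𝔞₂ N(J)`, i.e. `D₀ = div(y / z) + N(div J - div J')`; pulling back to `M`,
`D = div_M(y / z) + N_G(div J - div J')` (`normHom_eq_divExt_divNorm`, and `y / z` is a unit at the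
ramified primes), and `z ≡ y w ^ p` at the ramified primes makes the tame residue symbol of `y / z`
a `p`-th multiple.
-/

namespace Fermat.Agent.CFT

open IsDedekindDomain IsDedekindDomain.HeightOneSpectrum NumberField
open scoped Pointwise

theorem zsmul_nsmul_add_nsmul_neg {A : Type*} [AddCommGroup A] (a : ℤ) (p : ℕ) (v : A) :
    a • p • v + p • -(a • v) = 0 := by
  rw [smul_neg, smul_comm a p, add_neg_cancel]

attribute [local instance] heightOneSpectrumMulAction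
attribute [local instance] Finsupp.comapSMul Finsupp.comapMulAction Finsupp.comapDistribMulAction
attribute [local instance] additiveDistribMulAction Units.mulDistribMulActionRight

section Residue

variable {F M : Type*} [Field F] [NumberField F] [Field M] [NumberField M] [Algebra F M]

/-- if `z ≡ y w ^ p mod q` with `y ∉ q`, then the reduction of `y / z` at a prime `Q` over `q` is
a `p`-th power. -/
theorem exists_redUnits_eq_pow {p : ℕ} (hp : p ≠ 0) (Q : HeightOneSpectrum (𝓞 M)) {y z w : 𝓞 F}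
    (hy : y ∉ (primeBelow F M Q).asIdeal)
    (hw : z - y * w ^ p ∈ (primeBelow F M Q).asIdeal) (x : Mˣ)
    (hxv : (x : M) * algebraMap (𝓞 F) M z = algebraMap (𝓞 F) M y) (hx : x ∈ vUnits Q) :
    ∃ v : (𝓞 M ⧸ Q.asIdeal)ˣ, redUnits Q ⟨x, hx⟩ = v ^ p := by
  have := Q.isPrime
  set y' : 𝓞 M := algebraMap (𝓞 F) (𝓞 M) y with hy'
  set z' : 𝓞 M := algebraMap (𝓞 F) (𝓞 M) z with hz'
  set w' : 𝓞 M := algebraMap (𝓞 F) (𝓞 M) w with hw'
  have hmem : ∀ r : 𝓞 F, r ∈ (primeBelow F M Q).asIdeal ↔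
      algebraMap (𝓞 F) (𝓞 M) r ∈ Q.asIdeal := fun r => Iff.rfl
  have hy0 : Ideal.Quotient.mk Q.asIdeal y' ≠ 0 := by
    rw [Ne, Ideal.Quotient.eq_zero_iff_mem, hy', ← hmem]
    exact hy
  have hzw : Ideal.Quotient.mk Q.asIdeal z' =
      Ideal.Quotient.mk Q.asIdeal y' * Ideal.Quotient.mk Q.asIdeal w' ^ p := by
    rw [← map_pow, ← map_mul, ← sub_eq_zero, ← map_sub, Ideal.Quotient.eq_zero_iff_mem]
    have := (hmem _).mp hw
    simpa only [map_sub, map_mul, map_pow] using this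
  -- the relation in the valuation ring
  let X : valRing Q := ⟨(x : M), (mem_valRing_iff Q _).mpr ((mem_vUnits_iff Q x).mp hx).le⟩
  let Y : valRing Q := ⟨algebraMap (𝓞 M) M y', (mem_valRing_iff Q _).mpr (valuation_int_le_one Q y')⟩
  let Z : valRing Q := ⟨algebraMap (𝓞 M) M z', (mem_valRing_iff Q _).mpr (valuation_int_le_one Q z')⟩
  have hXZ : X * Z = Y := by
    apply Subtype.ext
    show (x : M) * algebraMap (𝓞 M) M z' = algebraMap (𝓞 M) M y'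
    rw [hz', hy', ← IsScalarTower.algebraMap_apply, ← IsScalarTower.algebraMap_apply]
    exact hxv
  have hred : redHom Q X * Ideal.Quotient.mk Q.asIdeal z' = Ideal.Quotient.mk Q.asIdeal y' := by
    rw [← redHom_int Q z', ← redHom_int Q y', ← map_mul]
    exact congrArg (redHom Q) hXZ
  have h1 : redHom Q X * Ideal.Quotient.mk Q.asIdeal w' ^ p = 1 := by
    rw [hzw, mul_comm (Ideal.Quotient.mk Q.asIdeal y'), ← mul_assoc] at hred
    exact mul_right_cancel₀ hy0 (by rw [hred, one_mul])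
  have hunit : IsUnit (Ideal.Quotient.mk Q.asIdeal w') :=
    (isUnit_pow_iff hp).mp (IsUnit.of_mul_eq_one _ (by rw [mul_comm]; exact h1))
  refine ⟨hunit.unit⁻¹, ?_⟩
  rw [inv_pow, eq_inv_iff_mul_eq_one]
  apply Units.ext
  rw [Units.val_mul, Units.val_pow_eq_pow_val, IsUnit.unit_spec, coe_redUnits, Units.val_one]
  exact h1

/-- an integer of `F` outside `q` has trivial `q`-adic exponent. -/
theorem divFun_mk0_eq_zero_of_not_mem (q : HeightOneSpectrum (𝓞 F)) {y : 𝓞 F} (hy0 : (y : F) ≠ 0)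
    (hy : y ∉ q.asIdeal) : divFun (𝓞 F) F (Units.mk0 (y : F) hy0) q = 0 := by
  rw [divFun_eq_iff, Units.val_mk0, WithZero.exp_zero]
  refine le_antisymm (q.valuation_le_one y) (not_lt.mp fun h => hy ?_)
  exact (q.valuation_lt_one_iff_mem y).mp h

end Residue

section Main

variable {F M : Type*} [Field F] [NumberField F] [Field M] [NumberField M] [Algebra F M]
  [IsGalois F M]

theorem tame_stepCD [inst : Fintype Gal(M/F)] {p : ℕ} (hp : p.Prime) (hcard : Nat.card Gal(M/F) = p)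
    (σ : Gal(M/F)) (α : Mˣ)
    (T : Finset (HeightOneSpectrum (𝓞 F)))
    (hunr : ∀ Q : Ideal (𝓞 M), Q.IsPrime → Q ≠ ⊥ →
      (∀ q ∈ T, Q.under (𝓞 F) ≠ q.asIdeal) → Q.inertia Gal(M/F) = ⊥)
    (𝓡 : Finset (HeightOneSpectrum (𝓞 M)))
    (h𝓡 : ∀ Q, Q ∈ 𝓡 ↔ Q.asIdeal.inertia Gal(M/F) ≠ ⊥)
    (Hall : ∀ 𝔞 : Ideal (𝓞 F), 𝔞 ≠ ⊥ → (∀ q ∈ T, ¬ 𝔞 ≤ q.asIdeal) →
      ∃ (y z : 𝓞 F) (J J' : Ideal (𝓞 M)), y ≠ 0 ∧ z ≠ 0 ∧
        (∀ q ∈ T, y ∉ q.asIdeal ∧ z ∉ q.asIdeal ∧ ∃ w : 𝓞 F, z - y * w ^ p ∈ q.asIdeal) ∧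
        J ≠ ⊥ ∧ J' ≠ ⊥ ∧
        (∀ q ∈ T, ∀ Q : Ideal (𝓞 M), Q.IsPrime → Q.under (𝓞 F) = q.asIdeal →
          ¬ J ≤ Q ∧ ¬ J' ≤ Q) ∧
        Ideal.span {y} * 𝔞 * Ideal.relNorm (𝓞 F) J' = Ideal.span {z} * Ideal.relNorm (𝓞 F) J)
    (D₂ : HeightOneSpectrum (𝓞 M) →₀ ℤ) (hinv : ∀ τ : Gal(M/F), τ • D₂ = D₂)
    (hD₂ : ∀ Q ∈ 𝓡, D₂ Q = 0) :
    ((D₂, 0) : tameI 𝓡) ∈ (subOneHom (Additive Mˣ) σ).ker.map (tamePhi 𝓡 α) ⊔
      (tameGI 𝓡 (normHom Gal(M/F) (HeightOneSpectrum (𝓞 M) →₀ ℤ)) p).range := by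
  classical
  have hinst : inst = AlgEquiv.fintype F M := Subsingleton.elim _ _
  subst hinst
  -- the ramified primes of `F`
  set R : Finset (HeightOneSpectrum (𝓞 F)) := 𝓡.image (primeBelow F M) with hR
  have h𝓡T : ∀ Q ∈ 𝓡, primeBelow F M Q ∈ T := by
    intro Q hQ
    by_contra hcon
    refine (h𝓡 Q).mp hQ (hunr Q.asIdeal Q.isPrime Q.ne_bot fun q hq hqQ => hcon ?_)
    have : primeBelow F M Q = q := HeightOneSpectrum.ext hqQ
    rwa [this]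
  have hRT : R ⊆ T := by
    intro q hq
    obtain ⟨Q, hQ, rfl⟩ := Finset.mem_image.mp hq
    exact h𝓡T Q hQ
  have hover : ∀ w : HeightOneSpectrum (𝓞 M), primeBelow F M w ∈ R → w ∈ 𝓡 := by
    intro w hw
    obtain ⟨Q, hQ, hQw⟩ := Finset.mem_image.mp hw
    have := tame_eq_of_primeBelow_eq hp hcard Q ((h𝓡 Q).mp hQ) hQw.symm
    rwa [this]
  have hD₂R : D₂ ∈ divOutside F M (R : Set (HeightOneSpectrum (𝓞 F))) :=
    fun w hw => hD₂ w (hover w hw)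
  obtain ⟨D₀, hD₀R, hD₀⟩ := exists_divExt_eq_of_smul_eq_of_mem F M
    (R : Set (HeightOneSpectrum (𝓞 F))) D₂ hD₂R hinv
  obtain ⟨𝔞₁, 𝔞₂, h𝔞₁, h𝔞₂, hsub, hprime⟩ := exists_idealDiv_sub_eq (𝓞 F) D₀
  obtain ⟨y, z, J, J', hy0, hz0, hcong, hJ, hJ', hJT, hrel⟩ :=
    tame_reduce p hp.ne_zero T R hRT Hall 𝔞₁ 𝔞₂ h𝔞₁ h𝔞₂
      (fun q hq => (hprime q (hD₀R q (Finset.mem_coe.mpr hq))).1)
      (fun q hq => (hprime q (hD₀R q (Finset.mem_coe.mpr hq))).2)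
  have hyF : (y : F) ≠ 0 := by
    intro h
    exact hy0 (RingOfIntegers.coe_injective (h.trans (map_zero _).symm))
  have hzF : (z : F) ≠ 0 := by
    intro h
    exact hz0 (RingOfIntegers.coe_injective (h.trans (map_zero _).symm))
  set uy : Fˣ := Units.mk0 (y : F) hyF with huy
  set uz : Fˣ := Units.mk0 (z : F) hzF with huz
  have hdiv := idealDiv_sub_eq_divHom_add_divNorm F M uy uz rfl rfl h𝔞₁ h𝔞₂ hJ hJ' hrel
  set E : HeightOneSpectrum (𝓞 M) →₀ ℤ := idealDiv (𝓞 M) J - idealDiv (𝓞 M) J' with hE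
  set x : Mˣ := Units.map (algebraMap F M : F →* M) (uy / uz) with hx
  -- `E` is supported at unramified primes
  have hEunr : ∀ w, E w ≠ 0 → w.asIdeal.inertia Gal(M/F) = ⊥ := by
    intro w hw
    by_contra hram
    have hwT := h𝓡T w ((h𝓡 w).mpr hram)
    obtain ⟨h1, h2⟩ := hJT _ hwT w.asIdeal w.isPrime rfl
    apply hw
    rw [hE, Finsupp.sub_apply, (idealDiv_eq_zero_iff (𝓞 M) hJ w).mpr h1,
      (idealDiv_eq_zero_iff (𝓞 M) hJ' w).mpr h2, sub_zero]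
  -- `y / z` is a unit at the ramified primes
  have hval : ∀ Q ∈ 𝓡, divFun (𝓞 F) F (uy / uz) (primeBelow F M Q) = 0 := by
    intro Q hQ
    obtain ⟨h1, h2, -⟩ := hcong (primeBelow F M Q) (Finset.mem_image_of_mem _ hQ)
    rw [div_eq_mul_inv, divFun_mul, divFun_inv, huy, huz,
      divFun_mk0_eq_zero_of_not_mem _ hyF h1, divFun_mk0_eq_zero_of_not_mem _ hzF h2, neg_zero,
      add_zero]
  have hxD : ∀ Q ∈ 𝓡, tameD Q x = 0 := by
    intro Q hQ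
    rw [hx, tameD_map_algebraMap hp hcard Q ((h𝓡 Q).mp hQ), hval Q hQ, mul_zero]
  have hxunit : ∀ Q ∈ 𝓡, x ∈ vUnits Q := by
    intro Q hQ
    rw [mem_vUnits_iff, valuation_eq_exp_divFun, ← WithZero.exp_zero, WithZero.exp_inj]
    exact hxD Q hQ
  -- first component
  have hfst : divHom (𝓞 M) M (Additive.ofMul x) +
      normHom Gal(M/F) (HeightOneSpectrum (𝓞 M) →₀ ℤ) E = D₂ := by
    rw [normHom_eq_divExt_divNorm F M E hEunr, ← hD₀, ← hsub, hdiv, map_add]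
    congr 1
    ext w
    rw [divHom_apply, divExt_apply, divHom_apply, toMul_ofMul, toMul_ofMul]
    by_cases hw : w.asIdeal.inertia Gal(M/F) = ⊥
    · exact divFun_algebraMap_of_inertia_eq_bot F M w hw (uy / uz)
    · have hwR : w ∈ 𝓡 := (h𝓡 w).mpr hw
      have h1 := hxD w hwR
      rw [tameD] at h1
      rw [h1, hval w hwR]
  -- second component
  have hsnd : ∀ Q : 𝓡, ∃ c : Additive (𝓞 M ⧸ Q.1.asIdeal)ˣ,
      tameRes Q.1 α (Additive.ofMul x) + p • c = 0 := by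
    intro Q
    obtain ⟨h1, h2, w, hw⟩ := hcong (primeBelow F M Q.1) (Finset.mem_image_of_mem _ Q.2)
    have hxv : (x : M) * algebraMap (𝓞 F) M z = algebraMap (𝓞 F) M y := by
      rw [hx, Units.coe_map, MonoidHom.coe_coe, IsScalarTower.algebraMap_apply (𝓞 F) F M z,
        IsScalarTower.algebraMap_apply (𝓞 F) F M y, ← map_mul]
      congr 1
      rw [Units.val_div_eq_div_val, huy, huz, Units.val_mk0, Units.val_mk0]
      exact div_mul_cancel₀ _ hzF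
    obtain ⟨v, hv⟩ := exists_redUnits_eq_pow hp.ne_zero Q.1 h1 hw x hxv (hxunit Q.1 Q.2)
    refine ⟨-(tameD Q.1 α • Additive.ofMul v), ?_⟩
    rw [tameRes_of_mem_vUnits Q.1 α (hxunit Q.1 Q.2), hv, ofMul_pow]
    exact zsmul_nsmul_add_nsmul_neg _ _ _
  choose c₃ hc₃ using hsnd
  -- `x` is Galois-invariant
  have hxker : Additive.ofMul x ∈ (subOneHom (Additive Mˣ) σ).ker := by
    rw [AddMonoidHom.mem_ker, subOneHom_apply, sub_eq_zero]
    show Additive.ofMul (Units.map (σ : M →* M) x) = Additive.ofMul x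
    congr 1
    apply Units.ext
    rw [hx, Units.coe_map, Units.coe_map]
    exact σ.commutes _
  rw [AddSubgroup.mem_sup]
  refine ⟨tamePhi 𝓡 α (Additive.ofMul x), AddSubgroup.mem_map_of_mem _ hxker,
    tameGI 𝓡 (normHom Gal(M/F) (HeightOneSpectrum (𝓞 M) →₀ ℤ)) p (E, c₃), ⟨_, rfl⟩, ?_⟩
  apply Prod.ext
  · exact hfst
  · funext Q
    exact hc₃ Q

/-- **(FI-2)** in helper29's shape. -/
theorem tame_div_mem [Fintype Gal(M/F)] {p : ℕ} (hp : p.Prime) (hcard : Nat.card Gal(M/F) = p)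
    {σ : Gal(M/F)} (_hσ : ∀ τ, τ ∈ Subgroup.zpowers σ) (α : Mˣ)
    (T : Finset (HeightOneSpectrum (𝓞 F)))
    (hunr : ∀ Q : Ideal (𝓞 M), Q.IsPrime → Q ≠ ⊥ →
      (∀ q ∈ T, Q.under (𝓞 F) ≠ q.asIdeal) → Q.inertia Gal(M/F) = ⊥)
    (𝓡 : Finset (HeightOneSpectrum (𝓞 M)))
    (h𝓡 : ∀ Q, Q ∈ 𝓡 ↔ Q.asIdeal.inertia Gal(M/F) ≠ ⊥)
    (Hall : ∀ 𝔞 : Ideal (𝓞 F), 𝔞 ≠ ⊥ → (∀ q ∈ T, ¬ 𝔞 ≤ q.asIdeal) →
      ∃ (y z : 𝓞 F) (J J' : Ideal (𝓞 M)), y ≠ 0 ∧ z ≠ 0 ∧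
        (∀ q ∈ T, y ∉ q.asIdeal ∧ z ∉ q.asIdeal ∧ ∃ w : 𝓞 F, z - y * w ^ p ∈ q.asIdeal) ∧
        J ≠ ⊥ ∧ J' ≠ ⊥ ∧
        (∀ q ∈ T, ∀ Q : Ideal (𝓞 M), Q.IsPrime → Q.under (𝓞 F) = q.asIdeal →
          ¬ J ≤ Q ∧ ¬ J' ≤ Q) ∧
        Ideal.span {y} * 𝔞 * Ideal.relNorm (𝓞 F) J' = Ideal.span {z} * Ideal.relNorm (𝓞 F) J)
    (D : HeightOneSpectrum (𝓞 M) →₀ ℤ) (hD𝓡 : ∀ Q ∈ 𝓡, D Q = 0)
    (hDG : ∀ g : Gal(M/F), g • D = D) :
    ((D, 0) : tameI 𝓡) ∈ (subOneHom (Additive Mˣ) σ).ker.map (tamePhi 𝓡 α) ⊔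
      (tameGI 𝓡 (normHom Gal(M/F) (HeightOneSpectrum (𝓞 M) →₀ ℤ)) p).range :=
  tame_stepCD hp hcard σ α T hunr 𝓡 h𝓡 Hall D hDG hD𝓡

/-- **(FI-2)** as the contract `TameDivMem` of `Global/TameFirstIneq.lean`. -/
theorem tameDivMem_holds (p : ℕ) (F M : Type*) [Field F] [NumberField F] [Field M] [NumberField M]
    [Algebra F M] [IsGalois F M] : TameDivMem p F M :=
  fun hp hcard _ hσ α T hunr 𝓡 h𝓡 Hall D hD𝓡 hDG =>
    tame_div_mem hp hcard hσ α T hunr 𝓡 h𝓡 Hall D hD𝓡 hDG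

end Main

end Fermat.Agent.CFT
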