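import Mathlib
import Fermat.Agent.CFT.Global.TameFirstIneq

set_option autoImplicit false
set_option linter.unusedSectionVars false

/-!
# CFT stream [C], chunk (F3): final assembly of `TameFirstIneq` (second engine)

`tameAlt2_firstIneq_of_incl` : `TameFirstIneq p F M` from the single inclusion
`I^σ ⊆ φ(ker(σ - 1)) + N I` (with `p.Prime` and `Nat.card Gal(M/F) = p` available as hypotheses of
the inclusion); the local inputs (TL7), (TL9) are discharged from `TameLocal`.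
-/

namespace Fermat.Agent.CFT

open IsDedekindDomain IsDedekindDomain.HeightOneSpectrum NumberField
open scoped Pointwise

attribute [local instance] heightOneSpectrumMulAction
attribute [local instance] Finsupp.comapSMul Finsupp.comapMulAction Finsupp.comapDistribMulAction
attribute [local instance] additiveDistribMulAction Units.mulDistribMulActionRight

section

variable {p : ℕ} {F M : Type*} [Field F] [NumberField F] [Field M] [NumberField M] [Algebra F M]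
  [IsGalois F M]

/-- (TL7) in the shape of `tame_index_core`. -/
theorem tameAlt2_resSmul (hp : p.Prime) (hcard : Nat.card Gal(M/F) = p) {σ : Gal(M/F)}
    (ζ : (𝓞 F)ˣ) (α : Mˣ) (hα : σ (α : M) = algebraMap (𝓞 F) M ζ * α)
    (𝓡 : Finset (HeightOneSpectrum (𝓞 M)))
    (h𝓡 : ∀ Q ∈ 𝓡, Q.asIdeal.inertia Gal(M/F) ≠ ⊥) (Q : 𝓡) (x : Additive Mˣ) :
    tameRes Q.1 α (σ • x) = tameD Q.1 x.toMul • tameZ 𝓡 ζ Q + tameRes Q.1 α x := by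
  rw [tameZ_eq_tameZQ]
  exact tameRes_apply_of_eq hp hcard Q.1 (h𝓡 Q.1 Q.2) hα x.toMul (σ • x).toMul rfl

/-- (TL9) in the shape of `tame_index_core`. -/
theorem tameAlt2_torsion (hp : p.Prime) (ζ : (𝓞 F)ˣ) (hζ : IsPrimitiveRoot ζ p)
    (𝓡 : Finset (HeightOneSpectrum (𝓞 M))) (hp𝓡 : ∀ Q ∈ 𝓡, (p : 𝓞 M) ∉ Q.asIdeal) (Q : 𝓡)
    (c : Additive (𝓞 M ⧸ Q.1.asIdeal)ˣ) (hc : p • c = 0) : ∃ j : ℤ, c = j • tameZ 𝓡 ζ Q := by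
  rw [tameZ_eq_tameZQ]
  exact exists_zsmul_tameZQ hp (hp𝓡 Q.1 Q.2) hζ c hc

/-- the inclusion `I^σ ⊆ φ(ker(σ - 1)) + N I` from the two halves (FI-1), (FI-2) (in the shapes in
which they are proved, i.e. for a fixed set of data). -/
theorem tameAlt2_incl_of_parts {σ : Gal(M/F)} (ζ : (𝓞 F)ˣ) (α : Mˣ)
    (𝓡 : Finset (HeightOneSpectrum (𝓞 M)))
    (hA : ∀ x : tameI 𝓡,
      x ∈ (tameFI 𝓡 (subOneHom (HeightOneSpectrum (𝓞 M) →₀ ℤ) σ) (tameZ 𝓡 ζ)).ker →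
      ∃ (u : Fˣ) (D : HeightOneSpectrum (𝓞 M) →₀ ℤ) (c : tameK 𝓡),
        (∀ Q ∈ 𝓡, D Q = 0) ∧ (∀ g : Gal(M/F), g • D = D) ∧
        x = tamePhi 𝓡 α (Additive.ofMul (Units.map (algebraMap F M : F →* M) u)) + (D, 0) +
          (0, p • c))
    (hB : ∀ (D : HeightOneSpectrum (𝓞 M) →₀ ℤ), (∀ Q ∈ 𝓡, D Q = 0) →
      (∀ g : Gal(M/F), g • D = D) →
      ((D, 0) : tameI 𝓡) ∈ (subOneHom (Additive Mˣ) σ).ker.map (tamePhi 𝓡 α) ⊔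
        (tameGI 𝓡 (normHom Gal(M/F) (HeightOneSpectrum (𝓞 M) →₀ ℤ)) p).range) :
    (tameFI 𝓡 (subOneHom (HeightOneSpectrum (𝓞 M) →₀ ℤ) σ) (tameZ 𝓡 ζ)).ker ≤
      (subOneHom (Additive Mˣ) σ).ker.map (tamePhi 𝓡 α) ⊔
        (tameGI 𝓡 (normHom Gal(M/F) (HeightOneSpectrum (𝓞 M) →₀ ℤ)) p).range := by
  intro x hx
  obtain ⟨u, D, c, hD𝓡, hDG, rfl⟩ := hA x hx
  refine add_mem (add_mem (AddSubgroup.mem_sup_left ⟨_, ?_, rfl⟩)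
    (hB D hD𝓡 hDG)) (AddSubgroup.mem_sup_right ⟨(0, c), ?_⟩)
  · show _ ∈ (subOneHom (Additive Mˣ) σ).ker
    rw [mem_ker_subOneHom]
    apply congrArg Additive.ofMul
    apply Units.ext
    show σ (algebraMap F M (u : F)) = algebraMap F M (u : F)
    exact σ.commutes _
  · rw [tameGI_apply]
    simp

end

section Final

variable {p : ℕ} {F M : Type} [Field F] [NumberField F] [Field M] [NumberField M] [Algebra F M]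
  [IsGalois F M]

/-- `TameFirstIneq p F M` from the single inclusion `I^σ ⊆ φ(ker(σ - 1)) + N I` (which may use
`p.Prime`, `p ≠ 2` and `Nat.card Gal(M/F) = p`). -/
theorem tameAlt2_firstIneq_of_incl
    (hI : p.Prime → p ≠ 2 → Nat.card Gal(M/F) = p →
      ∀ {σ : Gal(M/F)}, (∀ τ, τ ∈ Subgroup.zpowers σ) → ∀ (ζ : (𝓞 F)ˣ), IsPrimitiveRoot ζ p →
      ∀ (α : Mˣ), σ (α : M) = algebraMap (𝓞 F) M ζ * α →
      ∀ (T : Finset (HeightOneSpectrum (𝓞 F))), (∀ q ∈ T, (p : 𝓞 F) ∉ q.asIdeal) →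
      (∀ Q : Ideal (𝓞 M), Q.IsPrime → Q ≠ ⊥ →
        (∀ q ∈ T, Q.under (𝓞 F) ≠ q.asIdeal) → Q.inertia Gal(M/F) = ⊥) →
      ∀ (𝓡 : Finset (HeightOneSpectrum (𝓞 M))),
      (∀ Q, Q ∈ 𝓡 ↔ Q.asIdeal.inertia Gal(M/F) ≠ ⊥) →
      (∀ 𝔞 : Ideal (𝓞 F), 𝔞 ≠ ⊥ → (∀ q ∈ T, ¬ 𝔞 ≤ q.asIdeal) →
        ∃ (y z : 𝓞 F) (J J' : Ideal (𝓞 M)), y ≠ 0 ∧ z ≠ 0 ∧
          (∀ q ∈ T, y ∉ q.asIdeal ∧ z ∉ q.asIdeal ∧ ∃ w : 𝓞 F, z - y * w ^ p ∈ q.asIdeal) ∧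
          J ≠ ⊥ ∧ J' ≠ ⊥ ∧
          (∀ q ∈ T, ∀ Q : Ideal (𝓞 M), Q.IsPrime → Q.under (𝓞 F) = q.asIdeal →
            ¬ J ≤ Q ∧ ¬ J' ≤ Q) ∧
          Ideal.span {y} * 𝔞 * Ideal.relNorm (𝓞 F) J' = Ideal.span {z} * Ideal.relNorm (𝓞 F) J) →
      (tameFI 𝓡 (subOneHom (HeightOneSpectrum (𝓞 M) →₀ ℤ) σ) (tameZ 𝓡 ζ)).ker ≤
        (subOneHom (Additive Mˣ) σ).ker.map (tamePhi 𝓡 α) ⊔
          (tameGI 𝓡 (normHom Gal(M/F) (HeightOneSpectrum (𝓞 M) →₀ ℤ)) p).range) :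
    TameFirstIneq p F M := by
  classical
  intro hp hp2 hζex hcard T hT hunr Hall
  obtain ⟨ζ₀, hζ₀⟩ := hζex
  have : Fact p.Prime := ⟨hp⟩
  have hcyc : IsCyclic Gal(M/F) := isCyclic_of_prime_card hcard
  obtain ⟨σ, hσ⟩ := hcyc.exists_generator
  have : NeZero p := ⟨hp.ne_zero⟩
  have hζi : IsPrimitiveRoot hζ₀.toInteger p := hζ₀.toInteger_isPrimitiveRoot
  obtain ⟨ζ, hζu⟩ : ∃ ζ : (𝓞 F)ˣ, (ζ : 𝓞 F) = hζ₀.toInteger :=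
    ⟨(hζi.isUnit hp.ne_zero).unit, rfl⟩
  have hζ : IsPrimitiveRoot ζ p := by
    rw [← IsPrimitiveRoot.coe_units_iff, hζu]
    exact hζi
  obtain ⟨α, hα⟩ := exists_kummer_unit hcard hσ ζ hζ.pow_eq_one
  set 𝓡 : Finset (HeightOneSpectrum (𝓞 M)) := (finite_ramified_of_forall T hunr).toFinset with h𝓡def
  have h𝓡 : ∀ Q, Q ∈ 𝓡 ↔ Q.asIdeal.inertia Gal(M/F) ≠ ⊥ := by
    intro Q
    rw [h𝓡def, Set.Finite.mem_toFinset, Set.mem_ofPred_eq]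
  have h𝓡' : ∀ Q ∈ 𝓡, Q.asIdeal.inertia Gal(M/F) ≠ ⊥ := fun Q hQ => (h𝓡 Q).mp hQ
  have hp𝓡 : ∀ Q ∈ 𝓡, (p : 𝓞 M) ∉ Q.asIdeal := fun Q hQ =>
    natCast_not_mem_of_inertia_ne_bot T hT hunr Q (h𝓡' Q hQ)
  have hfix : ∀ Q ∈ 𝓡, ∀ τ : Gal(M/F), τ • Q = Q := fun Q hQ τ =>
    tame_smul_eq hp hcard Q (h𝓡' Q hQ) τ
  have h5 : ∀ Q ∈ 𝓡, ∀ u : M, Q.valuation M u = 1 →
      ∀ τ : Gal(M/F), Q.valuation M (τ u - u) < 1 := fun Q hQ u hu τ =>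
    tame_valuation_apply_sub_lt hp hcard Q (h𝓡' Q hQ) hu.le τ
  have hstab : ∀ (τ : Gal(M/F)), ∀ u ∈ tameE 𝓡 α, τ • u ∈ tameE 𝓡 α :=
    smul_mem_tameE F 𝓡 α h5
  exact tame_index_core hp hp2 hcard hσ ζ hζ.pow_eq_one α 𝓡 hfix
    (tameAlt2_resSmul hp hcard ζ α hα 𝓡 h𝓡') (tameAlt2_torsion hp ζ hζ 𝓡 hp𝓡)
    (units_ker_normHom_le hσ) hstab
    (herbrand_tameE_mul F 𝓡 α hp hp2 hcard hσ hstab) inferInstance
    (hI hp hp2 hcard hσ ζ hζ α hα T hT hunr 𝓡 h𝓡 Hall)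

end Final

end Fermat.Agent.CFT
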