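import Fermat.Agent.CFT.Global.TameLocal

set_option autoImplicit false
set_option linter.unusedSectionVars false

/-!
# CFT, stream [C], (F3): the outputs of `TameLocal` in the exact hypothesis shapes of
`TameCore.tame_index_core` (`hfix`, `hres`, `htors`) and of `TameUnits.smul_mem_tameE` (`h5`).
-/

namespace Fermat.Agent.CFT

open NumberField IsDedekindDomain
open scoped Pointwise

attribute [local instance] heightOneSpectrumMulAction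
attribute [local instance] additiveDistribMulAction Units.mulDistribMulActionRight

variable {F M : Type*} [Field F] [NumberField F] [Field M] [NumberField M] [Algebra F M]
  [IsGalois F M] {p : ℕ}

/-- `hfix` of `tame_index_core`. -/
theorem tame_hfix (hp : p.Prime) (hcard : Nat.card Gal(M/F) = p)
    (𝓡 : Finset (HeightOneSpectrum (𝓞 M)))
    (h𝓡 : ∀ Q ∈ 𝓡, Q.asIdeal.inertia Gal(M/F) ≠ ⊥) :
    ∀ Q ∈ 𝓡, ∀ τ : Gal(M/F), τ • Q = Q :=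
  fun Q hQ τ => tame_smul_eq hp hcard Q (h𝓡 Q hQ) τ

/-- `hres` of `tame_index_core`. -/
theorem tame_hres (hp : p.Prime) (hcard : Nat.card Gal(M/F) = p)
    (𝓡 : Finset (HeightOneSpectrum (𝓞 M)))
    (h𝓡 : ∀ Q ∈ 𝓡, Q.asIdeal.inertia Gal(M/F) ≠ ⊥) {ζ : (𝓞 F)ˣ} {σ : Gal(M/F)} {α : Mˣ}
    (hα : σ (α : M) = algebraMap (𝓞 F) M (ζ : 𝓞 F) * (α : M)) :
    ∀ (Q : 𝓡) (x : Additive Mˣ),
      tameRes Q.1 α (σ • x) = tameD Q.1 x.toMul • tameZ 𝓡 ζ Q + tameRes Q.1 α x :=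
  fun Q x => tameRes_apply_of_eq hp hcard Q.1 (h𝓡 Q.1 Q.2) hα x.toMul
    (Units.map (σ : M →* M) x.toMul) rfl

/-- `htors` of `tame_index_core`. -/
theorem tame_htors (hp : p.Prime) (𝓡 : Finset (HeightOneSpectrum (𝓞 M)))
    (hp𝓡 : ∀ Q ∈ 𝓡, (p : 𝓞 M) ∉ Q.asIdeal) {ζ : (𝓞 F)ˣ} (hζ : IsPrimitiveRoot ζ p) :
    ∀ (Q : 𝓡) (c : Additive (𝓞 M ⧸ Q.1.asIdeal)ˣ), p • c = 0 →
      ∃ j : ℤ, c = j • tameZ 𝓡 ζ Q :=
  fun Q c hc => exists_zsmul_tameZQ hp (hp𝓡 Q.1 Q.2) hζ c hc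

/-- `h5` of `TameUnits.smul_mem_tameE`. -/
theorem tame_h5 (hp : p.Prime) (hcard : Nat.card Gal(M/F) = p)
    (𝓡 : Finset (HeightOneSpectrum (𝓞 M)))
    (h𝓡 : ∀ Q ∈ 𝓡, Q.asIdeal.inertia Gal(M/F) ≠ ⊥) :
    ∀ Q ∈ 𝓡, ∀ u : M, Q.valuation M u = 1 → ∀ τ : Gal(M/F), Q.valuation M (τ u - u) < 1 :=
  fun Q hQ _ hu τ => tame_valuation_apply_sub_lt hp hcard Q (h𝓡 Q hQ) hu.le τ

/-- the order of `z_Q`, family version: `D(Q) • z_Q = 0 ↔ p ∣ D(Q)`. -/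
theorem tame_zsmul_tameZ_eq_zero_iff (hp : p.Prime) (𝓡 : Finset (HeightOneSpectrum (𝓞 M)))
    (hp𝓡 : ∀ Q ∈ 𝓡, (p : 𝓞 M) ∉ Q.asIdeal) {ζ : (𝓞 F)ˣ} (hζ : IsPrimitiveRoot ζ p) (Q : 𝓡)
    (n : ℤ) : n • tameZ 𝓡 ζ Q = 0 ↔ (p : ℤ) ∣ n := by
  rw [tameZ_eq_tameZQ, ← addOrderOf_tameZQ (Q := Q.1) hp (hp𝓡 Q.1 Q.2) hζ]
  exact (addOrderOf_dvd_iff_zsmul_eq_zero).symm

end Fermat.Agent.CFT
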