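import Mathlib
import Fermat.Agent.CFT.Global.TameFirstIneq
import Fermat.Agent.CFT.Global.TameLocalShapes

set_option autoImplicit false
set_option linter.unusedSectionVars false

/-!
# CFT, stream [C], (F3): the two local contracts `TameResSmul` (TL7) and `TameTorsion` (TL9) of
`tameFirstIneq_of_parts` discharged from `TameLocal`, so that `TameFirstIneq p F M` follows from
the two remaining contracts `TameKerReduce` (FI-1) and `TameDivMem` (FI-2) alone.
-/

namespace Fermat.Agent.CFT

open NumberField IsDedekindDomain
open scoped Pointwise

attribute [local instance] heightOneSpectrumMulAction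
attribute [local instance] additiveDistribMulAction Units.mulDistribMulActionRight

section Parts

variable {F M : Type*} [Field F] [NumberField F] [Field M] [NumberField M] [Algebra F M]
  [IsGalois F M] {p : ℕ}

/-- (TL7): the contract `TameResSmul` holds. -/
theorem tameResSmul_holds : TameResSmul p F M :=
  fun hp hcard {_} _ _ _ hα 𝓡 h𝓡 => tame_hres hp hcard 𝓡 h𝓡 hα

/-- (TL9): the contract `TameTorsion` holds. -/
theorem tameTorsion_holds : TameTorsion p F M :=
  fun hp _ hζ 𝓡 hp𝓡 => tame_htors hp 𝓡 hp𝓡 hζ

end Parts

section Final

variable {p : ℕ} {F M : Type} [Field F] [NumberField F] [Field M] [NumberField M] [Algebra F M]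
  [IsGalois F M]

/-- `TameFirstIneq p F M` from the two global contracts (FI-1) `TameKerReduce` and (FI-2)
`TameDivMem` alone. -/
theorem tameFirstIneq_of_reduce (hA : TameKerReduce p F M) (hB : TameDivMem p F M) :
    TameFirstIneq p F M :=
  tameFirstIneq_of_parts tameResSmul_holds tameTorsion_holds hA hB

/-- `TameFirstIneq p F M` from the inclusion contract `TameKerLe` alone. -/
theorem tameFirstIneq_of_kerLe (hI : TameKerLe p F M) : TameFirstIneq p F M :=
  tameFirstIneq_of_incl tameResSmul_holds tameTorsion_holds hI

end Final

end Fermat.Agent.CFT
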