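import Mathlib
import Fermat.Agent.CFT.Global.TameCore
import Fermat.Agent.CFT.Global.TameLocal
import Fermat.Agent.CFT.Global.TameUnits
import Fermat.Agent.CFT.Global.TameApprox
import Fermat.Agent.CFT.Global.IdealDivOrder
import Fermat.Agent.CFT.Global.WeakApprox
import Fermat.Agent.CFT.Global.TameFirstIneq

set_option autoImplicit false
set_option linter.unusedSectionVars false
set_option linter.style.haveILetI false

/-!
# CFT stream [C], chunk (F3), piece (FI-1): reduction of the kernel of "`σ - 1`" on the tame middle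
term (helper20)

`M / F` cyclic of prime degree `p`, `σ` a generator, `ζ ∈ F` a primitive `p`-th root of unity,
`α ∈ Mˣ` with `σ α = ζ α`, `𝓡` a finite set of ramified primes of `M` not dividing `p`.

* `tameReduce_tameRes_vUnits` : on a `Q`-unit `x`, `tameRes Q α x = tameD Q α • (x mod Q)`;
* `tameReduce_stepB` : every family `(c_Q)_{Q ∈ 𝓡}` of residues is, modulo `p`-th powers, the family
  of tame residue symbols of an element of `Fˣ` which is a unit at all `Q ∈ 𝓡`;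
* `tame_ker_reduce` : every element of the kernel of `tameFI` is of the shape
  `φ(u) + (D, 0) + (0, p • c)` with `u ∈ Fˣ`, `D` a Galois-invariant divisor prime to `𝓡`.
-/

namespace Fermat.Agent.CFT

open IsDedekindDomain IsDedekindDomain.HeightOneSpectrum NumberField
open scoped Pointwise

attribute [local instance] heightOneSpectrumMulAction
attribute [local instance] Finsupp.comapSMul Finsupp.comapMulAction Finsupp.comapDistribMulAction
attribute [local instance] additiveDistribMulAction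

section QUnits

variable {M : Type*} [Field M] [NumberField M]

/-- a `Q`-unit has `tameD = 0`. -/
theorem tameReduce_tameD_eq_zero (Q : HeightOneSpectrum (𝓞 M)) {x : Mˣ} (hx : x ∈ vUnits Q) :
    tameD Q x = 0 := by
  rw [tameD, divFun_eq_iff, (mem_vUnits_iff Q x).mp hx, WithZero.exp_zero]

/-- on a `Q`-unit, the tame residue symbol is `tameD Q α` times the reduction. -/
theorem tameReduce_tameRes_vUnits (Q : HeightOneSpectrum (𝓞 M)) (α x : Mˣ) (hx : x ∈ vUnits Q) :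
    tameRes Q α (Additive.ofMul x) = tameD Q α • Additive.ofMul (redUnits Q ⟨x, hx⟩) := by
  rw [tameRes_apply, toMul_ofMul]
  have h : tameUnit Q α x = (⟨x, hx⟩ : vUnits Q) ^ (tameD Q α) := by
    apply Subtype.ext
    rw [coe_tameUnit, tameReduce_tameD_eq_zero Q hx, neg_zero, zpow_zero, mul_one,
      Subgroup.coe_zpow]
  rw [h, map_zpow]
  rfl

end QUnits

variable {F M : Type*} [Field F] [NumberField F] [Field M] [NumberField M] [Algebra F M]

/-- an integer of `F` whose image is not in `Q` is a `Q`-unit. -/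
theorem tameReduce_valuation_int_eq_one (Q : HeightOneSpectrum (𝓞 M)) (y : 𝓞 F)
    (hy : algebraMap (𝓞 F) (𝓞 M) y ∉ Q.asIdeal) :
    Q.valuation M (algebraMap F M (y : F)) = 1 := by
  have h1 : algebraMap F M (y : F) = algebraMap (𝓞 M) M (algebraMap (𝓞 F) (𝓞 M) y) := rfl
  rw [h1]
  refine le_antisymm (valuation_int_le_one Q _) (not_lt.mp fun h => hy ?_)
  exact (mem_asIdeal_iff_lt_one Q _).mpr h

/-- the reduction mod `Q` of (the image in `M` of) an integer of `F`. -/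
theorem tameReduce_coe_redUnits_int (Q : HeightOneSpectrum (𝓞 M)) (u : Fˣ) (y : 𝓞 F)
    (huy : (u : F) = (y : F)) (h : Units.map (algebraMap F M : F →* M) u ∈ vUnits Q) :
    ((redUnits Q ⟨_, h⟩ : (𝓞 M ⧸ Q.asIdeal)ˣ) : 𝓞 M ⧸ Q.asIdeal) =
      Ideal.Quotient.mk Q.asIdeal (algebraMap (𝓞 F) (𝓞 M) y) := by
  rw [coe_redUnits]
  apply redHom_eq
  have h0 : ((Units.map (algebraMap F M : F →* M) u : Mˣ) : M) -
      algebraMap (𝓞 M) M (algebraMap (𝓞 F) (𝓞 M) y) = 0 := by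
    rw [Units.coe_map, MonoidHom.coe_coe, huy]
    exact sub_self _
  show Q.valuation M (((Units.map (algebraMap F M : F →* M) u : Mˣ) : M) -
      algebraMap (𝓞 M) M (algebraMap (𝓞 F) (𝓞 M) y)) < 1
  rw [h0, map_zero]
  exact zero_lt_one

variable [IsGalois F M]

/-- **Step B**: every family of residues at the primes of `𝓡` is, modulo `p`-th powers, the family of
tame residue symbols of an element of `Fˣ` which is a unit at all `Q ∈ 𝓡`. -/
theorem tameReduce_stepB {p : ℕ} (hp : p.Prime) (hcard : Nat.card Gal(M/F) = p)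
    (𝓡 : Finset (HeightOneSpectrum (𝓞 M)))
    (h𝓡 : ∀ Q ∈ 𝓡, Q.asIdeal.inertia Gal(M/F) ≠ ⊥) (α : Mˣ)
    (ha : ∀ Q ∈ 𝓡, ¬ (p : ℤ) ∣ tameD Q α) (c : tameK 𝓡) :
    ∃ (u : Fˣ) (c' : tameK 𝓡),
      (∀ Q ∈ 𝓡, Units.map (algebraMap F M : F →* M) u ∈ vUnits Q) ∧
      ∀ Q : 𝓡, c Q = tameRes Q.1 α (Additive.ofMul (Units.map (algebraMap F M : F →* M) u)) +
        p • c' Q := by
  classical
  -- Bezout
  have hbez : ∀ Q : 𝓡, ∃ t s : ℤ, t * (p : ℤ) + s * tameD Q.1 α = 1 := fun Q =>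
    ((Nat.prime_iff_prime_int.mp hp).coprime_iff_not_dvd).mpr (ha Q.1 Q.2)
  choose t s hts using hbez
  -- lifts of `s • c Q` to integers of `F`
  have hlift : ∀ Q : 𝓡, ∃ y : 𝓞 F, Ideal.Quotient.mk Q.1.asIdeal (algebraMap (𝓞 F) (𝓞 M) y) =
      (((s Q • c Q).toMul : (𝓞 M ⧸ Q.1.asIdeal)ˣ) : 𝓞 M ⧸ Q.1.asIdeal) := by
    intro Q
    obtain ⟨m, hm⟩ := Ideal.Quotient.mk_surjective
      (((s Q • c Q).toMul : (𝓞 M ⧸ Q.1.asIdeal)ˣ) : 𝓞 M ⧸ Q.1.asIdeal)
    obtain ⟨y, hy⟩ := tame_exists_sub_mem hp hcard Q.1 (h𝓡 Q.1 Q.2) m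
    refine ⟨y, ?_⟩
    rw [← hm, eq_comm, Ideal.Quotient.eq]
    exact hy
  choose y hy using hlift
  have hynot : ∀ Q : 𝓡, algebraMap (𝓞 F) (𝓞 M) (y Q) ∉ Q.1.asIdeal := by
    intro Q hmem
    have h0 := Ideal.Quotient.eq_zero_iff_mem.mpr hmem
    rw [hy Q] at h0
    haveI : Nontrivial (𝓞 M ⧸ Q.1.asIdeal) :=
      Ideal.Quotient.nontrivial_iff.mpr Q.1.isPrime.ne_top
    exact (Units.ne_zero _) h0
  -- CRT
  obtain ⟨u₀, hu₀⟩ := IsDedekindDomain.exists_forall_sub_mem_ideal (s := 𝓡)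
    (fun Q : HeightOneSpectrum (𝓞 M) => (primeBelow F M Q).asIdeal) (fun _ => 1)
    (fun Q _ => (primeBelow F M Q).prime)
    (fun Q hQ Q' _ hne h => hne
      ((tame_eq_of_primeBelow_eq hp hcard Q' (h𝓡 Q' ‹_›) (HeightOneSpectrum.ext h))))
    (fun Q => y Q)
  have hu₀Q : ∀ Q : 𝓡, Ideal.Quotient.mk Q.1.asIdeal (algebraMap (𝓞 F) (𝓞 M) u₀) =
      Ideal.Quotient.mk Q.1.asIdeal (algebraMap (𝓞 F) (𝓞 M) (y Q)) := by
    intro Q
    rw [Ideal.Quotient.eq, ← map_sub]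
    have h := hu₀ Q.1 Q.2
    rw [pow_one] at h
    exact h
  have hu₀not : ∀ Q : 𝓡, algebraMap (𝓞 F) (𝓞 M) u₀ ∉ Q.1.asIdeal := by
    intro Q hmem
    apply hynot Q
    rw [← Ideal.Quotient.eq_zero_iff_mem, ← hu₀Q Q]
    exact Ideal.Quotient.eq_zero_iff_mem.mpr hmem
  -- the unit of `F`
  obtain ⟨u, hu⟩ : ∃ u : Fˣ, ∀ Q : 𝓡, (u : F) = (u₀ : F) := by
    by_cases h0 : u₀ = 0
    · refine ⟨1, fun Q => ?_⟩
      exfalso
      apply hu₀not Q
      rw [h0, map_zero]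
      exact Q.1.asIdeal.zero_mem
    · exact ⟨Units.mk0 (u₀ : F) (by simpa using h0), fun _ => rfl⟩
  have hmem : ∀ Q : 𝓡, Units.map (algebraMap F M : F →* M) u ∈ vUnits Q.1 := by
    intro Q
    rw [mem_vUnits_iff, Units.coe_map, MonoidHom.coe_coe, hu Q]
    exact tameReduce_valuation_int_eq_one Q.1 u₀ (hu₀not Q)
  refine ⟨u, fun Q => t Q • c Q, fun Q hQ => hmem ⟨Q, hQ⟩, fun Q => ?_⟩
  rw [tameReduce_tameRes_vUnits Q.1 α _ (hmem Q)]
  have hred : Additive.ofMul (redUnits Q.1 ⟨_, hmem Q⟩) = s Q • c Q := by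
    apply Additive.toMul.injective
    apply Units.ext
    rw [toMul_ofMul, tameReduce_coe_redUnits_int Q.1 u u₀ (hu Q), hu₀Q Q, hy Q]
  rw [hred, ← natCast_zsmul, smul_smul, smul_smul, ← add_zsmul]
  have : tameD Q.1 α * s Q + (p : ℤ) * t Q = 1 := by
    rw [← hts Q]; ring
  rw [this, one_zsmul]

/-- **(FI-1)**: every element of the kernel of "`σ - 1`" on the tame middle term is of the shape
`φ(u) + (D, 0) + (0, p • c)` with `u ∈ Fˣ` and `D` a Galois-invariant divisor prime to `𝓡`. -/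
theorem tame_ker_reduce {p : ℕ} (hp : p.Prime) (hcard : Nat.card Gal(M/F) = p) {σ : Gal(M/F)}
    (hσ : ∀ τ, τ ∈ Subgroup.zpowers σ) (ζ : (𝓞 F)ˣ) (hζ : IsPrimitiveRoot ζ p) (α : Mˣ)
    (hα : σ (α : M) = algebraMap (𝓞 F) M ζ * α) (𝓡 : Finset (HeightOneSpectrum (𝓞 M)))
    (h𝓡 : ∀ Q ∈ 𝓡, Q.asIdeal.inertia Gal(M/F) ≠ ⊥) (hp𝓡 : ∀ Q ∈ 𝓡, (p : 𝓞 M) ∉ Q.asIdeal)
    (x : tameI 𝓡)
    (hx : x ∈ (tameFI 𝓡 (subOneHom (HeightOneSpectrum (𝓞 M) →₀ ℤ) σ) (tameZ 𝓡 ζ)).ker) :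
    ∃ (u : Fˣ) (D : HeightOneSpectrum (𝓞 M) →₀ ℤ) (c : tameK 𝓡), (∀ Q ∈ 𝓡, D Q = 0) ∧
      (∀ g : Gal(M/F), g • D = D) ∧
      x = tamePhi 𝓡 α (Additive.ofMul (Units.map (algebraMap F M : F →* M) u)) + (D, 0) +
        (0, p • c) := by
  classical
  obtain ⟨Dx, cx⟩ := x
  rw [AddMonoidHom.mem_ker, tameFI_apply, Prod.mk_eq_zero] at hx
  obtain ⟨hx1, hx2⟩ := hx
  -- `Dx` is Galois invariant
  have hinv : ∀ g : Gal(M/F), g • Dx = Dx :=
    (mem_ker_subOneHom_iff hσ).mp hx1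
  -- `p ∣ Dx Q` for `Q ∈ 𝓡`
  have hdvd : ∀ Q : 𝓡, (p : ℤ) ∣ Dx Q.1 := by
    intro Q
    have h1 : Dx Q.1 • tameZQ (F := F) Q.1 ζ = 0 := by
      have := congrFun hx2 Q
      rw [tameTheta_apply] at this
      exact this
    rw [← addOrderOf_tameZQ hp (hp𝓡 Q.1 Q.2) hζ]
    exact addOrderOf_dvd_iff_zsmul_eq_zero.mpr h1
  -- Step A
  obtain ⟨D0, hD0, -⟩ := exists_divExt_eq_of_smul_eq F M Dx hinv
  obtain ⟨u1, hu1⟩ := exists_units_forall_valuation_eq F (𝓡.image (primeBelow F M))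
    (fun q => -(D0 q / (p : ℤ)))
  have hu1D : ∀ Q ∈ 𝓡, tameD Q (Units.map (algebraMap F M : F →* M) u1) = Dx Q := by
    intro Q hQ
    rw [tameD_map_algebraMap hp hcard Q (h𝓡 Q hQ)]
    have h1 : divFun (𝓞 F) F u1 (primeBelow F M Q) = D0 (primeBelow F M Q) / (p : ℤ) := by
      rw [divFun_eq_iff, hu1 _ (Finset.mem_image_of_mem _ hQ), neg_neg]
    have h2 : D0 (primeBelow F M Q) = Dx Q := by
      rw [← hD0, divExt_apply]
    rw [h1, h2]
    exact Int.mul_ediv_cancel' (hdvd ⟨Q, hQ⟩)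
  -- Step B
  have ha : ∀ Q ∈ 𝓡, ¬ (p : ℤ) ∣ tameD Q α := fun Q hQ =>
    tame_not_dvd_tameD hp hcard Q (h𝓡 Q hQ) (hp𝓡 Q hQ) hζ hα
  obtain ⟨u2, c', hu2, hc'⟩ := tameReduce_stepB hp hcard 𝓡 h𝓡 α ha
    (cx - tameResAll 𝓡 α (Additive.ofMul (Units.map (algebraMap F M : F →* M) u1)))
  have hmul : Additive.ofMul (Units.map (algebraMap F M : F →* M) (u1 * u2)) =
      Additive.ofMul (Units.map (algebraMap F M : F →* M) u1) +
        Additive.ofMul (Units.map (algebraMap F M : F →* M) u2) := by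
    rw [map_mul, ofMul_mul]
  refine ⟨u1 * u2, Dx - divHom (𝓞 M) M (Additive.ofMul
    (Units.map (algebraMap F M : F →* M) (u1 * u2))), c', ?_, ?_, ?_⟩
  · intro Q hQ
    rw [Finsupp.sub_apply, hmul, map_add, Finsupp.add_apply, divHom_apply, divHom_apply,
      toMul_ofMul, toMul_ofMul]
    have h1 := hu1D Q hQ
    have h2 := tameReduce_tameD_eq_zero Q (hu2 Q hQ)
    rw [tameD] at h1 h2
    rw [h1, h2, add_zero, sub_self]
  · intro g
    rw [smul_sub, hinv g, ← divHom_units_map_smul F M g]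
    congr 3
    apply Units.ext
    rw [Units.coe_map, Units.coe_map, MonoidHom.coe_coe, MonoidHom.coe_coe]
    exact g.commutes _
  · apply Prod.ext
    · show Dx = divHom (𝓞 M) M _ + (Dx - divHom (𝓞 M) M _) + 0
      abel
    · show cx = tameResAll 𝓡 α _ + 0 + p • c'
      funext Q
      have h := hc' Q
      rw [Pi.sub_apply, sub_eq_iff_eq_add] at h
      rw [h, hmul, map_add, add_zero, Pi.add_apply, Pi.add_apply, Pi.smul_apply]
      show _ = tameRes Q.1 α _ + tameRes Q.1 α _ + _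
      abel

/-- the contract `TameKerReduce` of `TameFirstIneq.lean` holds. -/
theorem tameKerReduce_holds (p : ℕ) : TameKerReduce p F M :=
  fun hp hcard _ hσ ζ hζ α hα 𝓡 h𝓡 hp𝓡 x hx =>
    tame_ker_reduce hp hcard hσ ζ hζ α hα 𝓡 h𝓡 hp𝓡 x hx

end Fermat.Agent.CFT
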