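import Mathlib
import Fermat.Agent.CFT.Global.TameCore
import Fermat.Agent.CFT.Global.TameLocal
import Fermat.Agent.CFT.Global.WeakApprox
import Fermat.Agent.CFT.Global.TameStepB
import Fermat.Agent.CFT.Global.TameFirstIneq

set_option autoImplicit false
set_option linter.unusedSectionVars false

/-!
# CFT, stream [C], (F3), chunk (FI-1): reduction of the kernel of the twisted `σ - 1`
(second engine; all helper names are prefixed `tameAlt_`)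
-/

namespace Fermat.Agent.CFT

open NumberField IsDedekindDomain IsDedekindDomain.HeightOneSpectrum
open scoped Pointwise

attribute [local instance] heightOneSpectrumMulAction
attribute [local instance] Finsupp.comapSMul Finsupp.comapMulAction Finsupp.comapDistribMulAction
attribute [local instance] additiveDistribMulAction

variable {F M : Type*} [Field F] [NumberField F] [Field M] [NumberField M] [Algebra F M]
  [IsGalois F M]

/-- the image of `u : Fˣ` in `Mˣ` -/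
noncomputable abbrev tameAlt_inc (u : Fˣ) : Mˣ := Units.map (algebraMap F M : F →* M) u

theorem tameAlt_divHom_inc_smul (g : Gal(M/F)) (u : Fˣ) :
    g • divHom (𝓞 M) M (Additive.ofMul (tameAlt_inc (M := M) u)) =
      divHom (𝓞 M) M (Additive.ofMul (tameAlt_inc (M := M) u)) := by
  rw [← divHom_units_map_smul F M g]
  congr 2
  apply Units.ext
  simp [tameAlt_inc]


/-- (TL8) in `ℤ`-form: `n • z_Q = 0 ⇒ p ∣ n`. -/
theorem tameAlt_dvd_of_zsmul_eq_zero {p : ℕ} (hp : p.Prime) {Q : HeightOneSpectrum (𝓞 M)}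
    (hpQ : (p : 𝓞 M) ∉ Q.asIdeal) {ζ : (𝓞 F)ˣ} (hζ : IsPrimitiveRoot ζ p) (n : ℤ)
    (h : n • tameZQ Q ζ = 0) : (p : ℤ) ∣ n := by
  rw [← addOrderOf_tameZQ hp hpQ hζ]
  exact addOrderOf_dvd_iff_zsmul_eq_zero.mpr h

/-- Step A: an element of `Fˣ` with prescribed (divisible by `p`) valuations at the primes of
`𝓡`. -/
theorem tameAlt_exists_u1 {p : ℕ} (hp : p.Prime) (hcard : Nat.card Gal(M/F) = p)
    (𝓡 : Finset (HeightOneSpectrum (𝓞 M)))
    (h𝓡 : ∀ Q ∈ 𝓡, Q.asIdeal.inertia Gal(M/F) ≠ ⊥)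
    (D : HeightOneSpectrum (𝓞 M) →₀ ℤ) (hD : ∀ Q ∈ 𝓡, (p : ℤ) ∣ D Q) :
    ∃ u : Fˣ, ∀ Q ∈ 𝓡, tameD Q (tameAlt_inc (M := M) u) = D Q := by
  classical
  let b : HeightOneSpectrum (𝓞 F) → ℤ := fun v =>
    if h : ∃ Q ∈ 𝓡, primeBelow F M Q = v then -(D h.choose / p) else 0
  obtain ⟨c, hc⟩ := exists_units_forall_valuation_eq F (𝓡.image (primeBelow F M)) b
  refine ⟨c, fun Q hQ => ?_⟩
  have hmem : primeBelow F M Q ∈ 𝓡.image (primeBelow F M) := Finset.mem_image_of_mem _ hQ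
  have hex : ∃ Q' ∈ 𝓡, primeBelow F M Q' = primeBelow F M Q := ⟨Q, hQ, rfl⟩
  have hch : hex.choose = Q :=
    tame_eq_of_primeBelow_eq hp hcard Q (h𝓡 Q hQ) hex.choose_spec.2
  have hb : b (primeBelow F M Q) = -(D Q / p) := by
    simp only [b]
    rw [dif_pos hex, hch]
  have h1 := hc _ hmem
  rw [hb, neg_neg] at h1
  have h2 : divFun (𝓞 F) F c (primeBelow F M Q) = D Q / p := (divFun_eq_iff _ _ _ _ _).mpr h1
  rw [tameD_map_algebraMap hp hcard Q (h𝓡 Q hQ), h2, Int.mul_ediv_cancel' (hD Q hQ)]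

theorem tame_ker_reduce_alt {p : ℕ} (hp : p.Prime) (hcard : Nat.card Gal(M/F) = p)
    {σ : Gal(M/F)} (hσ : ∀ τ, τ ∈ Subgroup.zpowers σ) (ζ : (𝓞 F)ˣ) (hζ : IsPrimitiveRoot ζ p)
    (α : Mˣ) (hα : σ (α : M) = algebraMap (𝓞 F) M ζ * α)
    (𝓡 : Finset (HeightOneSpectrum (𝓞 M)))
    (h𝓡 : ∀ Q ∈ 𝓡, Q.asIdeal.inertia Gal(M/F) ≠ ⊥) (hp𝓡 : ∀ Q ∈ 𝓡, (p : 𝓞 M) ∉ Q.asIdeal)
    (x : tameI 𝓡)
    (hx : x ∈ (tameFI 𝓡 (subOneHom (HeightOneSpectrum (𝓞 M) →₀ ℤ) σ) (tameZ 𝓡 ζ)).ker) :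
    ∃ (u : Fˣ) (D : HeightOneSpectrum (𝓞 M) →₀ ℤ) (c : tameK 𝓡),
      (∀ Q ∈ 𝓡, D Q = 0) ∧ (∀ g : Gal(M/F), g • D = D) ∧
      x = tamePhi 𝓡 α (Additive.ofMul (Units.map (algebraMap F M : F →* M) u)) + (D, 0) +
        (0, p • c) := by
  classical
  obtain ⟨Dx, cx⟩ := x
  rw [AddMonoidHom.mem_ker, tameFI_apply, Prod.mk_eq_zero] at hx
  obtain ⟨hx1, hx2⟩ := hx
  have hDxG : ∀ g : Gal(M/F), g • Dx = Dx :=
    (mem_ker_subOneHom_iff hσ).mp ((AddMonoidHom.mem_ker).mpr hx1)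
  have hDxp : ∀ Q ∈ 𝓡, (p : ℤ) ∣ Dx Q := by
    intro Q hQ
    have h := congrFun hx2 ⟨Q, hQ⟩
    rw [tameTheta_apply, tameZ_eq_tameZQ] at h
    exact tameAlt_dvd_of_zsmul_eq_zero hp (hp𝓡 Q hQ) hζ _ h
  obtain ⟨u1, hu1⟩ := tameAlt_exists_u1 hp hcard 𝓡 h𝓡 Dx hDxp
  have ha : ∀ Q ∈ 𝓡, ¬ (p : ℤ) ∣ tameD Q α := fun Q hQ =>
    tame_not_dvd_tameD hp hcard Q (h𝓡 Q hQ) (hp𝓡 Q hQ) hζ hα
  obtain ⟨u2, -, hu2, c', hc'⟩ := tame_stepB hp hcard 𝓡 h𝓡 ∅ α ha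
    (cx - tameResAll 𝓡 α (Additive.ofMul (tameAlt_inc (M := M) u1)))
  have hu2D : ∀ Q ∈ 𝓡, tameD Q (tameAlt_inc (M := M) u2) = 0 := by
    intro Q hQ
    rw [tameD_map_algebraMap hp hcard Q (h𝓡 Q hQ)]
    have : divFun (𝓞 F) F u2 (primeBelow F M Q) = 0 := by
      rw [divFun_eq_iff, hu2 Q hQ, WithZero.exp_zero]
    rw [this, mul_zero]
  have hinc : tameAlt_inc (M := M) (u1 * u2) = tameAlt_inc u1 * tameAlt_inc u2 := map_mul _ _ _
  refine ⟨u1 * u2, Dx - divHom (𝓞 M) M (Additive.ofMul (tameAlt_inc (M := M) (u1 * u2))), c',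
    ?_, ?_, ?_⟩
  · intro Q hQ
    rw [Finsupp.sub_apply, divHom_apply, toMul_ofMul, hinc, divFun_mul]
    have h1 := hu1 Q hQ
    have h2 := hu2D Q hQ
    simp only [tameD] at h1 h2
    rw [h1, h2, add_zero, sub_self]
  · intro g
    rw [smul_sub, hDxG g, tameAlt_divHom_inc_smul]
  · refine Prod.ext ?_ ?_
    · simp only [Prod.fst_add, tamePhi_fst, add_zero]
      abel
    · funext Q
      simp only [Prod.snd_add, Pi.add_apply, tamePhi_snd, add_zero, Pi.smul_apply]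
      have h := hc' Q
      rw [Pi.sub_apply] at h
      have h3 : tameRes Q.1 α (Additive.ofMul (tameAlt_inc (M := M) (u1 * u2))) =
          tameRes Q.1 α (Additive.ofMul (tameAlt_inc (M := M) u1)) +
            tameRes Q.1 α (Additive.ofMul (tameAlt_inc (M := M) u2)) := by
        rw [hinc, ofMul_mul, map_add]
      have h4 : tameResAll 𝓡 α (Additive.ofMul (tameAlt_inc (M := M) u1)) Q =
          tameRes Q.1 α (Additive.ofMul (tameAlt_inc (M := M) u1)) := rfl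
      rw [h4] at h
      show cx Q = _
      rw [h3, ← h]
      abel

/-- the contract (FI-1) `TameKerReduce` holds. -/
theorem tameKerReduce_holds_alt {p : ℕ} : TameKerReduce p F M :=
  fun hp hcard {_} hσ ζ hζ α hα 𝓡 h𝓡 hp𝓡 x hx =>
    tame_ker_reduce_alt hp hcard hσ ζ hζ α hα 𝓡 h𝓡 hp𝓡 x hx

end Fermat.Agent.CFT
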