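import Mathlib

set_option autoImplicit false

/-!
# CFT [C] (helper15): real Dedekind zeta as a sum over ideals, finite Euler products, and the
prime ideal zeta sum `∑_p N(p)^(-s) = log (1/(s-1)) + O(1)`.
-/

namespace Fermat.Agent.CFT

open NumberField Ideal IsDedekindDomain Filter Topology Asymptotics

noncomputable section

variable (F : Type*) [Field F] [NumberField F]

/-- Dirichlet weight `N(I)^(-s)` of an ideal (`0` for the zero ideal when `s ≠ 0`). -/
def idealWt (s : ℝ) (I : Ideal (𝓞 F)) : ℝ := ((absNorm I : ℕ) : ℝ) ^ (-s)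

lemma idealWt_nonneg (s : ℝ) (I : Ideal (𝓞 F)) : 0 ≤ idealWt F s I := by
  unfold idealWt; positivity

lemma idealWt_mul (s : ℝ) (I J : Ideal (𝓞 F)) :
    idealWt F s (I * J) = idealWt F s I * idealWt F s J := by
  unfold idealWt
  rw [map_mul, Nat.cast_mul, Real.mul_rpow (Nat.cast_nonneg _) (Nat.cast_nonneg _)]

lemma idealWt_top (s : ℝ) : idealWt F s ⊤ = 1 := by
  simp [idealWt]

lemma idealWt_one (s : ℝ) : idealWt F s 1 = 1 := by
  rw [Ideal.one_eq_top]; exact idealWt_top F s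

lemma idealWt_pow (s : ℝ) (I : Ideal (𝓞 F)) (k : ℕ) :
    idealWt F s (I ^ k) = idealWt F s I ^ k := by
  induction k with
  | zero => simp [idealWt_top]
  | succ k ih => rw [pow_succ, idealWt_mul, ih, pow_succ]

lemma idealWt_prod {ι : Type*} (s : ℝ) (t : Finset ι) (f : ι → Ideal (𝓞 F)) :
    idealWt F s (∏ i ∈ t, f i) = ∏ i ∈ t, idealWt F s (f i) := by
  classical
  induction t using Finset.induction_on with
  | empty => simp [idealWt_top]
  | insert a t ha ih => rw [Finset.prod_insert ha, Finset.prod_insert ha, idealWt_mul, ih]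

lemma idealWt_bot {s : ℝ} (hs : s ≠ 0) : idealWt F s ⊥ = 0 := by
  simp [idealWt, Real.zero_rpow (neg_ne_zero.mpr hs)]

/-- The norm of a nonzero prime ideal is at least `2`. -/
lemma two_le_absNorm (v : HeightOneSpectrum (𝓞 F)) : 2 ≤ absNorm v.asIdeal := by
  have h0 : absNorm v.asIdeal ≠ 0 := by
    rw [Ne, absNorm_eq_zero_iff]; exact v.ne_bot
  have h1 : absNorm v.asIdeal ≠ 1 := by
    rw [Ne, absNorm_eq_one_iff]; exact v.isPrime.ne_top
  omega

lemma idealWt_prime_pos (s : ℝ) (v : HeightOneSpectrum (𝓞 F)) : 0 < idealWt F s v.asIdeal := by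
  unfold idealWt
  have := two_le_absNorm F v
  positivity

lemma idealWt_prime_le_half {s : ℝ} (hs : 1 ≤ s) (v : HeightOneSpectrum (𝓞 F)) :
    idealWt F s v.asIdeal ≤ 1 / 2 := by
  unfold idealWt
  have h2 : (2 : ℝ) ≤ (absNorm v.asIdeal : ℝ) := by exact_mod_cast two_le_absNorm F v
  calc ((absNorm v.asIdeal : ℕ) : ℝ) ^ (-s) ≤ (2 : ℝ) ^ (-s) :=
        Real.rpow_le_rpow_of_nonpos (by norm_num) h2 (by linarith)
    _ ≤ (2 : ℝ) ^ (-1 : ℝ) := Real.rpow_le_rpow_of_exponent_le (by norm_num) (by linarith)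
    _ = 1 / 2 := by rw [Real.rpow_neg_one]; norm_num

/-! ### The zeta function as a sum over ideals -/

/-- The number of ideals of norm `n`. -/
def idealCount (n : ℕ) : ℕ := Nat.card {I : Ideal (𝓞 F) // absNorm I = n}

lemma finite_fibre (n : ℕ) : Finite {I : Ideal (𝓞 F) // absNorm I = n} :=
  (finite_setOfPred_absNorm_eq (S := 𝓞 F) n).to_subtype

lemma tendsto_sum_idealCount_div :
    Tendsto (fun n : ℕ ↦ (∑ k ∈ Finset.Icc 1 n, (idealCount F k : ℝ)) / (n : ℝ)) atTop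
      (𝓝 (dedekindZeta_residue F)) := by
  refine ((Ideal.tendsto_norm_le_div_atTop₀ F).comp tendsto_natCast_atTop_atTop).congr fun n ↦ ?_
  simp only [Function.comp_apply, Nat.cast_le, ← Nat.cast_sum, idealCount]
  congr
  rw [← add_left_inj 1, ← card_norm_le_eq_card_norm_le_add_one,
    show Finset.Icc 1 n = Finset.Ioc 0 n from Finset.Icc_succ_left_eq_Ioc _ _,
    show 1 = Nat.card {I : Ideal (𝓞 F) // absNorm I = 0} by simp [Ideal.absNorm_eq_zero_iff],
    Finset.sum_Ioc_add_eq_sum_Icc (n.zero_le),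
    ← Finset.card_preimage_eq_sum_card_image_eq (fun k _ ↦ finite_setOfPred_absNorm_eq k)]
  simp [Set.coe_eq_subtype]

lemma lseriesSummable_idealCount {s : ℝ} (hs : 1 < s) :
    LSeriesSummable (fun n ↦ ((idealCount F n : ℝ) : ℂ)) (s : ℂ) := by
  refine LSeriesSummable_of_sum_norm_bigO_and_nonneg (f := fun n ↦ (idealCount F n : ℝ)) ?_
    (fun _ ↦ Nat.cast_nonneg _) zero_le_one (by simpa using hs)
  exact isBigO_atTop_natCast_rpow_of_tendsto_div_rpow (by simpa using tendsto_sum_idealCount_div F)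

lemma tsum_fibre_idealWt (s : ℝ) (n : ℕ) :
    ∑' I : {I : Ideal (𝓞 F) // absNorm I = n}, idealWt F s I.1 =
      (idealCount F n : ℝ) * (n : ℝ) ^ (-s) := by
  have := finite_fibre F n
  have h : ∀ I : {I : Ideal (𝓞 F) // absNorm I = n}, idealWt F s I.1 = (n : ℝ) ^ (-s) :=
    fun I ↦ by rw [idealWt, I.2]
  simp_rw [h]
  rw [tsum_const, nsmul_eq_mul, idealCount]

lemma summable_idealCount_mul {s : ℝ} (hs : 1 < s) :
    Summable fun n : ℕ ↦ (idealCount F n : ℝ) * (n : ℝ) ^ (-s) := by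
  have hL := (lseriesSummable_idealCount F hs).norm
  refine hL.congr fun n ↦ ?_
  rw [LSeries.norm_term_eq]
  split_ifs with hn
  · subst hn
    have : (-s) ≠ 0 := by linarith
    simp [Real.zero_rpow this]
  · simp only [Complex.norm_real, Real.norm_eq_abs, Complex.ofReal_re]
    rw [abs_of_nonneg (Nat.cast_nonneg _), Real.rpow_neg (Nat.cast_nonneg _), div_eq_mul_inv]

lemma summable_idealWt {s : ℝ} (hs : 1 < s) : Summable (idealWt F s) := by
  rw [← (Equiv.sigmaFiberEquiv (fun I : Ideal (𝓞 F) ↦ absNorm I)).summable_iff,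
    summable_sigma_of_nonneg
      (f := idealWt F s ∘ (Equiv.sigmaFiberEquiv (fun I : Ideal (𝓞 F) ↦ absNorm I)))
      (fun _ ↦ idealWt_nonneg F s _)]
  refine ⟨fun n ↦ ?_, ?_⟩
  · have := finite_fibre F n
    exact Summable.of_finite
  · refine (summable_idealCount_mul F hs).congr fun n ↦ ?_
    exact (tsum_fibre_idealWt F s n).symm

/-- The real Dedekind zeta function, as a sum over all ideals. -/
def zetaR (s : ℝ) : ℝ := ∑' I : Ideal (𝓞 F), idealWt F s I

lemma zetaR_eq_tsum_nat {s : ℝ} (hs : 1 < s) :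
    zetaR F s = ∑' n : ℕ, (idealCount F n : ℝ) * (n : ℝ) ^ (-s) := by
  unfold zetaR
  rw [← (Equiv.sigmaFiberEquiv (fun I : Ideal (𝓞 F) ↦ absNorm I)).tsum_eq]
  have hsum : Summable ((idealWt F s) ∘ (Equiv.sigmaFiberEquiv (fun I : Ideal (𝓞 F) ↦ absNorm I))) :=
    (Equiv.sigmaFiberEquiv (fun I : Ideal (𝓞 F) ↦ absNorm I)).summable_iff.mpr (summable_idealWt F hs)
  have h2 := hsum.tsum_sigma
  simp only [Function.comp_apply] at h2
  rw [h2]
  exact tsum_congr fun n ↦ tsum_fibre_idealWt F s n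

lemma ofReal_zetaR {s : ℝ} (hs : 1 < s) : ((zetaR F s : ℝ) : ℂ) = dedekindZeta F s := by
  rw [zetaR_eq_tsum_nat F hs, Complex.ofReal_tsum, dedekindZeta, LSeries]
  refine tsum_congr fun n ↦ ?_
  rw [LSeries.term_def]
  split_ifs with hn
  · subst hn
    have : (-s) ≠ 0 := by linarith
    simp [Real.zero_rpow this]
  · rw [Complex.ofReal_mul, Real.rpow_neg (Nat.cast_nonneg _), Complex.ofReal_inv,
      Complex.ofReal_cpow (Nat.cast_nonneg _), div_eq_mul_inv]
    simp [idealCount]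

lemma tendsto_sub_one_mul_zetaR :
    Tendsto (fun s : ℝ ↦ (s - 1) * zetaR F s) (𝓝[>] 1) (𝓝 (dedekindZeta_residue F)) := by
  have h := (Complex.continuous_re.tendsto _).comp (tendsto_sub_one_mul_dedekindZeta_nhdsGT F)
  simp only [Complex.ofReal_re] at h
  refine h.congr' ?_
  filter_upwards [self_mem_nhdsWithin] with s hs
  have hs' : 1 < s := hs
  simp only [Function.comp_apply]
  rw [← ofReal_zetaR F hs', ← Complex.ofReal_one, ← Complex.ofReal_sub, ← Complex.ofReal_mul,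
    Complex.ofReal_re]

lemma zetaR_pos {s : ℝ} (hs : 1 < s) : 0 < zetaR F s := by
  have h1 : idealWt F s ⊤ ≤ zetaR F s :=
    (summable_idealWt F hs).le_tsum (⊤ : Ideal (𝓞 F)) (fun _ _ ↦ idealWt_nonneg F s _)
  rw [idealWt_top] at h1
  linarith

lemma one_le_zetaR {s : ℝ} (hs : 1 < s) : 1 ≤ zetaR F s := by
  have h1 : idealWt F s ⊤ ≤ zetaR F s :=
    (summable_idealWt F hs).le_tsum (⊤ : Ideal (𝓞 F)) (fun _ _ ↦ idealWt_nonneg F s _)
  rwa [idealWt_top] at h1

/-! ### Finite Euler products -/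

variable {F}

/-- The ideal with prescribed exponents on a finite set of primes. -/
def prodPow (T : Finset (HeightOneSpectrum (𝓞 F))) (e : ↥T → ℕ) : Ideal (𝓞 F) :=
  ∏ v : ↥T, v.1.asIdeal ^ e v

lemma not_dvd_of_ne {v w : HeightOneSpectrum (𝓞 F)} (h : v ≠ w) : ¬ v.asIdeal ∣ w.asIdeal := by
  intro hd
  rw [Ideal.dvd_iff_le] at hd
  have := w.isMaximal.eq_of_le v.isPrime.ne_top hd
  exact h (HeightOneSpectrum.ext this.symm)

lemma emultiplicity_prodPow (T : Finset (HeightOneSpectrum (𝓞 F))) (e : ↥T → ℕ) (v : ↥T) :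
    emultiplicity v.1.asIdeal (prodPow T e) = e v := by
  classical
  unfold prodPow
  rw [Finset.emultiplicity_prod v.1.prime, Finset.sum_eq_single v]
  · exact emultiplicity_pow_self_of_prime v.1.prime _
  · intro w _ hw
    rw [emultiplicity_eq_zero]
    intro hd
    exact not_dvd_of_ne (fun h ↦ hw (Subtype.ext h.symm)) (v.1.prime.dvd_of_dvd_pow hd)
  · intro h; exact absurd (Finset.mem_univ v) h

lemma prodPow_injective (T : Finset (HeightOneSpectrum (𝓞 F))) :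
    Function.Injective (prodPow T) := by
  intro e e' h
  funext v
  have h1 := emultiplicity_prodPow T e v
  rw [h, emultiplicity_prodPow T e' v] at h1
  exact (Nat.cast_injective h1).symm

lemma idealWt_prodPow (s : ℝ) (T : Finset (HeightOneSpectrum (𝓞 F))) (e : ↥T → ℕ) :
    idealWt F s (prodPow T e) = ∏ v : ↥T, idealWt F s v.1.asIdeal ^ e v := by
  unfold prodPow
  rw [idealWt_prod]
  simp_rw [idealWt_pow]

lemma prodPow_multiplicity {I : Ideal (𝓞 F)} (hI : I ≠ ⊥) (T : Finset (HeightOneSpectrum (𝓞 F)))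
    (hT : ∀ v : HeightOneSpectrum (𝓞 F), v.asIdeal ∣ I → v ∈ T) :
    prodPow T (fun v ↦ multiplicity v.1.asIdeal I) = I := by
  conv_rhs => rw [← Ideal.finprod_heightOneSpectrum_pow_multiplicity hI]
  rw [finprod_eq_prod_of_mulSupport_subset (s := T)]
  · unfold prodPow
    exact Finset.prod_coe_sort T (fun v ↦ v.asIdeal ^ multiplicity v.asIdeal I)
  · intro v hv
    rw [Function.mem_mulSupport] at hv
    apply hT
    by_contra hnd
    apply hv
    rw [multiplicity_eq_zero.mpr hnd, pow_zero]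

lemma sum_piFinset_eq (s : ℝ) (T : Finset (HeightOneSpectrum (𝓞 F))) [DecidableEq ↥T] (N : ℕ) :
    ∑ e ∈ Fintype.piFinset (fun _ : ↥T ↦ Finset.range N), idealWt F s (prodPow T e) =
      ∏ v ∈ T, ∑ k ∈ Finset.range N, idealWt F s v.asIdeal ^ k := by
  rw [← Finset.prod_coe_sort T (fun v ↦ ∑ k ∈ Finset.range N, idealWt F s v.asIdeal ^ k),
    Finset.prod_univ_sum]
  exact Finset.sum_congr rfl fun e _ ↦ idealWt_prodPow s T e

lemma idealWt_prime_lt_one {s : ℝ} (hs : 1 ≤ s) (v : HeightOneSpectrum (𝓞 F)) :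
    idealWt F s v.asIdeal < 1 :=
  (idealWt_prime_le_half F hs v).trans_lt (by norm_num)

lemma prod_geom_le_zetaR {s : ℝ} (hs : 1 < s) (T : Finset (HeightOneSpectrum (𝓞 F))) (N : ℕ) :
    ∏ v ∈ T, ∑ k ∈ Finset.range N, idealWt F s v.asIdeal ^ k ≤ zetaR F s := by
  classical
  rw [← sum_piFinset_eq]
  have hinj : Set.InjOn (prodPow T) (Fintype.piFinset fun _ : ↥T ↦ Finset.range N) :=
    fun e _ e' _ h ↦ prodPow_injective T h
  rw [← Finset.sum_image hinj]
  exact (summable_idealWt F hs).sum_le_tsum _ (fun _ _ ↦ idealWt_nonneg F s _)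

lemma prod_inv_one_sub_le_zetaR {s : ℝ} (hs : 1 < s) (T : Finset (HeightOneSpectrum (𝓞 F))) :
    ∏ v ∈ T, (1 - idealWt F s v.asIdeal)⁻¹ ≤ zetaR F s := by
  have hlim : Tendsto (fun N ↦ ∏ v ∈ T, ∑ k ∈ Finset.range N, idealWt F s v.asIdeal ^ k) atTop
      (𝓝 (∏ v ∈ T, (1 - idealWt F s v.asIdeal)⁻¹)) :=
    tendsto_finsetProd _ fun v _ ↦
      (hasSum_geometric_of_lt_one (idealWt_nonneg F s _)
        (idealWt_prime_lt_one hs.le v)).tendsto_sum_nat
  exact le_of_tendsto' hlim fun N ↦ prod_geom_le_zetaR hs T N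

lemma le_log_inv_one_sub {x : ℝ} (h1 : x < 1) : x ≤ Real.log (1 - x)⁻¹ := by
  rw [Real.log_inv]
  have := Real.log_le_sub_one_of_pos (show 0 < 1 - x by linarith)
  linarith

lemma sum_prime_le_log_zetaR {s : ℝ} (hs : 1 < s) (T : Finset (HeightOneSpectrum (𝓞 F))) :
    ∑ v ∈ T, idealWt F s v.asIdeal ≤ Real.log (zetaR F s) := by
  have h1 := prod_inv_one_sub_le_zetaR hs T
  have hpos : ∀ v ∈ T, 0 < (1 - idealWt F s v.asIdeal)⁻¹ := fun v _ ↦
    inv_pos.mpr (by linarith [idealWt_prime_lt_one hs.le v])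
  calc ∑ v ∈ T, idealWt F s v.asIdeal
      ≤ ∑ v ∈ T, Real.log (1 - idealWt F s v.asIdeal)⁻¹ :=
        Finset.sum_le_sum fun v _ ↦ le_log_inv_one_sub (idealWt_prime_lt_one hs.le v)
    _ = Real.log (∏ v ∈ T, (1 - idealWt F s v.asIdeal)⁻¹) :=
        (Real.log_prod fun v hv ↦ (hpos v hv).ne').symm
    _ ≤ Real.log (zetaR F s) := Real.log_le_log (Finset.prod_pos hpos) h1

variable (F)

/-- The prime ideal zeta sum `∑_p N(p)^(-s)`. -/
def primeZeta (s : ℝ) : ℝ := ∑' v : HeightOneSpectrum (𝓞 F), idealWt F s v.asIdeal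

lemma summable_primeWt {s : ℝ} (hs : 1 < s) :
    Summable fun v : HeightOneSpectrum (𝓞 F) ↦ idealWt F s v.asIdeal :=
  summable_of_sum_le (fun _ ↦ idealWt_nonneg F s _) (fun T ↦ sum_prime_le_log_zetaR hs T)

lemma primeZeta_le_log_zetaR {s : ℝ} (hs : 1 < s) : primeZeta F s ≤ Real.log (zetaR F s) :=
  Real.tsum_le_of_sum_le (fun _ ↦ idealWt_nonneg F s _) (fun T ↦ sum_prime_le_log_zetaR hs T)

lemma primeZeta_nonneg (s : ℝ) : 0 ≤ primeZeta F s :=
  tsum_nonneg fun _ ↦ idealWt_nonneg F s _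

/-! ### The hard half of the Euler product -/

variable {F}

lemma inv_one_sub_le_exp {x : ℝ} (_h0 : 0 ≤ x) (h1 : x ≤ 1 / 2) :
    (1 - x)⁻¹ ≤ Real.exp (x + 2 * x ^ 2) := by
  have hpos : 0 < 1 - x := by linarith
  rw [inv_eq_one_div, div_le_iff₀ hpos]
  have h := Real.add_one_le_exp (x + 2 * x ^ 2)
  nlinarith [mul_nonneg (sub_nonneg.mpr h) hpos.le, mul_nonneg (sq_nonneg x)
    (show 0 ≤ 1 - 2 * x by linarith)]

/-- The exponent vector of an ideal on a finite set of primes. -/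
def multVec (T : Finset (HeightOneSpectrum (𝓞 F))) (I : Ideal (𝓞 F)) : ↥T → ℕ :=
  fun v ↦ multiplicity v.1.asIdeal I

lemma exists_finset_primes (J : Finset (Ideal (𝓞 F))) (h0 : ∀ I ∈ J, I ≠ ⊥) :
    ∃ T : Finset (HeightOneSpectrum (𝓞 F)),
      ∀ I ∈ J, ∀ v : HeightOneSpectrum (𝓞 F), v.asIdeal ∣ I → v ∈ T := by
  classical
  refine ⟨J.attach.biUnion fun I ↦ (Ideal.finite_factors (h0 I.1 I.2)).toFinset, ?_⟩
  intro I hI v hv
  refine Finset.mem_biUnion.mpr ⟨⟨I, hI⟩, Finset.mem_attach _ _, ?_⟩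
  simpa using hv

lemma geom_sum_le_inv {x : ℝ} (h0 : 0 ≤ x) (h1 : x < 1) (N : ℕ) :
    ∑ k ∈ Finset.range N, x ^ k ≤ (1 - x)⁻¹ := by
  have hsum := hasSum_geometric_of_lt_one h0 h1
  rw [← hsum.tsum_eq]
  exact hsum.summable.sum_le_tsum _ (fun _ _ ↦ pow_nonneg h0 _)

lemma sum_idealWt_le_prod {s : ℝ} (hs : 1 ≤ s) (J : Finset (Ideal (𝓞 F)))
    (h0 : ∀ I ∈ J, I ≠ ⊥) :
    ∃ T : Finset (HeightOneSpectrum (𝓞 F)),
      ∑ I ∈ J, idealWt F s I ≤ ∏ v ∈ T, (1 - idealWt F s v.asIdeal)⁻¹ := by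
  classical
  obtain ⟨T, hT⟩ := exists_finset_primes J h0
  refine ⟨T, ?_⟩
  obtain ⟨N, hN⟩ : ∃ N : ℕ, ∀ I ∈ J, ∀ v : ↥T, multVec T I v < N := by
    refine ⟨1 + ∑ I ∈ J, ∑ v : ↥T, multVec T I v, fun I hI v ↦ ?_⟩
    have h1 : multVec T I v ≤ ∑ v : ↥T, multVec T I v :=
      Finset.single_le_sum (fun _ _ ↦ Nat.zero_le _) (Finset.mem_univ v)
    have h2 : ∑ v : ↥T, multVec T I v ≤ ∑ I ∈ J, ∑ v : ↥T, multVec T I v :=
      Finset.single_le_sum (f := fun I ↦ ∑ v : ↥T, multVec T I v) (fun _ _ ↦ Nat.zero_le _) hI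
    omega
  have hm : ∀ I ∈ J, prodPow T (multVec T I) = I :=
    fun I hI ↦ prodPow_multiplicity (h0 I hI) T (hT I hI)
  have hmem : ∀ I ∈ J, multVec T I ∈ Fintype.piFinset (fun _ : ↥T ↦ Finset.range N) := by
    intro I hI
    rw [Fintype.mem_piFinset]
    intro v
    rw [Finset.mem_range]
    exact hN I hI v
  have hinj : Set.InjOn (multVec T) J := by
    intro I hI I' hI' h
    rw [← hm I hI, ← hm I' hI', h]
  calc ∑ I ∈ J, idealWt F s I = ∑ I ∈ J, idealWt F s (prodPow T (multVec T I)) :=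
        Finset.sum_congr rfl fun I hI ↦ by rw [hm I hI]
    _ = ∑ e ∈ J.image (multVec T), idealWt F s (prodPow T e) :=
        (Finset.sum_image (f := fun e ↦ idealWt F s (prodPow T e)) hinj).symm
    _ ≤ ∑ e ∈ Fintype.piFinset (fun _ : ↥T ↦ Finset.range N), idealWt F s (prodPow T e) :=
        Finset.sum_le_sum_of_subset_of_nonneg (fun e he ↦ by
          obtain ⟨I, hI, rfl⟩ := Finset.mem_image.mp he; exact hmem I hI)
          (fun _ _ _ ↦ idealWt_nonneg F s _)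
    _ = ∏ v ∈ T, ∑ k ∈ Finset.range N, idealWt F s v.asIdeal ^ k := sum_piFinset_eq s T N
    _ ≤ ∏ v ∈ T, (1 - idealWt F s v.asIdeal)⁻¹ :=
        Finset.prod_le_prod (fun v _ ↦ Finset.sum_nonneg fun _ _ ↦
          pow_nonneg (idealWt_nonneg F s _) _)
          (fun v _ ↦ geom_sum_le_inv (idealWt_nonneg F s _) (idealWt_prime_lt_one hs v) N)

variable (F)

lemma sq_idealWt_le {s : ℝ} (hs : 1 ≤ s) (v : HeightOneSpectrum (𝓞 F)) :
    idealWt F s v.asIdeal ^ 2 ≤ idealWt F 2 v.asIdeal := by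
  unfold idealWt
  have h2 : (1 : ℝ) ≤ (absNorm v.asIdeal : ℝ) := by
    have := two_le_absNorm F v
    exact_mod_cast (by omega : 1 ≤ absNorm v.asIdeal)
  have h0 : (0 : ℝ) ≤ (absNorm v.asIdeal : ℝ) := by linarith
  rw [← Real.rpow_natCast, ← Real.rpow_mul h0]
  exact Real.rpow_le_rpow_of_exponent_le h2 (by push_cast; linarith)

theorem zetaR_le_exp {s : ℝ} (hs : 1 < s) :
    zetaR F s ≤ Real.exp (primeZeta F s + 2 * primeZeta F 2) := by
  classical
  refine Real.tsum_le_of_sum_le (fun _ ↦ idealWt_nonneg F s _) fun J ↦ ?_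
  have hJ : ∑ I ∈ J, idealWt F s I = ∑ I ∈ J.erase ⊥, idealWt F s I :=
    (Finset.sum_erase _ (idealWt_bot F (by linarith))).symm
  rw [hJ]
  obtain ⟨T, hT⟩ := sum_idealWt_le_prod hs.le (J.erase ⊥) (fun I hI ↦ Finset.ne_of_mem_erase hI)
  refine hT.trans ?_
  calc ∏ v ∈ T, (1 - idealWt F s v.asIdeal)⁻¹
      ≤ ∏ v ∈ T, Real.exp (idealWt F s v.asIdeal + 2 * idealWt F s v.asIdeal ^ 2) :=
        Finset.prod_le_prod (fun v _ ↦ (inv_pos.mpr (by
          linarith [idealWt_prime_lt_one hs.le v])).le)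
          (fun v _ ↦ inv_one_sub_le_exp (idealWt_nonneg F s _) (idealWt_prime_le_half F hs.le v))
    _ = Real.exp (∑ v ∈ T, (idealWt F s v.asIdeal + 2 * idealWt F s v.asIdeal ^ 2)) :=
        (Real.exp_sum _ _).symm
    _ ≤ Real.exp (primeZeta F s + 2 * primeZeta F 2) := Real.exp_le_exp.mpr ?_
  rw [Finset.sum_add_distrib, ← Finset.mul_sum]
  have hA : ∑ v ∈ T, idealWt F s v.asIdeal ≤ primeZeta F s :=
    (summable_primeWt F hs).sum_le_tsum T (fun _ _ ↦ idealWt_nonneg F s _)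
  have hB : ∑ v ∈ T, idealWt F s v.asIdeal ^ 2 ≤ primeZeta F 2 :=
    calc ∑ v ∈ T, idealWt F s v.asIdeal ^ 2 ≤ ∑ v ∈ T, idealWt F 2 v.asIdeal :=
          Finset.sum_le_sum fun v _ ↦ sq_idealWt_le F hs.le v
      _ ≤ primeZeta F 2 :=
          (summable_primeWt F (by norm_num)).sum_le_tsum T (fun _ _ ↦ idealWt_nonneg F 2 _)
  linarith

theorem log_zetaR_le {s : ℝ} (hs : 1 < s) :
    Real.log (zetaR F s) ≤ primeZeta F s + 2 * primeZeta F 2 :=
  calc Real.log (zetaR F s) ≤ Real.log (Real.exp (primeZeta F s + 2 * primeZeta F 2)) :=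
        Real.log_le_log (zetaR_pos F hs) (zetaR_le_exp F hs)
    _ = _ := Real.log_exp _

end

end Fermat.Agent.CFT
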